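import Mathlib
import Fermat.Prelude.Def_ExtCitation_AdmissibleExtension_v2

/-!
# S14, package (III): the glue

`ExtVanishingCts p` is reduced to a purely Galois-theoretic statement `Core p` about open normal
subgroups of `Gal(ℚ̄/ℚ)`:

there is no open normal subgroup `H` of `G_ℚ`, contained in `G_K` (`K = ℚ(ζ_p)`, i.e. the kernel of
the mod `p` cyclotomic character) with index `p`, such that
* every inertia group at `ℓ ≠ p` is contained in `H` (the fixed field `L` of `H` is unramified over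
  `K` outside `p`),
* every decomposition group at `p`, intersected with `G_K`, is contained in `H` (the primes over `p`
  split completely in `L / K`),
* `G_ℚ` acts on `G_K / H` through the inverse of the cyclotomic character.
-/

set_option autoImplicit false

namespace Fermat.Agent.S14.Glue

open ExtCitation ValuationSubring

/-- `ℚ̄` -/
abbrev Qb : Type := AlgebraicClosure ℚ

/-- `G_ℚ` -/
abbrev GQ : Type := Qb ≃ₐ[ℚ] Qb

section Chi

variable (p : ℕ) [Fact p.Prime]

/-- the mod `p` cyclotomic character of `G_ℚ`, with values in `(ZMod p)ˣ` -/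
noncomputable def chiU : GQ →* (ZMod p)ˣ :=
  haveI : NeZero p := ⟨(Fact.out : p.Prime).ne_zero⟩
  { toFun := fun σ => modularCyclotomicCharacter Qb (card_rootsOfUnity_eq_self p)
      (σ : Qb ≃+* Qb)
    map_one' := map_one _
    map_mul' := fun σ τ => map_mul (modularCyclotomicCharacter Qb (card_rootsOfUnity_eq_self p))
      (σ : Qb ≃+* Qb) (τ : Qb ≃+* Qb) }

/-- the mod `p` cyclotomic character with values in `ZMod p` -/
noncomputable def chi (σ : GQ) : ZMod p := (chiU p σ : ZMod p)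

theorem cycloExp_cast (σ : GQ) : ((cycloExp p σ : ℕ) : ZMod p) = chi p σ := by
  have : NeZero p := ⟨(Fact.out : p.Prime).ne_zero⟩
  unfold cycloExp chi chiU
  exact ZMod.natCast_zmod_val _

@[simp] theorem chi_one : chi p 1 = 1 := by simp [chi]

theorem chi_mul (σ τ : GQ) : chi p (σ * τ) = chi p σ * chi p τ := by simp [chi]

theorem chi_ne_zero (σ : GQ) : chi p σ ≠ 0 := (chiU p σ).ne_zero

theorem chi_inv (σ : GQ) : chi p σ⁻¹ = (chi p σ)⁻¹ := by
  have h : chi p σ⁻¹ * chi p σ = 1 := by rw [← chi_mul]; simp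
  exact eq_inv_of_mul_eq_one_left h

/-- `G_K`, `K = ℚ(ζ_p)`: the kernel of the mod `p` cyclotomic character. -/
noncomputable def GK : Subgroup GQ := (chiU p).ker

theorem mem_GK {σ : GQ} : σ ∈ GK p ↔ chi p σ = 1 := by
  rw [GK, MonoidHom.mem_ker, chi]
  exact ⟨fun h => by rw [h]; rfl, fun h => Units.ext h⟩

instance : (GK p).Normal := by unfold GK; infer_instance

/-- **The Galois-theoretic core of S14**: there is no everywhere unramified (completely split over
`p`) cyclic extension of degree `p` of `ℚ(ζ_p)`, Galois over `ℚ`, on which `Gal(ℚ(ζ_p)/ℚ)` acts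
through the inverse of the cyclotomic character. -/
def Core : Prop :=
  ∀ H : Subgroup GQ, H.Normal → IsOpen (H : Set GQ) → H ≤ GK p →
    (H.subgroupOf (GK p)).index = p →
    (∀ ℓ : ℕ, ℓ.Prime → ℓ ≠ p → ∀ A : ValuationSubring Qb, A.LiesOverPrime ℓ →
      A.inertiaSubgroupIn ℚ ≤ H) →
    (∀ A : ValuationSubring Qb, A.LiesOverPrime p → A.decompositionSubgroup ℚ ⊓ GK p ≤ H) →
    (∀ (σ : GQ) (τ : GQ), τ ∈ GK p → ∀ k : ℕ, (k : ZMod p) * chi p σ = 1 →
      σ * τ * σ⁻¹ * (τ ^ k)⁻¹ ∈ H) →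
    False

end Chi

section Module

variable {p : ℕ} [Fact p.Prime]
variable {V : Type} [AddCommGroup V] [Module (ZMod p) V]
  [DistribMulAction GQ V] [SMulCommClass GQ (ZMod p) V]
variable {C : Submodule (ZMod p) V}

/-- the kernel of the action on `V` -/
def kerV (V : Type) [AddCommGroup V] [DistribMulAction GQ V] : Subgroup GQ where
  carrier := {σ | ∀ v : V, σ • v = v}
  one_mem' := fun v => one_smul _ v
  mul_mem' := fun {σ τ} hσ hτ v => by rw [mul_smul, hτ v, hσ v]
  inv_mem' := fun {σ} hσ v => by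
    have := congrArg (fun w => σ⁻¹ • w) (hσ v)
    simpa using this.symm

theorem mem_kerV {σ : GQ} : σ ∈ kerV V ↔ ∀ v : V, σ • v = v := Iff.rfl

instance : (kerV V).Normal where
  conj_mem := fun σ hσ τ v => by
    rw [mul_smul, mul_smul, hσ (τ⁻¹ • v), smul_inv_smul]

variable (hadm : IsAdmissibleExtension p V C)
include hadm

theorem cyclo_quot' (σ : GQ) (x : V) : σ • x - chi p σ • x ∈ C := by
  have := hadm.cyclo_quot σ x
  rwa [cycloExp_cast] at this

theorem exists_not_mem : ∃ x : V, x ∉ C := by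
  by_contra h
  push Not at h
  have htop : C = ⊤ := by
    rw [_root_.eq_top_iff]; intro x _; exact h x
  have h1 : Nat.card C = Nat.card V := by
    rw [htop]
    exact Nat.card_congr (Equiv.Set.univ V)
  rw [hadm.card_sub, hadm.card_total] at h1
  have hp := (Fact.out : p.Prime)
  have : p * 1 = p * p := by rw [mul_one, ← sq]; exact h1
  have := Nat.eq_of_mul_eq_mul_left hp.pos this
  exact hp.one_lt.ne this

theorem kerV_le_GK : kerV V ≤ GK p := by
  intro σ hσ
  rw [mem_GK]
  obtain ⟨x, hx⟩ := exists_not_mem hadm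
  by_contra hne
  have h1 := cyclo_quot' hadm σ x
  rw [hσ x] at h1
  have h2 : (1 - chi p σ) • x ∈ C := by rwa [sub_smul, one_smul]
  have hu : (1 - chi p σ) ≠ 0 := sub_ne_zero.mpr (Ne.symm hne)
  have h3 : (1 - chi p σ)⁻¹ • ((1 - chi p σ) • x) ∈ C := C.smul_mem _ h2
  rw [smul_smul, inv_mul_cancel₀ hu, one_smul] at h3
  exact hx h3

/-- for `τ ∈ G_K` the difference `τ x - x` lies in `C` -/
theorem smul_sub_mem {τ : GQ} (hτ : τ ∈ GK p) (x : V) : τ • x - x ∈ C := by
  have := cyclo_quot' hadm τ x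
  rwa [(mem_GK p).mp hτ, one_smul] at this


/-- `V` is spanned by `C` and any vector outside `C` -/
theorem exists_decomp {x₀ : V} (hx₀ : x₀ ∉ C) (v : V) :
    ∃ (a : ZMod p) (c : V), c ∈ C ∧ v = a • x₀ + c := by
  classical
  have hp := (Fact.out : p.Prime)
  haveI : NeZero p := ⟨hp.ne_zero⟩
  haveI : Finite V := Nat.finite_of_card_ne_zero
    (by rw [hadm.card_total]; exact pow_ne_zero 2 hp.ne_zero)
  haveI : Fintype V := Fintype.ofFinite V
  haveI : Finite C := inferInstance
  haveI : Fintype C := Fintype.ofFinite C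
  let f : ZMod p × C → V := fun ac => ac.1 • x₀ + (ac.2 : V)
  have hinj : Function.Injective f := by
    rintro ⟨a, c⟩ ⟨a', c'⟩ h
    simp only [f] at h
    have h1 : (a - a') • x₀ = (c' : V) - (c : V) := by
      rw [sub_smul]
      have := congrArg (fun w => w - a' • x₀ - (c : V)) h
      beta_reduce at this
      rw [show a • x₀ + (c : V) - a' • x₀ - (c : V) = a • x₀ - a' • x₀ by abel,
        show a' • x₀ + (c' : V) - a' • x₀ - (c : V) = (c' : V) - (c : V) by abel] at this
      exact this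
    have haa : a = a' := by
      by_contra hne
      have hu : a - a' ≠ 0 := sub_ne_zero.mpr hne
      have h2 : (a - a') • x₀ ∈ C := by rw [h1]; exact C.sub_mem c'.2 c.2
      have h3 : (a - a')⁻¹ • ((a - a') • x₀) ∈ C := C.smul_mem _ h2
      rw [smul_smul, inv_mul_cancel₀ hu, one_smul] at h3
      exact hx₀ h3
    subst haa
    rw [sub_self, zero_smul] at h1
    have : (c : V) = (c' : V) := (sub_eq_zero.mp h1.symm).symm
    rw [Prod.mk.injEq]
    exact ⟨rfl, Subtype.ext this⟩
  have hcard : Fintype.card (ZMod p × C) = Fintype.card V := by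
    rw [Fintype.card_prod, ZMod.card, ← Nat.card_eq_fintype_card (α := C),
      ← Nat.card_eq_fintype_card (α := V), hadm.card_sub, hadm.card_total, sq]
  have hbij : Function.Bijective f :=
    (Fintype.bijective_iff_injective_and_card f).mpr ⟨hinj, hcard⟩
  obtain ⟨⟨a, c⟩, hac⟩ := hbij.2 v
  exact ⟨a, c, c.2, hac.symm⟩

/-- an element of `G_K` fixing one vector outside `C` acts trivially -/
theorem mem_kerV_of_fix {x₀ : V} (hx₀ : x₀ ∉ C) {τ : GQ} (hτ : τ • x₀ = x₀) : τ ∈ kerV V := by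
  intro v
  obtain ⟨a, c, hc, rfl⟩ := exists_decomp hadm hx₀ v
  rw [smul_add, smul_comm, hτ, hadm.fixed_sub τ c hc]

/-- the cocycle `τ ↦ τ x₀ - x₀` on `G_K` -/
noncomputable def delta (x₀ : V) : GK p →* Multiplicative C where
  toFun := fun τ => Multiplicative.ofAdd ⟨(τ : GQ) • x₀ - x₀, smul_sub_mem hadm τ.2 x₀⟩
  map_one' := by
    apply Multiplicative.toAdd.injective
    apply Subtype.ext
    simp
  map_mul' := fun τ τ' => by
    apply Multiplicative.toAdd.injective
    apply Subtype.ext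
    show ((τ * τ' : GK p) : GQ) • x₀ - x₀ = ((τ : GQ) • x₀ - x₀) + ((τ' : GQ) • x₀ - x₀)
    have h1 : ((τ * τ' : GK p) : GQ) • x₀ = (τ : GQ) • ((τ' : GQ) • x₀) := by
      rw [Subgroup.coe_mul, mul_smul]
    have h2 : (τ : GQ) • ((τ' : GQ) • x₀ - x₀) = (τ' : GQ) • x₀ - x₀ :=
      hadm.fixed_sub τ _ (smul_sub_mem hadm τ'.2 x₀)
    rw [smul_sub] at h2
    rw [h1]
    have h3 : (τ : GQ) • ((τ' : GQ) • x₀) = (τ' : GQ) • x₀ - x₀ + (τ : GQ) • x₀ := by
      rw [← h2]; abel
    rw [h3]; abel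

theorem delta_apply (x₀ : V) (τ : GK p) :
    ((Multiplicative.toAdd (delta hadm x₀ τ) : C) : V) = (τ : GQ) • x₀ - x₀ := rfl

theorem ker_delta {x₀ : V} (hx₀ : x₀ ∉ C) :
    (delta hadm x₀).ker = (kerV V).subgroupOf (GK p) := by
  ext τ
  rw [MonoidHom.mem_ker, Subgroup.mem_subgroupOf]
  constructor
  · intro h
    apply mem_kerV_of_fix hadm hx₀
    have h1 : ((Multiplicative.toAdd (delta hadm x₀ τ) : C) : V) = 0 := by rw [h]; rfl
    rw [delta_apply] at h1
    exact sub_eq_zero.mp h1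
  · intro h
    apply Multiplicative.toAdd.injective
    apply Subtype.ext
    rw [delta_apply, h x₀, sub_self]
    rfl

/-- the index of the kernel of the action in `G_K` is `1` or `p` -/
theorem index_kerV : GK p ≤ kerV V ∨ ((kerV V).subgroupOf (GK p)).index = p := by
  have hp := (Fact.out : p.Prime)
  obtain ⟨x₀, hx₀⟩ := exists_not_mem hadm
  rw [← ker_delta hadm hx₀, Subgroup.index_ker]
  have hcardC : Nat.card (Multiplicative C) = p :=
    (Nat.card_congr Multiplicative.toAdd).trans hadm.card_sub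
  have hdvd : Nat.card (delta hadm x₀).range ∣ p := by
    have h := Subgroup.card_subgroup_dvd_card (delta hadm x₀).range
    exact h.trans (dvd_of_eq hcardC)
  rcases (Nat.dvd_prime hp).mp hdvd with h1 | h1
  · left
    intro τ hτ
    have hbot : (delta hadm x₀).range = ⊥ := Subgroup.card_eq_one.mp h1
    have : delta hadm x₀ ⟨τ, hτ⟩ ∈ (delta hadm x₀).range := ⟨_, rfl⟩
    rw [hbot, Subgroup.mem_bot, ← MonoidHom.mem_ker, ker_delta hadm hx₀,
      Subgroup.mem_subgroupOf] at this
    exact this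
  · right
    exact h1


/-! ### the split case -/

/-- if `G_K` acts trivially, any two elements of `G_ℚ` commute on `V` -/
theorem smul_comm_of_le (hle : GK p ≤ kerV V) (σ σ' : GQ) (v : V) :
    σ • σ' • v = σ' • σ • v := by
  have hmem : σ⁻¹ * σ'⁻¹ * σ * σ' ∈ GK p := by
    rw [mem_GK, chi_mul, chi_mul, chi_mul, chi_inv, chi_inv]
    have h1 := chi_ne_zero p σ
    have h2 := chi_ne_zero p σ'
    field_simp
  have h := hle hmem v
  rw [mul_smul, mul_smul, mul_smul] at h
  have h2 := congrArg (fun w => σ' • σ • w) h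
  simpa using h2

/-- the eigenspace complement -/
def eigenCompl (σ₀ : GQ) : Submodule (ZMod p) V where
  carrier := {x | σ₀ • x = chi p σ₀ • x}
  add_mem' := fun {x y} hx hy => by
    show σ₀ • (x + y) = chi p σ₀ • (x + y)
    rw [smul_add, smul_add, hx, hy]
  zero_mem' := by
    show σ₀ • (0 : V) = chi p σ₀ • (0 : V)
    rw [smul_zero, smul_zero]
  smul_mem' := fun a x hx => by
    show σ₀ • (a • x) = chi p σ₀ • (a • x)
    rw [smul_comm σ₀ a x, hx, smul_comm]

omit hadm in
theorem mem_eigenCompl {σ₀ : GQ} {x : V} :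
    x ∈ eigenCompl (p := p) σ₀ ↔ σ₀ • x = chi p σ₀ • x := Iff.rfl

theorem isCompl_eigenCompl {σ₀ : GQ} (hσ₀ : chi p σ₀ ≠ 1) :
    IsCompl C (eigenCompl (p := p) (V := V) σ₀) := by
  have hu : (1 - chi p σ₀) ≠ 0 := sub_ne_zero.mpr (Ne.symm hσ₀)
  constructor
  · rw [Submodule.disjoint_def]
    intro x hxC hxE
    rw [mem_eigenCompl, hadm.fixed_sub σ₀ x hxC] at hxE
    have h1 : (1 - chi p σ₀) • x = 0 := by
      rw [sub_smul, one_smul, ← hxE, sub_self]
    rcases smul_eq_zero.mp h1 with h | h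
    · exact absurd h hu
    · exact h
  · rw [codisjoint_iff, _root_.eq_top_iff]
    intro v _
    set w : V := σ₀ • v - chi p σ₀ • v with hw
    have hwC : w ∈ C := cyclo_quot' hadm σ₀ v
    set y : V := (1 - chi p σ₀)⁻¹ • w with hy
    have hyC : y ∈ C := C.smul_mem _ hwC
    have hy' : (1 - chi p σ₀) • y = w := by
      rw [hy, smul_smul, mul_inv_cancel₀ hu, one_smul]
    have hE : v - y ∈ eigenCompl (p := p) (V := V) σ₀ := by
      rw [mem_eigenCompl, smul_sub, smul_sub, hadm.fixed_sub σ₀ y hyC]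
      have : σ₀ • v = w + chi p σ₀ • v := by rw [hw]; abel
      rw [this, ← hy', sub_smul, one_smul]
      abel
    have : v = y + (v - y) := by abel
    rw [this]
    exact Submodule.add_mem_sup hyC hE

theorem splitsGlobally_of_le (hle : GK p ≤ kerV V) : SplitsGlobally C := by
  by_cases h : ∃ σ₀ : GQ, chi p σ₀ ≠ 1
  · obtain ⟨σ₀, hσ₀⟩ := h
    refine ⟨eigenCompl (p := p) σ₀, fun σ x hx => ?_, isCompl_eigenCompl hadm hσ₀⟩
    rw [mem_eigenCompl] at hx ⊢
    rw [smul_comm_of_le hadm hle σ₀ σ x, hx, smul_comm]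
  · push Not at h
    obtain ⟨C', hC'⟩ := Submodule.exists_isCompl C
    refine ⟨C', fun σ x hx => ?_, hC'⟩
    have : σ ∈ kerV V := hle ((mem_GK p).mpr (h σ))
    rw [this x]
    exact hx

/-! ### the non-split case: the hypotheses of `Core` -/

theorem inertia_le_kerV {ℓ : ℕ} (hℓ : ℓ.Prime) (hℓp : ℓ ≠ p) (A : ValuationSubring Qb)
    (hA : A.LiesOverPrime ℓ) : A.inertiaSubgroupIn ℚ ≤ kerV V :=
  fun σ hσ v => hadm.unramified_outside ℓ hℓ hℓp A hA σ hσ v

theorem decomposition_inf_le_kerV (A : ValuationSubring Qb) (hA : A.LiesOverPrime p) :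
    A.decompositionSubgroup ℚ ⊓ GK p ≤ kerV V := by
  rintro τ ⟨hτD, hτK⟩ v
  obtain ⟨C', hstab, hcompl⟩ := hadm.locally_split A hA
  have hv : v ∈ C ⊔ C' := by rw [hcompl.sup_eq_top]; trivial
  obtain ⟨c, hc, c', hc', rfl⟩ := Submodule.mem_sup.mp hv
  rw [smul_add, hadm.fixed_sub τ c hc]
  congr 1
  have h1 : τ • c' - c' ∈ C := smul_sub_mem hadm hτK c'
  have h2 : τ • c' - c' ∈ C' := C'.sub_mem (hstab τ hτD c' hc') hc'
  have h3 : τ • c' - c' = 0 := by
    have := (Submodule.disjoint_def.mp hcompl.disjoint) _ h1 h2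
    exact this
  exact sub_eq_zero.mp h3

/-- `τ^k v = v + k (τ v - v)` for `τ ∈ G_K` -/
theorem pow_smul_eq {τ : GQ} (hτ : τ ∈ GK p) (k : ℕ) (v : V) :
    τ ^ k • v = v + (k : ZMod p) • (τ • v - v) := by
  induction k with
  | zero => simp
  | succ k ih =>
    rw [pow_succ', mul_smul, ih, smul_add, smul_comm τ,
      hadm.fixed_sub τ _ (smul_sub_mem hadm hτ v)]
    push_cast
    rw [add_smul, one_smul]
    abel

theorem conj_mem_kerV (σ τ : GQ) (hτ : τ ∈ GK p) (k : ℕ) (hk : (k : ZMod p) * chi p σ = 1) :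
    σ * τ * σ⁻¹ * (τ ^ k)⁻¹ ∈ kerV V := by
  have key : ∀ v : V, (σ * τ * σ⁻¹) • v = τ ^ k • v := by
    intro v
    rw [pow_smul_eq hadm hτ k v, mul_smul, mul_smul]
    -- `σ⁻¹ v = χ(σ)⁻¹ v + c₁`
    set c₁ : V := σ⁻¹ • v - chi p σ⁻¹ • v with hc₁
    have hc₁C : c₁ ∈ C := cyclo_quot' hadm σ⁻¹ v
    have hkinv : chi p σ⁻¹ = (k : ZMod p) := by
      rw [chi_inv]
      exact inv_eq_of_mul_eq_one_left hk
    have h1 : σ⁻¹ • v = (k : ZMod p) • v + c₁ := by rw [hc₁, hkinv]; abel
    have h2 : τ • (σ⁻¹ • v) = σ⁻¹ • v + (k : ZMod p) • (τ • v - v) := by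
      rw [h1, smul_add, smul_comm τ, hadm.fixed_sub τ c₁ hc₁C, smul_sub]
      abel
    rw [h2, smul_add, smul_inv_smul,
      hadm.fixed_sub σ _ (C.smul_mem _ (smul_sub_mem hadm hτ v))]
  intro v
  have := key ((τ ^ k)⁻¹ • v)
  rw [smul_inv_smul] at this
  rw [mul_smul, this]

end Module

/-- **S14, package (III)**: the glue. -/
theorem extVanishingCts_of_core (p : ℕ) [Fact p.Prime] (hcore : Core p) : ExtVanishingCts p := by
  intro V _ _ _ _ C hadmC
  have hadm : IsAdmissibleExtension p V C := hadmC.toIsAdmissibleExtension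
  rcases index_kerV hadm with hle | hidx
  · exact splitsGlobally_of_le hadm hle
  · exfalso
    refine hcore (kerV V) inferInstance hadmC.open_kernel (kerV_le_GK hadm) hidx
      (fun ℓ hℓ hℓp A hA => inertia_le_kerV hadm hℓ hℓp A hA)
      (fun A hA => decomposition_inf_le_kerV hadm A hA)
      (fun σ τ hτ k hk => conj_mem_kerV hadm σ τ hτ k hk)

end Fermat.Agent.S14.Glue
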