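import Mathlib
import Fermat.Prelude.Def_FLTPrelim_Ramification
import Fermat.Agent.S13.InertiaLift
import Fermat.Agent.S13.ValSubringZbar

/-!
# S14 glue: lifting decomposition-group elements to the absolute Galois group

`A` a valuation subring of `ℚ̄` over the prime `q`, `U ≤ G_ℚ` a closed normal subgroup and `τ ∈ G_ℚ`
preserving the prime below `A` in the fixed field of `U`.  Then some `u * τ`, `u ∈ U`, lies in the
decomposition subgroup of `A`.
-/

set_option autoImplicit false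

namespace Fermat.Agent.S14.SplitLift

open scoped Pointwise
open ValuationSubring Fermat.Agent.S13.Minkowski Fermat.Agent.S13.ValInt

/-- an automorphism preserving the centre of `A` stabilises `A` -/
theorem smul_eq_of_smul_centre_eq (A : ValuationSubring Qb) {q : ℕ} (hq : q.Prime)
    (hqA : A.LiesOverPrime q) (σ : GQ) (hσ : σ • centre A = centre A) : σ • A = A := by
  have key : ∀ ρ : GQ, ρ • centre A = centre A → ∀ x ∈ A, ρ x ∈ A := by
    intro ρ hρ x hx
    obtain ⟨b, s, hs, h⟩ :=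
      (Fermat.Agent.S13.ValSubringZbar.mem_iff_exists_frac hq hqA).mp hx
    refine (Fermat.Agent.S13.ValSubringZbar.mem_iff_exists_frac hq hqA).mpr
      ⟨ρ • b, ρ • s, ?_, ?_⟩
    · intro hmem
      apply hs
      have h1 : (ρ • s : Zb) ∈ centre A := by
        rw [mem_centre]
        exact (A.mem_nonunits_iff).mp hmem
      rw [← hρ, mem_smul_ideal_iff, inv_smul_smul, mem_centre] at h1
      exact (A.mem_nonunits_iff).mpr h1
    · show ρ x * ρ (s : Qb) = ρ (b : Qb)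
      rw [← map_mul, h]
  have hσ' : σ⁻¹ • centre A = centre A := by
    conv_lhs => rw [← hσ]
    rw [inv_smul_smul]
  ext x
  rw [ValuationSubring.mem_pointwise_smul_iff_inv_smul_mem]
  constructor
  · intro hx
    have := key σ hσ _ hx
    have e : σ (σ⁻¹ • x) = x := by
      show σ (σ⁻¹ x) = x
      show (σ * σ⁻¹) x = x
      rw [mul_inv_cancel]; rfl
    rwa [e] at this
  · intro hx
    exact key σ⁻¹ hσ' x hx

/-- **Lifting lemma for decomposition groups.** -/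
theorem exists_mul_mem_decomposition (A : ValuationSubring Qb) {q : ℕ} (hq : q.Prime)
    (hqA : (q : Qb) ∈ A.nonunits) (U : Subgroup GQ) [hUn : U.Normal]
    (hU : IsClosed (U : Set GQ)) (τ : GQ)
    (hτ : ∀ x : Qb, IsIntegral ℤ x → (∀ u ∈ U, u x = x) →
      (A.valuation (τ x) < 1 ↔ A.valuation x < 1)) :
    ∃ u ∈ U, u * τ ∈ A.decompositionSubgroup ℚ := by
  have : CompactSpace ↥U := isCompact_iff_compactSpace.mp hU.isCompact
  set 𝔔 : Ideal Zb := centre A with h𝔔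
  have h1 : (τ • 𝔔).under (FixedPoints.subring Zb ↥U) = 𝔔.under (FixedPoints.subring Zb ↥U) := by
    ext x
    rw [Ideal.under_def, Ideal.under_def, Ideal.mem_comap, Ideal.mem_comap,
      mem_smul_ideal_iff]
    have hx : ∀ u ∈ U, u ((x : Zb) : Qb) = ((x : Zb) : Qb) := fun u hu =>
      congrArg Subtype.val (x.2 ⟨u, hu⟩)
    show A.valuation (τ⁻¹ ((x : Zb) : Qb)) < 1 ↔ A.valuation ((x : Zb) : Qb) < 1
    have hy : ∀ u ∈ U, u (τ⁻¹ ((x : Zb) : Qb)) = τ⁻¹ ((x : Zb) : Qb) :=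
      fixed_apply_of_normal U τ⁻¹ hx
    have h2 := hτ (τ⁻¹ ((x : Zb) : Qb)) (map_isIntegral_int τ⁻¹ (x : Zb).2) hy
    have h3 : τ (τ⁻¹ ((x : Zb) : Qb)) = ((x : Zb) : Qb) := by
      show (τ * τ⁻¹) _ = _
      rw [mul_inv_cancel]
      rfl
    rw [h3] at h2
    exact h2.symm
  obtain ⟨u₁, hu₁⟩ := Algebra.IsInvariant.exists_smul_of_under_eq_of_profinite
    (A := FixedPoints.subring Zb ↥U) (G := ↥U) (τ • 𝔔) 𝔔 h1
  set σ₁ : GQ := (u₁ : GQ) * τ with hσ₁
  have hσ₁𝔔 : σ₁ • 𝔔 = 𝔔 := by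
    ext x
    rw [mem_smul_ideal_iff]
    have h2 : x ∈ 𝔔 ↔ u₁⁻¹ • x ∈ τ • 𝔔 := by
      conv_lhs => rw [hu₁]
      exact Ideal.mem_pointwise_smul_iff_inv_smul_mem
    rw [h2, mem_smul_ideal_iff]
    have h3 : σ₁⁻¹ • x = τ⁻¹ • (u₁⁻¹ • x) := by
      rw [hσ₁, mul_inv_rev, mul_smul]
      rfl
    rw [h3]
  refine ⟨u₁, u₁.2, ?_⟩
  show σ₁ ∈ MulAction.stabilizer GQ A
  rw [MulAction.mem_stabilizer_iff]
  exact smul_eq_of_smul_centre_eq A hq hqA σ₁ hσ₁𝔔

end Fermat.Agent.S14.SplitLift
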