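import Mathlib
import Fermat.Agent.S14.Glue
import Fermat.Agent.S13.Minkowski
import Fermat.Agent.S14.SplitLift

/-!
# S14, package (III), part 2: from open subgroups of `G_ℚ` to number fields
-/

set_option autoImplicit false

namespace Fermat.Agent.S14.GlueNF

open scoped NumberField
open ExtCitation ValuationSubring Fermat.Agent.S14.Glue

/-- **The number-field core of S14.** There is no cyclic extension `L / K` of degree `p` of
`K = ℚ(ζ_p)`, Galois over `ℚ`, unramified at every finite prime and completely split at the primes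
over `p`, on which `Gal(K/ℚ)` acts through the inverse of the cyclotomic character. -/
def CoreNF (p : ℕ) [Fact p.Prime] : Prop :=
  ∀ (K L : Type) [Field K] [Field L] [NumberField K] [NumberField L] [Algebra K L]
    [IsCyclotomicExtension {p} ℚ K] [IsGalois K L] [IsGalois ℚ L],
    Module.finrank K L = p →
    (∀ P : Ideal (𝓞 L), P.IsPrime → P ≠ ⊥ → ∀ τ : L ≃ₐ[K] L,
      (∀ x : 𝓞 L, ∃ y ∈ P, τ (x : L) - (x : L) = (y : L)) → τ = 1) →
    (∀ P : Ideal (𝓞 L), P.IsPrime → (p : 𝓞 L) ∈ P → ∀ τ : L ≃ₐ[K] L,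
      (∀ x : 𝓞 L, x ∈ P → ∃ y ∈ P, τ (x : L) = (y : L)) → τ = 1) →
    (∀ (σ : L ≃ₐ[ℚ] L) (τ : L ≃ₐ[K] L) (ζ : L) (k : ℕ), IsPrimitiveRoot ζ p → σ (ζ ^ k) = ζ →
      σ * τ.restrictScalars ℚ * σ⁻¹ = (τ ^ k).restrictScalars ℚ) →
    False

/-! ### the cyclotomic character and roots of unity -/

section Cyclo

variable (p : ℕ) [Fact p.Prime]

theorem exists_primitiveRoot : ∃ ζ : Qb, IsPrimitiveRoot ζ p := by
  haveI : NeZero p := ⟨(Fact.out : p.Prime).ne_zero⟩
  haveI : NeZero (p : Qb) := ⟨Nat.cast_ne_zero.mpr (NeZero.ne p)⟩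
  exact HasEnoughRootsOfUnity.exists_primitiveRoot Qb p

variable {p}

/-- the defining property of `chi` -/
theorem apply_eq_pow_chi {ζ : Qb} (hζ : IsPrimitiveRoot ζ p) (σ : GQ) :
    σ ζ = ζ ^ (chi p σ).val := by
  haveI : NeZero p := ⟨(Fact.out : p.Prime).ne_zero⟩
  have hu : IsUnit ζ := hζ.isUnit (NeZero.ne p)
  have hmem : hu.unit ∈ rootsOfUnity p Qb := by
    rw [mem_rootsOfUnity]
    ext
    simp [hζ.pow_eq_one]
  have := modularCyclotomicCharacter.spec Qb (card_rootsOfUnity_eq_self p) (σ : Qb ≃+* Qb) hmem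
  simpa [chi, chiU] using this

theorem mem_GK_iff_fix {ζ : Qb} (hζ : IsPrimitiveRoot ζ p) (σ : GQ) :
    σ ∈ GK p ↔ σ ζ = ζ := by
  haveI : NeZero p := ⟨(Fact.out : p.Prime).ne_zero⟩
  have hp := (Fact.out : p.Prime)
  rw [mem_GK]
  constructor
  · intro h
    rw [apply_eq_pow_chi hζ σ, h, ZMod.val_one, pow_one]
  · intro h
    have h1 := apply_eq_pow_chi hζ σ
    rw [h] at h1
    have h2 : ζ ^ 1 = ζ ^ (chi p σ).val := by rw [pow_one]; exact h1
    have h3 := hζ.pow_inj hp.one_lt (ZMod.val_lt _) h2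
    have : (chi p σ) = ((chi p σ).val : ZMod p) := (ZMod.natCast_zmod_val _).symm
    rw [this, ← h3, Nat.cast_one]

end Cyclo

/-! ### Galois correspondence bookkeeping -/

section Corr

open IntermediateField

variable {k Ω : Type*} [Field k] [Field Ω] [Algebra k Ω] [IsGalois k Ω]

/-- for a finite Galois subextension `E` of a Galois extension `Ω/k`: `[E : k] = [G : G_E]`. -/
theorem finrank_eq_index (E : IntermediateField k Ω) [FiniteDimensional k E] [IsGalois k E] :
    Module.finrank k E = E.fixingSubgroup.index := by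
  rw [← IsGalois.card_aut_eq_finrank, ← E.restrictNormalHom_ker, Subgroup.index_ker]
  have hsurj : Function.Surjective (AlgEquiv.restrictNormalHom (F := k) (K₁ := Ω) E) :=
    AlgEquiv.restrictNormalHom_surjective Ω
  rw [MonoidHom.range_eq_top.mpr hsurj]
  exact (Nat.card_congr (Equiv.Set.univ _)).symm

end Corr

/-! ### instance-robust form of `CoreNF` -/

/-- `CoreNF` applied with arbitrary `ℚ`-algebra instances. -/
theorem CoreNF.apply' {p : ℕ} [Fact p.Prime] (h : CoreNF p)
    (K L : Type) [Field K] [Field L] [CharZero K] [CharZero L]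
    [aK : Algebra ℚ K] [aL : Algebra ℚ L] [FiniteDimensional ℚ K] [FiniteDimensional ℚ L]
    [Algebra K L] [IsScalarTower ℚ K L]
    [IsCyclotomicExtension {p} ℚ K] [IsGalois K L] [IsGalois ℚ L]
    (hdeg : Module.finrank K L = p)
    (hunr : ∀ P : Ideal (𝓞 L), P.IsPrime → P ≠ ⊥ → ∀ τ : L ≃ₐ[K] L,
      (∀ x : 𝓞 L, ∃ y ∈ P, τ (x : L) - (x : L) = (y : L)) → τ = 1)
    (hspl : ∀ P : Ideal (𝓞 L), P.IsPrime → (p : 𝓞 L) ∈ P → ∀ τ : L ≃ₐ[K] L,
      (∀ x : 𝓞 L, x ∈ P → ∃ y ∈ P, τ (x : L) = (y : L)) → τ = 1)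
    (hact : ∀ (σ : L ≃ₐ[ℚ] L) (τ : L ≃ₐ[K] L) (ζ : L) (k : ℕ), IsPrimitiveRoot ζ p →
      σ (ζ ^ k) = ζ → σ * τ.restrictScalars ℚ * σ⁻¹ = (τ ^ k).restrictScalars ℚ) :
    False := by
  obtain rfl : aK = DivisionRing.toRatAlgebra := Subsingleton.elim _ _
  obtain rfl : aL = DivisionRing.toRatAlgebra := Subsingleton.elim _ _
  haveI : NumberField K := ⟨⟩
  haveI : NumberField L := ⟨⟩
  exact h K L hdeg hunr hspl hact

/-! ### the cyclotomic field inside `ℚ̄` -/

section Kfield

open IntermediateField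

variable {p : ℕ} [Fact p.Prime]

/-- `G_K` is the fixing subgroup of `ℚ(ζ)`. -/
theorem fixingSubgroup_adjoin {ζ : Qb} (hζ : IsPrimitiveRoot ζ p) :
    (IntermediateField.adjoin ℚ {ζ}).fixingSubgroup = GK p := by
  ext σ
  rw [mem_GK_iff_fix hζ, IntermediateField.mem_fixingSubgroup_iff]
  constructor
  · intro h
    exact h ζ (IntermediateField.mem_adjoin_simple_self ℚ ζ)
  · intro h x hx
    have hle : IntermediateField.adjoin ℚ {ζ} ≤
        IntermediateField.fixedField (Subgroup.zpowers σ) := by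
      rw [IntermediateField.adjoin_simple_le_iff, IntermediateField.mem_fixedField_iff]
      intro τ hτ
      obtain ⟨n, rfl⟩ := Subgroup.mem_zpowers_iff.mp hτ
      have hfix : σ • ζ = ζ := h
      exact (MulAction.mem_stabilizer_iff.mp
        (Subgroup.zpow_mem (MulAction.stabilizer GQ ζ) (MulAction.mem_stabilizer_iff.mpr hfix) n))
    have := (IntermediateField.mem_fixedField_iff _ x).mp (hle hx) σ
      (Subgroup.mem_zpowers σ)
    exact this

end Kfield

/-! ### the main translation -/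

section Main

open IntermediateField

variable {p : ℕ} [Fact p.Prime]

/-- a prime number in a nonzero prime ideal of `𝓞 E` -/
theorem exists_prime_mem {E : Type*} [Field E] [CharZero E] (P : Ideal (𝓞 E)) [hP : P.IsPrime]
    (hP0 : P ≠ ⊥) : ∃ q : ℕ, q.Prime ∧ (q : 𝓞 E) ∈ P := by
  have h1 : P.comap (algebraMap ℤ (𝓞 E)) ≠ ⊥ := by
    obtain ⟨x, hxP, hx0⟩ := Submodule.exists_mem_ne_zero_of_ne_bot hP0
    exact Ideal.comap_ne_bot_of_integral_mem hx0 hxP (Algebra.IsIntegral.isIntegral x)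
  have h2 : (P.comap (algebraMap ℤ (𝓞 E))).IsPrime := Ideal.comap_isPrime _ _
  obtain ⟨n, hn⟩ : ∃ n : ℤ, P.comap (algebraMap ℤ (𝓞 E)) = Ideal.span {n} :=
    ⟨_, (Submodule.IsPrincipal.span_singleton_generator _).symm⟩
  have hn0 : n ≠ 0 := by
    rintro rfl
    apply h1
    rw [hn]
    simp
  have hnprime : Prime n := by
    rw [← Ideal.span_singleton_prime hn0, ← hn]
    exact h2
  refine ⟨n.natAbs, Int.prime_iff_natAbs_prime.mp hnprime, ?_⟩
  have h3 : (n.natAbs : ℤ) ∈ P.comap (algebraMap ℤ (𝓞 E)) := by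
    rw [hn, Ideal.mem_span_singleton]
    exact Int.dvd_natAbs.mpr dvd_rfl
  rw [Ideal.mem_comap] at h3
  simpa using h3

/-- a valuation subring of `ℚ̄` whose maximal ideal contains a given proper ideal of `𝓞 E` -/
theorem exists_valuationSubring_over_ideal (E : IntermediateField ℚ Qb) (P : Ideal (𝓞 E))
    (hP : P ≠ ⊤) :
    ∃ A : ValuationSubring Qb, ∀ y ∈ P, A.valuation (((y : E) : Qb)) < 1 := by
  let f : 𝓞 E →+* Qb := (algebraMap E Qb).comp (algebraMap (𝓞 E) E)
  have hf : Function.Injective f :=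
    (algebraMap E Qb).injective.comp NumberField.RingOfIntegers.coe_injective
  let R : Subring Qb := f.range
  let e : 𝓞 E ≃+* R := RingEquiv.ofBijective f.rangeRestrict
    ⟨fun a b hab => hf (congrArg (fun z : R => (z : Qb)) hab), f.rangeRestrict_surjective⟩
  let I : Ideal R := P.comap (e.symm : R →+* 𝓞 E)
  have hI : I ≠ ⊤ := by
    intro htop
    apply hP
    rw [Ideal.eq_top_iff_one] at htop ⊢
    have : (e.symm : R →+* 𝓞 E) 1 ∈ P := htop
    simpa using this
  obtain ⟨A, -, hA⟩ := Ideal.image_subset_nonunits_valuationSubring I hI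
  refine ⟨A, fun y hy => ?_⟩
  have h1 : e y ∈ I := by
    show (e.symm : R →+* 𝓞 E) (e y) ∈ P
    simpa using hy
  have h2 : ((e y : R) : Qb) ∈ A.nonunits := hA ⟨e y, h1, rfl⟩
  exact (A.mem_nonunits_iff).mp h2

/-- lifting an automorphism of a Galois subextension to `G_ℚ` -/
theorem exists_lift (E : IntermediateField ℚ Qb) [Normal ℚ E] (τ₀ : E ≃ₐ[ℚ] E) :
    ∃ τ : GQ, AlgEquiv.restrictNormalHom E τ = τ₀ ∧ ∀ x : E, τ (x : Qb) = ((τ₀ x : E) : Qb) := by
  obtain ⟨τ, hτ⟩ := AlgEquiv.restrictNormalHom_surjective (F := ℚ) (K₁ := E) Qb τ₀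
  refine ⟨τ, hτ, fun x => ?_⟩
  rw [← hτ]
  exact (AlgEquiv.restrictNormal_commutes τ E x).symm

/-- **S14, package (III), part 2.** -/
theorem core_of_coreNF (p : ℕ) [Fact p.Prime] (h : CoreNF p) : Core p := by
  intro H hHn hHopen hHK hidx hunr hsplit hact
  haveI := hHn
  have hp := (Fact.out : p.Prime)
  haveI : NeZero p := ⟨hp.ne_zero⟩
  obtain ⟨ζ, hζ⟩ := exists_primitiveRoot p
  have hHclosed : IsClosed (H : Set GQ) := Subgroup.isClosed_of_isOpen H hHopen
  -- the two fields
  let K' : IntermediateField ℚ Qb := IntermediateField.adjoin ℚ {ζ}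
  let L' : IntermediateField ℚ Qb := IntermediateField.fixedField H
  have hfixK : K'.fixingSubgroup = GK p := fixingSubgroup_adjoin hζ
  have hfixL : L'.fixingSubgroup = H :=
    InfiniteGalois.fixingSubgroup_fixedField ⟨H, hHclosed⟩
  haveI hLfin : FiniteDimensional ℚ L' :=
    (InfiniteGalois.isOpen_iff_finite L').mp (by rw [hfixL]; exact hHopen)
  haveI hLgal : IsGalois ℚ L' :=
    (InfiniteGalois.normal_iff_isGalois L').mp (by rw [hfixL]; exact hHn)
  haveI hKcyc : IsCyclotomicExtension {p} ℚ K' :=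
    hζ.intermediateField_adjoin_isCyclotomicExtension ℚ
  have hGKopen : IsOpen (GK p : Set GQ) := Subgroup.isOpen_mono hHK hHopen
  haveI hKfin : FiniteDimensional ℚ K' :=
    (InfiniteGalois.isOpen_iff_finite K').mp (by rw [hfixK]; exact hGKopen)
  haveI hKgal : IsGalois ℚ K' :=
    (InfiniteGalois.normal_iff_isGalois K').mp (by rw [hfixK]; infer_instance)
  have hKL : K' ≤ L' := by
    rw [← InfiniteGalois.fixedField_fixingSubgroup K', hfixK]
    intro x hx
    rw [IntermediateField.mem_fixedField_iff] at hx ⊢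
    exact fun σ hσ => hx σ (hHK hσ)
  letI algKL : Algebra K' L' := (IntermediateField.inclusion hKL).toRingHom.toAlgebra
  haveI : IsScalarTower ℚ K' L' := IsScalarTower.of_algebraMap_eq (fun x => rfl)
  have hcoe : ∀ x : K', ((algebraMap K' L' x : L') : Qb) = (x : Qb) := fun x => rfl
  haveI : IsGalois K' L' := IsGalois.tower_top_of_isGalois ℚ K' L'
  -- the degree
  have hdeg : Module.finrank K' L' = p := by
    have h1 := @finrank_eq_index ℚ Qb _ _ _ _ K' hKfin hKgal
    have h2 := finrank_eq_index L'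
    rw [hfixK] at h1
    rw [hfixL] at h2
    have h3 : Module.finrank ℚ K' * Module.finrank K' L' = Module.finrank ℚ L' :=
      Module.finrank_mul_finrank ℚ K' L'
    have h4 : H.relIndex (GK p) * (GK p).index = H.index := Subgroup.relIndex_mul_index hHK
    have h5 : H.relIndex (GK p) = p := hidx
    rw [h1, h2, ← h4, h5] at h3
    have hpos : 0 < (GK p).index := by
      rw [← h1]; exact Module.finrank_pos
    rw [mul_comm p] at h3
    exact Nat.eq_of_mul_eq_mul_left hpos h3
  -- lifting `K'`-automorphisms of `L'` to `G_K`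
  have hliftK : ∀ τ₀ : L' ≃ₐ[K'] L', ∃ τ : GQ, τ ∈ GK p ∧
      AlgEquiv.restrictNormalHom L' τ = τ₀.restrictScalars ℚ ∧
      ∀ x : L', τ (x : Qb) = ((τ₀ x : L') : Qb) := by
    intro τ₀
    obtain ⟨τ, hτ1, hτ2⟩ := exists_lift L' (τ₀.restrictScalars ℚ)
    refine ⟨τ, ?_, hτ1, hτ2⟩
    rw [← hfixK, IntermediateField.mem_fixingSubgroup_iff]
    intro x hx
    have h1 := hτ2 (algebraMap K' L' ⟨x, hx⟩)
    have h2 : (τ₀.restrictScalars ℚ) (algebraMap K' L' ⟨x, hx⟩) = algebraMap K' L' ⟨x, hx⟩ :=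
      τ₀.commutes ⟨x, hx⟩
    rw [h2] at h1
    exact h1
  have hker : ∀ τ : GQ, τ ∈ H ↔ AlgEquiv.restrictNormalHom L' τ = 1 := by
    intro τ
    have hk := IntermediateField.restrictNormalHom_ker L'
    constructor
    · intro hτ
      have h1 : τ ∈ L'.fixingSubgroup := by rw [hfixL]; exact hτ
      rw [← hk] at h1
      exact MonoidHom.mem_ker.mp h1
    · intro hτ
      have h1 : τ ∈ L'.fixingSubgroup := by
        rw [← hk]
        exact MonoidHom.mem_ker.mpr hτ
      rw [hfixL] at h1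
      exact h1
  -- inertia at every prime, intersected with `G_K`, lies in `H`
  have hinert : ∀ (q : ℕ), q.Prime → ∀ A : ValuationSubring Qb, A.LiesOverPrime q →
      A.inertiaSubgroupIn ℚ ⊓ GK p ≤ H := by
    intro q hq A hA
    by_cases hqp : q = p
    · subst hqp
      intro σ hσ
      refine hsplit A hA ⟨?_, hσ.2⟩
      obtain ⟨s, -, rfl⟩ := hσ.1
      exact s.2
    · intro σ hσ
      exact hunr q hq hqp A hA hσ.1
  refine CoreNF.apply' h K' L' hdeg ?_ ?_ ?_
  · -- unramified
    intro P hP hP0 τ₀ hτ₀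
    haveI := hP
    obtain ⟨q, hq, hqP⟩ := exists_prime_mem P hP0
    obtain ⟨A, hA⟩ := exists_valuationSubring_over_ideal L' P hP.ne_top
    have hqA : (q : Qb) ∈ A.nonunits := by
      rw [A.mem_nonunits_iff]
      have := hA _ hqP
      simpa using this
    obtain ⟨τ, hτK, hτres, hτ⟩ := hliftK τ₀
    obtain ⟨u, huH, huτ⟩ := Fermat.Agent.S13.Minkowski.exists_mul_mem_inertia A hq hqA H
      hHclosed τ (by
        intro x hxint hxfix
        have hxL : x ∈ L' := by
          rw [IntermediateField.mem_fixedField_iff]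
          exact fun σ hσ => hxfix σ hσ
        have hxLint : IsIntegral ℤ (⟨x, hxL⟩ : L') := by
          rw [← isIntegral_algebraMap_iff (FaithfulSMul.algebraMap_injective L' Qb)]
          exact hxint
        obtain ⟨y, hy, hxy⟩ := hτ₀ ⟨⟨x, hxL⟩, hxLint⟩
        have h1 := hτ ⟨x, hxL⟩
        have h2 : τ x - x = ((y : L') : Qb) := by
          rw [← hxy]
          show τ x - x = ((τ₀ (⟨x, hxL⟩ : L') : L') : Qb) - x
          rw [← h1]
        rw [h2]
        exact hA y hy)
    have h1 : u * τ ∈ H := hinert q hq A hqA ⟨huτ, (GK p).mul_mem (hHK huH) hτK⟩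
    have h2 : τ ∈ H := by
      have := H.mul_mem (H.inv_mem huH) h1
      simpa using this
    have h3 := (hker τ).mp h2
    rw [hτres] at h3
    ext x
    have := congrArg (fun f : L' ≃ₐ[ℚ] L' => f x) h3
    exact congrArg Subtype.val this
  · -- completely split over `p`
    intro P hP hpP τ₀ hτ₀
    haveI := hP
    haveI : NumberField L' := ⟨⟩
    have hP0 : P ≠ ⊥ := by
      intro hbot
      rw [hbot, Ideal.mem_bot] at hpP
      have h0 : (p : L') = 0 := by
        have := congrArg (algebraMap (𝓞 L') L') hpP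
        simpa using this
      exact hp.ne_zero (by exact_mod_cast h0)
    have hPmax : P.IsMaximal := hP.isMaximal hP0
    obtain ⟨A, hA⟩ := exists_valuationSubring_over_ideal L' P hP.ne_top
    have hpA : (p : Qb) ∈ A.nonunits := by
      rw [A.mem_nonunits_iff]
      have := hA _ hpP
      simpa using this
    -- membership in `P` is detected by the valuation
    have hval : ∀ y : 𝓞 L', A.valuation (((y : L') : Qb)) < 1 ↔ y ∈ P := by
      intro y
      refine ⟨fun hy => ?_, hA y⟩
      have hle : P ≤ Fermat.Agent.S13.Minkowski.primeBelow A L' := fun z hz => hA z hz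
      have hprime := Fermat.Agent.S13.Minkowski.primeBelow_isPrime A L'
      have heq : P = Fermat.Agent.S13.Minkowski.primeBelow A L' :=
        hPmax.eq_of_le hprime.ne_top hle
      rw [heq]
      exact hy
    -- `τ₀` has order dividing `p`
    haveI : FiniteDimensional K' L' := FiniteDimensional.right ℚ K' L'
    have hcard : Nat.card (L' ≃ₐ[K'] L') = p := by
      rw [IsGalois.card_aut_eq_finrank, hdeg]
    have hpow : τ₀ ^ p = 1 := by
      rw [← hcard]; exact pow_card_eq_one'
    have hiter : ∀ n : ℕ, ∀ x : 𝓞 L', x ∈ P → ∃ y ∈ P, (τ₀ ^ n) (x : L') = (y : L') := by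
      intro n
      induction n with
      | zero => intro x hx; exact ⟨x, hx, rfl⟩
      | succ n ih =>
        intro x hx
        obtain ⟨y, hy, hxy⟩ := ih x hx
        obtain ⟨z, hz, hyz⟩ := hτ₀ y hy
        refine ⟨z, hz, ?_⟩
        rw [pow_succ', AlgEquiv.mul_apply, hxy, hyz]
    obtain ⟨τ, hτK, hτres, hτ⟩ := hliftK τ₀
    obtain ⟨u, huH, huτ⟩ := Fermat.Agent.S14.SplitLift.exists_mul_mem_decomposition A hp hpA H
      hHclosed τ (by
        intro x hxint hxfix
        have hxL : x ∈ L' := by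
          rw [IntermediateField.mem_fixedField_iff]
          exact fun σ hσ => hxfix σ hσ
        have hxLint : IsIntegral ℤ (⟨x, hxL⟩ : L') := by
          rw [← isIntegral_algebraMap_iff (FaithfulSMul.algebraMap_injective L' Qb)]
          exact hxint
        set x' : 𝓞 L' := ⟨⟨x, hxL⟩, hxLint⟩ with hx'
        have hzint : IsIntegral ℤ (τ₀ (⟨x, hxL⟩ : L')) := map_isIntegral_int τ₀ hxLint
        set z' : 𝓞 L' := ⟨τ₀ (⟨x, hxL⟩ : L'), hzint⟩ with hz'
        have h1 : τ x = (((z' : 𝓞 L') : L') : Qb) := hτ ⟨x, hxL⟩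
        have h2 : x = (((x' : 𝓞 L') : L') : Qb) := rfl
        rw [h1]
        conv_rhs => rw [h2]
        rw [hval z', hval x']
        constructor
        · intro hz
          obtain ⟨y, hy, hzy⟩ := hiter (p - 1) z' hz
          have h3 : (τ₀ ^ (p - 1)) ((z' : 𝓞 L') : L') = ((x' : 𝓞 L') : L') := by
            show (τ₀ ^ (p - 1)) (τ₀ (⟨x, hxL⟩ : L')) = (⟨x, hxL⟩ : L')
            rw [← AlgEquiv.mul_apply, ← pow_succ, Nat.sub_add_cancel hp.one_le, hpow]
            rfl
          rw [h3] at hzy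
          have : x' = y := NumberField.RingOfIntegers.coe_injective hzy
          rw [this]; exact hy
        · intro hx
          obtain ⟨y, hy, hxy⟩ := hτ₀ x' hx
          have : z' = y := NumberField.RingOfIntegers.coe_injective hxy
          rw [this]; exact hy)
    have h1 : u * τ ∈ H := hsplit A hpA ⟨huτ, (GK p).mul_mem (hHK huH) hτK⟩
    have h2 : τ ∈ H := by
      have := H.mul_mem (H.inv_mem huH) h1
      simpa using this
    have h3 := (hker τ).mp h2
    rw [hτres] at h3
    ext x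
    have := congrArg (fun f : L' ≃ₐ[ℚ] L' => f x) h3
    exact congrArg Subtype.val this
  · -- the action
    intro σ₀ τ₀ ζ₀ k hζ₀ hk
    obtain ⟨σ, hσres, hσ⟩ := exists_lift L' σ₀
    obtain ⟨τ, hτK, hτres, hτ⟩ := hliftK τ₀
    have hζ₀' : IsPrimitiveRoot ((ζ₀ : L') : Qb) p :=
      hζ₀.map_of_injective (algebraMap L' Qb).injective
    have hkchi : (k : ZMod p) * chi p σ = 1 := by
      have h1 : σ (((ζ₀ : L') : Qb) ^ k) = ((ζ₀ : L') : Qb) := by
        have h0 := hσ (ζ₀ ^ k)
        rw [hk] at h0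
        have e : ((ζ₀ ^ k : L') : Qb) = ((ζ₀ : L') : Qb) ^ k := rfl
        rw [← e, h0]
      rw [map_pow, apply_eq_pow_chi hζ₀' σ, ← pow_mul] at h1
      have h2 : ((ζ₀ : L') : Qb) ^ ((chi p σ).val * k) = ((ζ₀ : L') : Qb) ^ 1 := by
        rw [h1, pow_one]
      have h3 := (hζ₀'.isOfFinOrder hp.ne_zero).pow_eq_pow_iff_modEq.mp h2
      rw [← hζ₀'.eq_orderOf] at h3
      have h4 := (ZMod.natCast_eq_natCast_iff _ _ _).mpr h3
      push_cast at h4
      rw [ZMod.natCast_zmod_val] at h4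
      rw [mul_comm]
      exact h4
    have hmem := hact σ τ hτK k hkchi
    have h1 := (hker _).mp hmem
    rw [map_mul, map_mul, map_mul, map_inv, map_inv, map_pow, hσres, hτres] at h1
    have h2 : σ₀ * τ₀.restrictScalars ℚ * σ₀⁻¹ = (τ₀.restrictScalars ℚ) ^ k :=
      mul_inv_eq_one.mp h1
    rw [h2]
    ext x
    simp [AlgEquiv.restrictScalars_apply]

end Main

end Fermat.Agent.S14.GlueNF
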