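import Mathlib
import Fermat.Agent.S14.GlueNF

/-!
# S14 glue, part 3: `CoreNF` with the ramification hypotheses in Mathlib's standard form
-/

set_option autoImplicit false

namespace Fermat.Agent.S14.CoreStd

open scoped NumberField Pointwise
open Fermat.Agent.S14.GlueNF

/-- **The number-field core of S14, standard form.** There is no cyclic extension `L / K` of degree
`p` of `K = ℚ(ζ_p)`, Galois over `ℚ`, with `e = 1` at every nonzero prime, `e = f = 1` at every
prime over `p`, on which `Gal(K/ℚ)` acts through the inverse of the cyclotomic character. -/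
def CoreStd (p : ℕ) [Fact p.Prime] : Prop :=
  ∀ (K L : Type) [Field K] [Field L] [NumberField K] [NumberField L] [Algebra K L]
    [IsCyclotomicExtension {p} ℚ K] [IsGalois K L] [IsGalois ℚ L],
    Module.finrank K L = p →
    (∀ P : Ideal (𝓞 L), P.IsPrime → P ≠ ⊥ → P.ramificationIdx (𝓞 K) = 1) →
    (∀ P : Ideal (𝓞 L), P.IsPrime → (p : 𝓞 L) ∈ P →
      P.ramificationIdx (𝓞 K) = 1 ∧ P.inertiaDeg (𝓞 K) = 1) →
    (∀ (σ : L ≃ₐ[ℚ] L) (τ : L ≃ₐ[K] L) (ζ : L) (k : ℕ), IsPrimitiveRoot ζ p → σ (ζ ^ k) = ζ →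
      σ * τ.restrictScalars ℚ * σ⁻¹ = (τ ^ k).restrictScalars ℚ) →
    False

section Ram

variable (K L : Type) [Field K] [Field L] [NumberField K] [NumberField L] [Algebra K L]
  [IsGalois K L]

theorem isGaloisGroup_ringOfIntegers : IsGaloisGroup Gal(L/K) (𝓞 K) (𝓞 L) :=
  IsGaloisGroup.of_isFractionRing Gal(L/K) (𝓞 K) (𝓞 L) K L

variable {K L}

omit [NumberField K] [NumberField L] [IsGalois K L] in
theorem coe_smul_ringOfIntegers (τ : Gal(L/K)) (x : 𝓞 L) : ((τ • x : 𝓞 L) : L) = τ (x : L) := rfl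

/-- trivial inertia group gives `e = 1` -/
theorem ramificationIdx_eq_one_of_inertia (P : Ideal (𝓞 L)) [P.IsPrime]
    (h : ∀ τ : L ≃ₐ[K] L, (∀ x : 𝓞 L, ∃ y ∈ P, τ (x : L) - (x : L) = (y : L)) → τ = 1) :
    P.ramificationIdx (𝓞 K) = 1 := by
  haveI := isGaloisGroup_ringOfIntegers K L
  have hbot : Ideal.inertia Gal(L/K) P = ⊥ := by
    rw [_root_.eq_bot_iff]
    intro τ hτ
    rw [Subgroup.mem_bot]
    apply h τ
    intro x
    exact ⟨τ • x - x, hτ x, rfl⟩
  have h1 := Ideal.card_inertia_eq_ramificationIdxIn (G := Gal(L/K)) (P.under (𝓞 K)) P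
  rw [hbot, Ideal.ramificationIdxIn_eq_ramificationIdx (P.under (𝓞 K)) P Gal(L/K)] at h1
  rw [← h1]
  exact Nat.card_unique

/-- trivial decomposition group gives `e = f = 1` -/
theorem ramificationIdx_inertiaDeg_eq_one_of_stabilizer (P : Ideal (𝓞 L)) [P.IsPrime]
    (h : ∀ τ : L ≃ₐ[K] L, (∀ x : 𝓞 L, x ∈ P → ∃ y ∈ P, τ (x : L) = (y : L)) → τ = 1) :
    P.ramificationIdx (𝓞 K) = 1 ∧ P.inertiaDeg (𝓞 K) = 1 := by
  haveI := isGaloisGroup_ringOfIntegers K L
  have hbot : MulAction.stabilizer Gal(L/K) P = ⊥ := by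
    rw [_root_.eq_bot_iff]
    intro τ hτ
    rw [Subgroup.mem_bot]
    rw [MulAction.mem_stabilizer_iff] at hτ
    apply h τ
    intro x hx
    refine ⟨τ • x, ?_, rfl⟩
    rw [← hτ]
    exact Ideal.smul_mem_pointwise_smul τ x P hx
  have h1 := Ideal.card_stabilizer_eq_card_inertia_mul_finrank (G := Gal(L/K)) (P.under (𝓞 K)) P
  have h2 := Ideal.card_inertia_eq_ramificationIdxIn (G := Gal(L/K)) (P.under (𝓞 K)) P
  rw [Ideal.ramificationIdxIn_eq_ramificationIdx (P.under (𝓞 K)) P Gal(L/K)] at h2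
  rw [hbot, h2] at h1
  have h3 : Nat.card (⊥ : Subgroup Gal(L/K)) = 1 := Nat.card_unique
  rw [h3] at h1
  exact ⟨Nat.eq_one_of_mul_eq_one_right h1.symm, Nat.eq_one_of_mul_eq_one_left h1.symm⟩

end Ram

theorem coreNF_of_coreStd (p : ℕ) [Fact p.Prime] (h : CoreStd p) : CoreNF p := by
  intro K L _ _ _ _ _ _ _ _ hdeg hunr hspl hact
  refine h K L hdeg ?_ ?_ hact
  · intro P hP hP0
    haveI := hP
    exact ramificationIdx_eq_one_of_inertia P (hunr P hP hP0)
  · intro P hP hpP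
    haveI := hP
    exact ramificationIdx_inertiaDeg_eq_one_of_stabilizer P (hspl P hP hpP)

end Fermat.Agent.S14.CoreStd
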