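import Fermat.Agent.S14.LClass

/-!
# S14 (D): the Euler factors at the primes of non-prime norm are uniformly bounded

For a number field `K` of degree `d`, a prime `Q` of `𝓞 K` whose absolute norm is not a prime
number has norm `ℓ ^ f` with `f ≥ 2`, and there are at most `d` primes over each rational prime
`ℓ`.  Hence `∏_{Q ∈ T} (1 - N(Q)^{-s})⁻¹ ≤ exp (2 d ∑ n⁻²)` for all `s ≥ 1` and all finite sets `T`
of such primes.
-/

set_option autoImplicit false
set_option linter.deprecated false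
set_option linter.style.haveILetI false
set_option linter.unusedSectionVars false

open NumberField IsDedekindDomain nonZeroDivisors
open Fermat.Agent.S14.EulerIdeal Fermat.Agent.S14.ZetaIdeal

namespace Fermat.Agent.S14.DegTwo

variable (K : Type*) [Field K] [NumberField K]

/-- The rational prime under a height-one prime of `𝓞 K`. -/
noncomputable def ratPrime (Q : HeightOneSpectrum (𝓞 K)) : ℕ :=
  Ideal.absNorm (Ideal.under ℤ Q.asIdeal)

theorem ratPrime_prime (Q : HeightOneSpectrum (𝓞 K)) : (ratPrime K Q).Prime := by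
  haveI : NeZero Q.asIdeal := ⟨Q.ne_bot⟩
  haveI : Q.asIdeal.IsPrime := Q.isPrime
  exact Nat.absNorm_under_prime Q.asIdeal

theorem exists_absNorm_eq_pow (Q : HeightOneSpectrum (𝓞 K)) :
    ∃ f : ℕ, Ideal.absNorm Q.asIdeal = ratPrime K Q ^ f := by
  haveI : Q.asIdeal.LiesOver (Ideal.span {((ratPrime K Q : ℕ) : ℤ)}) :=
    Int.liesOver_span_absNorm Q.asIdeal
  exact ⟨_, Ideal.absNorm_eq_pow_inertiaDeg' Q.asIdeal (ratPrime_prime K Q)⟩

theorem sq_le_absNorm (Q : HeightOneSpectrum (𝓞 K)) (hQ : ¬ (Ideal.absNorm Q.asIdeal).Prime) :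
    ratPrime K Q ^ 2 ≤ Ideal.absNorm Q.asIdeal := by
  obtain ⟨f, hf⟩ := exists_absNorm_eq_pow K Q
  have hℓ := ratPrime_prime K Q
  rw [hf]
  apply Nat.pow_le_pow_right hℓ.pos
  by_contra hlt
  rw [not_le] at hlt
  interval_cases f
  · rw [pow_zero, Ideal.absNorm_eq_one_iff] at hf
    exact Q.isPrime.ne_top hf
  · rw [pow_one] at hf
    exact hQ (hf ▸ hℓ)

theorem card_fiber_le (T : Finset (HeightOneSpectrum (𝓞 K))) (ℓ : ℕ) :
    (T.filter (fun Q => ratPrime K Q = ℓ)).card ≤ Module.finrank ℚ K := by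
  classical
  by_cases hℓ : ℓ.Prime
  swap
  · have : T.filter (fun Q => ratPrime K Q = ℓ) = ∅ := by
      rw [Finset.filter_eq_empty_iff]
      intro Q _ h
      exact hℓ (h ▸ ratPrime_prime K Q)
    rw [this]
    simp
  have hp0 : Ideal.span {(ℓ : ℤ)} ≠ ⊥ := by
    simp [hℓ.ne_zero]
  haveI : Fact ℓ.Prime := ⟨hℓ⟩
  haveI : (Ideal.span {(ℓ : ℤ)}).IsMaximal := Int.ideal_span_isMaximal_of_prime ℓ
  have hinj : Set.InjOn (fun Q : HeightOneSpectrum (𝓞 K) => Q.asIdeal)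
      (T.filter (fun Q => ratPrime K Q = ℓ) : Set (HeightOneSpectrum (𝓞 K))) :=
    fun _ _ _ _ h => HeightOneSpectrum.ext h
  calc (T.filter (fun Q => ratPrime K Q = ℓ)).card
      = ((T.filter (fun Q => ratPrime K Q = ℓ)).image
          (fun Q : HeightOneSpectrum (𝓞 K) => Q.asIdeal)).card :=
        (Finset.card_image_of_injOn hinj).symm
    _ ≤ (IsDedekindDomain.primesOverFinset (Ideal.span {(ℓ : ℤ)}) (𝓞 K)).card := by
        apply Finset.card_le_card
        intro P hP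
        rw [Finset.mem_image] at hP
        obtain ⟨Q, hQ, rfl⟩ := hP
        rw [Finset.mem_filter] at hQ
        rw [IsDedekindDomain.mem_primesOverFinset_iff hp0]
        refine ⟨Q.isPrime, ?_⟩
        have h := Int.liesOver_span_absNorm Q.asIdeal
        have h2 : Ideal.absNorm (Ideal.under ℤ Q.asIdeal) = ℓ := hQ.2
        rw [h2] at h
        exact h
    _ ≤ Module.finrank ℚ K := Ideal.card_primesOverFinset_le_finrank (𝓞 K) ℚ K hp0

/-- Grouping a sum by a map with fibres of size `≤ d`. -/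
theorem sum_comp_le_mul_tsum {α : Type*} (T : Finset α) (g : α → ℕ) (d : ℕ)
    (hd : ∀ n, (T.filter (fun a => g a = n)).card ≤ d) (h : ℕ → ℝ) (h0 : ∀ n, 0 ≤ h n)
    (hs : Summable h) : ∑ a ∈ T, h (g a) ≤ d * ∑' n, h n := by
  classical
  rw [Finset.sum_comp h g]
  calc ∑ b ∈ T.image g, (T.filter (fun a => g a = b)).card • h b
      ≤ ∑ b ∈ T.image g, (d : ℝ) * h b := by
        apply Finset.sum_le_sum
        intro b _
        rw [nsmul_eq_mul]
        exact mul_le_mul_of_nonneg_right (by exact_mod_cast hd b) (h0 b)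
    _ = d * ∑ b ∈ T.image g, h b := by rw [Finset.mul_sum]
    _ ≤ d * ∑' n, h n :=
        mul_le_mul_of_nonneg_left (hs.sum_le_tsum _ (fun n _ => h0 n)) (Nat.cast_nonneg d)

theorem inv_one_sub_le_exp {x : ℝ} (h0 : 0 ≤ x) (h1 : x ≤ 1 / 2) :
    (1 - x)⁻¹ ≤ Real.exp (2 * x) := by
  have hpos : 0 < 1 - x := by linarith
  calc (1 - x)⁻¹ ≤ 1 + 2 * x := by
        rw [inv_le_iff_one_le_mul₀ hpos]
        nlinarith
    _ ≤ Real.exp (2 * x) := by
        have := Real.add_one_le_exp (2 * x)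
        linarith

theorem normPow_primeNZ_le {s : ℝ} (hs : 1 ≤ s) (Q : HeightOneSpectrum (𝓞 K))
    (hQ : ¬ (Ideal.absNorm Q.asIdeal).Prime) :
    normPow K s (primeNZ Q) ≤ 1 / ((ratPrime K Q : ℕ) : ℝ) ^ 2 := by
  rw [normPow_apply]
  have hN : nrm K (primeNZ Q) = Ideal.absNorm Q.asIdeal := rfl
  rw [hN]
  have hsq := sq_le_absNorm K Q hQ
  have hℓ := (ratPrime_prime K Q).pos
  have hNpos : (0 : ℝ) < (Ideal.absNorm Q.asIdeal : ℝ) := by
    have : 0 < Ideal.absNorm Q.asIdeal := lt_of_lt_of_le (pow_pos hℓ 2) hsq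
    exact_mod_cast this
  have h1 : (1 : ℝ) ≤ (Ideal.absNorm Q.asIdeal : ℝ) := by
    have : 1 ≤ Ideal.absNorm Q.asIdeal := le_trans (Nat.one_le_pow _ _ hℓ) hsq
    exact_mod_cast this
  calc (Ideal.absNorm Q.asIdeal : ℝ) ^ (-s) ≤ (Ideal.absNorm Q.asIdeal : ℝ) ^ (-1 : ℝ) :=
        Real.rpow_le_rpow_of_exponent_le h1 (by linarith)
    _ = 1 / (Ideal.absNorm Q.asIdeal : ℝ) := by rw [Real.rpow_neg_one, one_div]
    _ ≤ 1 / ((ratPrime K Q : ℕ) : ℝ) ^ 2 := by
        apply one_div_le_one_div_of_le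
        · have : (0 : ℝ) < ((ratPrime K Q : ℕ) : ℝ) := by exact_mod_cast hℓ
          positivity
        · exact_mod_cast hsq

/-- **(D) DegTwo.** The Euler factors at the primes of non-prime norm are uniformly bounded. -/
theorem prod_nonprime_norm_le (K : Type*) [Field K] [NumberField K] :
    ∃ C : ℝ, ∀ s : ℝ, 1 ≤ s → ∀ T : Finset (HeightOneSpectrum (𝓞 K)),
      (∀ Q ∈ T, ¬ (Ideal.absNorm Q.asIdeal).Prime) →
      ∏ Q ∈ T, (1 - normPow K s (primeNZ Q))⁻¹ ≤ C := by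
  have hsum : Summable (fun n : ℕ => 1 / (n : ℝ) ^ 2) :=
    Real.summable_one_div_nat_pow.mpr (by norm_num)
  refine ⟨Real.exp (2 * ((Module.finrank ℚ K : ℕ) * ∑' n : ℕ, 1 / (n : ℝ) ^ 2)), ?_⟩
  intro s hs T hT
  have hx0 : ∀ Q : HeightOneSpectrum (𝓞 K), 0 ≤ normPow K s (primeNZ Q) :=
    fun Q => (normPow_pos K s _).le
  have hxle : ∀ Q ∈ T, normPow K s (primeNZ Q) ≤ 1 / ((ratPrime K Q : ℕ) : ℝ) ^ 2 :=
    fun Q hQ => normPow_primeNZ_le K hs Q (hT Q hQ)
  have hxhalf : ∀ Q ∈ T, normPow K s (primeNZ Q) ≤ 1 / 2 := by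
    intro Q hQ
    refine le_trans (hxle Q hQ) ?_
    have h2 : (2 : ℝ) ≤ ((ratPrime K Q : ℕ) : ℝ) := by
      exact_mod_cast (ratPrime_prime K Q).two_le
    apply one_div_le_one_div_of_le (by norm_num)
    nlinarith
  calc ∏ Q ∈ T, (1 - normPow K s (primeNZ Q))⁻¹
      ≤ ∏ Q ∈ T, Real.exp (2 * normPow K s (primeNZ Q)) := by
        apply Finset.prod_le_prod
        · intro Q hQ
          have := hxhalf Q hQ
          apply inv_nonneg.mpr
          linarith
        · intro Q hQ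
          exact inv_one_sub_le_exp (hx0 Q) (hxhalf Q hQ)
    _ = Real.exp (∑ Q ∈ T, 2 * normPow K s (primeNZ Q)) := (Real.exp_sum _ _).symm
    _ ≤ Real.exp (2 * ((Module.finrank ℚ K : ℕ) * ∑' n : ℕ, 1 / (n : ℝ) ^ 2)) := by
        apply Real.exp_le_exp.mpr
        rw [← Finset.mul_sum]
        apply mul_le_mul_of_nonneg_left _ (by norm_num)
        calc ∑ Q ∈ T, normPow K s (primeNZ Q)
            ≤ ∑ Q ∈ T, 1 / ((ratPrime K Q : ℕ) : ℝ) ^ 2 := Finset.sum_le_sum hxle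
          _ ≤ (Module.finrank ℚ K : ℕ) * ∑' n : ℕ, 1 / (n : ℝ) ^ 2 :=
              sum_comp_le_mul_tsum T (ratPrime K) (Module.finrank ℚ K)
                (fun n => card_fiber_le K T n) (fun n : ℕ => 1 / (n : ℝ) ^ 2)
                (fun n => by positivity) hsum

end Fermat.Agent.S14.DegTwo
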