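/-
S14 (Thaine route): shared definitions for the number-field side.  Mathlib only.
-/
import Mathlib

set_option autoImplicit false

namespace Fermat.Agent.S14.Defs

open NumberField

/-- `c_t`: the representative in `[0, p)` of `t⁻²` modulo `p` (it is `0` when `p ∣ t`). -/
def cExp (p t : ℕ) : ℕ := (((t : ZMod p)⁻¹) ^ 2).val

variable (K : Type) [Field K] [NumberField K]

/-- the `ω²`-cyclotomic number `∏_{t=1}^{p-1} (1 - ζ^t)^{c_t}` of `𝓞 K` (`ζ` a `p`-th root of unity) -/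
noncomputable def E2num (p : ℕ) (ζ : 𝓞 K) : 𝓞 K :=
  ∏ t ∈ Finset.Ico 1 p, (1 - ζ ^ t) ^ cExp p t

/-- action of `Gal(K/ℚ)` on ideals of `𝓞 K` -/
noncomputable def galIdeal (σ : K ≃ₐ[ℚ] K) (I : Ideal (𝓞 K)) : Ideal (𝓞 K) :=
  I.map (RingOfIntegers.mapRingEquiv (σ : K ≃+* K))

/-- `α ∈ K` has type `ω²` modulo `p`-th powers: `σ α = α^(k²) β^p` whenever `σ ζ = ζ^k`. -/
def IsOmegaSqElt (p : ℕ) (ζ : K) (α : K) : Prop :=
  ∀ (σ : K ≃ₐ[ℚ] K) (k : ℕ), σ ζ = ζ ^ k → ∃ β : K, σ α = α ^ (k ^ 2) * β ^ p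

/-- A character of the class group has type `ω²`: `ψ(σ I) = ψ(I)^(k²)` whenever `σ ζ = ζ^k`. -/
def IsOmegaSqChar (ζ : K) (ψ : ClassGroup (𝓞 K) →* ℂˣ) : Prop :=
  ∀ (σ : K ≃ₐ[ℚ] K) (k : ℕ), σ ζ = ζ ^ k →
    ∀ I J : nonZeroDivisors (Ideal (𝓞 K)), (J : Ideal (𝓞 K)) = galIdeal K σ (I : Ideal (𝓞 K)) →
      ψ (ClassGroup.mk0 J) = ψ (ClassGroup.mk0 I) ^ (k ^ 2)

/-- `E` is a `p`-th power residue modulo the ideal `Q`. -/
def IsPowResidue (p : ℕ) (E : 𝓞 K) (Q : Ideal (𝓞 K)) : Prop := ∃ y : 𝓞 K, E - y ^ p ∈ Q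

/-- coefficients of the L-series of a class group character:
`a(n) = ∑_{N I = n} ψ([I])` (sum over nonzero integral ideals of norm `n`) -/
noncomputable def classCoeff (ψ : ClassGroup (𝓞 K) →* ℂˣ) (n : ℕ) : ℂ :=
  ∑ᶠ I : {I : nonZeroDivisors (Ideal (𝓞 K)) // Ideal.absNorm (I : Ideal (𝓞 K)) = n},
    ((ψ (ClassGroup.mk0 I.1) : ℂˣ) : ℂ)

/-- the L-series of a class group character -/
noncomputable def classL (ψ : ClassGroup (𝓞 K) →* ℂˣ) (s : ℂ) : ℂ :=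
  LSeries (classCoeff K ψ) s

end Fermat.Agent.S14.Defs
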