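/-
S14 (Thaine route), package D3 = P8a (KS): the Kummer field `K' = K(E^(1/p))` and the splitting of
the primes `Q` of `K` at which `E` is a `p`-th power residue (helper5; shape of board #845).

* generic part: `K'/K` number fields of degree `p`, `ζ ∈ 𝓞 K` a primitive `p`-th root of unity,
  `a ∈ 𝓞 K'`, `a^p = E ∈ 𝓞 K`, `E` not a `p`-th power in `K`; `Q` a nonzero prime of `𝓞 K` with
  `p ∉ Q`, `E ∉ Q`, `E ≡ y^p mod Q`.  Then there are `p` distinct primes of `𝓞 K'` over `Q`, all of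
  absolute norm `N Q` (`exists_primes`).
  Route (no Kummer-Dedekind, no conductor): `𝓞 K[a] ≅ 𝓞 K[X]/(X^p - E)` (`minpoly.equivAdjoin`), the
  evaluations `X ↦ ζ^i y` give `p` distinct maximal ideals of `𝓞 K[a]` with residue field `𝓞 K/Q`,
  lying-over gives maximal ideals of `𝓞 K'` above them, and `∑ e f = p` forces `f = 1`.
* the field: `KF p K E`, a type synonym of `AdjoinRoot (X^p - C E)`, with `rootKF`, `finrank_KF`,
  `numberField_KF`.
* `exists_kummerField`: the existential package consumed by `Density.lean`.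
-/
import Mathlib
import Fermat.Agent.S14.Defs

set_option autoImplicit false
set_option linter.unusedSectionVars false
set_option linter.style.haveILetI false

namespace Fermat.Agent.S14.KummerField

open Polynomial NumberField Fermat.Agent.S14.Defs

section generic

variable {K K' : Type*} [Field K] [NumberField K] [Field K'] [NumberField K'] [Algebra K K']
variable {p : ℕ}

/-- the Kummer polynomial over `𝓞 K` -/
noncomputable def fR (p : ℕ) (E : 𝓞 K) : (𝓞 K)[X] := X ^ p - C E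

theorem fR_monic (hp : p ≠ 0) (E : 𝓞 K) : (fR p E).Monic := monic_X_pow_sub_C E hp

theorem fR_map (E : 𝓞 K) : (fR p E).map (algebraMap (𝓞 K) K) = X ^ p - C (E : K) := by
  simp [fR]

theorem minpoly_eq_fR (hp : p.Prime) (E : 𝓞 K) (hE : ¬ ∃ y : K, (E : K) = y ^ p)
    (a : 𝓞 K') (ha : a ^ p = algebraMap (𝓞 K) (𝓞 K') E) : minpoly (𝓞 K) a = fR p E := by
  have hirr : Irreducible (X ^ p - C (E : K) : K[X]) :=
    X_pow_sub_C_irreducible_of_prime hp (fun b hb => hE ⟨b, hb.symm⟩)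
  have hroot : aeval (a : K') (X ^ p - C (E : K) : K[X]) = 0 := by
    have h1 : ((a : K')) ^ p = algebraMap K K' (E : K) := by
      have := congrArg (fun x : 𝓞 K' => (x : K')) ha
      simp only [map_pow] at this
      rw [this]
      rfl
    simp [h1]
  have hmon : (X ^ p - C (E : K) : K[X]).Monic := monic_X_pow_sub_C _ hp.ne_zero
  have h2 : (X ^ p - C (E : K) : K[X]) = minpoly K (a : K') :=
    minpoly.eq_of_irreducible_of_monic hirr hroot hmon
  have hint : IsIntegral (𝓞 K) a := Algebra.IsIntegral.isIntegral a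
  have h3 := minpoly.isIntegrallyClosed_eq_field_fractions K K' hint
  have h4 : (minpoly (𝓞 K) a).map (algebraMap (𝓞 K) K) = (fR p E).map (algebraMap (𝓞 K) K) := by
    rw [← h3, fR_map]
    exact h2.symm
  exact Polynomial.map_injective _ (FaithfulSMul.algebraMap_injective (𝓞 K) K) h4


/-- the `𝓞 K`-subalgebra `𝓞 K[a]` of `𝓞 K'` -/
abbrev R1 (a : 𝓞 K') : Subalgebra (𝓞 K) (𝓞 K') := Algebra.adjoin (𝓞 K) {a}

/-- the generator of `R1 a` -/
def gen (a : 𝓞 K') : R1 (K := K) a := ⟨a, Algebra.subset_adjoin (Set.mem_singleton a)⟩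

/-- evaluation `𝓞 K[a] → 𝓞 K ⧸ Q`, `a ↦ c mod Q`, for a root `c` of `X^p - E` modulo `Q`. -/
noncomputable def evalHom (hp : p.Prime) (E : 𝓞 K) (hE : ¬ ∃ y : K, (E : K) = y ^ p)
    (a : 𝓞 K') (ha : a ^ p = algebraMap (𝓞 K) (𝓞 K') E) (Q : Ideal (𝓞 K)) (c : 𝓞 K)
    (hc : c ^ p - E ∈ Q) : R1 (K := K) a →ₐ[𝓞 K] (𝓞 K ⧸ Q) :=
  (AdjoinRoot.liftAlgHom (minpoly (𝓞 K) a) (Algebra.ofId (𝓞 K) (𝓞 K ⧸ Q))
    (Ideal.Quotient.mk Q c) (by
      rw [minpoly_eq_fR hp E hE a ha, fR]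
      simp only [eval₂_sub, eval₂_pow, eval₂_X, eval₂_C]
      rw [← map_pow]
      show Ideal.Quotient.mk Q (c ^ p) - Ideal.Quotient.mk Q E = 0
      rw [← map_sub]
      exact Ideal.Quotient.eq_zero_iff_mem.2 hc)).comp
    (minpoly.equivAdjoin (Algebra.IsIntegral.isIntegral a)).symm.toAlgHom

theorem evalHom_gen (hp : p.Prime) (E : 𝓞 K) (hE : ¬ ∃ y : K, (E : K) = y ^ p)
    (a : 𝓞 K') (ha : a ^ p = algebraMap (𝓞 K) (𝓞 K') E) (Q : Ideal (𝓞 K)) (c : 𝓞 K)
    (hc : c ^ p - E ∈ Q) :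
    evalHom hp E hE a ha Q c hc (gen a) = Ideal.Quotient.mk Q c := by
  have h1 : (minpoly.equivAdjoin (Algebra.IsIntegral.isIntegral (R := 𝓞 K) a)).symm (gen a)
      = AdjoinRoot.root _ := by
    rw [AlgEquiv.symm_apply_eq]
    simp [minpoly.equivAdjoin, AdjoinRoot.Minpoly.toAdjoin, gen]
  unfold evalHom
  rw [AlgHom.comp_apply]
  erw [h1]
  rw [AdjoinRoot.liftAlgHom_root]


theorem exists_prime_over (hp : p.Prime) (E : 𝓞 K) (hE : ¬ ∃ y : K, (E : K) = y ^ p)
    (a : 𝓞 K') (ha : a ^ p = algebraMap (𝓞 K) (𝓞 K') E) (Q : Ideal (𝓞 K)) [hQ : Q.IsMaximal]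
    (c : 𝓞 K) (hc : c ^ p - E ∈ Q) :
    ∃ P : Ideal (𝓞 K'), P.IsMaximal ∧ P.comap (algebraMap (𝓞 K) (𝓞 K')) = Q ∧
      a - algebraMap (𝓞 K) (𝓞 K') c ∈ P := by
  letI : Field (𝓞 K ⧸ Q) := Ideal.Quotient.field Q
  set φ := evalHom hp E hE a ha Q c hc with hφ
  have hcomm : ∀ r : 𝓞 K, φ (algebraMap (𝓞 K) (R1 (K := K) a) r) = Ideal.Quotient.mk Q r :=
    fun r => φ.commutes r
  have hsurj : Function.Surjective (φ : R1 (K := K) a →+* 𝓞 K ⧸ Q) := by
    intro x
    obtain ⟨r, rfl⟩ := Ideal.Quotient.mk_surjective x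
    exact ⟨algebraMap (𝓞 K) (R1 (K := K) a) r, hcomm r⟩
  set M : Ideal (R1 (K := K) a) := RingHom.ker (φ : R1 (K := K) a →+* 𝓞 K ⧸ Q) with hM
  haveI hMmax : M.IsMaximal := RingHom.ker_isMaximal_of_surjective _ hsurj
  haveI : Algebra.IsIntegral (R1 (K := K) a) (𝓞 K') := Algebra.IsIntegral.tower_top (R := 𝓞 K)
  have hker : RingHom.ker (algebraMap (R1 (K := K) a) (𝓞 K')) ≤ M := by
    intro x hx
    have : x = 0 := by
      apply Subtype.ext
      simpa using hx
    rw [this]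
    exact M.zero_mem
  obtain ⟨P, hPmax, hPM⟩ := Ideal.exists_ideal_over_maximal_of_isIntegral (S := 𝓞 K') M hker
  refine ⟨P, hPmax, ?_, ?_⟩
  · ext r
    rw [Ideal.mem_comap]
    have h1 : algebraMap (𝓞 K) (𝓞 K') r =
        algebraMap (R1 (K := K) a) (𝓞 K') (algebraMap (𝓞 K) (R1 (K := K) a) r) := rfl
    rw [h1, ← Ideal.mem_comap, hPM, hM, RingHom.mem_ker]
    show φ _ = 0 ↔ _
    rw [hcomm r, Ideal.Quotient.eq_zero_iff_mem]
  · have h1 : a - algebraMap (𝓞 K) (𝓞 K') c =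
        algebraMap (R1 (K := K) a) (𝓞 K') (gen a - algebraMap (𝓞 K) (R1 (K := K) a) c) := rfl
    rw [h1, ← Ideal.mem_comap, hPM, hM, RingHom.mem_ker]
    show φ _ = 0
    rw [map_sub, hcomm c, hφ, evalHom_gen, sub_self]


/-- if `[K':K]` distinct primes of `𝓞 K'` lie over the maximal ideal `Q` of `𝓞 K`, then each has
inertia degree one. -/
theorem inertiaDeg_eq_one_of_injective (Q : Ideal (𝓞 K)) [hQ : Q.IsMaximal]
    (f : Fin (Module.finrank K K') → Ideal (𝓞 K')) (hinj : Function.Injective f)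
    (hf : ∀ i, (f i).IsPrime ∧ (f i).LiesOver Q) (i : Fin (Module.finrank K K')) :
    (f i).inertiaDeg (𝓞 K) = 1 := by
  classical
  have hsum := Ideal.sum_ramification_inertia_eq_finrank Q (𝓞 K')
  rw [← IsFractionRing.finrank_eq (𝓞 K) K (𝓞 K') K'] at hsum
  set w : Q.primesOver (𝓞 K') → ℕ := fun q => q.1.ramificationIdx (𝓞 K) * q.1.inertiaDeg (𝓞 K)
    with hw
  have hw1 : ∀ q : Q.primesOver (𝓞 K'), 1 ≤ w q := fun q => by
    haveI := q.2.1
    exact Nat.one_le_iff_ne_zero.2 (Nat.mul_ne_zero (Ideal.ramificationIdx_pos q.1 (𝓞 K)).ne'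
      (Ideal.inertiaDeg_pos q.1 (𝓞 K)).ne')
  let g : Fin (Module.finrank K K') → Q.primesOver (𝓞 K') := fun j => ⟨f j, hf j⟩
  have hg : Function.Injective g := fun j j' h => hinj (congrArg Subtype.val h)
  have h1 : ∑ j, w (g j) ≤ ∑ q, w q := by
    rw [← Finset.sum_image (f := w) (s := Finset.univ) (g := g) (fun a _ b _ h => hg h)]
    exact Finset.sum_le_sum_of_subset (Finset.subset_univ _)
  have h2 : w (g i) = 1 := by
    by_contra hne
    have hlt : 1 < w (g i) := lt_of_le_of_ne (hw1 _) (Ne.symm hne)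
    have h3 : ∑ _j : Fin (Module.finrank K K'), 1 < ∑ j, w (g j) :=
      Finset.sum_lt_sum (fun j _ => hw1 (g j)) ⟨i, Finset.mem_univ _, hlt⟩
    simp only [Finset.sum_const, Finset.card_univ, Fintype.card_fin, smul_eq_mul, mul_one] at h3
    have hsum' : ∑ q, w q = Module.finrank K K' := hsum
    omega
  exact Nat.eq_one_of_mul_eq_one_left h2


theorem pow_injOn_of_geom_sum {k : Type*} [CommRing k] (hp : p.Prime) {ζ : k} (h1 : ζ ^ p = 1)
    (hs : ∑ i ∈ Finset.range p, ζ ^ i = 0)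
    (hp0 : (p : k) ≠ 0) {i j : ℕ} (hi : i < p) (hj : j < p) (hij : ζ ^ i = ζ ^ j) : i = j := by
  have hne1 : ζ ≠ 1 := by
    rintro rfl
    simp at hs
    exact hp0 hs
  have hord : orderOf ζ = p := by
    have hd : orderOf ζ ∣ p := orderOf_dvd_of_pow_eq_one h1
    rcases (Nat.dvd_prime hp).1 hd with h | h
    · exact absurd (orderOf_eq_one_iff.1 h) hne1
    · exact h
  have := pow_injOn_Iio_orderOf (x := ζ)
  rw [hord] at this
  exact this hi hj hij

/-- **(KS), generic form.** `K'/K` number fields of degree `p`, `ζ ∈ 𝓞 K` a primitive `p`-th root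
of unity, `a ∈ 𝓞 K'` with `a^p = E ∈ 𝓞 K`, `E` not a `p`-th power in `K`.  If `Q` is a nonzero prime
of `𝓞 K` with `p ∉ Q`, `E ∉ Q` and `E ≡ y^p mod Q`, then there are `p` distinct primes of `𝓞 K'`
over `Q`, all of the same absolute norm as `Q`. -/
theorem exists_primes (hp : p.Prime) (hdeg : Module.finrank K K' = p) (ζ : 𝓞 K)
    (hζ : IsPrimitiveRoot ζ p) (E : 𝓞 K) (hE : ¬ ∃ y : K, (E : K) = y ^ p)
    (a : 𝓞 K') (ha : a ^ p = algebraMap (𝓞 K) (𝓞 K') E) (Q : Ideal (𝓞 K)) (hQ : Q.IsPrime)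
    (hQ0 : Q ≠ ⊥) (hpQ : (p : 𝓞 K) ∉ Q) (hEQ : E ∉ Q) (y : 𝓞 K) (hy : E - y ^ p ∈ Q) :
    ∃ f : Fin p → Ideal (𝓞 K'), Function.Injective f ∧ ∀ i, (f i).IsPrime ∧ f i ≠ ⊥ ∧
      (f i).comap (algebraMap (𝓞 K) (𝓞 K')) = Q ∧ Ideal.absNorm (f i) = Ideal.absNorm Q := by
  haveI hQmax : Q.IsMaximal := hQ.isMaximal hQ0
  -- the roots of `X^p - E` modulo `Q`
  have hc : ∀ i : ℕ, (ζ ^ i * y) ^ p - E ∈ Q := fun i => by
    have : (ζ ^ i * y) ^ p - E = -(E - y ^ p) := by
      rw [mul_pow, ← pow_mul, mul_comm i p, pow_mul, hζ.pow_eq_one, one_pow, one_mul]; ring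
    rw [this]
    exact Q.neg_mem hy
  choose P hPmax hPQ hPa using fun i : ℕ => exists_prime_over hp E hE a ha Q (ζ ^ i * y) (hc i)
  -- `y ∉ Q`
  have hyQ : y ∉ Q := fun h => hEQ (by
    have : E = (E - y ^ p) + y ^ p := by ring
    rw [this]
    exact Q.add_mem hy (Q.pow_mem_of_mem h p hp.pos))
  -- the powers of `ζ` are distinct modulo `Q`
  have hζQ : ∀ i j : ℕ, i < p → j < p → ζ ^ i - ζ ^ j ∈ Q → i = j := by
    intro i j hi hj hij
    have h1 : (Ideal.Quotient.mk Q ζ) ^ p = 1 := by rw [← map_pow, hζ.pow_eq_one, map_one]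
    have h2 : ∑ i ∈ Finset.range p, (Ideal.Quotient.mk Q ζ) ^ i = 0 := by
      have := congrArg (Ideal.Quotient.mk Q) (hζ.geom_sum_eq_zero hp.one_lt)
      simpa using this
    have h3 : ((p : ℕ) : 𝓞 K ⧸ Q) ≠ 0 := by
      rw [← map_natCast (Ideal.Quotient.mk Q), Ne, Ideal.Quotient.eq_zero_iff_mem]
      exact hpQ
    refine pow_injOn_of_geom_sum hp h1 h2 h3 hi hj ?_
    rw [← map_pow, ← map_pow, ← sub_eq_zero, ← map_sub, Ideal.Quotient.eq_zero_iff_mem]
    exact hij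
  -- injectivity
  have hinj : ∀ i j : ℕ, i < p → j < p → P i = P j → i = j := by
    intro i j hi hj hij
    have h1 : algebraMap (𝓞 K) (𝓞 K') (ζ ^ j * y - ζ ^ i * y) ∈ P i := by
      have h2 := hPa j
      rw [← hij] at h2
      have := (P i).sub_mem (hPa i) h2
      rw [map_sub]
      convert this using 1
      ring
    rw [← Ideal.mem_comap, hPQ i] at h1
    have h3 : ζ ^ j * y - ζ ^ i * y = (ζ ^ j - ζ ^ i) * y := by ring
    rw [h3] at h1
    rcases hQ.mem_or_mem h1 with h | h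
    · exact (hζQ j i hj hi h).symm
    · exact absurd h hyQ
  -- lying over
  have hlies : ∀ i : ℕ, (P i).LiesOver Q := fun i => ⟨(hPQ i).symm⟩
  -- inertia degree one
  subst hdeg
  let f : Fin (Module.finrank K K') → Ideal (𝓞 K') := fun i => P i.1
  have hfinj : Function.Injective f := fun i j h => Fin.ext (hinj i.1 j.1 i.2 j.2 h)
  have hf1 := inertiaDeg_eq_one_of_injective Q f hfinj
    (fun i => ⟨(hPmax i.1).isPrime, hlies i.1⟩)
  refine ⟨f, hfinj, fun i => ⟨(hPmax i.1).isPrime, ?_, hPQ i.1, ?_⟩⟩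
  · intro hbot
    have : Q = ⊥ := by
      rw [← hPQ i.1]
      show (f i).comap _ = ⊥
      rw [hbot]
      exact Ideal.comap_bot_of_injective _ (RingOfIntegers.algebraMap.injective K K')
    exact hQ0 this
  · haveI := hlies i.1
    haveI := hPmax i.1
    have h1 := Ideal.absNorm_eq_pow_inertiaDeg'_of_liesOver (f i) Q hQ hQ0
    rw [Ideal.inertiaDeg'_eq_inertiaDeg, hf1 i, pow_one] at h1
    exact h1

end generic

section field

variable (p : ℕ) (K : Type) [Field K] (E : K)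

/-- the Kummer extension `K(E^(1/p))`, as a type synonym of `AdjoinRoot (X^p - C E)` (a synonym, so
that the only `𝓞 K`-algebra structure on it is the one induced by `Algebra K _`). -/
def KF : Type := AdjoinRoot (X ^ p - C E : K[X])

variable [hirr : Fact (Irreducible (X ^ p - C E : K[X]))]

noncomputable instance : Field (KF p K E) := inferInstanceAs (Field (AdjoinRoot (X ^ p - C E : K[X])))

noncomputable instance : Algebra K (KF p K E) :=
  inferInstanceAs (Algebra K (AdjoinRoot (X ^ p - C E : K[X])))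

/-- the root `E^(1/p)` -/
noncomputable def rootKF : KF p K E := AdjoinRoot.root (X ^ p - C E : K[X])

theorem rootKF_pow : rootKF p K E ^ p = algebraMap K (KF p K E) E := by
  have h := AdjoinRoot.eval₂_root (X ^ p - C E : K[X])
  simp only [eval₂_sub, eval₂_pow, eval₂_X, eval₂_C] at h
  exact sub_eq_zero.1 h

theorem finrank_KF (hp : p ≠ 0) : Module.finrank K (KF p K E) = p := by
  have hf : (X ^ p - C E : K[X]) ≠ 0 := (monic_X_pow_sub_C E hp).ne_zero
  have h := (AdjoinRoot.powerBasis hf).finrank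
  rw [AdjoinRoot.powerBasis_dim, natDegree_X_pow_sub_C] at h
  exact h

theorem finite_KF (hp : p ≠ 0) : Module.Finite K (KF p K E) := by
  have hf : (X ^ p - C E : K[X]) ≠ 0 := (monic_X_pow_sub_C E hp).ne_zero
  exact (AdjoinRoot.powerBasis hf).finite

theorem numberField_KF [NumberField K] (hp : p ≠ 0) : NumberField (KF p K E) := by
  haveI := finite_KF p K E hp
  exact NumberField.of_module_finite K (KF p K E)

end field

/-- **(KS) = D3 = P8a.**  For `E ∈ 𝓞 K` not a `p`-th power in `K ∋ ζ_p`, there is a number field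
`K'` of degree `p` over `K` such that every nonzero prime `Q` of `𝓞 K` with `p ∉ Q`, `E ∉ Q` at which
`E` is a `p`-th power residue has `p` distinct primes of `𝓞 K'` above it, all of the same absolute
norm as `Q`. -/
theorem exists_kummerField (p : ℕ) [hpf : Fact p.Prime] (K : Type) [Field K] [NumberField K]
    (ζ : 𝓞 K) (hζ : IsPrimitiveRoot ζ p) (E : 𝓞 K) (hE : ¬ ∃ y : K, (E : K) = y ^ p) :
    ∃ (K' : Type) (_ : Field K') (_ : NumberField K') (_ : Algebra K K'),
      Module.finrank K K' = p ∧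
      ∀ (Q : Ideal (𝓞 K)), Q.IsPrime → Q ≠ ⊥ → (p : 𝓞 K) ∉ Q → E ∉ Q → IsPowResidue K p E Q →
        ∃ f : Fin p → Ideal (𝓞 K'), Function.Injective f ∧ ∀ i, (f i).IsPrime ∧ f i ≠ ⊥ ∧
          (f i).comap (algebraMap (𝓞 K) (𝓞 K')) = Q ∧ Ideal.absNorm (f i) = Ideal.absNorm Q := by
  have hp : p.Prime := hpf.out
  haveI hirr : Fact (Irreducible (X ^ p - C (E : K) : K[X])) :=
    ⟨X_pow_sub_C_irreducible_of_prime hp (fun b hb => hE ⟨b, hb.symm⟩)⟩
  haveI hnf : NumberField (KF p K (E : K)) := numberField_KF p K (E : K) hp.ne_zero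
  refine ⟨KF p K (E : K), inferInstance, hnf, inferInstance, finrank_KF p K (E : K) hp.ne_zero, ?_⟩
  intro Q hQ hQ0 hpQ hEQ hres
  obtain ⟨y, hy⟩ := hres
  -- the root, as an element of the ring of integers
  have hint : IsIntegral ℤ (rootKF p K (E : K)) := by
    refine IsIntegral.of_pow hp.pos ?_
    rw [rootKF_pow]
    exact map_isIntegral_int (algebraMap K (KF p K (E : K))) (RingOfIntegers.isIntegral_coe E)
  let a : 𝓞 (KF p K (E : K)) := ⟨rootKF p K (E : K), hint⟩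
  have ha : a ^ p = algebraMap (𝓞 K) (𝓞 (KF p K (E : K))) E := by
    apply RingOfIntegers.ext
    show (rootKF p K (E : K)) ^ p = algebraMap K (KF p K (E : K)) (E : K)
    exact rootKF_pow p K (E : K)
  exact exists_primes hp (finrank_KF p K (E : K) hp.ne_zero) ζ hζ E hE a ha Q hQ hQ0 hpQ hEQ y hy

end Fermat.Agent.S14.KummerField
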