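import Fermat.Agent.S14.DensityOf
import Fermat.Agent.S14.DegTwo
import Fermat.Agent.S14.KummerField

/-!
# (D) the density package `Skeleton.DensityPkg p` for `p >= 3`

`densityPkg`: for a number field `K` containing a primitive `p`-th root of unity, `E` in `O_K` not
a `p`-th power in `K`, and a nontrivial class group character `psi` with `psi^p = 1`, there is a
prime `Q` of prime norm, not over `p`, at which `E` is not a `p`-th power residue and
`psi(Q) != 1`.  Inputs: `DensityOf.densityPkg_of` (Euler products, `L`-values bounded near `1`
from the ideal count with error term, pole orders), `DegTwo.prod_nonprime_norm_le` and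
`KummerField.exists_kummerField`.
-/

set_option autoImplicit false

namespace Fermat.Agent.S14.Density

theorem densityPkg (p : ℕ) [Fact p.Prime] (hp3 : 3 ≤ p) : Skeleton.DensityPkg p :=
  DensityOf.densityPkg_of p hp3 (fun K _ _ => DegTwo.prod_nonprime_norm_le K)
    (fun K _ _ ζ hζ E hE => KummerField.exists_kummerField p K ζ hζ E hE)

end Fermat.Agent.S14.Density
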