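import Mathlib
import Fermat.Agent.S14.Defs
import Fermat.Agent.S14.CoreStd

set_option autoImplicit false

namespace Fermat.Agent.S14.Skeleton

open NumberField Fermat.Agent.S14.Defs
open scoped nonZeroDivisors

/-- (K) Kummer side -/
def KummerPkg (p : ℕ) [Fact p.Prime] : Prop :=
  ∀ (K L : Type) [Field K] [Field L] [NumberField K] [NumberField L] [Algebra K L]
    [IsCyclotomicExtension {p} ℚ K] [IsGalois K L] [IsGalois ℚ L],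
    Module.finrank K L = p →
    (∀ P : Ideal (𝓞 L), P.IsPrime → P ≠ ⊥ → P.ramificationIdx (𝓞 K) = 1) →
    (∀ P : Ideal (𝓞 L), P.IsPrime → (p : 𝓞 L) ∈ P →
      P.ramificationIdx (𝓞 K) = 1 ∧ P.inertiaDeg (𝓞 K) = 1) →
    (∀ (σ : L ≃ₐ[ℚ] L) (τ : L ≃ₐ[K] L) (ζ : L) (k : ℕ), IsPrimitiveRoot ζ p → σ (ζ ^ k) = ζ →
      σ * τ.restrictScalars ℚ * σ⁻¹ = (τ ^ k).restrictScalars ℚ) →
    ∀ ζ : 𝓞 K, IsPrimitiveRoot ζ p →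
      ∃ α : 𝓞 K, (¬ ∃ β : K, (α : K) = β ^ p) ∧ IsOmegaSqElt K p (ζ : K) (α : K) ∧
        (∃ I : Ideal (𝓞 K), Ideal.span {α} = I ^ p) ∧ (∃ x : 𝓞 K, (ζ - 1) ^ 3 ∣ x ^ p - α) ∧
        ¬ (ζ - 1) ∣ α

/-- (C) from a non-principal `I` with `I^p = (α)`, `α` of type `ω²`, to a character of type `ω²` -/
def CharPkg (p : ℕ) [Fact p.Prime] : Prop :=
  ∀ (K : Type) [Field K] [NumberField K] [IsCyclotomicExtension {p} ℚ K]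
    (ζ : 𝓞 K), IsPrimitiveRoot ζ p → ∀ (α : 𝓞 K) (I : Ideal (𝓞 K)), α ≠ 0 →
    IsOmegaSqElt K p (ζ : K) (α : K) → Ideal.span {α} = I ^ p → ¬ I.IsPrincipal →
    ∃ ψ : ClassGroup (𝓞 K) →* ℂˣ, ψ ≠ 1 ∧ ψ ^ p = 1 ∧ IsOmegaSqChar K (ζ : K) ψ

/-- (T) Thaine's relation, projected -/
def ThainePkg (p : ℕ) [Fact p.Prime] : Prop :=
  ∀ (K : Type) [Field K] [NumberField K] [IsCyclotomicExtension {p} ℚ K]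
    (ζ : 𝓞 K), IsPrimitiveRoot ζ p → ∀ ψ : ClassGroup (𝓞 K) →* ℂˣ, ψ ^ p = 1 →
    IsOmegaSqChar K (ζ : K) ψ →
    ∀ (Q : Ideal (𝓞 K)) (_ : Q.IsPrime) (hQ0 : Q ≠ ⊥), (Ideal.absNorm Q).Prime →
      (p : 𝓞 K) ∉ Q → ¬ IsPowResidue K p (E2num K p ζ) Q →
      ψ (ClassGroup.mk0 ⟨Q, mem_nonZeroDivisors_of_ne_zero hQ0⟩) = 1

/-- (U i) the unit `E2u` -/
def UnitLocalPkg (p : ℕ) [Fact p.Prime] : Prop :=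
  ∀ (K : Type) [Field K] [NumberField K] [IsCyclotomicExtension {p} ℚ K]
    (ζ : 𝓞 K), IsPrimitiveRoot ζ p →
    ∃ E2u : (𝓞 K)ˣ, (∃ j : ℕ, (E2u : 𝓞 K) * (1 - ζ) ^ (p * j) = E2num K p ζ) ∧
      (∀ (σ : K ≃ₐ[ℚ] K) (k : ℕ), σ (ζ : K) = (ζ : K) ^ k → ∃ w : (𝓞 K)ˣ,
        Units.map (RingOfIntegers.mapRingEquiv (σ : K ≃+* K) : 𝓞 K →* 𝓞 K) E2u
          = E2u ^ (k ^ 2) * w ^ p) ∧
      (∀ (k : ℕ) (y : 𝓞 K), (ζ - 1) ^ 3 ∣ (E2u : 𝓞 K) ^ k - y ^ p → p ∣ k)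

/-- (U ii) the `ω²`-part of `E/E^p` has dimension at most one -/
def UnitEigenPkg (p : ℕ) [Fact p.Prime] : Prop :=
  ∀ (K : Type) [Field K] [NumberField K] [IsCyclotomicExtension {p} ℚ K]
    (ζ : 𝓞 K), IsPrimitiveRoot ζ p → ∀ u v : (𝓞 K)ˣ,
    (∀ (σ : K ≃ₐ[ℚ] K) (k : ℕ), σ (ζ : K) = (ζ : K) ^ k → ∃ w : (𝓞 K)ˣ,
      Units.map (RingOfIntegers.mapRingEquiv (σ : K ≃+* K) : 𝓞 K →* 𝓞 K) u = u ^ (k ^ 2) * w ^ p) →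
    (∀ (σ : K ≃ₐ[ℚ] K) (k : ℕ), σ (ζ : K) = (ζ : K) ^ k → ∃ w : (𝓞 K)ˣ,
      Units.map (RingOfIntegers.mapRingEquiv (σ : K ≃+* K) : 𝓞 K →* 𝓞 K) v = v ^ (k ^ 2) * w ^ p) →
    (¬ ∃ w : (𝓞 K)ˣ, v = w ^ p) → ∃ (j : ℕ) (w : (𝓞 K)ˣ), u = v ^ j * w ^ p

/-- (D) density: a nontrivial class group character of order `p` is nontrivial on some degree-one
prime at which `E` is not a `p`-th power residue. -/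
def DensityPkg (p : ℕ) [Fact p.Prime] : Prop :=
  ∀ (K : Type) [Field K] [NumberField K] (ζ : 𝓞 K), IsPrimitiveRoot ζ p → ∀ E : 𝓞 K,
    (¬ ∃ y : K, (E : K) = y ^ p) → ∀ ψ : ClassGroup (𝓞 K) →* ℂˣ, ψ ^ p = 1 → ψ ≠ 1 →
    ∃ (Q : Ideal (𝓞 K)) (_ : Q.IsPrime) (hQ0 : Q ≠ ⊥), (Ideal.absNorm Q).Prime ∧
      (p : 𝓞 K) ∉ Q ∧ ¬ IsPowResidue K p E Q ∧
      ψ (ClassGroup.mk0 ⟨Q, mem_nonZeroDivisors_of_ne_zero hQ0⟩) ≠ 1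

end Fermat.Agent.S14.Skeleton
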