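import Mathlib
import Fermat.Prelude.Def_ClassGroup_ModP
import Fermat.Prelude.Def_ClassGroup_GaloisAction
import Fermat.Agent.S14.Defs
import Fermat.Agent.S14.Skeleton

/-!
# S14, package (C): from a class of type `ω²` to a character of type `ω²`

`charPkg p : Skeleton.CharPkg p`: if `I` is a non-principal ideal of `𝓞 K`, `K = ℚ(ζ_p)`, with
`I ^ p = (α)` and `α` of type `ω²` modulo `p`-th powers, then the class group of `K` has a
nontrivial character `ψ` with `ψ ^ p = 1` of type `ω²`.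

* `exists_equivariant_hom` is the abstract statement (finite abelian group `G` with an action of a
  group `Δ` of order `≡ -1 mod p` and a character `κ : Δ → 𝔽_pˣ`): a nonzero `c ∈ G[p]` with
  `σ c = κ(σ)² c` is detected by a `κ²`-equivariant homomorphism `G → 𝔽_p`.  Proof: if the
  `κ²`-projection `∑_σ κ(σ)⁻² φ ∘ σ` of every `φ : G → 𝔽_p` vanished, the integral lift
  `e = ∑_σ [κ(σ)⁻²] σ` would map `G` into `p G` while `e c = - c`; hence `c ∈ ⋂ p^j G`, which has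
  no `p`-torsion.
* `class_rel`: `(α) = I ^ p`, `σ α = α ^ m β ^ p` imply `[σ I] = [I] ^ m` (ideals of a Dedekind
  domain have unique `p`-th roots).
-/

set_option autoImplicit false

noncomputable section

namespace Fermat.Agent.S14.CharDual

open JacobiSumStickelberger

section Abstract

variable {G : Type*} [AddCommGroup G] (p : ℕ) [hp : Fact p.Prime]

/-- if `p • c = 0` then `a • c` only depends on `a` modulo `p`. -/
theorem nsmul_eq_of_natCast_eq {c : G} (hpc : p • c = 0) {a b : ℕ}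
    (h : (a : ZMod p) = (b : ZMod p)) : a • c = b • c := by
  have h1 : a % p = b % p := (ZMod.natCast_eq_natCast_iff' a b p).1 h
  have h2 : ∀ n : ℕ, n • c = (n % p) • c := by
    intro n
    conv_lhs => rw [← Nat.div_add_mod n p]
    rw [add_nsmul, mul_comm, mul_nsmul', hpc, smul_zero, zero_add]
  rw [h2 a, h2 b, h1]

/-- homomorphisms to `ZMod p` separate `G / p G`. -/
theorem exists_nsmul_eq_of_forall_hom {x : G} (h : ∀ φ : G →+ ZMod p, φ x = 0) :
    ∃ y : G, p • y = x := by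
  rw [← ModP.proj_eq_zero_iff]
  rw [← Module.forall_dual_apply_eq_zero_iff (ZMod p)]
  intro f
  exact h (f.toAddMonoidHom.comp (ModP.proj p G))

variable {Δ : Type*} [Group Δ] [Fintype Δ]

/-- the coefficient `κ(σ)⁻²`. -/
def coeffA (κ : Δ →* (ZMod p)ˣ) (σ : Δ) : ZMod p := (((κ σ)⁻¹ : (ZMod p)ˣ) : ZMod p) ^ 2

omit [Fintype Δ] in
theorem coeffA_mul (κ : Δ →* (ZMod p)ˣ) (σ τ : Δ) :
    ((κ τ : (ZMod p)ˣ) : ZMod p) ^ 2 * coeffA p κ (σ * τ) = coeffA p κ σ := by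
  unfold coeffA
  rw [map_mul, mul_inv, Units.val_mul, mul_pow, ← mul_assoc, mul_comm _ ((((κ σ)⁻¹ : (ZMod p)ˣ) :
    ZMod p) ^ 2), mul_assoc, ← mul_pow, ← Units.val_mul, mul_inv_cancel, Units.val_one, one_pow,
    mul_one]

omit [Fintype Δ] in
theorem coeffA_mul_sq (κ : Δ →* (ZMod p)ˣ) (σ : Δ) :
    coeffA p κ σ * ((κ σ : (ZMod p)ˣ) : ZMod p) ^ 2 = 1 := by
  unfold coeffA
  rw [← mul_pow, ← Units.val_mul, inv_mul_cancel, Units.val_one, one_pow]

/-- the `ω²`-projection of a homomorphism `φ : G → 𝔽_p`. -/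
def projHom (ρ : Δ → G →+ G) (κ : Δ →* (ZMod p)ˣ) (φ : G →+ ZMod p) : G →+ ZMod p :=
  ∑ σ : Δ, (AddMonoidHom.mulLeft (coeffA p κ σ)).comp (φ.comp (ρ σ))

theorem projHom_apply (ρ : Δ → G →+ G) (κ : Δ →* (ZMod p)ˣ) (φ : G →+ ZMod p) (x : G) :
    projHom p ρ κ φ x = ∑ σ : Δ, coeffA p κ σ * φ (ρ σ x) := by
  unfold projHom
  rw [AddMonoidHom.finsetSum_apply]
  rfl

theorem projHom_equivariant (ρ : Δ → G →+ G) (hρ : ∀ σ τ x, ρ (σ * τ) x = ρ σ (ρ τ x))
    (κ : Δ →* (ZMod p)ˣ) (φ : G →+ ZMod p) (τ : Δ) (x : G) :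
    projHom p ρ κ φ (ρ τ x) = ((κ τ : (ZMod p)ˣ) : ZMod p) ^ 2 * projHom p ρ κ φ x := by
  rw [projHom_apply, projHom_apply, Finset.mul_sum]
  rw [← Fintype.sum_equiv (Equiv.mulRight τ)
    (fun σ => ((κ τ : (ZMod p)ˣ) : ZMod p) ^ 2 * (coeffA p κ (σ * τ) * φ (ρ (σ * τ) x)))
    (fun σ => ((κ τ : (ZMod p)ˣ) : ZMod p) ^ 2 * (coeffA p κ σ * φ (ρ σ x))) (fun σ => rfl)]
  refine Finset.sum_congr rfl fun σ _ => ?_
  rw [← mul_assoc, coeffA_mul, hρ]

/-- the integral lift of the projector. -/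
def projEnd (ρ : Δ → G →+ G) (κ : Δ →* (ZMod p)ˣ) : G →+ G :=
  ∑ σ : Δ, (coeffA p κ σ).val • ρ σ

theorem projEnd_apply (ρ : Δ → G →+ G) (κ : Δ →* (ZMod p)ˣ) (x : G) :
    projEnd p ρ κ x = ∑ σ : Δ, (coeffA p κ σ).val • ρ σ x := by
  unfold projEnd
  rw [AddMonoidHom.finsetSum_apply]
  rfl

theorem hom_projEnd (ρ : Δ → G →+ G) (κ : Δ →* (ZMod p)ˣ) (φ : G →+ ZMod p) (x : G) :
    φ (projEnd p ρ κ x) = projHom p ρ κ φ x := by
  rw [projEnd_apply, projHom_apply, map_sum]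
  refine Finset.sum_congr rfl fun σ _ => ?_
  rw [map_nsmul, nsmul_eq_mul, ZMod.natCast_zmod_val]

/-- **the abstract lemma**: a nonzero class `c` killed by `p` on which `Δ` acts through `κ²`
is detected by a `κ²`-equivariant homomorphism to `𝔽_p`. -/
theorem exists_equivariant_hom [Finite G] (hΔ : ((Fintype.card Δ : ℕ) : ZMod p) = -1)
    (ρ : Δ → G →+ G) (hρ : ∀ σ τ x, ρ (σ * τ) x = ρ σ (ρ τ x)) (κ : Δ →* (ZMod p)ˣ)
    (c : G) (hc0 : c ≠ 0) (hpc : p • c = 0)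
    (hc : ∀ σ, ρ σ c = ((((κ σ : (ZMod p)ˣ) : ZMod p) ^ 2).val) • c) :
    ∃ Φ : G →+ ZMod p, Φ ≠ 0 ∧
      ∀ σ x, Φ (ρ σ x) = ((κ σ : (ZMod p)ˣ) : ZMod p) ^ 2 * Φ x := by
  by_contra hcon
  push Not at hcon
  have hzero : ∀ φ : G →+ ZMod p, projHom p ρ κ φ = 0 := by
    intro φ
    by_contra h
    obtain ⟨σ, x, hx⟩ := hcon _ h
    exact hx (projHom_equivariant p ρ hρ κ φ σ x)
  -- the image of `projEnd` lies in `p G`
  have hE : ∀ x : G, ∃ y : G, p • y = projEnd p ρ κ x := by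
    intro x
    apply exists_nsmul_eq_of_forall_hom
    intro φ
    rw [hom_projEnd, hzero φ]
    rfl
  -- `projEnd c = - c`
  have hEc : projEnd p ρ κ c = -c := by
    rw [projEnd_apply]
    have h1 : ∀ σ : Δ, (coeffA p κ σ).val • ρ σ c = c := by
      intro σ
      rw [hc σ, ← mul_nsmul']
      have : (((coeffA p κ σ).val * (((κ σ : (ZMod p)ˣ) : ZMod p) ^ 2).val : ℕ) : ZMod p) =
          ((1 : ℕ) : ZMod p) := by
        rw [Nat.cast_mul, ZMod.natCast_zmod_val, ZMod.natCast_zmod_val, coeffA_mul_sq, Nat.cast_one]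
      rw [nsmul_eq_of_natCast_eq p hpc this, one_nsmul]
    rw [Finset.sum_congr rfl fun σ _ => h1 σ, Finset.sum_const, Finset.card_univ]
    have h2 : ((Fintype.card Δ : ℕ) : ZMod p) = ((p - 1 : ℕ) : ZMod p) := by
      rw [hΔ, Nat.cast_sub hp.out.one_le, ZMod.natCast_self, zero_sub, Nat.cast_one]
    rw [nsmul_eq_of_natCast_eq p hpc h2]
    have h3 : (p - 1) • c + c = 0 := by
      rw [← succ_nsmul, Nat.sub_add_cancel hp.out.one_le, hpc]
    exact eq_neg_of_add_eq_zero_left h3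
  -- `c ∈ p ^ j G` for all `j`
  have hdiv : ∀ j : ℕ, ∃ y : G, p ^ j • y = c := by
    intro j
    induction j with
    | zero => exact ⟨c, by simp⟩
    | succ j ih =>
      obtain ⟨y, hy⟩ := ih
      obtain ⟨z, hz⟩ := hE y
      refine ⟨-z, ?_⟩
      have : projEnd p ρ κ c = p ^ j • projEnd p ρ κ y := by rw [← hy, map_nsmul]
      rw [hEc, ← hz, ← mul_nsmul', ← pow_succ] at this
      rw [smul_neg, ← this, neg_neg]
  -- conclusion
  apply hc0
  have hfin : Fintype G := Fintype.ofFinite G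
  obtain ⟨a, m, hm, hN⟩ := Nat.exists_eq_pow_mul_and_not_dvd (Nat.card_pos (α := G)).ne' p
    hp.out.ne_one
  obtain ⟨y, hy⟩ := hdiv a
  have h1 : m • c = 0 := by
    rw [← hy, ← mul_nsmul', mul_comm, ← hN]
    exact card_nsmul_eq_zero'
  have h2 : addOrderOf c ∣ p := addOrderOf_dvd_of_nsmul_eq_zero hpc
  have h3 : addOrderOf c ∣ m := addOrderOf_dvd_of_nsmul_eq_zero h1
  have h4 : addOrderOf c = 1 := by
    rcases (Nat.dvd_prime hp.out).1 h2 with h | h
    · exact h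
    · exact absurd (h ▸ h3) hm
  exact AddMonoid.addOrderOf_eq_one_iff.mp h4

end Abstract

section NumberField

open NumberField Fermat.Agent.S14.Defs
open scoped nonZeroDivisors

variable (p : ℕ) [hp : Fact p.Prime] (K : Type) [Field K] [NumberField K]

/-- the ring automorphism of `𝓞 K` induced by `σ`. -/
abbrev gRing (σ : K ≃ₐ[ℚ] K) : 𝓞 K ≃+* 𝓞 K := RingOfIntegers.mapRingEquiv (σ : K ≃+* K)

theorem gRing_mul (σ τ : K ≃ₐ[ℚ] K) : gRing K (σ * τ) = (gRing K τ).trans (gRing K σ) := by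
  ext x
  rfl

/-- the action of `Gal(K/ℚ)` on the (additive) class group. -/
def rhoCl (σ : K ≃ₐ[ℚ] K) : Additive (ClassGroup (𝓞 K)) →+ Additive (ClassGroup (𝓞 K)) :=
  MonoidHom.toAdditive (ClassGroup.mulEquiv (gRing K σ)).toMonoidHom

theorem rhoCl_apply (σ : K ≃ₐ[ℚ] K) (C : ClassGroup (𝓞 K)) :
    rhoCl K σ (Additive.ofMul C) = Additive.ofMul (ClassGroup.mulEquiv (gRing K σ) C) := rfl

theorem rhoCl_mul (σ τ : K ≃ₐ[ℚ] K) (x : Additive (ClassGroup (𝓞 K))) :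
    rhoCl K (σ * τ) x = rhoCl K σ (rhoCl K τ x) := by
  obtain ⟨C, rfl⟩ := Additive.ofMul.surjective x
  rw [rhoCl_apply, rhoCl_apply, rhoCl_apply, gRing_mul, ClassGroup.mulEquiv_trans_apply]

theorem galIdeal_eq (σ : K ≃ₐ[ℚ] K) (I : (Ideal (𝓞 K))⁰) :
    galIdeal K σ (I : Ideal (𝓞 K)) = (Ideal.mapNonZero (gRing K σ) I : Ideal (𝓞 K)) := rfl

theorem rhoCl_mk0 (σ : K ≃ₐ[ℚ] K) (I J : (Ideal (𝓞 K))⁰)
    (h : (J : Ideal (𝓞 K)) = galIdeal K σ (I : Ideal (𝓞 K))) :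
    rhoCl K σ (Additive.ofMul (ClassGroup.mk0 I)) = Additive.ofMul (ClassGroup.mk0 J) := by
  rw [rhoCl_apply, ClassGroup.mulEquiv_mk0]
  congr 2
  exact Subtype.ext h.symm

end NumberField

section ClassRel

open NumberField Fermat.Agent.S14.Defs
open scoped nonZeroDivisors

variable {p : ℕ} [hp : Fact p.Prime] {K : Type} [Field K] [NumberField K]

theorem ideal_pow_injective {R : Type*} [CommRing R] [IsDedekindDomain R] {A B : Ideal R} {n : ℕ}
    (hn : n ≠ 0) (h : A ^ n = B ^ n) : A = B := by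
  have h1 : A ∣ B := (UniqueFactorizationMonoid.pow_dvd_pow_iff_dvd hn).1 (h ▸ dvd_rfl)
  have h2 : B ∣ A := (UniqueFactorizationMonoid.pow_dvd_pow_iff_dvd hn).1 (h ▸ dvd_rfl)
  exact dvd_antisymm h1 h2

/-- **the class relation**: if `(α) = I^p` and `σ α = α^m β^p` then `[σ I] = [I]^m`. -/
theorem class_rel {α : 𝓞 K} (hα : α ≠ 0) {I : (Ideal (𝓞 K))⁰}
    (hI : Ideal.span {α} = (I : Ideal (𝓞 K)) ^ p) (σ : K ≃ₐ[ℚ] K) (m : ℕ) (β : K)
    (hβ : σ (α : K) = (α : K) ^ m * β ^ p) :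
    ClassGroup.mulEquiv (gRing K σ) (ClassGroup.mk0 I) = ClassGroup.mk0 I ^ m := by
  have hp0 : p ≠ 0 := hp.out.ne_zero
  obtain ⟨n, d, hd, hnd⟩ := IsFractionRing.div_surjective (A := 𝓞 K) β
  have hd0 : d ≠ 0 := nonZeroDivisors.ne_zero hd
  have hdK : (algebraMap (𝓞 K) K d) ≠ 0 := by
    simpa using hd0
  -- the equation in `𝓞 K`
  have heq : gRing K σ α * d ^ p = α ^ m * n ^ p := by
    apply RingOfIntegers.coe_injective
    show (algebraMap (𝓞 K) K) (gRing K σ α * d ^ p) = (algebraMap (𝓞 K) K) (α ^ m * n ^ p)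
    rw [map_mul, map_mul, map_pow, map_pow, map_pow]
    have h1 : (algebraMap (𝓞 K) K) (gRing K σ α) = σ (α : K) := rfl
    rw [h1, hβ, ← hnd, div_pow]
    field_simp
  have hσα : gRing K σ α ≠ 0 := by
    intro h
    exact hα ((gRing K σ).injective (by rw [h, map_zero]))
  have hn0 : n ≠ 0 := by
    intro h
    rw [h, zero_pow hp0, mul_zero] at heq
    exact mul_ne_zero hσα (pow_ne_zero p hd0) heq
  -- the equation between ideals
  have hJ : Ideal.span {gRing K σ α} =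
      ((Ideal.mapNonZero (gRing K σ) I : (Ideal (𝓞 K))⁰) : Ideal (𝓞 K)) ^ p := by
    rw [Ideal.coe_mapNonZero, ← Ideal.map_pow, ← hI, Ideal.map_span, Set.image_singleton]
    rfl
  have hid : (Ideal.span {d} * ((Ideal.mapNonZero (gRing K σ) I : (Ideal (𝓞 K))⁰) :
      Ideal (𝓞 K))) ^ p = (Ideal.span {n} * (I : Ideal (𝓞 K)) ^ m) ^ p := by
    rw [mul_pow, mul_pow, ← hJ, Ideal.span_singleton_pow, Ideal.span_singleton_pow,
      Ideal.span_singleton_mul_span_singleton, ← pow_mul, mul_comm m p, pow_mul, ← hI,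
      Ideal.span_singleton_pow, Ideal.span_singleton_mul_span_singleton]
    congr 1
    rw [mul_comm (d ^ p), heq, mul_comm]
  have hid' := ideal_pow_injective hp0 hid
  rw [ClassGroup.mulEquiv_mk0, ← map_pow]
  rw [ClassGroup.mk0_eq_mk0_iff]
  exact ⟨d, n, hd0, hn0, by rw [hid']; rfl⟩

end ClassRel

section Main

open NumberField Fermat.Agent.S14.Defs
open scoped nonZeroDivisors

variable (p : ℕ) [hp : Fact p.Prime] (K : Type) [Field K] [NumberField K]

theorem card_gal_zmod [IsCyclotomicExtension {p} ℚ K] :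
    ((Fintype.card (K ≃ₐ[ℚ] K) : ℕ) : ZMod p) = -1 := by
  have : IsGalois ℚ K := IsCyclotomicExtension.isGalois {p} ℚ K
  have h1 : Nat.card (K ≃ₐ[ℚ] K) = Module.finrank ℚ K := IsGalois.card_aut_eq_finrank ℚ K
  have h2 : Module.finrank ℚ K = p - 1 := by
    rw [IsCyclotomicExtension.finrank (n := p) K
      (Polynomial.cyclotomic.irreducible_rat hp.out.pos), Nat.totient_prime hp.out]
  rw [← Nat.card_eq_fintype_card, h1, h2, Nat.cast_sub hp.out.one_le, ZMod.natCast_self, zero_sub,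
    Nat.cast_one]

/-- the exponent `k` with `σ ζ = ζ ^ k` is `κ σ` modulo `p`. -/
theorem natCast_eq_autToPow {ζ : K} (hζ : IsPrimitiveRoot ζ p) (σ : K ≃ₐ[ℚ] K) (k : ℕ)
    (hk : σ ζ = ζ ^ k) : (k : ZMod p) = ((hζ.autToPow ℚ σ : (ZMod p)ˣ) : ZMod p) := by
  have h1 := hζ.autToPow_spec ℚ σ
  rw [hk] at h1
  have hζ0 : ζ ≠ 0 := hζ.ne_zero hp.out.ne_zero
  have h2 : ζ ^ (((((hζ.autToPow ℚ σ : (ZMod p)ˣ) : ZMod p).val : ℕ) : ℤ) - (k : ℤ)) = 1 := by
    rw [zpow_sub₀ hζ0, zpow_natCast, zpow_natCast, h1, div_self (pow_ne_zero k hζ0)]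
  have h3 := (hζ.zpow_eq_one_iff_dvd _).1 h2
  have h4 : ((((((hζ.autToPow ℚ σ : (ZMod p)ˣ) : ZMod p).val : ℕ) : ℤ) - (k : ℤ) : ℤ) : ZMod p) = 0 :=
    (ZMod.intCast_zmod_eq_zero_iff_dvd _ p).2 h3
  push_cast at h4
  rw [ZMod.natCast_zmod_val] at h4
  exact (sub_eq_zero.1 h4).symm

/-- a primitive `p`-th root of unity in `ℂ`. -/
theorem exists_omega : ∃ ω : ℂ, IsPrimitiveRoot ω p :=
  ⟨_, Complex.isPrimitiveRoot_exp p hp.out.ne_zero⟩

/-- the character of the class group attached to a homomorphism `Φ : Cl → 𝔽_p`. -/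
def charOf {ω : ℂ} (hω : ω ^ p = 1) (Φ : Additive (ClassGroup (𝓞 K)) →+ ZMod p) :
    ClassGroup (𝓞 K) →* ℂˣ :=
  ((AddChar.zmodChar p hω).toMonoidHom.toHomUnits).comp (AddMonoidHom.toMultiplicativeRight Φ)

omit [NumberField K] in
theorem charOf_apply {ω : ℂ} (hω : ω ^ p = 1) (Φ : Additive (ClassGroup (𝓞 K)) →+ ZMod p)
    (C : ClassGroup (𝓞 K)) :
    ((charOf p K hω Φ C : ℂˣ) : ℂ) = AddChar.zmodChar p hω (Φ (Additive.ofMul C)) := rfl

end Main

section Final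

open NumberField Fermat.Agent.S14.Defs
open scoped nonZeroDivisors

/-- **(C) CharPkg**: from a non-principal ideal `I` with `I ^ p = (α)`, `α` of type `ω²`, to a
nontrivial character of the class group of order `p` and of type `ω²`. -/
theorem charPkg (p : ℕ) [hp : Fact p.Prime] : Skeleton.CharPkg p := by
  intro K _ _ _ ζ hζ α I hα hω hI hnp
  have hp0 : p ≠ 0 := hp.out.ne_zero
  have hζK : IsPrimitiveRoot (ζ : K) p := hζ.map_of_injective RingOfIntegers.coe_injective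
  -- the ideal `I` is nonzero
  have hI0 : I ≠ ⊥ := by
    rintro rfl
    rw [Ideal.bot_pow hp0, Ideal.span_singleton_eq_bot] at hI
    exact hα hI
  set I0 : (Ideal (𝓞 K))⁰ := ⟨I, mem_nonZeroDivisors_of_ne_zero hI0⟩ with hI0def
  set c : Additive (ClassGroup (𝓞 K)) := Additive.ofMul (ClassGroup.mk0 I0) with hcdef
  have hc0 : c ≠ 0 := by
    intro h
    apply hnp
    have h1 : ClassGroup.mk0 I0 = 1 := h
    exact (ClassGroup.mk0_eq_one_iff I0.2).1 h1
  have hpc : p • c = 0 := by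
    have h1 : ClassGroup.mk0 I0 ^ p = 1 := by
      rw [← map_pow]
      have h2 : ((I0 ^ p : (Ideal (𝓞 K))⁰) : Ideal (𝓞 K)) = Ideal.span {α} := by
        rw [hI]; rfl
      rw [ClassGroup.mk0_eq_one_iff (I0 ^ p).2, h2]
      exact ⟨⟨α, rfl⟩⟩
    exact congrArg Additive.ofMul h1
  -- the action
  have hc : ∀ σ : K ≃ₐ[ℚ] K, rhoCl K σ c =
      ((((hζK.autToPow ℚ σ : (ZMod p)ˣ) : ZMod p) ^ 2).val) • c := by
    intro σ
    set k : ℕ := ((hζK.autToPow ℚ σ : (ZMod p)ˣ) : ZMod p).val with hk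
    have hσζ : σ (ζ : K) = (ζ : K) ^ k := (hζK.autToPow_spec ℚ σ).symm
    obtain ⟨β, hβ⟩ := hω σ k hσζ
    have h1 := class_rel (p := p) hα (I := I0) hI σ (k ^ 2) β hβ
    have h2 : rhoCl K σ c = (k ^ 2) • c := by
      rw [hcdef, rhoCl_apply, h1]
      rfl
    rw [h2]
    apply nsmul_eq_of_natCast_eq p hpc
    rw [ZMod.natCast_zmod_val, Nat.cast_pow, hk, ZMod.natCast_zmod_val]
  obtain ⟨Φ, hΦ0, hΦ⟩ := exists_equivariant_hom p (card_gal_zmod p K) (rhoCl K) (rhoCl_mul K)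
    (hζK.autToPow ℚ) c hc0 hpc hc
  obtain ⟨ω, hω'⟩ := exists_omega p
  have hω1 : ω ^ p = 1 := hω'.pow_eq_one
  refine ⟨charOf p K hω1 Φ, ?_, ?_, ?_⟩
  · -- nontrivial
    intro h
    apply hΦ0
    apply AddMonoidHom.ext
    intro x
    have h1 : ((charOf p K hω1 Φ (Additive.toMul x : ClassGroup (𝓞 K)) : ℂˣ) : ℂ) = 1 := by
      rw [h]; rfl
    rw [charOf_apply p K hω1 Φ, AddChar.zmodChar_apply] at h1
    have h2 : (Φ x).val = 0 := by
      by_contra hne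
      exact hω'.pow_ne_one_of_pos_of_lt hne (ZMod.val_lt _) h1
    rw [AddMonoidHom.zero_apply]
    exact (ZMod.val_eq_zero _).1 h2
  · -- order dividing `p`
    ext C
    rw [MonoidHom.pow_apply, MonoidHom.one_apply, Units.val_pow_eq_pow_val, Units.val_one,
      charOf_apply, AddChar.zmodChar_apply, ← pow_mul, mul_comm, pow_mul, hω1, one_pow]
  · -- type `ω²`
    intro σ k hk I' J' hJ'
    have hkκ := natCast_eq_autToPow p K hζK σ k hk
    apply Units.ext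
    rw [Units.val_pow_eq_pow_val, charOf_apply, charOf_apply, ← rhoCl_mk0 K σ I' J' hJ', hΦ,
      ← AddChar.map_nsmul_eq_pow, nsmul_eq_mul, Nat.cast_pow, hkκ]

end Final

end Fermat.Agent.S14.CharDual
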