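import Mathlib

/-!
# S14, package (U i): the `ω²` cyclotomic unit is not a `p`-th power modulo `(1 - ζ)³`

`K = ℚ(ζ_p)`, `p ≥ 5`.  We define the unit `E2u = ∏_a ((1 - ζ^a)/(1 - ζ))^(c a)` with
`c a ≡ a⁻² mod p`, show that it has type `ω²` and that `E2u ^ k ≡ y ^ p mod (1 - ζ)³` forces
`p ∣ k`.  The local computation is done in the truncated polynomial ring `F_p[e]/(e³)`, on whose
unit group the `e²`-coefficient of the logarithm is a homomorphism to `(F_p, +)`.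
-/

set_option autoImplicit false
set_option linter.unusedSectionVars false

namespace Fermat.Agent.S14.UnitLocal

/-- The truncated polynomial ring `F[e]/(e³)`, as triples of coefficients. -/
@[ext]
structure T3 (F : Type*) where
  c0 : F
  c1 : F
  c2 : F

namespace T3

variable {F : Type*} [CommRing F]

instance : Zero (T3 F) := ⟨⟨0, 0, 0⟩⟩
instance : One (T3 F) := ⟨⟨1, 0, 0⟩⟩
instance : Add (T3 F) := ⟨fun x y => ⟨x.c0 + y.c0, x.c1 + y.c1, x.c2 + y.c2⟩⟩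
instance : Neg (T3 F) := ⟨fun x => ⟨-x.c0, -x.c1, -x.c2⟩⟩
instance : Mul (T3 F) :=
  ⟨fun x y => ⟨x.c0 * y.c0, x.c0 * y.c1 + x.c1 * y.c0, x.c0 * y.c2 + x.c1 * y.c1 + x.c2 * y.c0⟩⟩

@[simp] theorem zero_c0 : (0 : T3 F).c0 = 0 := rfl
@[simp] theorem zero_c1 : (0 : T3 F).c1 = 0 := rfl
@[simp] theorem zero_c2 : (0 : T3 F).c2 = 0 := rfl
@[simp] theorem one_c0 : (1 : T3 F).c0 = 1 := rfl
@[simp] theorem one_c1 : (1 : T3 F).c1 = 0 := rfl
@[simp] theorem one_c2 : (1 : T3 F).c2 = 0 := rfl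
@[simp] theorem add_c0 (x y : T3 F) : (x + y).c0 = x.c0 + y.c0 := rfl
@[simp] theorem add_c1 (x y : T3 F) : (x + y).c1 = x.c1 + y.c1 := rfl
@[simp] theorem add_c2 (x y : T3 F) : (x + y).c2 = x.c2 + y.c2 := rfl
@[simp] theorem neg_c0 (x : T3 F) : (-x).c0 = -x.c0 := rfl
@[simp] theorem neg_c1 (x : T3 F) : (-x).c1 = -x.c1 := rfl
@[simp] theorem neg_c2 (x : T3 F) : (-x).c2 = -x.c2 := rfl
@[simp] theorem mul_c0 (x y : T3 F) : (x * y).c0 = x.c0 * y.c0 := rfl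
@[simp] theorem mul_c1 (x y : T3 F) : (x * y).c1 = x.c0 * y.c1 + x.c1 * y.c0 := rfl
@[simp] theorem mul_c2 (x y : T3 F) :
    (x * y).c2 = x.c0 * y.c2 + x.c1 * y.c1 + x.c2 * y.c0 := rfl

instance : CommRing (T3 F) where
  add_assoc x y z := by ext <;> simp [add_assoc]
  zero_add x := by ext <;> simp
  add_zero x := by ext <;> simp
  add_comm x y := by ext <;> simp [add_comm]
  neg_add_cancel x := by ext <;> simp
  mul_assoc x y z := by ext <;> simp <;> ring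
  one_mul x := by ext <;> simp
  mul_one x := by ext <;> simp
  left_distrib x y z := by ext <;> simp <;> ring
  right_distrib x y z := by ext <;> simp <;> ring
  mul_comm x y := by ext <;> simp <;> ring
  zero_mul x := by ext <;> simp
  mul_zero x := by ext <;> simp
  nsmul := nsmulRec
  zsmul := zsmulRec

@[simp] theorem natCast_c0 (n : ℕ) : ((n : T3 F)).c0 = n := by
  induction n with
  | zero => simp
  | succ n ih => simp [ih]

@[simp] theorem natCast_c1 (n : ℕ) : ((n : T3 F)).c1 = 0 := by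
  induction n with
  | zero => simp
  | succ n ih => simp [ih]

@[simp] theorem natCast_c2 (n : ℕ) : ((n : T3 F)).c2 = 0 := by
  induction n with
  | zero => simp
  | succ n ih => simp [ih]

@[simp] theorem sub_c0 (x y : T3 F) : (x - y).c0 = x.c0 - y.c0 := by
  rw [sub_eq_add_neg]; simp [sub_eq_add_neg]
@[simp] theorem sub_c1 (x y : T3 F) : (x - y).c1 = x.c1 - y.c1 := by
  rw [sub_eq_add_neg]; simp [sub_eq_add_neg]
@[simp] theorem sub_c2 (x y : T3 F) : (x - y).c2 = x.c2 - y.c2 := by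
  rw [sub_eq_add_neg]; simp [sub_eq_add_neg]

@[simp] theorem pow_c0 (x : T3 F) (n : ℕ) : (x ^ n).c0 = x.c0 ^ n := by
  induction n with
  | zero => simp
  | succ n ih => simp [pow_succ, ih]

/-- the class of the variable `e` -/
def eps : T3 F := ⟨0, 1, 0⟩

@[simp] theorem eps_c0 : (eps : T3 F).c0 = 0 := rfl
@[simp] theorem eps_c1 : (eps : T3 F).c1 = 1 := rfl
@[simp] theorem eps_c2 : (eps : T3 F).c2 = 0 := rfl

theorem eps_pow_three : (eps : T3 F) ^ 3 = 0 := by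
  ext <;> simp [pow_succ]

theorem one_sub_eps_pow (i : ℕ) :
    ((1 : T3 F) - eps) ^ i = ⟨1, -(i : F), (i.choose 2 : F)⟩ := by
  induction i with
  | zero => ext <;> simp
  | succ i ih =>
    rw [pow_succ, ih]
    ext
    · simp
    · simp
    · simp [Nat.choose_succ_succ' i 1]

theorem sum_one_sub_eps_pow (t : ℕ) :
    ∑ i ∈ Finset.range t, ((1 : T3 F) - eps) ^ i =
      ⟨(t : F), -(t.choose 2 : F), (t.choose 3 : F)⟩ := by
  induction t with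
  | zero => ext <;> simp
  | succ t ih =>
    rw [Finset.sum_range_succ, ih, one_sub_eps_pow]
    ext
    · simp
    · simp [Nat.choose_succ_succ' t 1]
    · simp [Nat.choose_succ_succ' t 2, add_comm]

end T3

namespace T3

variable {F : Type*} [Field F]

/-- the `e²`-coefficient of the logarithm -/
noncomputable def lam (x : T3 F) : F := x.c2 / x.c0 - (x.c1 / x.c0) ^ 2 / 2

theorem lam_one : lam (1 : T3 F) = 0 := by simp [lam]

theorem lam_mul (h2 : (2 : F) ≠ 0) {x y : T3 F} (hx : x.c0 ≠ 0) (hy : y.c0 ≠ 0) :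
    lam (x * y) = lam x + lam y := by
  simp only [lam, mul_c0, mul_c1, mul_c2]
  field_simp
  ring

theorem lam_pow (h2 : (2 : F) ≠ 0) {x : T3 F} (hx : x.c0 ≠ 0) (k : ℕ) :
    lam (x ^ k) = k * lam x := by
  induction k with
  | zero => simp [lam_one]
  | succ k ih =>
    rw [pow_succ, lam_mul h2 (by simpa using pow_ne_zero k hx) hx, ih]
    push_cast
    ring

theorem prod_c0 {ι : Type*} (s : Finset ι) (f : ι → T3 F) :
    (∏ i ∈ s, f i).c0 = ∏ i ∈ s, (f i).c0 := by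
  classical
  induction s using Finset.induction_on with
  | empty => simp
  | insert i s hi ih => rw [Finset.prod_insert hi, Finset.prod_insert hi, mul_c0, ih]

theorem lam_prod (h2 : (2 : F) ≠ 0) {ι : Type*} (s : Finset ι) (f : ι → T3 F)
    (hf : ∀ i ∈ s, (f i).c0 ≠ 0) : lam (∏ i ∈ s, f i) = ∑ i ∈ s, lam (f i) := by
  classical
  induction s using Finset.induction_on with
  | empty => simp [lam_one]
  | insert i s hi ih =>
    have h1 : (∏ j ∈ s, f j).c0 ≠ 0 := by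
      rw [prod_c0]
      exact Finset.prod_ne_zero_iff.2 fun j hj => hf j (Finset.mem_insert_of_mem hj)
    rw [Finset.prod_insert hi, Finset.sum_insert hi,
      lam_mul h2 (hf i (Finset.mem_insert_self i s)) h1,
      ih fun j hj => hf j (Finset.mem_insert_of_mem hj)]

end T3

theorem two_mul_choose_two {R : Type*} [CommRing R] (t : ℕ) :
    (2 : R) * (t.choose 2 : R) = t * (t - 1) := by
  induction t with
  | zero => simp
  | succ t ih =>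
    rw [Nat.choose_succ_succ' t 1]
    push_cast
    rw [mul_add, ih]
    simp
    ring

theorem six_mul_choose_three {R : Type*} [CommRing R] (t : ℕ) :
    (6 : R) * (t.choose 3 : R) = t * (t - 1) * (t - 2) := by
  induction t with
  | zero => simp
  | succ t ih =>
    rw [Nat.choose_succ_succ' t 2]
    push_cast
    have h2 := two_mul_choose_two (R := R) t
    have : (6 : R) * ((t.choose 2 : R) + (t.choose 3 : R)) =
      3 * (2 * (t.choose 2 : R)) + 6 * (t.choose 3 : R) := by ring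
    rw [this, ih, h2]
    ring

theorem T3.lam_triple {F : Type*} [Field F] (h2 : (2 : F) ≠ 0) (h3 : (3 : F) ≠ 0) {x C2 C3 : F}
    (hx : x ≠ 0) (hC2 : 2 * C2 = x * (x - 1)) (hC3 : 6 * C3 = x * (x - 1) * (x - 2)) :
    T3.lam (⟨x, -C2, C3⟩ : T3 F) = (x - 1) * (x - 5) / 24 := by
  have h6 : (6 : F) ≠ 0 := by
    have : (6 : F) = 2 * 3 := by norm_num
    rw [this]; exact mul_ne_zero h2 h3
  have h24 : (24 : F) ≠ 0 := by
    have : (24 : F) = 2 * 2 * 6 := by norm_num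
    rw [this]; exact mul_ne_zero (mul_ne_zero h2 h2) h6
  have e2 : C2 = x * (x - 1) / 2 := by field_simp; linear_combination hC2
  have e3 : C3 = x * (x - 1) * (x - 2) / 6 := by field_simp; linear_combination hC3
  simp only [T3.lam]
  rw [e2, e3]
  field_simp
  ring

open NumberField Polynomial

section zmod

variable {p : ℕ} [hp : Fact p.Prime]

theorem zmod_two_ne_zero (h5 : 5 ≤ p) : (2 : ZMod p) ≠ 0 := by
  have : ((2 : ℕ) : ZMod p) ≠ 0 := by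
    rw [Ne, ZMod.natCast_eq_zero_iff]
    intro h
    have := Nat.le_of_dvd (by norm_num) h
    omega
  simpa using this

theorem zmod_three_ne_zero (h5 : 5 ≤ p) : (3 : ZMod p) ≠ 0 := by
  have : ((3 : ℕ) : ZMod p) ≠ 0 := by
    rw [Ne, ZMod.natCast_eq_zero_iff]
    intro h
    have := Nat.le_of_dvd (by norm_num) h
    omega
  simpa using this

theorem zmod_twentyfour_ne_zero (h5 : 5 ≤ p) : (24 : ZMod p) ≠ 0 := by
  have : (24 : ZMod p) = 2 * 2 * 2 * 3 := by norm_num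
  rw [this]
  exact mul_ne_zero (mul_ne_zero (mul_ne_zero (zmod_two_ne_zero h5) (zmod_two_ne_zero h5))
    (zmod_two_ne_zero h5)) (zmod_three_ne_zero h5)

theorem sum_units_pow_eq_zero (h5 : 5 ≤ p) {i : ℕ} (hi0 : 0 < i) (hi : i ≤ 2) :
    ∑ a : (ZMod p)ˣ, ((a : ZMod p)) ^ i = 0 := by
  rw [FiniteField.sum_pow_units (ZMod p) i, ZMod.card, if_neg]
  intro h
  have := Nat.le_of_dvd hi0 h
  omega

theorem sum_units_inv_pow_eq_zero (h5 : 5 ≤ p) {i : ℕ} (hi0 : 0 < i) (hi : i ≤ 2) :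
    ∑ a : (ZMod p)ˣ, (((a⁻¹ : (ZMod p)ˣ) : ZMod p)) ^ i = 0 := by
  rw [← sum_units_pow_eq_zero h5 hi0 hi]
  exact Fintype.sum_equiv (Equiv.inv (ZMod p)ˣ) _ _ fun a => rfl

theorem card_units_cast : ((Fintype.card (ZMod p)ˣ : ℕ) : ZMod p) = -1 := by
  rw [ZMod.card_units_eq_totient, Nat.totient_prime hp.out]
  have h1 : 1 ≤ p := hp.out.one_le
  rw [Nat.cast_sub h1]
  simp

/-- the key sum `∑ a⁻² (a - 1)(a - 5)/24 = -1/24` -/
theorem key_sum (h5 : 5 ≤ p) :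
    ∑ a : (ZMod p)ˣ, ((((a⁻¹) ^ 2 : (ZMod p)ˣ) : ZMod p)) *
      (((a : ZMod p) - 1) * ((a : ZMod p) - 5) / 24) = -1 / 24 := by
  have h24 := zmod_twentyfour_ne_zero h5
  have hterm : ∀ a : (ZMod p)ˣ, ((((a⁻¹) ^ 2 : (ZMod p)ˣ) : ZMod p)) *
      (((a : ZMod p) - 1) * ((a : ZMod p) - 5) / 24) =
      (1 - 6 * ((a⁻¹ : (ZMod p)ˣ) : ZMod p) ^ 1 + 5 * ((a⁻¹ : (ZMod p)ˣ) : ZMod p) ^ 2) / 24 := by
    intro a
    have ha : (a : ZMod p) * ((a⁻¹ : (ZMod p)ˣ) : ZMod p) = 1 := by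
      rw [← Units.val_mul, mul_inv_cancel, Units.val_one]
    rw [Units.val_pow_eq_pow_val, ← mul_div_assoc]
    congr 1
    linear_combination ((a : ZMod p) * ((a⁻¹ : (ZMod p)ˣ) : ZMod p) + 1 -
      6 * ((a⁻¹ : (ZMod p)ˣ) : ZMod p)) * ha
  rw [Finset.sum_congr rfl fun a _ => hterm a, ← Finset.sum_div]
  congr 1
  rw [Finset.sum_add_distrib, Finset.sum_sub_distrib, ← Finset.mul_sum, ← Finset.mul_sum,
    sum_units_inv_pow_eq_zero h5 one_pos one_le_two, sum_units_inv_pow_eq_zero h5 two_pos le_rfl,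
    Finset.sum_const, Finset.card_univ, nsmul_eq_mul, card_units_cast]
  ring

end zmod

section cyclo

variable {p : ℕ} [hp : Fact p.Prime] {K : Type} [Field K] [NumberField K]
  [IsCyclotomicExtension {p} ℚ K] {ζ : K} (hζ : IsPrimitiveRoot ζ p)

theorem minpoly_toInteger : minpoly ℤ hζ.toInteger = cyclotomic p ℤ := by
  rw [cyclotomic_eq_minpoly hζ hp.out.pos]
  exact (NumberField.RingOfIntegers.minpoly_coe hζ.toInteger).symm

theorem aeval_one_sub_eps (h5 : 5 ≤ p) :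
    aeval ((1 : T3 (ZMod p)) - T3.eps) (minpoly ℤ hζ.integralPowerBasis.gen) = 0 := by
  rw [hζ.integralPowerBasis_gen, minpoly_toInteger hζ, cyclotomic_prime ℤ p]
  simp only [map_sum, map_pow, aeval_X]
  rw [T3.sum_one_sub_eps_pow]
  have h2 : ((p.choose 2 : ℕ) : ZMod p) = 0 := by
    rw [ZMod.natCast_eq_zero_iff]
    exact hp.out.dvd_choose_self (by norm_num) (by omega)
  have h3 : ((p.choose 3 : ℕ) : ZMod p) = 0 := by
    rw [ZMod.natCast_eq_zero_iff]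
    exact hp.out.dvd_choose_self (by norm_num) (by omega)
  ext <;> simp [h2, h3]

/-- the reduction `𝓞 K → F_p[e]/(e³)`, `ζ ↦ 1 - e` -/
noncomputable def phi3 (h5 : 5 ≤ p) : 𝓞 K →+* T3 (ZMod p) :=
  (hζ.integralPowerBasis.lift ((1 : T3 (ZMod p)) - T3.eps) (aeval_one_sub_eps hζ h5)).toRingHom

theorem phi3_zeta (h5 : 5 ≤ p) : phi3 hζ h5 hζ.toInteger = 1 - T3.eps := by
  have := hζ.integralPowerBasis.lift_gen ((1 : T3 (ZMod p)) - T3.eps) (aeval_one_sub_eps hζ h5)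
  rw [hζ.integralPowerBasis_gen] at this
  exact this

theorem phi3_one_sub_zeta (h5 : 5 ≤ p) : phi3 hζ h5 (1 - hζ.toInteger) = T3.eps := by
  rw [map_sub, map_one, phi3_zeta]; ring

theorem phi3_eq_zero_of_mem (h5 : 5 ≤ p) {x : 𝓞 K}
    (hx : x ∈ (Ideal.span {1 - hζ.toInteger}) ^ 3) : phi3 hζ h5 x = 0 := by
  rw [Ideal.span_singleton_pow, Ideal.mem_span_singleton] at hx
  obtain ⟨z, rfl⟩ := hx
  rw [map_mul, map_pow, phi3_one_sub_zeta, T3.eps_pow_three, zero_mul]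

theorem phi3_geom_sum (h5 : 5 ≤ p) (t : ℕ) :
    phi3 hζ h5 (∑ i ∈ Finset.range t, hζ.toInteger ^ i) =
      ⟨(t : ZMod p), -(t.choose 2 : ZMod p), (t.choose 3 : ZMod p)⟩ := by
  rw [map_sum]
  simp only [map_pow, phi3_zeta]
  exact T3.sum_one_sub_eps_pow t

/-- the cyclotomic unit `(1 - ζ^a)/(1 - ζ) = 1 + ζ + ⋯ + ζ^(a-1)` -/
noncomputable def eta (a : (ZMod p)ˣ) : (𝓞 K)ˣ :=
  (hζ.toInteger_isPrimitiveRoot.geom_sum_isUnit hp.out.two_le
    (ZMod.val_coe_unit_coprime a)).unit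

theorem eta_coe (a : (ZMod p)ˣ) :
    ((eta hζ a : (𝓞 K)ˣ) : 𝓞 K) = ∑ i ∈ Finset.range (a : ZMod p).val, hζ.toInteger ^ i :=
  IsUnit.unit_spec _

/-- the exponent `c a ≡ a⁻² mod p` -/
def cexp (a : (ZMod p)ˣ) : ℕ := (((a⁻¹) ^ 2 : (ZMod p)ˣ) : ZMod p).val

/-- the `ω²` cyclotomic unit -/
noncomputable def E2u : (𝓞 K)ˣ := ∏ a : (ZMod p)ˣ, eta hζ a ^ cexp a

theorem phi3_eta (h5 : 5 ≤ p) (a : (ZMod p)ˣ) :
    phi3 hζ h5 ((eta hζ a : (𝓞 K)ˣ) : 𝓞 K) =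
      ⟨(a : ZMod p), -(((a : ZMod p).val.choose 2 : ℕ) : ZMod p),
        (((a : ZMod p).val.choose 3 : ℕ) : ZMod p)⟩ := by
  rw [eta_coe, phi3_geom_sum, ZMod.natCast_zmod_val]

theorem phi3_eta_c0 (h5 : 5 ≤ p) (a : (ZMod p)ˣ) :
    (phi3 hζ h5 ((eta hζ a : (𝓞 K)ˣ) : 𝓞 K)).c0 = (a : ZMod p) := by
  rw [phi3_eta]

theorem lam_phi3_eta (h5 : 5 ≤ p) (a : (ZMod p)ˣ) :
    T3.lam (phi3 hζ h5 ((eta hζ a : (𝓞 K)ˣ) : 𝓞 K)) =
      ((a : ZMod p) - 1) * ((a : ZMod p) - 5) / 24 := by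
  rw [phi3_eta]
  apply T3.lam_triple (zmod_two_ne_zero h5) (zmod_three_ne_zero h5) a.ne_zero
  · have := two_mul_choose_two (R := ZMod p) (a : ZMod p).val
    rwa [ZMod.natCast_zmod_val] at this
  · have := six_mul_choose_three (R := ZMod p) (a : ZMod p).val
    rwa [ZMod.natCast_zmod_val] at this

theorem phi3_E2u (h5 : 5 ≤ p) :
    phi3 hζ h5 ((E2u hζ : (𝓞 K)ˣ) : 𝓞 K) =
      ∏ a : (ZMod p)ˣ, phi3 hζ h5 ((eta hζ a : (𝓞 K)ˣ) : 𝓞 K) ^ cexp a := by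
  rw [E2u, Units.coe_prod, map_prod]
  exact Finset.prod_congr rfl fun a _ => by rw [Units.val_pow_eq_pow_val, map_pow]

theorem phi3_E2u_c0_ne_zero (h5 : 5 ≤ p) :
    (phi3 hζ h5 ((E2u hζ : (𝓞 K)ˣ) : 𝓞 K)).c0 ≠ 0 := by
  rw [phi3_E2u, T3.prod_c0]
  refine Finset.prod_ne_zero_iff.2 fun a _ => ?_
  rw [T3.pow_c0, phi3_eta_c0]
  exact pow_ne_zero _ a.ne_zero

/-- the `e²`-coefficient of `log E2u` is `-1/24` -/
theorem lam_phi3_E2u (h5 : 5 ≤ p) :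
    T3.lam (phi3 hζ h5 ((E2u hζ : (𝓞 K)ˣ) : 𝓞 K)) = -1 / 24 := by
  have h2 := zmod_two_ne_zero (p := p) h5
  rw [phi3_E2u, T3.lam_prod h2]
  · rw [← key_sum h5]
    refine Finset.sum_congr rfl fun a _ => ?_
    rw [T3.lam_pow h2 (by rw [phi3_eta_c0]; exact a.ne_zero), lam_phi3_eta, cexp,
      ZMod.natCast_zmod_val]
  · intro a _
    rw [T3.pow_c0, phi3_eta_c0]
    exact pow_ne_zero _ a.ne_zero

/-- **(U i)**: if `E2u ^ k` is a `p`-th power modulo `(1 - ζ)³` then `p ∣ k`. -/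
theorem dvd_of_pow_congr (h5 : 5 ≤ p) (k : ℕ) (y : 𝓞 K)
    (h : ((E2u hζ : (𝓞 K)ˣ) : 𝓞 K) ^ k - y ^ p ∈ (Ideal.span {1 - hζ.toInteger}) ^ 3) :
    p ∣ k := by
  have h2 := zmod_two_ne_zero (p := p) h5
  have h0 := phi3_eq_zero_of_mem hζ h5 h
  rw [map_sub, map_pow, map_pow, sub_eq_zero] at h0
  have hE := phi3_E2u_c0_ne_zero hζ h5
  have hy : (phi3 hζ h5 y).c0 ≠ 0 := by
    intro hy
    have := congrArg T3.c0 h0
    rw [T3.pow_c0, T3.pow_c0, hy, zero_pow hp.out.ne_zero] at this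
    exact pow_ne_zero k hE this
  have h1 := congrArg T3.lam h0
  rw [T3.lam_pow h2 hE, T3.lam_pow h2 hy, lam_phi3_E2u, CharP.cast_eq_zero (ZMod p) p,
    zero_mul] at h1
  rw [← ZMod.natCast_eq_zero_iff]
  have h24 := zmod_twentyfour_ne_zero (p := p) h5
  have : (k : ZMod p) * (-1 / 24) = 0 := h1
  rcases mul_eq_zero.1 this with h | h
  · exact h
  · exfalso
    rw [div_eq_zero_iff] at h
    rcases h with h | h
    · simp at h
    · exact h24 h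

/-- `E2u ^ k` is a `p`-th power in `K` only if `p ∣ k`. -/
theorem dvd_of_pow_eq_pow (h5 : 5 ≤ p) (k : ℕ) (y : K)
    (h : (((E2u hζ : (𝓞 K)ˣ) : 𝓞 K) : K) ^ k = y ^ p) : p ∣ k := by
  have hy : IsIntegral ℤ y := by
    apply IsIntegral.of_pow hp.out.pos
    rw [← h]
    exact (RingOfIntegers.isIntegral_coe _).pow k
  let y' : 𝓞 K := ⟨y, hy⟩
  apply dvd_of_pow_congr hζ h5 k y'
  have : ((E2u hζ : (𝓞 K)ˣ) : 𝓞 K) ^ k = y' ^ p := by
    apply RingOfIntegers.ext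
    rw [RingOfIntegers.coe_eq_algebraMap, RingOfIntegers.coe_eq_algebraMap, map_pow, map_pow]
    exact h
  rw [this, sub_self]
  exact Ideal.zero_mem _

/-- `E2u` is not a `p`-th power in `K`. -/
theorem E2u_not_pow (h5 : 5 ≤ p) (y : K) : (((E2u hζ : (𝓞 K)ˣ) : 𝓞 K) : K) ≠ y ^ p := by
  intro h
  have := dvd_of_pow_eq_pow hζ h5 1 y (by rw [pow_one]; exact h)
  exact hp.out.one_lt.ne' (Nat.dvd_one.1 this)

/-! ### The Galois action on `E2u` -/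

/-- the action of `σ` on units -/
noncomputable def sigU (σ : K ≃ₐ[ℚ] K) : (𝓞 K)ˣ →* (𝓞 K)ˣ :=
  Units.map (RingOfIntegers.mapRingHom (σ : K →+* K)).toMonoidHom

theorem sigU_coe (σ : K ≃ₐ[ℚ] K) (u : (𝓞 K)ˣ) :
    (((sigU σ u : (𝓞 K)ˣ) : 𝓞 K) : K) = σ ((u : 𝓞 K) : K) := rfl

theorem eta_coe_K (a : (ZMod p)ˣ) :
    (((eta hζ a : (𝓞 K)ˣ) : 𝓞 K) : K) = ∑ i ∈ Finset.range (a : ZMod p).val, ζ ^ i := by
  rw [eta_coe, RingOfIntegers.coe_eq_algebraMap, map_sum]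
  refine Finset.sum_congr rfl fun i _ => ?_
  rw [map_pow]
  rfl

theorem eta_mul_one_sub (a : (ZMod p)ˣ) :
    (((eta hζ a : (𝓞 K)ˣ) : 𝓞 K) : K) * (1 - ζ) = 1 - ζ ^ (a : ZMod p).val := by
  rw [eta_coe_K, geom_sum_mul_neg]

include hζ in
theorem zeta_pow_val (n : ℕ) : ζ ^ ((n : ZMod p)).val = ζ ^ n := by
  rw [ZMod.val_natCast, ← pow_eq_pow_mod n hζ.pow_eq_one]

include hζ in
theorem coprime_of_map_zeta (σ : K ≃ₐ[ℚ] K) (s : ℕ) (hs : σ ζ = ζ ^ s) : s.Coprime p := by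
  have h1 : IsPrimitiveRoot (σ ζ) p := hζ.map_of_injective σ.injective
  rw [hs] at h1
  exact (hζ.pow_iff_coprime hp.out.pos s).1 h1

theorem sigU_eta (σ : K ≃ₐ[ℚ] K) (s : ℕ) (hs : σ ζ = ζ ^ s) (a : (ZMod p)ˣ) :
    sigU σ (eta hζ a) =
      eta hζ (ZMod.unitOfCoprime s (coprime_of_map_zeta hζ σ s hs) * a) *
        (eta hζ (ZMod.unitOfCoprime s (coprime_of_map_zeta hζ σ s hs)))⁻¹ := by
  set sb := ZMod.unitOfCoprime s (coprime_of_map_zeta hζ σ s hs) with hsb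
  rw [eq_mul_inv_iff_mul_eq]
  apply Units.ext
  apply RingOfIntegers.ext
  rw [Units.val_mul, RingOfIntegers.coe_eq_algebraMap, map_mul]
  change σ (((eta hζ a : (𝓞 K)ˣ) : 𝓞 K) : K) * (((eta hζ sb : (𝓞 K)ˣ) : 𝓞 K) : K) =
    (((eta hζ (sb * a) : (𝓞 K)ˣ) : 𝓞 K) : K)
  have h1 : (1 - ζ) ≠ 0 := sub_ne_zero.2 (hζ.ne_one hp.out.one_lt).symm
  apply mul_right_cancel₀ h1
  have hsbv : (sb : ZMod p) = (s : ZMod p) := ZMod.coe_unitOfCoprime s _
  rw [mul_assoc, eta_mul_one_sub, eta_mul_one_sub, hsbv, zeta_pow_val hζ, ← hs]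
  have h2 : (1 : K) - σ ζ = σ (1 - ζ) := by rw [map_sub, map_one]
  rw [h2, ← map_mul, eta_mul_one_sub, map_sub, map_one, map_pow, hs, Units.val_mul, hsbv,
    ← pow_mul]
  congr 1
  have : ((s : ZMod p) * (a : ZMod p)) = ((s * (a : ZMod p).val : ℕ) : ZMod p) := by
    rw [Nat.cast_mul, ZMod.natCast_zmod_val]
  rw [this, zeta_pow_val hζ]

theorem sum_cexp_dvd (h5 : 5 ≤ p) : p ∣ ∑ a : (ZMod p)ˣ, cexp a := by
  rw [← ZMod.natCast_eq_zero_iff, Nat.cast_sum, ← sum_units_inv_pow_eq_zero h5 two_pos le_rfl]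
  refine Finset.sum_congr rfl fun a _ => ?_
  rw [cexp, ZMod.natCast_zmod_val, Units.val_pow_eq_pow_val]

theorem cexp_shift (sb b : (ZMod p)ˣ) (s : ℕ) (hs : (sb : ZMod p) = (s : ZMod p)) :
    ∃ k : ℤ, (cexp (sb⁻¹ * b) : ℤ) = (s ^ 2 * cexp b : ℕ) + p * k := by
  have h1 : ((cexp (sb⁻¹ * b) : ℕ) : ZMod p) = ((s ^ 2 * cexp b : ℕ) : ZMod p) := by
    rw [Nat.cast_mul, Nat.cast_pow, cexp, cexp, ZMod.natCast_zmod_val, ZMod.natCast_zmod_val,
      ← hs, ← Units.val_pow_eq_pow_val, ← Units.val_mul]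
    congr 1
    rw [mul_inv, inv_inv, mul_pow]
  have h2 : (((cexp (sb⁻¹ * b) : ℕ) : ℤ) : ZMod p) = (((s ^ 2 * cexp b : ℕ) : ℤ) : ZMod p) := by
    rw [Int.cast_natCast, Int.cast_natCast, h1]
  rw [ZMod.intCast_eq_intCast_iff_dvd_sub] at h2
  obtain ⟨k, hk⟩ := h2
  exact ⟨-k, by linarith⟩

/-- **`E2u` has type `ω²`**, at the level of units. -/
theorem sigU_E2u (h5 : 5 ≤ p) (σ : K ≃ₐ[ℚ] K) (s : ℕ) (hs : σ ζ = ζ ^ s) :
    ∃ w : (𝓞 K)ˣ, sigU σ (E2u hζ) = E2u hζ ^ (s ^ 2) * w ^ p := by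
  set sb := ZMod.unitOfCoprime s (coprime_of_map_zeta hζ σ s hs) with hsb
  have hsbv : (sb : ZMod p) = (s : ZMod p) := ZMod.coe_unitOfCoprime s _
  obtain ⟨M, hM⟩ := sum_cexp_dvd (p := p) h5
  have hk : ∀ b : (ZMod p)ˣ, ∃ k : ℤ, (cexp (sb⁻¹ * b) : ℤ) = (s ^ 2 * cexp b : ℕ) + p * k :=
    fun b => cexp_shift sb b s hsbv
  choose k hk using hk
  refine ⟨(∏ b : (ZMod p)ˣ, eta hζ b ^ k b) * ((eta hζ sb)⁻¹) ^ M, ?_⟩
  have h1 : sigU σ (E2u hζ) =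
      (∏ a : (ZMod p)ˣ, eta hζ (sb * a) ^ cexp a) * ((eta hζ sb)⁻¹) ^ ∑ a : (ZMod p)ˣ, cexp a := by
    rw [E2u, map_prod, ← Finset.prod_pow_eq_pow_sum, ← Finset.prod_mul_distrib]
    refine Finset.prod_congr rfl fun a _ => ?_
    rw [map_pow, sigU_eta hζ σ s hs a, mul_pow]
  have h2 : (∏ a : (ZMod p)ˣ, eta hζ (sb * a) ^ cexp a) =
      ∏ b : (ZMod p)ˣ, eta hζ b ^ cexp (sb⁻¹ * b) := by
    refine Fintype.prod_equiv (Equiv.mulLeft sb) _ _ fun a => ?_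
    simp
  have h3 : ∀ b : (ZMod p)ˣ, eta hζ b ^ cexp (sb⁻¹ * b) =
      (eta hζ b ^ cexp b) ^ (s ^ 2) * (eta hζ b ^ k b) ^ p := by
    intro b
    rw [← zpow_natCast (eta hζ b) (cexp (sb⁻¹ * b)), hk b, zpow_add, zpow_natCast,
      mul_comm (s ^ 2) (cexp b), pow_mul, mul_comm (p : ℤ) (k b), zpow_mul, zpow_natCast]
  rw [h1, h2, Finset.prod_congr rfl fun b _ => h3 b, Finset.prod_mul_distrib, Finset.prod_pow,
    Finset.prod_pow, hM, mul_comm p M, pow_mul, mul_pow, E2u, mul_assoc]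

/-- **`E2u` has type `ω²`**: `σ E2u = E2u ^ (s²) * w ^ p` whenever `σ ζ = ζ ^ s`. -/
theorem E2u_type (h5 : 5 ≤ p) (σ : K ≃ₐ[ℚ] K) (s : ℕ) (hs : σ ζ = ζ ^ s) :
    ∃ w : (𝓞 K)ˣ, σ (((E2u hζ : (𝓞 K)ˣ) : 𝓞 K) : K) =
      (((E2u hζ : (𝓞 K)ˣ) : 𝓞 K) : K) ^ (s ^ 2) * ((w : 𝓞 K) : K) ^ p := by
  obtain ⟨w, hw⟩ := sigU_E2u hζ h5 σ s hs
  refine ⟨w, ?_⟩
  rw [← sigU_coe, hw, Units.val_mul, Units.val_pow_eq_pow_val, Units.val_pow_eq_pow_val,
    RingOfIntegers.coe_eq_algebraMap, map_mul, map_pow, map_pow]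

/-- The element `E_2 = ∏_a (1 - ζ^a)^(c a)` of Thaine's relation differs from `E2u` by a `p`-th
power. -/
theorem prod_one_sub_zeta_pow (h5 : 5 ≤ p) :
    ∃ M : ℕ, ∏ a : (ZMod p)ˣ, (1 - ζ ^ (a : ZMod p).val) ^ cexp a =
      (((E2u hζ : (𝓞 K)ˣ) : 𝓞 K) : K) * ((1 - ζ) ^ M) ^ p := by
  obtain ⟨M, hM⟩ := sum_cexp_dvd (p := p) h5
  refine ⟨M, ?_⟩
  have h1 : (((E2u hζ : (𝓞 K)ˣ) : 𝓞 K) : K) =
      ∏ a : (ZMod p)ˣ, (((eta hζ a : (𝓞 K)ˣ) : 𝓞 K) : K) ^ cexp a := by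
    rw [E2u, Units.coe_prod, RingOfIntegers.coe_eq_algebraMap, map_prod]
    refine Finset.prod_congr rfl fun a _ => ?_
    rw [Units.val_pow_eq_pow_val, map_pow]
  rw [h1, ← pow_mul, mul_comm M p, ← hM, ← Finset.prod_pow_eq_pow_sum, ← Finset.prod_mul_distrib]
  refine Finset.prod_congr rfl fun a _ => ?_
  rw [← mul_pow, eta_mul_one_sub]

end cyclo

end Fermat.Agent.S14.UnitLocal
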