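import Mathlib
import Fermat.Agent.S14.Defs
import Fermat.Agent.S14.Skeleton
import Fermat.Agent.S14.UnitLocal

/-!
# S14: bridge between `UnitLocal.E2u` and `Defs.E2num`; the package `Skeleton.UnitLocalPkg`
-/

set_option autoImplicit false
set_option linter.unusedSectionVars false

namespace Fermat.Agent.S14.E2Bridge

open NumberField Fermat.Agent.S14.Defs Fermat.Agent.S14.UnitLocal

variable {p : ℕ} [hp : Fact p.Prime] {K : Type} [Field K] [NumberField K]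
  [IsCyclotomicExtension {p} ℚ K]

/-- a primitive root in `𝓞 K` is primitive in `K` -/
theorem isPrimitiveRoot_coe {ζ : 𝓞 K} (hζ : IsPrimitiveRoot ζ p) : IsPrimitiveRoot (ζ : K) p :=
  hζ.map_of_injective (f := algebraMap (𝓞 K) K) (RingOfIntegers.coe_injective)

theorem toInteger_coe {ζ : 𝓞 K} (hζ : IsPrimitiveRoot ζ p) :
    (isPrimitiveRoot_coe hζ).toInteger = ζ :=
  RingOfIntegers.ext rfl

theorem coprime_of_mem_Ico {t : ℕ} (ht : t ∈ Finset.Ico 1 p) : t.Coprime p := by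
  rw [Finset.mem_Ico] at ht
  exact ((Nat.Prime.coprime_iff_not_dvd hp.out).2 (Nat.not_dvd_of_pos_of_lt ht.1 ht.2)).symm

theorem cexp_eq_cExp (a : (ZMod p)ˣ) : cexp a = cExp p (a : ZMod p).val := by
  rw [cexp, cExp, ZMod.natCast_zmod_val, Units.val_pow_eq_pow_val, Units.val_inv_eq_inv_val]

/-- reindexing `Defs.E2num` over the units of `ZMod p` -/
theorem E2num_eq_prod_units (ζ : 𝓞 K) :
    E2num K p ζ = ∏ a : (ZMod p)ˣ, (1 - ζ ^ (a : ZMod p).val) ^ cexp a := by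
  rw [E2num]
  symm
  refine Finset.prod_bij' (fun a _ => (a : ZMod p).val)
    (fun t ht => ZMod.unitOfCoprime t (coprime_of_mem_Ico ht)) ?_ ?_ ?_ ?_ ?_
  · intro a _
    rw [Finset.mem_Ico]
    refine ⟨?_, ZMod.val_lt _⟩
    rw [Nat.one_le_iff_ne_zero, Ne, ZMod.val_eq_zero]
    exact a.ne_zero
  · intro t _
    exact Finset.mem_univ _
  · intro a _
    apply Units.ext
    rw [ZMod.coe_unitOfCoprime, ZMod.natCast_zmod_val]
  · intro t ht
    rw [ZMod.coe_unitOfCoprime, ZMod.val_natCast]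
    exact Nat.mod_eq_of_lt (Finset.mem_Ico.1 ht).2
  · intro a _
    rw [cexp_eq_cExp]

theorem E2u_mul_eq_E2num (h5 : 5 ≤ p) {ζ : 𝓞 K} (hζ : IsPrimitiveRoot ζ p) :
    ∃ j : ℕ, ((E2u (isPrimitiveRoot_coe hζ) : (𝓞 K)ˣ) : 𝓞 K) * (1 - ζ) ^ (p * j) =
      E2num K p ζ := by
  obtain ⟨M, hM⟩ := sum_cexp_dvd (p := p) h5
  refine ⟨M, ?_⟩
  rw [E2num_eq_prod_units, ← hM, ← Finset.prod_pow_eq_pow_sum, E2u, Units.coe_prod,
    ← Finset.prod_mul_distrib]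
  refine Finset.prod_congr rfl fun a _ => ?_
  rw [Units.val_pow_eq_pow_val, ← mul_pow, eta_coe, toInteger_coe hζ, geom_sum_mul_neg]

theorem sigU_eq (σ : K ≃ₐ[ℚ] K) :
    (sigU σ : (𝓞 K)ˣ →* (𝓞 K)ˣ) =
      Units.map (RingOfIntegers.mapRingEquiv (σ : K ≃+* K) : 𝓞 K →* 𝓞 K) := by
  ext u
  rfl

/-- **the package (U i) in the architect's exact shape** -/
theorem unitLocalPkg (p : ℕ) [Fact p.Prime] (h5 : 5 ≤ p) : Skeleton.UnitLocalPkg p := by
  intro K _ _ _ ζ hζ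
  have hK := isPrimitiveRoot_coe hζ
  refine ⟨E2u hK, E2u_mul_eq_E2num h5 hζ, ?_, ?_⟩
  · intro σ k hk
    obtain ⟨w, hw⟩ := sigU_E2u hK h5 σ k hk
    exact ⟨w, by rw [← sigU_eq, hw]⟩
  · intro k y hdvd
    apply dvd_of_pow_congr hK h5 k y
    rw [Ideal.span_singleton_pow, Ideal.mem_span_singleton, toInteger_coe hζ]
    have : (1 - ζ) ^ 3 = -((ζ - 1) ^ 3) := by ring
    rw [this, neg_dvd]
    exact hdvd

/-- `E2num` is not a `p`-th power in `K`. -/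
theorem E2num_not_pow (h5 : 5 ≤ p) {ζ : 𝓞 K} (hζ : IsPrimitiveRoot ζ p) :
    ¬ ∃ y : K, ((E2num K p ζ : 𝓞 K) : K) = y ^ p := by
  rintro ⟨y, hy⟩
  have hK := isPrimitiveRoot_coe hζ
  obtain ⟨j, hj⟩ := E2u_mul_eq_E2num h5 hζ
  have h1 : ((1 - ζ : 𝓞 K) : K) ≠ 0 := by
    have : (1 - ζ : 𝓞 K) ≠ 0 := sub_ne_zero.2 (hζ.ne_one hp.out.one_lt).symm
    exact fun h => this (RingOfIntegers.ext (by rw [h]; rfl))
  apply E2u_not_pow hK h5 (y / ((1 - ζ : 𝓞 K) : K) ^ j)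
  have hjK := congrArg (algebraMap (𝓞 K) K) hj
  rw [map_mul, map_pow] at hjK
  rw [div_pow, eq_div_iff (pow_ne_zero _ (pow_ne_zero _ h1)), ← hy, ← pow_mul, mul_comm j p]
  exact hjK

end Fermat.Agent.S14.E2Bridge
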