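import Mathlib
import Fermat.Agent.Kummer.Hilbert94
import Fermat.Agent.Kummer.Primary

/-!
# S14, the Kummer side: the Kummer generator of an unramified cyclic extension of `ℚ(ζ_p)`
-/

set_option autoImplicit false

namespace Fermat.Agent.S14.KummerGen

open scoped NumberField
open IsDedekindDomain HeightOneSpectrum

section Field

variable {p : ℕ} [hp : Fact p.Prime] {K L : Type} [Field K] [Field L] [Algebra K L]

/-- Galois conjugates of a `p`-th root of an element of `K` -/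
theorem conj_eq_zeta_pow_mul {ζ : K} (hζ : IsPrimitiveRoot ζ p) {a : L} (ha : a ≠ 0) {α : K}
    (haα : a ^ p = algebraMap K L α) (τ : L ≃ₐ[K] L) :
    ∃ j : ℕ, τ a = (algebraMap K L ζ) ^ j * a := by
  have : NeZero p := ⟨hp.out.ne_zero⟩
  have hζL : IsPrimitiveRoot (algebraMap K L ζ) p :=
    hζ.map_of_injective (algebraMap K L).injective
  have h1 : (τ a / a) ^ p = 1 := by
    rw [div_pow, ← map_pow, haα, τ.commutes, ← haα, div_self (pow_ne_zero _ ha)]
  obtain ⟨i, -, hi⟩ := hζL.eq_pow_of_pow_eq_one h1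
  exact ⟨i, by rw [hi, div_mul_cancel₀ _ ha]⟩

theorem conj_pow_eq {ζ : K} {a : L} {j : ℕ} (τ : L ≃ₐ[K] L)
    (hτ : τ a = (algebraMap K L ζ) ^ j * a) (n : ℕ) :
    (τ ^ n) a = (algebraMap K L ζ) ^ (j * n) * a := by
  induction n with
  | zero => simp
  | succ n ih =>
    rw [pow_succ', AlgEquiv.mul_apply, ih, map_mul, map_pow, τ.commutes, hτ, ← mul_assoc,
      ← pow_add, Nat.mul_succ]

/-- a `p`-th root outside `K` of `α ∈ K`: then `α` is not a `p`-th power in `K` -/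
theorem not_exists_pow_eq {ζ : K} (hζ : IsPrimitiveRoot ζ p) {a : L}
    (ha : a ∉ Set.range (algebraMap K L)) {α : K} (haα : a ^ p = algebraMap K L α) :
    ¬ ∃ β : K, β ^ p = α := by
  have : NeZero p := ⟨hp.out.ne_zero⟩
  rintro ⟨β, rfl⟩
  have hζL : IsPrimitiveRoot (algebraMap K L ζ) p :=
    hζ.map_of_injective (algebraMap K L).injective
  have ha0 : a ≠ 0 := by
    rintro rfl
    exact ha ⟨0, map_zero _⟩
  have hβ0 : algebraMap K L β ≠ 0 := by
    intro h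
    rw [map_pow, h, zero_pow hp.out.ne_zero] at haα
    exact ha0 (pow_eq_zero_iff hp.out.ne_zero |>.mp haα)
  have h1 : (a / algebraMap K L β) ^ p = 1 := by
    rw [div_pow, haα, map_pow, div_self (pow_ne_zero _ hβ0)]
  obtain ⟨i, -, hi⟩ := hζL.eq_pow_of_pow_eq_one h1
  apply ha
  refine ⟨ζ ^ i * β, ?_⟩
  rw [map_mul, map_pow, hi, div_mul_cancel₀ _ hβ0]

end Field

section Galois

open IntermediateField

variable {p : ℕ} [hp : Fact p.Prime] {K L : Type} [Field K] [Field L] [NumberField K]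
  [NumberField L] [Algebra K L] [IsGalois K L] [IsGalois ℚ L] [IsGalois ℚ K]

/-- **type `ω²`**: under the action hypothesis, `δ α = α ^ (c²) * β ^ p`. -/
theorem exists_type
    (hact : ∀ (σ : L ≃ₐ[ℚ] L) (τ : L ≃ₐ[K] L) (ζ : L) (k : ℕ), IsPrimitiveRoot ζ p →
      σ (ζ ^ k) = ζ → σ * τ.restrictScalars ℚ * σ⁻¹ = (τ ^ k).restrictScalars ℚ)
    {ζ : K} (hζ : IsPrimitiveRoot ζ p) {a : L} (ha : a ≠ 0) {α : K}
    (haα : a ^ p = algebraMap K L α) (δ : K ≃ₐ[ℚ] K) (c : ℕ) (hc : δ ζ = ζ ^ c) :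
    ∃ β : K, β ≠ 0 ∧ δ α = α ^ (c ^ 2) * β ^ p := by
  obtain ⟨σ, hσ⟩ := AlgEquiv.restrictNormalHom_surjective (F := ℚ) (K₁ := K) L δ
  have hσK : ∀ x : K, σ (algebraMap K L x) = algebraMap K L (δ x) := by
    intro x
    rw [← hσ]
    exact (AlgEquiv.restrictNormal_commutes σ K x).symm
  set ζL := algebraMap K L ζ with hζLdef
  have hζL : IsPrimitiveRoot ζL p := hζ.map_of_injective (algebraMap K L).injective
  have hσζ : σ ζL = ζL ^ c := by rw [hσK, hc, map_pow]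
  -- the element `σ a / a ^ (c²)` is fixed by `Gal(L/K)`
  have hfix : ∀ τ : L ≃ₐ[K] L, τ (σ a / a ^ (c ^ 2)) = σ a / a ^ (c ^ 2) := by
    intro τ
    obtain ⟨j, hj⟩ := conj_eq_zeta_pow_mul hζ ha haα τ
    have h1 := hact σ⁻¹ τ ζL c hζL (by
      rw [← hσζ]
      show σ⁻¹ (σ ζL) = ζL
      rw [← AlgEquiv.mul_apply, inv_mul_cancel, AlgEquiv.one_apply])
    have h2 := congrArg (fun f : L ≃ₐ[ℚ] L => f a) h1
    simp only [inv_inv, AlgEquiv.mul_apply, AlgEquiv.restrictScalars_apply] at h2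
    rw [conj_pow_eq τ hj c] at h2
    have h3 : τ (σ a) = ζL ^ (j * c * c) * σ a := by
      have := congrArg σ h2
      rw [← AlgEquiv.mul_apply, mul_inv_cancel, AlgEquiv.one_apply, map_mul, map_pow, hσζ,
        ← pow_mul] at this
      rw [this]
      congr 2
      ring
    rw [map_div₀, map_pow, h3, hj, mul_pow, ← pow_mul]
    have h4 : j * c ^ 2 = j * c * c := by ring
    rw [h4]
    have hz : ζL ^ (j * c * c) ≠ 0 := pow_ne_zero _ (hζL.ne_zero hp.out.ne_zero)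
    rw [hζLdef] at hz ⊢
    field_simp
  obtain ⟨β, hβ⟩ := (IsGalois.mem_range_algebraMap_iff_fixed (F := K) (E := L) _).mpr hfix
  have hσa : σ a ≠ 0 := by
    intro h
    exact ha ((map_eq_zero_iff σ σ.injective).mp h)
  have hβ0 : β ≠ 0 := by
    rintro rfl
    rw [map_zero] at hβ
    exact div_ne_zero hσa (pow_ne_zero _ ha) hβ.symm
  refine ⟨β, hβ0, ?_⟩
  apply (algebraMap K L).injective
  rw [← hσK, ← haα, map_pow, map_mul, map_pow, map_pow, ← haα, hβ, div_pow, ← pow_mul,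
    ← pow_mul, mul_comm p (c ^ 2)]
  have : (a ^ (c ^ 2 * p)) ≠ 0 := pow_ne_zero _ ha
  field_simp

omit [IsGalois ℚ L] [IsGalois ℚ K] in
/-- existence of a Kummer generator -/
theorem exists_gen (hdeg : Module.finrank K L = p) {ζ : K} (hζ : IsPrimitiveRoot ζ p) :
    ∃ (a : L) (α : K), a ^ p = algebraMap K L α ∧ a ∉ Set.range (algebraMap K L) := by
  have hcard : Nat.card (L ≃ₐ[K] L) = p := by
    rw [IsGalois.card_aut_eq_finrank, hdeg]
  have : IsCyclic (L ≃ₐ[K] L) := isCyclic_of_prime_card hcard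
  have hK : (primitiveRoots (Module.finrank K L) K).Nonempty := by
    rw [hdeg]
    exact ⟨ζ, (mem_primitiveRoots hp.out.pos).mpr hζ⟩
  obtain ⟨a, ⟨α, hα⟩, htop⟩ := exists_root_adjoin_eq_top_of_isCyclic K L hK
  rw [hdeg] at hα
  refine ⟨a, α, hα.symm, ?_⟩
  intro hmem
  have h1 : K⟮a⟯ = ⊥ := by
    rw [IntermediateField.adjoin_simple_eq_bot_iff, IntermediateField.mem_bot]
    exact hmem
  rw [htop] at h1
  have h2 := IntermediateField.bot_eq_top_iff_finrank_eq_one.mp h1.symm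
  rw [hdeg] at h2
  exact hp.out.one_lt.ne' h2

end Galois

section Integral

variable {p : ℕ} [hp : Fact p.Prime] {K L : Type} [Field K] [Field L] [NumberField K]
  [NumberField L] [Algebra K L]

omit hp [NumberField K] [NumberField L] in
theorem coe_algebraMap_ringOfIntegers (x : 𝓞 K) :
    ((algebraMap (𝓞 K) (𝓞 L) x : 𝓞 L) : L) = algebraMap K L (x : K) := by
  show algebraMap (𝓞 L) L (algebraMap (𝓞 K) (𝓞 L) x) = algebraMap K L (algebraMap (𝓞 K) K x)
  rw [← IsScalarTower.algebraMap_apply (𝓞 K) (𝓞 L) L, IsScalarTower.algebraMap_apply (𝓞 K) K L]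

omit hp in
/-- make a Kummer pair integral -/
theorem exists_integral_gen {a : L} {α : K} (haα : a ^ p = algebraMap K L α)
    (ha : a ∉ Set.range (algebraMap K L)) :
    ∃ (a' : L) (α' : K), a' ^ p = algebraMap K L α' ∧ a' ∉ Set.range (algebraMap K L) ∧
      IsIntegral ℤ a' ∧ IsIntegral ℤ α' := by
  obtain ⟨y, hy0, hy⟩ := exists_integral_multiples ℤ ℚ ({a} : Finset L)
  have hint : IsIntegral ℤ (y • a) := hy a (Finset.mem_singleton_self a)
  have hsm : y • a = algebraMap K L (y : K) * a := by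
    rw [zsmul_eq_mul, map_intCast]
  have hyK : (y : K) ≠ 0 := Int.cast_ne_zero.mpr hy0
  have hpow : (y • a) ^ p = algebraMap K L ((y : K) ^ p * α) := by
    rw [hsm, mul_pow, haα, map_mul, map_pow]
  refine ⟨y • a, (y : K) ^ p * α, hpow, ?_, hint, ?_⟩
  · rintro ⟨z, hz⟩
    apply ha
    refine ⟨z / (y : K), ?_⟩
    rw [map_div₀, hz, hsm, mul_div_assoc, mul_comm, div_mul_cancel₀]
    exact (map_ne_zero_iff _ (algebraMap K L).injective).mpr hyK
  · rw [← isIntegral_algebraMap_iff (algebraMap K L).injective, ← hpow]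
    exact hint.pow p

omit hp [NumberField K] in
/-- the conversion of the unramifiedness hypothesis -/
theorem ramificationIdx'_eq_one
    (hunr : ∀ P : Ideal (𝓞 L), P.IsPrime → P ≠ ⊥ → P.ramificationIdx (𝓞 K) = 1)
    (v : HeightOneSpectrum (𝓞 K)) (w : HeightOneSpectrum (𝓞 L))
    (hvw : w.asIdeal.LiesOver v.asIdeal) : v.asIdeal.ramificationIdx' w.asIdeal = 1 := by
  have := hvw
  have := w.isPrime
  rw [Ideal.ramificationIdx'_eq_ramificationIdx v.asIdeal w.asIdeal v.ne_bot]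
  exact hunr w.asIdeal w.isPrime w.ne_bot

omit hp in
/-- the ideal generated by the Kummer generator is a `p`-th power -/
theorem exists_ideal_pow (hp0 : p ≠ 0)
    (hunr : ∀ P : Ideal (𝓞 L), P.IsPrime → P ≠ ⊥ → P.ramificationIdx (𝓞 K) = 1)
    (α : 𝓞 K) (hα : α ≠ 0) (a : 𝓞 L) (h : algebraMap (𝓞 K) (𝓞 L) α = a ^ p) :
    ∃ I : Ideal (𝓞 K), Ideal.span {α} = I ^ p := by
  classical
  have hspan : (Ideal.span {α} : Ideal (𝓞 K)) ≠ 0 := by
    rw [Ideal.zero_eq_bot, Ne, Ideal.span_singleton_eq_bot]; exact hα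
  have ha : Associates.mk (Ideal.span {α} : Ideal (𝓞 K)) ≠ 0 := Associates.mk_ne_zero.mpr hspan
  obtain ⟨b, hb⟩ := Associates.is_pow_of_dvd_count ha (k := p) (by
    intro q hq
    obtain ⟨P, rfl⟩ := Associates.mk_surjective q
    have hP : Irreducible P := Associates.irreducible_mk.mp hq
    have hP0 : P ≠ ⊥ := hP.ne_zero
    have hPprime : P.IsPrime := (Ideal.prime_iff_isPrime hP0).mp
      (UniqueFactorizationMonoid.irreducible_iff_prime.mp hP)
    exact Fermat.Agent.Kummer.dvd_count_of_unramified p hp0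
      (fun v w hvw => ramificationIdx'_eq_one hunr v w hvw) α hα a 1
      (by rw [h, Units.val_one, one_mul]) ⟨P, hPprime, hP0⟩)
  obtain ⟨I, rfl⟩ := Associates.mk_surjective b
  rw [← Associates.mk_pow, Associates.mk_eq_mk_iff_associated, associated_iff_eq] at hb
  exact ⟨I, hb⟩

end Integral

section Local

variable {p : ℕ} [hp : Fact p.Prime] {K L : Type} [Field K] [Field L] [NumberField K]
  [NumberField L] [Algebra K L]

omit hp [NumberField K] [NumberField L] [Algebra K L] in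
theorem coe_mul' (a b : 𝓞 L) : ((a * b : 𝓞 L) : L) = (a : L) * (b : L) :=
  map_mul (algebraMap (𝓞 L) L) a b

omit hp [NumberField K] [NumberField L] in
/-- divisibility descends from `𝓞 L` to `𝓞 K` -/
theorem dvd_of_algebraMap_dvd (x y : 𝓞 K) (hx : x ≠ 0)
    (h : algebraMap (𝓞 K) (𝓞 L) x ∣ algebraMap (𝓞 K) (𝓞 L) y) : x ∣ y := by
  obtain ⟨t, ht⟩ := h
  have hxK : (x : K) ≠ 0 := NumberField.RingOfIntegers.coe_ne_zero_iff.mpr hx
  have hxL : algebraMap K L (x : K) ≠ 0 := (map_ne_zero_iff _ (algebraMap K L).injective).mpr hxK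
  have h1 : algebraMap K L (y : K) = algebraMap K L (x : K) * (t : L) := by
    rw [← coe_algebraMap_ringOfIntegers, ht, coe_mul', coe_algebraMap_ringOfIntegers]
  have h2 : algebraMap K L ((y : K) / (x : K)) = (t : L) := by
    rw [map_div₀, h1, mul_div_assoc, mul_comm, div_mul_cancel₀ _ hxL]
  have hq : IsIntegral ℤ ((y : K) / (x : K)) := by
    rw [← isIntegral_algebraMap_iff (algebraMap K L).injective, h2]
    exact NumberField.RingOfIntegers.isIntegral_coe t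
  refine ⟨⟨(y : K) / (x : K), hq⟩, ?_⟩
  apply NumberField.RingOfIntegers.coe_injective
  rw [map_mul]
  show (y : K) = (x : K) * ((y : K) / (x : K))
  rw [mul_div_cancel₀ _ hxK]

omit hp in
/-- for an unramified extension and a prime element `π` of `𝓞 K`, the ideal `π 𝓞 L` is radical -/
theorem dvd_of_dvd_pow_of_unramified
    (hunr : ∀ P : Ideal (𝓞 L), P.IsPrime → P ≠ ⊥ → P.ramificationIdx (𝓞 K) = 1)
    {π : 𝓞 K} (hπ : Prime π) (y : 𝓞 L) (n : ℕ)
    (hy : algebraMap (𝓞 K) (𝓞 L) π ∣ y ^ n) : algebraMap (𝓞 K) (𝓞 L) π ∣ y := by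
  set πL := algebraMap (𝓞 K) (𝓞 L) π with hπL
  have hπL0 : πL ≠ 0 := by
    rw [hπL, Ne, map_eq_zero_iff _ (FaithfulSMul.algebraMap_injective (𝓞 K) (𝓞 L))]
    exact hπ.ne_zero
  have hπLL : (πL : L) ≠ 0 := NumberField.RingOfIntegers.coe_ne_zero_iff.mpr hπL0
  have hval : ∀ w : HeightOneSpectrum (𝓞 L), w.valuation L ((y : L) / (πL : L)) ≤ 1 := by
    intro w
    rw [map_div₀]
    have e1 : w.valuation L (y : L) = w.intValuation y := w.valuation_of_algebraMap y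
    have e2 : w.valuation L (πL : L) = w.intValuation πL := w.valuation_of_algebraMap πL
    rw [e1, e2]
    by_cases hw : πL ∈ w.asIdeal
    · have hyw : y ∈ w.asIdeal := by
        have : y ^ n ∈ w.asIdeal := by
          obtain ⟨t, ht⟩ := hy
          rw [ht]
          exact Ideal.mul_mem_right _ _ hw
        exact w.isPrime.mem_of_pow_mem n this
      have hspan : (Ideal.span {π} : Ideal (𝓞 K)).IsPrime :=
        (Ideal.span_singleton_prime hπ.ne_zero).mpr hπ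
      have hspan0 : (Ideal.span {π} : Ideal (𝓞 K)) ≠ ⊥ := by
        rw [Ne, Ideal.span_singleton_eq_bot]; exact hπ.ne_zero
      let v : HeightOneSpectrum (𝓞 K) := ⟨Ideal.span {π}, hspan, hspan0⟩
      have hmax : (Ideal.span {π} : Ideal (𝓞 K)).IsMaximal := hspan.isMaximal hspan0
      have hover : w.asIdeal.LiesOver v.asIdeal := by
        constructor
        have hle : Ideal.span {π} ≤ w.asIdeal.under (𝓞 K) := by
          rw [Ideal.span_singleton_le_iff_mem, Ideal.under_def, Ideal.mem_comap]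
          exact hw
        have hne : w.asIdeal.under (𝓞 K) ≠ ⊤ := by
          have := w.isPrime
          exact (Ideal.IsPrime.under (𝓞 K) w.asIdeal).ne_top
        exact hmax.eq_of_le hne hle
      have h1 := intValuation_liesOver v w π
      rw [ramificationIdx'_eq_one hunr v w hover, pow_one,
        v.intValuation_singleton hπ.ne_zero rfl] at h1
      have h2 : w.intValuation y ≤ WithZero.exp (-1) := by
        have := (w.intValuation_le_pow_iff_mem y 1).mpr (by simpa using hyw)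
        simpa using this
      rw [← hπL] at h1
      rw [← h1]
      exact (div_le_one₀ (by simp)).mpr h2
    · rw [intValuation_eq_one_iff.mpr hw, div_one]
      exact w.intValuation_le_one y
  obtain ⟨b, hb⟩ := mem_integers_of_valuation_le_one L ((y : L) / (πL : L)) hval
  refine ⟨b, ?_⟩
  apply NumberField.RingOfIntegers.coe_injective
  rw [map_mul]
  show (y : L) = (πL : L) * algebraMap (𝓞 L) L b
  rw [hb, mul_div_cancel₀ _ hπLL]

end Local

section Cyclo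

variable {p : ℕ} [hp : Fact p.Prime] {K L : Type} [Field K] [Field L] [NumberField K]
  [NumberField L] [Algebra K L] [IsCyclotomicExtension {p} ℚ K]

/-- remove the `(ζ - 1)`-part of the Kummer generator -/
theorem exists_normalised {ζ : K} (hζ : IsPrimitiveRoot ζ p) (α : 𝓞 K) (hα : α ≠ 0)
    (I : Ideal (𝓞 K)) (hI : Ideal.span {α} = I ^ p) :
    ∃ (m : ℕ) (α₂ : 𝓞 K) (J : Ideal (𝓞 K)), α = (hζ.toInteger - 1) ^ (m * p) * α₂ ∧
      Ideal.span {α₂} = J ^ p ∧ ¬ (hζ.toInteger - 1) ∣ α₂ := by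
  set π := hζ.toInteger - 1 with hπdef
  have hπ : Prime π := hζ.zeta_sub_one_prime'
  have hPprime : (Ideal.span {π} : Ideal (𝓞 K)).IsPrime :=
    (Ideal.span_singleton_prime hπ.ne_zero).mpr hπ
  have hP0 : (Ideal.span {π} : Ideal (𝓞 K)) ≠ ⊥ := by
    rw [Ne, Ideal.span_singleton_eq_bot]; exact hπ.ne_zero
  have hP : Prime (Ideal.span {π} : Ideal (𝓞 K)) := Ideal.prime_of_isPrime hP0 hPprime
  have hI0 : I ≠ 0 := by
    rintro rfl
    rw [zero_pow hp.out.ne_zero, Ideal.zero_eq_bot, Ideal.span_singleton_eq_bot] at hI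
    exact hα hI
  obtain ⟨J, hJ, hnd⟩ := (FiniteMultiplicity.of_prime_left hP hI0).exists_eq_pow_mul_and_not_dvd
  set m := multiplicity (Ideal.span {π} : Ideal (𝓞 K)) I with hm
  have h1 : Ideal.span {α} = Ideal.span {π ^ (m * p)} * J ^ p := by
    rw [hI, hJ, mul_pow, ← pow_mul, Ideal.span_singleton_pow]
  have h2 : π ^ (m * p) ∣ α := by
    rw [← Ideal.mem_span_singleton, ← Ideal.span_singleton_le_iff_mem, h1]
    exact (Ideal.mul_le_left : Ideal.span {π ^ (m * p)} * J ^ p ≤ Ideal.span {π ^ (m * p)})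
  obtain ⟨α₂, hα₂⟩ := h2
  have hπpow0 : (Ideal.span {π ^ (m * p)} : Ideal (𝓞 K)) ≠ 0 := by
    rw [Ideal.zero_eq_bot, Ne, Ideal.span_singleton_eq_bot]
    exact pow_ne_zero _ hπ.ne_zero
  have h3 : Ideal.span {α₂} = J ^ p := by
    apply mul_left_cancel₀ hπpow0
    rw [← h1, hα₂, Ideal.span_singleton_mul_span_singleton]
  refine ⟨m, α₂, J, hα₂, h3, ?_⟩
  intro hdvd
  apply hnd
  have h4 : Ideal.span {π} ∣ J ^ p := by
    rw [← h3, Ideal.dvd_iff_le, Ideal.span_singleton_le_iff_mem, Ideal.mem_span_singleton]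
    exact hdvd
  exact hP.dvd_of_dvd_pow h4

/-- the local condition at `ζ - 1`: `α ≡ x ^ p mod (ζ - 1) ^ p` with `x ∈ ℤ`. -/
theorem local_congr (hp2 : p ≠ 2)
    (hunr : ∀ P : Ideal (𝓞 L), P.IsPrime → P ≠ ⊥ → P.ramificationIdx (𝓞 K) = 1)
    {ζ : K} (hζ : IsPrimitiveRoot ζ p) (α : 𝓞 K) (hα : ¬ (hζ.toInteger - 1) ∣ α) (a : 𝓞 L)
    (h : algebraMap (𝓞 K) (𝓞 L) α = a ^ p) :
    ∃ x : ℤ, ¬ (p : ℤ) ∣ x ∧ α - (x : 𝓞 K) ^ p ∈ Ideal.span {hζ.toInteger - 1} ^ p := by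
  set π := hζ.toInteger - 1 with hπdef
  have hπ : Prime π := hζ.zeta_sub_one_prime'
  have hπp : π ∣ (p : 𝓞 K) := hζ.toInteger_sub_one_dvd_prime'
  obtain ⟨x, hx⟩ := Fermat.Agent.Kummer.prim_exists_int_sub_dvd hζ α
  have hpx : ¬ (p : ℤ) ∣ x := by
    intro hdvd
    apply hα
    have h1 : π ∣ ((x : ℤ) : 𝓞 K) := by
      obtain ⟨t, rfl⟩ := hdvd
      push_cast
      exact Dvd.dvd.mul_right hπp _
    have := dvd_add hx h1
    rwa [sub_add_cancel] at this
  refine ⟨x, hpx, ?_⟩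
  -- Fermat's little theorem
  have hfermat : (p : ℤ) ∣ x ^ p - x := by
    rw [← ZMod.intCast_zmod_eq_zero_iff_dvd]
    push_cast
    rw [ZMod.pow_card, sub_self]
  have h1 : π ∣ α - (x : 𝓞 K) ^ p := by
    have h2 : π ∣ (((x ^ p - x : ℤ)) : 𝓞 K) := by
      obtain ⟨t, ht⟩ := hfermat
      rw [ht]
      push_cast
      exact Dvd.dvd.mul_right hπp _
    have h3 : α - (x : 𝓞 K) ^ p = (α - (x : 𝓞 K)) - ((x ^ p - x : ℤ) : 𝓞 K) := by
      push_cast; ring
    rw [h3]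
    exact dvd_sub hx h2
  set πL := algebraMap (𝓞 K) (𝓞 L) π with hπL
  have hπLp : πL ∣ (p : 𝓞 L) := by
    have := map_dvd (algebraMap (𝓞 K) (𝓞 L)) hπp
    rwa [map_natCast] at this
  -- `π ∣ (a - x) ^ p`
  have hodd : Odd p := hp.out.odd_of_ne_two hp2
  obtain ⟨r, hr⟩ := exists_add_pow_prime_eq hp.out a (-(x : 𝓞 L))
  have h4 : πL ∣ (a - (x : 𝓞 L)) ^ p := by
    rw [sub_eq_add_neg, hr, hodd.neg_pow, ← h]
    have h5 : algebraMap (𝓞 K) (𝓞 L) α + -(x : 𝓞 L) ^ p =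
        algebraMap (𝓞 K) (𝓞 L) (α - (x : 𝓞 K) ^ p) := by
      rw [map_sub, map_pow, map_intCast]; ring
    rw [h5]
    refine dvd_add (map_dvd _ h1) ?_
    rw [mul_assoc, mul_assoc]
    exact Dvd.dvd.mul_right hπLp _
  obtain ⟨b, hb⟩ := dvd_of_dvd_pow_of_unramified hunr hπ _ p h4
  have hab : a = (x : 𝓞 L) + πL * b := by rw [← hb]; ring
  obtain ⟨r', hr'⟩ := exists_add_pow_prime_eq hp.out (x : 𝓞 L) (πL * b)
  obtain ⟨u, hu⟩ := IsCyclotomicExtension.Rat.associated_zeta_sub_one_pow_prime p hζ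
  have hpL : (p : 𝓞 L) = πL ^ (p - 1) * algebraMap (𝓞 K) (𝓞 L) u := by
    rw [hπL, ← map_pow, ← map_mul, hu, map_natCast]
  have h6 : algebraMap (𝓞 K) (𝓞 L) (α - (x : 𝓞 K) ^ p) =
      πL ^ p * (b ^ p + algebraMap (𝓞 K) (𝓞 L) u * x * b * r') := by
    have hpp : πL ^ p = πL ^ (p - 1) * πL := by
      rw [← pow_succ, Nat.sub_add_cancel hp.out.one_le]
    rw [map_sub, h, hab, hr', map_pow, map_intCast, hpL]
    linear_combination (-(algebraMap (𝓞 K) (𝓞 L) u * x * b * r')) * hpp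
  have h7 : π ^ p ∣ α - (x : 𝓞 K) ^ p := by
    apply dvd_of_algebraMap_dvd (L := L) _ _ (pow_ne_zero _ hπ.ne_zero)
    rw [map_pow, h6]
    exact Dvd.intro _ rfl
  rw [Ideal.span_singleton_pow, Ideal.mem_span_singleton]
  exact h7

end Cyclo

section Main

variable {p : ℕ} [hp : Fact p.Prime] (K L : Type) [Field K] [Field L] [NumberField K]
  [NumberField L] [Algebra K L] [IsCyclotomicExtension {p} ℚ K] [IsGalois K L] [IsGalois ℚ L]

/-- **The Kummer generator** of an unramified cyclic extension `L/K` of degree `p` of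
`K = ℚ(ζ_p)` with the `ω⁻¹`-action: an integral `α`, prime to `ζ - 1`, not a `p`-th power, whose
ideal is a `p`-th power, of type `ω²`, and congruent to the `p`-th power of a rational integer
modulo `(ζ - 1) ^ p`. -/
theorem exists_kummer_generator (hp2 : p ≠ 2) (hdeg : Module.finrank K L = p)
    (hunr : ∀ P : Ideal (𝓞 L), P.IsPrime → P ≠ ⊥ → P.ramificationIdx (𝓞 K) = 1)
    (hact : ∀ (σ : L ≃ₐ[ℚ] L) (τ : L ≃ₐ[K] L) (ζ : L) (k : ℕ), IsPrimitiveRoot ζ p →
      σ (ζ ^ k) = ζ → σ * τ.restrictScalars ℚ * σ⁻¹ = (τ ^ k).restrictScalars ℚ)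
    {ζ : K} (hζ : IsPrimitiveRoot ζ p) :
    ∃ α : 𝓞 K, α ≠ 0 ∧ (¬ ∃ β : K, β ^ p = (α : K)) ∧
      (∃ I : Ideal (𝓞 K), Ideal.span {α} = I ^ p) ∧
      (∀ (δ : K ≃ₐ[ℚ] K) (c : ℕ), δ ζ = ζ ^ c →
        ∃ β : K, β ≠ 0 ∧ δ (α : K) = (α : K) ^ (c ^ 2) * β ^ p) ∧
      (∃ x : ℤ, ¬ (p : ℤ) ∣ x ∧ α - (x : 𝓞 K) ^ p ∈ Ideal.span {hζ.toInteger - 1} ^ p) := by
  have : IsGalois ℚ K := IsCyclotomicExtension.isGalois {p} ℚ K
  have hp0 : p ≠ 0 := hp.out.ne_zero
  obtain ⟨a₀, α₀, h₀, ha₀⟩ := exists_gen hdeg hζ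
  obtain ⟨a₁, α₁, h₁, ha₁, hia₁, hiα₁⟩ := exists_integral_gen h₀ ha₀
  set α₁' : 𝓞 K := ⟨α₁, hiα₁⟩ with hα₁'
  set a₁' : 𝓞 L := ⟨a₁, hia₁⟩ with ha₁'
  have h₁' : algebraMap (𝓞 K) (𝓞 L) α₁' = a₁' ^ p := by
    apply NumberField.RingOfIntegers.coe_injective
    rw [map_pow]
    exact (coe_algebraMap_ringOfIntegers α₁').trans h₁.symm
  have hα₁0 : α₁' ≠ 0 := by
    intro h0
    have : α₁ = 0 := congrArg (fun z : 𝓞 K => (z : K)) h0
    rw [this, map_zero] at h₁
    exact ha₁ ⟨0, by rw [map_zero, (pow_eq_zero_iff hp0).mp h₁]⟩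
  obtain ⟨I, hI⟩ := exists_ideal_pow hp0 hunr α₁' hα₁0 a₁' h₁'
  obtain ⟨m, α₂, J, hα₂, hJ, hnd⟩ := exists_normalised hζ α₁' hα₁0 I hI
  set π := hζ.toInteger - 1 with hπdef
  have hπ : Prime π := hζ.zeta_sub_one_prime'
  have hπK : (π : K) ≠ 0 := NumberField.RingOfIntegers.coe_ne_zero_iff.mpr hπ.ne_zero
  have hπL : algebraMap K L (π : K) ≠ 0 := (map_ne_zero_iff _ (algebraMap K L).injective).mpr hπK
  -- the normalised root
  set a₂ : L := a₁ / (algebraMap K L (π : K)) ^ m with ha₂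
  have h₂ : a₂ ^ p = algebraMap K L (α₂ : K) := by
    have e1 : α₁ = (π : K) ^ (m * p) * (α₂ : K) := by
      have := congrArg (algebraMap (𝓞 K) K) hα₂
      rw [map_mul, map_pow] at this
      exact this
    rw [ha₂, div_pow, h₁, e1, map_mul, map_pow, ← pow_mul, mul_div_assoc, mul_comm,
      div_mul_cancel₀ _ (pow_ne_zero _ hπL)]
  have ha₂r : a₂ ∉ Set.range (algebraMap K L) := by
    rintro ⟨z, hz⟩
    apply ha₁
    refine ⟨z * (π : K) ^ m, ?_⟩
    rw [map_mul, map_pow, hz, ha₂, div_mul_cancel₀ _ (pow_ne_zero _ hπL)]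
  have ha₂0 : a₂ ≠ 0 := by
    intro h0
    exact ha₂r ⟨0, by rw [map_zero, h0]⟩
  have hia₂ : IsIntegral ℤ a₂ := by
    apply IsIntegral.of_pow hp.out.pos
    rw [h₂]
    exact (NumberField.RingOfIntegers.isIntegral_coe α₂).algebraMap
  set a₂' : 𝓞 L := ⟨a₂, hia₂⟩ with ha₂'
  have h₂' : algebraMap (𝓞 K) (𝓞 L) α₂ = a₂' ^ p := by
    apply NumberField.RingOfIntegers.coe_injective
    rw [map_pow]
    exact (coe_algebraMap_ringOfIntegers α₂).trans h₂.symm
  have hα₂0 : α₂ ≠ 0 := by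
    rintro rfl
    exact hnd (dvd_zero _)
  refine ⟨α₂, hα₂0, not_exists_pow_eq hζ ha₂r h₂, ⟨J, hJ⟩, ?_, ?_⟩
  · intro δ c hc
    exact exists_type hact hζ ha₂0 h₂ δ c hc
  · exact local_congr hp2 hunr hζ α₂ hnd a₂' h₂'

end Main

end Fermat.Agent.S14.KummerGen
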