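import Mathlib
import Fermat.Agent.S14.CoreStd
import Fermat.Agent.S14.KummerGen
import Fermat.Agent.S14.UnitLocal
import Fermat.Agent.S14.Skeleton

/-!
# S14: the end game inside `K = ℚ(ζ_p)`
-/

set_option autoImplicit false

namespace Fermat.Agent.S14.EndGame

open scoped NumberField
open NumberField Fermat.Agent.S14

/-- **The class group input** (from the packages (C), (T), (D)): an ideal class of type `ω²`
killed by `p` is trivial. -/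
def ClassInput (p : ℕ) [Fact p.Prime] : Prop :=
  ∀ (K : Type) [Field K] [NumberField K] [IsCyclotomicExtension {p} ℚ K] (ζ : K),
    IsPrimitiveRoot ζ p → ∀ I : Ideal (𝓞 K), I ≠ ⊥ → (I ^ p).IsPrincipal →
    (∀ (δ : K ≃ₐ[ℚ] K) (c : ℕ), δ ζ = ζ ^ c → ∃ x y : 𝓞 K, x ≠ 0 ∧ y ≠ 0 ∧
      Ideal.span {x} * Defs.galIdeal K δ I = Ideal.span {y} * I ^ (c ^ 2)) →
    I.IsPrincipal

section Gal

variable {K : Type} [Field K] [NumberField K]

/-- the Galois action on `𝓞 K` -/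
noncomputable abbrev gal (δ : K ≃ₐ[ℚ] K) : 𝓞 K ≃+* 𝓞 K :=
  RingOfIntegers.mapRingEquiv (δ : K ≃+* K)

theorem coe_gal (δ : K ≃ₐ[ℚ] K) (x : 𝓞 K) : ((gal δ x : 𝓞 K) : K) = δ (x : K) := rfl

theorem galIdeal_span (δ : K ≃ₐ[ℚ] K) (x : 𝓞 K) :
    Defs.galIdeal K δ (Ideal.span {x}) = Ideal.span {gal δ x} := by
  rw [Defs.galIdeal, Ideal.map_span, Set.image_singleton]

theorem galIdeal_pow (δ : K ≃ₐ[ℚ] K) (I : Ideal (𝓞 K)) (n : ℕ) :
    Defs.galIdeal K δ (I ^ n) = Defs.galIdeal K δ I ^ n := by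
  rw [Defs.galIdeal, Defs.galIdeal, Ideal.map_pow]

/-- `p`-th powers of ideals determine the ideal -/
theorem ideal_pow_inj {n : ℕ} (hn : n ≠ 0) {I J : Ideal (𝓞 K)} (h : I ^ n = J ^ n) : I = J := by
  have h1 : I ∣ J := (UniqueFactorizationMonoid.pow_dvd_pow_iff_dvd hn).mp (by rw [h])
  have h2 : J ∣ I := (UniqueFactorizationMonoid.pow_dvd_pow_iff_dvd hn).mp (by rw [h])
  exact le_antisymm (Ideal.le_of_dvd h2) (Ideal.le_of_dvd h1)

/-- the ideal `I` with `I ^ p = (α)` has type `ω²` -/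
theorem ideal_type {p : ℕ} (hp0 : p ≠ 0) (α : 𝓞 K) (I : Ideal (𝓞 K))
    (hI : Ideal.span {α} = I ^ p) (δ : K ≃ₐ[ℚ] K) (c : ℕ) (β : K) (hβ : β ≠ 0)
    (h : δ (α : K) = (α : K) ^ (c ^ 2) * β ^ p) :
    ∃ x y : 𝓞 K, x ≠ 0 ∧ y ≠ 0 ∧
      Ideal.span {x} * Defs.galIdeal K δ I = Ideal.span {y} * I ^ (c ^ 2) := by
  obtain ⟨y, x, hx, rfl⟩ := IsFractionRing.div_surjective (A := 𝓞 K) β
  have hx0 : x ≠ 0 := nonZeroDivisors.ne_zero hx
  have hxK : (algebraMap (𝓞 K) K x) ≠ 0 := by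
    rw [Ne, map_eq_zero_iff _ (IsFractionRing.injective (𝓞 K) K)]; exact hx0
  have hy0 : y ≠ 0 := by
    rintro rfl
    rw [map_zero, zero_div] at hβ
    exact hβ rfl
  refine ⟨x, y, hx0, hy0, ?_⟩
  have h1 : gal δ α * x ^ p = α ^ (c ^ 2) * y ^ p := by
    apply RingOfIntegers.coe_injective
    rw [map_mul, map_mul, map_pow, map_pow, map_pow]
    show δ (α : K) * (algebraMap (𝓞 K) K x) ^ p = (α : K) ^ (c ^ 2) * (algebraMap (𝓞 K) K y) ^ p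
    rw [h, div_pow]
    field_simp
  apply ideal_pow_inj hp0
  rw [mul_pow, mul_pow, ← galIdeal_pow, ← hI, galIdeal_span, ← pow_mul, mul_comm (c ^ 2) p,
    pow_mul, ← hI, Ideal.span_singleton_pow, Ideal.span_singleton_pow, Ideal.span_singleton_pow,
    Ideal.span_singleton_mul_span_singleton, Ideal.span_singleton_mul_span_singleton,
    mul_comm (x ^ p), h1, mul_comm]

end Gal

section Units

variable {K : Type} [Field K] [NumberField K]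

/-- an element of `K` whose `p`-th power is a unit of `𝓞 K` is a unit of `𝓞 K` -/
theorem exists_unit_of_pow_eq {p : ℕ} (hp : 0 < p) (γ : K) (v : (𝓞 K)ˣ)
    (h : γ ^ p = ((v : 𝓞 K) : K)) : ∃ w : (𝓞 K)ˣ, ((w : 𝓞 K) : K) = γ := by
  have h1 : IsIntegral ℤ γ := by
    apply IsIntegral.of_pow hp
    rw [h]
    exact RingOfIntegers.isIntegral_coe _
  have hv : ((v : 𝓞 K) : K) * (((v⁻¹ : (𝓞 K)ˣ) : 𝓞 K) : K) = 1 := by
    rw [← map_mul, ← Units.val_mul, mul_inv_cancel, Units.val_one, map_one]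
  have h2 : IsIntegral ℤ γ⁻¹ := by
    apply IsIntegral.of_pow hp
    rw [inv_pow, h]
    have : (((v : 𝓞 K) : K))⁻¹ = (((v⁻¹ : (𝓞 K)ˣ) : 𝓞 K) : K) :=
      inv_eq_of_mul_eq_one_right hv
    rw [this]
    exact RingOfIntegers.isIntegral_coe _
  have hγ0 : γ ≠ 0 := by
    rintro rfl
    rw [zero_pow hp.ne'] at h
    rw [← h, zero_mul] at hv
    exact zero_ne_one hv
  refine ⟨⟨⟨γ, h1⟩, ⟨γ⁻¹, h2⟩, ?_, ?_⟩, rfl⟩
  · apply RingOfIntegers.coe_injective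
    rw [map_mul]
    show γ * γ⁻¹ = algebraMap (𝓞 K) K 1
    rw [mul_inv_cancel₀ hγ0, map_one]
  · apply RingOfIntegers.coe_injective
    rw [map_mul]
    show γ⁻¹ * γ = algebraMap (𝓞 K) K 1
    rw [inv_mul_cancel₀ hγ0, map_one]

/-- the unit `u = α / a₀ ^ p` has type `ω²` -/
theorem unit_type {p : ℕ} (hp : 0 < p) (α a₀ : 𝓞 K) (ha₀ : a₀ ≠ 0) (u : (𝓞 K)ˣ)
    (hα : α = (u : 𝓞 K) * a₀ ^ p) (δ : K ≃ₐ[ℚ] K) (c : ℕ) (β : K)
    (h : δ (α : K) = (α : K) ^ (c ^ 2) * β ^ p) :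
    ∃ w : (𝓞 K)ˣ, δ ((u : 𝓞 K) : K) = ((u : 𝓞 K) : K) ^ (c ^ 2) * ((w : 𝓞 K) : K) ^ p := by
  have ha₀K : (a₀ : K) ≠ 0 := RingOfIntegers.coe_ne_zero_iff.mpr ha₀
  have hδa₀ : δ (a₀ : K) ≠ 0 := (map_ne_zero_iff δ δ.injective).mpr ha₀K
  have huK : ((u : 𝓞 K) : K) ≠ 0 := RingOfIntegers.coe_ne_zero_iff.mpr u.ne_zero
  have hαK : (α : K) = ((u : 𝓞 K) : K) * (a₀ : K) ^ p := by
    rw [hα]
    show algebraMap (𝓞 K) K (_ * _) = _
    rw [map_mul, map_pow]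
  set γ : K := (a₀ : K) ^ (c ^ 2) * β / δ (a₀ : K) with hγ
  have h1 : δ ((u : 𝓞 K) : K) = ((u : 𝓞 K) : K) ^ (c ^ 2) * γ ^ p := by
    rw [hαK, map_mul, map_pow] at h
    rw [hγ, div_pow, mul_pow, ← pow_mul]
    rw [mul_pow, ← pow_mul] at h
    field_simp
    rw [h]
    ring
  -- `γ ^ p` is a unit of `𝓞 K`
  set v : (𝓞 K)ˣ := Units.map (gal δ : 𝓞 K →* 𝓞 K) u * (u ^ (c ^ 2))⁻¹ with hv
  have hvK : γ ^ p = ((v : 𝓞 K) : K) := by
    have e1 : ((v : 𝓞 K) : K) * ((u : 𝓞 K) : K) ^ (c ^ 2) = δ ((u : 𝓞 K) : K) := by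
      have : (v : 𝓞 K) * (u : 𝓞 K) ^ (c ^ 2) = gal δ (u : 𝓞 K) := by
        rw [hv, Units.val_mul, mul_assoc, ← Units.val_pow_eq_pow_val, Units.inv_mul, mul_one]
        rfl
      have := congrArg (fun z : 𝓞 K => (z : K)) this
      simpa using this
    rw [h1] at e1
    have hu2 : ((u : 𝓞 K) : K) ^ (c ^ 2) ≠ 0 := pow_ne_zero _ huK
    have := mul_right_cancel₀ hu2 (e1.trans (mul_comm _ _))
    exact this.symm
  obtain ⟨w, hw⟩ := exists_unit_of_pow_eq hp γ v hvK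
  exact ⟨w, by rw [hw]; exact h1⟩

end Units

section Main

variable {K : Type} [Field K] [NumberField K]

/-- inverses modulo the cube of a principal maximal ideal -/
theorem exists_inv_mod_cube {π : 𝓞 K} (hπ : Prime π) (z : 𝓞 K) (hz : ¬ π ∣ z) :
    ∃ t : 𝓞 K, z * t - 1 ∈ Ideal.span {π} ^ 3 := by
  have hprime : (Ideal.span {π} : Ideal (𝓞 K)).IsPrime :=
    (Ideal.span_singleton_prime hπ.ne_zero).mpr hπ
  have h0 : (Ideal.span {π} : Ideal (𝓞 K)) ≠ ⊥ := by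
    rw [Ne, Ideal.span_singleton_eq_bot]; exact hπ.ne_zero
  have hmax : (Ideal.span {π} : Ideal (𝓞 K)).IsMaximal := hprime.isMaximal h0
  have hzP : z ∉ Ideal.span {π} := by rwa [Ideal.mem_span_singleton]
  obtain ⟨y, s, hs, hys⟩ := hmax.exists_inv hzP
  refine ⟨y * (1 + s + s ^ 2), ?_⟩
  have h1 : z * (y * (1 + s + s ^ 2)) - 1 = -(s ^ 3) := by
    have : y * z = 1 - s := by rw [← hys]; ring
    linear_combination (1 + s + s ^ 2) * this
  rw [h1]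
  exact neg_mem (Ideal.pow_mem_pow hs 3)

/-- conversion of the type condition for units to the shape of `Skeleton.UnitEigenPkg` -/
theorem unit_type_skeleton {p : ℕ} (u : (𝓞 K)ˣ) (σ : K ≃ₐ[ℚ] K) (k : ℕ)
    (h : ∃ w : (𝓞 K)ˣ, σ ((u : 𝓞 K) : K) = ((u : 𝓞 K) : K) ^ (k ^ 2) * ((w : 𝓞 K) : K) ^ p) :
    ∃ w : (𝓞 K)ˣ, Units.map (RingOfIntegers.mapRingEquiv (σ : K ≃+* K) : 𝓞 K →* 𝓞 K) u
      = u ^ (k ^ 2) * w ^ p := by
  obtain ⟨w, hw⟩ := h
  refine ⟨w, ?_⟩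
  apply Units.ext
  apply RingOfIntegers.coe_injective
  rw [Units.coe_map, Units.val_mul, Units.val_pow_eq_pow_val, Units.val_pow_eq_pow_val, map_mul,
    map_pow, map_pow]
  exact hw

end Main

/-- **The end game**: `CoreStd p` for `p ≥ 5` from the class group input and the unit eigenspace
input (the local unit computation `UnitLocal` and the Kummer generator `KummerGen` are used
directly). -/
theorem coreStd_of_inputs (p : ℕ) [hpf : Fact p.Prime] (h5 : 5 ≤ p) (hD : ClassInput p)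
    (hU : Skeleton.UnitEigenPkg p) : CoreStd.CoreStd p := by
  intro K L _ _ _ _ _ _ _ _ hdeg hunr _ hact
  have hp : p.Prime := hpf.out
  have hp2 : p ≠ 2 := by omega
  obtain ⟨ζ, hζ⟩ := IsCyclotomicExtension.exists_isPrimitiveRoot ℚ K (Set.mem_singleton p) hp.ne_zero
  obtain ⟨α, hα0, hnp, ⟨I, hI⟩, htype, ⟨x, hpx, hcong⟩⟩ :=
    KummerGen.exists_kummer_generator K L hp2 hdeg hunr hact hζ
  set π := hζ.toInteger - 1 with hπdef
  have hπ : Prime π := hζ.zeta_sub_one_prime'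
  have hπp : π ∣ (p : 𝓞 K) := hζ.toInteger_sub_one_dvd_prime'
  -- `α` is prime to `π`
  have hαπ : ¬ π ∣ α := by
    intro hdvd
    have h1 : π ∣ (x : 𝓞 K) ^ p := by
      have h2 : π ∣ α - (x : 𝓞 K) ^ p := by
        rw [← Ideal.mem_span_singleton]
        exact Ideal.pow_le_self hp.ne_zero hcong
      have := dvd_sub hdvd h2
      rwa [sub_sub_cancel] at this
    have h3 : π ∣ (x : 𝓞 K) := hπ.dvd_of_dvd_pow h1
    have hcop : IsCoprime x (p : ℤ) :=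
      ((Nat.prime_iff_prime_int.mp hp).irreducible.coprime_iff_not_dvd.mpr hpx).symm
    obtain ⟨a, b, hab⟩ := hcop
    have h4 : π ∣ (1 : 𝓞 K) := by
      have : (1 : 𝓞 K) = (a : 𝓞 K) * (x : 𝓞 K) + (b : 𝓞 K) * (p : 𝓞 K) := by
        have := congrArg (fun z : ℤ => (z : 𝓞 K)) hab
        push_cast at this
        exact this.symm
      rw [this]
      exact dvd_add (Dvd.dvd.mul_left h3 _) (Dvd.dvd.mul_left hπp _)
    exact hπ.not_isUnit (isUnit_of_dvd_one h4)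
  -- the ideal `I` is principal
  have hI0 : I ≠ ⊥ := by
    rintro rfl
    rw [Ideal.bot_pow hp.ne_zero, Ideal.span_singleton_eq_bot] at hI
    exact hα0 hI
  have hprinc : I.IsPrincipal := by
    refine hD K ζ hζ I hI0 ⟨⟨α, hI.symm⟩⟩ ?_
    intro δ c hc
    obtain ⟨β, hβ0, hβ⟩ := htype δ c hc
    exact ideal_type hp.ne_zero α I hI δ c β hβ0 hβ
  obtain ⟨a₀, ha₀⟩ := hprinc.principal
  rw [Ideal.submodule_span_eq] at ha₀
  have ha₀0 : a₀ ≠ 0 := by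
    rintro rfl
    rw [Ideal.span_singleton_eq_bot.mpr rfl] at ha₀
    exact hI0 ha₀
  have hspan : Ideal.span {α} = Ideal.span {a₀ ^ p} := by
    rw [hI, ha₀, Ideal.span_singleton_pow]
  obtain ⟨u₀, hu₀⟩ := Ideal.span_singleton_eq_span_singleton.mp hspan
  set u : (𝓞 K)ˣ := u₀⁻¹ with hu
  have hαu : α = (u : 𝓞 K) * a₀ ^ p := by
    rw [← hu₀, hu, mul_comm α, ← mul_assoc, Units.inv_mul, one_mul]
  -- `u` has type `ω²`
  have hutype : ∀ (δ : K ≃ₐ[ℚ] K) (c : ℕ), δ ζ = ζ ^ c →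
      ∃ w : (𝓞 K)ˣ, δ ((u : 𝓞 K) : K) = ((u : 𝓞 K) : K) ^ (c ^ 2) * ((w : 𝓞 K) : K) ^ p := by
    intro δ c hc
    obtain ⟨β, _, hβ⟩ := htype δ c hc
    exact unit_type hp.pos α a₀ ha₀0 u hαu δ c β hβ
  have hζ' : ((hζ.toInteger : 𝓞 K) : K) = ζ := hζ.coe_toInteger
  obtain ⟨j, w, hjw⟩ := hU K hζ.toInteger hζ.toInteger_isPrimitiveRoot u (UnitLocal.E2u hζ)
    (fun σ k hk => unit_type_skeleton u σ k (hutype σ k (by rwa [hζ'] at hk)))
    (fun σ k hk => unit_type_skeleton _ σ k (UnitLocal.E2u_type hζ h5 σ k (by rwa [hζ'] at hk)))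
    (by
      rintro ⟨w, hw⟩
      apply UnitLocal.E2u_not_pow hζ h5 ((w : 𝓞 K) : K)
      rw [hw, Units.val_pow_eq_pow_val]
      show algebraMap (𝓞 K) K (_ ^ p) = _
      rw [map_pow])
  -- `α = E2u ^ j * z ^ p`
  set E : 𝓞 K := ((UnitLocal.E2u hζ : (𝓞 K)ˣ) : 𝓞 K) with hE
  set z : 𝓞 K := (w : 𝓞 K) * a₀ with hz
  have hαE : α = E ^ j * z ^ p := by
    rw [hαu, hjw, Units.val_mul, Units.val_pow_eq_pow_val, Units.val_pow_eq_pow_val, hz, mul_pow,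
      mul_assoc]
  have hzπ : ¬ π ∣ z := by
    intro hdvd
    apply hαπ
    rw [hαE]
    exact Dvd.dvd.mul_left (dvd_pow hdvd hp.ne_zero) _
  obtain ⟨t, ht⟩ := exists_inv_mod_cube hπ z hzπ
  have hcong3 : α - (x : 𝓞 K) ^ p ∈ Ideal.span {π} ^ 3 :=
    Ideal.pow_le_pow_right (by omega : 3 ≤ p) hcong
  have hkey : E ^ j - ((x : 𝓞 K) * t) ^ p ∈ Ideal.span {π} ^ 3 := by
    obtain ⟨q, hq⟩ := sub_dvd_pow_sub_pow (z * t) 1 p
    rw [one_pow] at hq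
    have e : E ^ j - ((x : 𝓞 K) * t) ^ p =
        t ^ p * (α - (x : 𝓞 K) ^ p) - E ^ j * q * (z * t - 1) := by
      rw [hαE]
      linear_combination (-(E ^ j)) * hq
    rw [e]
    exact Ideal.sub_mem _ (Ideal.mul_mem_left _ _ hcong3) (Ideal.mul_mem_left _ _ ht)
  have hdvd : p ∣ j := by
    apply UnitLocal.dvd_of_pow_congr hζ h5 j ((x : 𝓞 K) * t)
    have : (Ideal.span {1 - hζ.toInteger} : Ideal (𝓞 K)) = Ideal.span {π} := by
      rw [hπdef, ← neg_sub, Ideal.span_singleton_neg]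
    rw [this]
    exact hkey
  obtain ⟨j', rfl⟩ := hdvd
  apply hnp
  refine ⟨((E ^ j' * z : 𝓞 K) : K), ?_⟩
  rw [hαE]
  show (algebraMap (𝓞 K) K (E ^ j' * z)) ^ p = algebraMap (𝓞 K) K (E ^ (p * j') * z ^ p)
  rw [← map_pow]
  congr 1
  ring

end Fermat.Agent.S14.EndGame
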