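import Mathlib

/-!
# S14, package P5 (U ii): eigenspaces of the Galois action on units modulo `p`-th powers

For a number field `K`, Galois over `ℚ` with cyclic Galois group generated by `σ`, and a prime `p`
not dividing `[K : ℚ]`, every eigenspace of `σ` on `E / (torsion · E^p)` (`E` the unit group) has
dimension at most one.  This is deduced from Dirichlet's unit theorem in its equivariant form:
the logarithmic embedding intertwines `σ` with the permutation of the infinite places.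
-/

set_option autoImplicit false

namespace Fermat.Agent.S14.UnitsEigen

open NumberField NumberField.Units NumberField.InfinitePlace Module Polynomial

variable {K : Type*} [Field K] [NumberField K]

/-! ### The action of an automorphism on units -/

/-- The action of a field automorphism on the units of the ring of integers. -/
noncomputable def unitsMap (σ : K ≃ₐ[ℚ] K) : (𝓞 K)ˣ →* (𝓞 K)ˣ :=
  Units.map (RingOfIntegers.mapRingHom (σ : K →+* K)).toMonoidHom

@[simp]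
theorem unitsMap_coe (σ : K ≃ₐ[ℚ] K) (u : (𝓞 K)ˣ) :
    (((unitsMap σ u : (𝓞 K)ˣ) : 𝓞 K) : K) = σ ((u : 𝓞 K) : K) := rfl

theorem unitsMap_mem_torsion (σ : K ≃ₐ[ℚ] K) {u : (𝓞 K)ˣ} (hu : u ∈ torsion K) :
    unitsMap σ u ∈ torsion K := by
  rw [torsion, CommGroup.mem_torsion] at hu ⊢
  exact (unitsMap σ).isOfFinOrder hu

/-! ### Exponent vectors with respect to a fundamental system -/

/-- The exponent vector of a unit with respect to Mathlib's fundamental system of units. -/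
noncomputable def expVec (x : (𝓞 K)ˣ) : Fin (rank K) → ℤ :=
  (exist_unique_eq_mul_prod K x).exists.choose.2

theorem expVec_spec (x : (𝓞 K)ˣ) :
    ∃ t ∈ torsion K, x = t * ∏ i, fundSystem K i ^ expVec x i := by
  have h := (exist_unique_eq_mul_prod K x).exists.choose_spec
  exact ⟨_, (exist_unique_eq_mul_prod K x).exists.choose.1.2, h⟩

theorem expVec_unique {x t : (𝓞 K)ˣ} (ht : t ∈ torsion K) {e : Fin (rank K) → ℤ}
    (h : x = t * ∏ i, fundSystem K i ^ e i) : expVec x = e := by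
  have h1 := (exist_unique_eq_mul_prod K x).exists.choose_spec
  have h2 := (exist_unique_eq_mul_prod K x).unique h1
    (y₂ := (⟨t, ht⟩, e)) h
  exact congrArg Prod.snd h2

theorem expVec_mul (x y : (𝓞 K)ˣ) : expVec (x * y) = expVec x + expVec y := by
  obtain ⟨t, ht, hx⟩ := expVec_spec x
  obtain ⟨s, hs, hy⟩ := expVec_spec y
  apply expVec_unique (Subgroup.mul_mem _ ht hs)
  conv_lhs => rw [hx, hy]
  simp only [Pi.add_apply, zpow_add, Finset.prod_mul_distrib]
  rw [mul_mul_mul_comm]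

theorem expVec_of_mem_torsion {x : (𝓞 K)ˣ} (hx : x ∈ torsion K) : expVec x = 0 := by
  apply expVec_unique hx
  simp

theorem mem_torsion_of_expVec_eq_zero {x : (𝓞 K)ˣ} (hx : expVec x = 0) : x ∈ torsion K := by
  obtain ⟨t, ht, h⟩ := expVec_spec x
  rw [hx] at h
  simp only [Pi.zero_apply, zpow_zero, Finset.prod_const_one, mul_one] at h
  rw [h]
  exact ht

theorem expVec_one : expVec (1 : (𝓞 K)ˣ) = 0 := expVec_of_mem_torsion (Subgroup.one_mem _)

theorem expVec_pow (x : (𝓞 K)ˣ) (n : ℕ) : expVec (x ^ n) = n • expVec x := by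
  induction n with
  | zero => simp [expVec_one]
  | succ n ih => rw [pow_succ, expVec_mul, ih, succ_nsmul]

theorem expVec_zpow (x : (𝓞 K)ˣ) (n : ℤ) : expVec (x ^ n) = n • expVec x := by
  obtain ⟨t, ht, hx⟩ := expVec_spec x
  apply expVec_unique (Subgroup.zpow_mem _ ht n)
  conv_lhs => rw [hx]
  rw [mul_zpow, ← Finset.prod_zpow]
  congr 1
  refine Finset.prod_congr rfl fun i _ => ?_
  rw [← zpow_mul, Pi.smul_apply, smul_eq_mul, mul_comm]

theorem expVec_prod {ι : Type*} (s : Finset ι) (f : ι → (𝓞 K)ˣ) :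
    expVec (∏ j ∈ s, f j) = ∑ j ∈ s, expVec (f j) := by
  classical
  induction s using Finset.induction_on with
  | empty => simp [expVec_one]
  | insert a s ha ih => rw [Finset.prod_insert ha, Finset.sum_insert ha, expVec_mul, ih]

theorem expVec_fundSystem (j : Fin (rank K)) :
    expVec (fundSystem K j) = Pi.single j 1 := by
  classical
  apply expVec_unique (Subgroup.one_mem _)
  rw [one_mul, Finset.prod_eq_single j]
  · simp
  · intro i _ hij
    simp [Pi.single_eq_of_ne hij]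
  · intro h
    exact absurd (Finset.mem_univ j) h


/-! ### The matrix of an automorphism on exponent vectors -/

/-- The integral matrix describing the action of `σ` on exponent vectors. -/
noncomputable def actMat (σ : K ≃ₐ[ℚ] K) : Matrix (Fin (rank K)) (Fin (rank K)) ℤ :=
  Matrix.of fun i j => expVec (unitsMap σ (fundSystem K j)) i

theorem expVec_unitsMap (σ : K ≃ₐ[ℚ] K) (x : (𝓞 K)ˣ) :
    expVec (unitsMap σ x) = (actMat σ).mulVec (expVec x) := by
  obtain ⟨t, ht, hx⟩ := expVec_spec x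
  conv_lhs => rw [hx]
  rw [map_mul, map_prod, expVec_mul, expVec_of_mem_torsion (unitsMap_mem_torsion σ ht), zero_add,
    expVec_prod]
  ext i
  rw [Finset.sum_apply, Matrix.mulVec, dotProduct]
  refine Finset.sum_congr rfl fun j _ => ?_
  rw [map_zpow, expVec_zpow, Pi.smul_apply, smul_eq_mul, actMat, Matrix.of_apply, mul_comm]

/-! ### The full logarithmic vector -/

/-- The logarithmic vector of a unit, indexed by all infinite places. -/
noncomputable def logVec (x : (𝓞 K)ˣ) : InfinitePlace K → ℝ :=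
  fun w => mult w * Real.log (w ((x : 𝓞 K) : K))

theorem logVec_apply (x : (𝓞 K)ˣ) (w : InfinitePlace K) :
    logVec x w = mult w * Real.log (w ((x : 𝓞 K) : K)) := rfl

theorem logVec_mul (x y : (𝓞 K)ˣ) : logVec (x * y) = logVec x + logVec y := by
  ext w
  have hx : w ((x : 𝓞 K) : K) ≠ 0 := (Units.pos_at_place x w).ne'
  have hy : w ((y : 𝓞 K) : K) ≠ 0 := (Units.pos_at_place y w).ne'
  simp only [logVec_apply, Pi.add_apply, Units.val_mul, map_mul]
  rw [Real.log_mul hx hy, mul_add]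

theorem logVec_of_mem_torsion {x : (𝓞 K)ˣ} (hx : x ∈ torsion K) : logVec x = 0 := by
  ext w
  rw [logVec_apply, (mem_torsion K).mp hx w, Real.log_one, mul_zero, Pi.zero_apply]

theorem logVec_one : logVec (1 : (𝓞 K)ˣ) = 0 := logVec_of_mem_torsion (Subgroup.one_mem _)

theorem logVec_inv (x : (𝓞 K)ˣ) : logVec x⁻¹ = -logVec x := by
  have h := logVec_mul x x⁻¹
  rw [mul_inv_cancel, logVec_one] at h
  exact eq_neg_of_add_eq_zero_right h.symm

theorem logVec_pow (x : (𝓞 K)ˣ) (n : ℕ) : logVec (x ^ n) = (n : ℝ) • logVec x := by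
  induction n with
  | zero => simp [logVec_one]
  | succ n ih => rw [pow_succ, logVec_mul, ih, Nat.cast_succ, add_smul, one_smul]

theorem logVec_zpow (x : (𝓞 K)ˣ) (n : ℤ) : logVec (x ^ n) = (n : ℝ) • logVec x := by
  obtain ⟨k, rfl | rfl⟩ := n.eq_nat_or_neg
  · rw [zpow_natCast, logVec_pow, Int.cast_natCast]
  · rw [zpow_neg, zpow_natCast, logVec_inv, logVec_pow, Int.cast_neg, Int.cast_natCast, neg_smul]

theorem logVec_prod {ι : Type*} (s : Finset ι) (f : ι → (𝓞 K)ˣ) :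
    logVec (∏ j ∈ s, f j) = ∑ j ∈ s, logVec (f j) := by
  classical
  induction s using Finset.induction_on with
  | empty => simp [logVec_one]
  | insert a s ha ih => rw [Finset.prod_insert ha, Finset.sum_insert ha, logVec_mul, ih]

theorem sum_logVec (x : (𝓞 K)ˣ) : ∑ w, logVec x w = 0 :=
  sum_mult_mul_log x

theorem logVec_unitsMap (σ : K ≃ₐ[ℚ] K) (x : (𝓞 K)ˣ) (w : InfinitePlace K) :
    logVec (unitsMap σ x) w = logVec x (σ⁻¹ • w) := by
  have hm : mult (σ⁻¹ • w) = mult w := by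
    unfold mult
    rw [isReal_smul_iff]
  have hw : (σ⁻¹ • w) ((x : 𝓞 K) : K) = w (σ ((x : 𝓞 K) : K)) := by
    rw [InfinitePlace.smul_apply]
    rfl
  rw [logVec_apply, logVec_apply, hm, unitsMap_coe, hw]

theorem logVec_eq_sum (x : (𝓞 K)ˣ) :
    logVec x = ∑ i, (expVec x i : ℝ) • logVec (fundSystem K i) := by
  obtain ⟨t, ht, hx⟩ := expVec_spec x
  conv_lhs => rw [hx]
  rw [logVec_mul, logVec_of_mem_torsion ht, zero_add, logVec_prod]
  exact Finset.sum_congr rfl fun i _ => logVec_zpow _ _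

theorem logVec_restrict (x : (𝓞 K)ˣ) (w : {w : InfinitePlace K // w ≠ dirichletUnitTheorem.w₀}) :
    logVec x w.1 = logEmbedding K (Additive.ofMul x) w := rfl

theorem eq_zero_of_sum_smul_logVec_eq_zero (c : Fin (rank K) → ℝ)
    (h : ∑ i, c i • logVec (fundSystem K i) = 0) : c = 0 := by
  have hli : LinearIndependent ℝ
      (fun i => logEmbedding K (Additive.ofMul (fundSystem K i))) := isMaxRank_fundSystem K
  have h2 : ∑ i, c i • logEmbedding K (Additive.ofMul (fundSystem K i)) = 0 := by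
    ext w
    have := congrFun h w.1
    simp only [Finset.sum_apply, Pi.smul_apply, smul_eq_mul, Pi.zero_apply] at this ⊢
    rw [← this]
    refine Finset.sum_congr rfl fun i _ => ?_
    rw [logVec_restrict]
  have := Fintype.linearIndependent_iff.mp hli c h2
  ext i
  exact this i


/-! ### The permutation representation on the infinite places -/

section perm

variable (R : Type*) [CommRing R]

/-- The permutation action of `σ` on functions on the infinite places. -/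
noncomputable def permLin (σ : K ≃ₐ[ℚ] K) : Module.End R (InfinitePlace K → R) :=
  LinearMap.funLeft R R (fun w => σ⁻¹ • w)

theorem permLin_apply (σ : K ≃ₐ[ℚ] K) (x : InfinitePlace K → R) (w : InfinitePlace K) :
    permLin R σ x w = x (σ⁻¹ • w) := rfl

theorem permLin_mul (σ τ : K ≃ₐ[ℚ] K) : permLin R (σ * τ) = permLin R σ * permLin R τ := by
  apply LinearMap.ext
  intro x
  ext w
  rw [Module.End.mul_apply, permLin_apply, permLin_apply, permLin_apply, mul_inv_rev, mul_smul]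

theorem permLin_one : permLin R (1 : K ≃ₐ[ℚ] K) = 1 := by
  apply LinearMap.ext
  intro x
  ext w
  rw [permLin_apply, inv_one, one_smul, Module.End.one_apply]

theorem permLin_pow (σ : K ≃ₐ[ℚ] K) (n : ℕ) : permLin R (σ ^ n) = permLin R σ ^ n := by
  induction n with
  | zero => rw [pow_zero, pow_zero, permLin_one]
  | succ n ih => rw [pow_succ, pow_succ, permLin_mul, ih]

open scoped Classical in
/-- The permutation matrix of `σ` acting on the infinite places. -/
noncomputable def permMat (σ : K ≃ₐ[ℚ] K) : Matrix (InfinitePlace K) (InfinitePlace K) R :=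
  Matrix.of fun w w' => if σ⁻¹ • w = w' then 1 else 0

open scoped Classical in
theorem toLin'_permMat (σ : K ≃ₐ[ℚ] K) : Matrix.toLin' (permMat R σ) = permLin R σ := by
  apply LinearMap.ext
  intro x
  ext w
  rw [Matrix.toLin'_apply, Matrix.mulVec, dotProduct, permLin_apply]
  simp only [permMat, Matrix.of_apply, ite_mul, one_mul, zero_mul]
  rw [Finset.sum_ite_eq]
  simp

open scoped Classical in
theorem permMat_map {S : Type*} [CommRing S] (f : R →+* S) (σ : K ≃ₐ[ℚ] K) :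
    (permMat R σ).map f = permMat S σ := by
  ext w w'
  simp only [permMat, Matrix.map_apply, Matrix.of_apply]
  split_ifs <;> simp

open scoped Classical in
theorem charpoly_permLin (σ : K ≃ₐ[ℚ] K) :
    (permLin R σ).charpoly = (permMat R σ).charpoly := by
  rw [← toLin'_permMat, Matrix.charpoly_toLin']

end perm

/-! ### The characteristic polynomial identity -/

/-- The map `(c, t) ↦ ∑ cᵢ • logVec ηᵢ + t • 1`. -/
noncomputable def psiLin : ((Fin (rank K) → ℝ) × ℝ) →ₗ[ℝ] (InfinitePlace K → ℝ) :=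
  LinearMap.coprod
    (∑ i, (LinearMap.proj i : (Fin (rank K) → ℝ) →ₗ[ℝ] ℝ).smulRight (logVec (fundSystem K i)))
    ((LinearMap.id : ℝ →ₗ[ℝ] ℝ).smulRight (fun _ => (1 : ℝ)))

theorem psiLin_apply (c : Fin (rank K) → ℝ) (t : ℝ) :
    psiLin (c, t) = ∑ i, c i • logVec (fundSystem K i) + t • (fun _ : InfinitePlace K => (1 : ℝ)) := by
  simp [psiLin, LinearMap.sum_apply]

theorem psiLin_injective : Function.Injective (psiLin (K := K)) := by
  rw [← LinearMap.ker_eq_bot, LinearMap.ker_eq_bot']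
  rintro ⟨c, t⟩ h
  rw [psiLin_apply] at h
  -- sum of all coordinates
  have hsum : ∑ w, (∑ i, c i • logVec (fundSystem K i) +
      t • (fun _ : InfinitePlace K => (1 : ℝ))) w = 0 := by
    rw [h]; simp
  have h1 : ∑ w : InfinitePlace K, (∑ i, c i • logVec (fundSystem K i)) w = 0 := by
    simp only [Finset.sum_apply, Pi.smul_apply, smul_eq_mul]
    rw [Finset.sum_comm]
    refine Finset.sum_eq_zero fun i _ => ?_
    rw [← Finset.mul_sum, sum_logVec, mul_zero]
  simp only [Pi.add_apply, Finset.sum_add_distrib, h1, zero_add, Pi.smul_apply, smul_eq_mul,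
    mul_one, Finset.sum_const, Finset.card_univ, nsmul_eq_mul] at hsum
  have hcard : (Fintype.card (InfinitePlace K) : ℝ) ≠ 0 := by
    exact_mod_cast Fintype.card_ne_zero
  have ht : t = 0 := (mul_eq_zero.mp hsum).resolve_left hcard
  rw [ht, zero_smul, add_zero] at h
  have hc := eq_zero_of_sum_smul_logVec_eq_zero c h
  rw [hc, ht]
  rfl

theorem finrank_psi_domain :
    finrank ℝ ((Fin (rank K) → ℝ) × ℝ) = finrank ℝ (InfinitePlace K → ℝ) := by
  rw [Module.finrank_prod, Module.finrank_fintype_fun_eq_card, Module.finrank_self,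
    Module.finrank_fintype_fun_eq_card, Fintype.card_fin, rank]
  have : 0 < Fintype.card (InfinitePlace K) := Fintype.card_pos
  omega

/-- `psiLin` as a linear equivalence. -/
noncomputable def psiEquiv : ((Fin (rank K) → ℝ) × ℝ) ≃ₗ[ℝ] (InfinitePlace K → ℝ) :=
  LinearMap.linearEquivOfInjective psiLin psiLin_injective finrank_psi_domain

theorem psiEquiv_apply (x : (Fin (rank K) → ℝ) × ℝ) : psiEquiv x = psiLin x := rfl

theorem permLin_logVec (σ : K ≃ₐ[ℚ] K) (x : (𝓞 K)ˣ) :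
    permLin ℝ σ (logVec x) = logVec (unitsMap σ x) := by
  ext w
  rw [permLin_apply, logVec_unitsMap]

theorem permLin_psiLin (σ : K ≃ₐ[ℚ] K) (c : Fin (rank K) → ℝ) (t : ℝ) :
    permLin ℝ σ (psiLin (c, t)) =
      psiLin (Matrix.toLin' ((actMat σ).map (Int.castRingHom ℝ)) c, t) := by
  rw [psiLin_apply, psiLin_apply, map_add, map_sum, map_smul]
  congr 1
  · -- the main part
    have h1 : ∀ j, permLin ℝ σ (c j • logVec (fundSystem K j)) =
        ∑ i, (c j * ((actMat σ i j : ℤ) : ℝ)) • logVec (fundSystem K i) := by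
      intro j
      rw [map_smul, permLin_logVec, logVec_eq_sum, Finset.smul_sum]
      refine Finset.sum_congr rfl fun i _ => ?_
      rw [smul_smul]
      rfl
    simp_rw [h1]
    rw [Finset.sum_comm]
    refine Finset.sum_congr rfl fun i _ => ?_
    rw [← Finset.sum_smul]
    congr 1
    rw [Matrix.toLin'_apply, Matrix.mulVec, dotProduct]
    refine Finset.sum_congr rfl fun j _ => ?_
    rw [Matrix.map_apply, mul_comm]
    rfl

theorem permLin_eq_conj (σ : K ≃ₐ[ℚ] K) :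
    permLin ℝ σ = psiEquiv.conj
      ((Matrix.toLin' ((actMat σ).map (Int.castRingHom ℝ))).prodMap (LinearMap.id : ℝ →ₗ[ℝ] ℝ)) := by
  apply LinearMap.ext
  intro y
  obtain ⟨⟨c, t⟩, rfl⟩ := psiEquiv.surjective y
  rw [LinearEquiv.conj_apply, LinearMap.comp_apply, LinearMap.comp_apply, LinearEquiv.coe_coe,
    LinearEquiv.coe_coe, LinearEquiv.symm_apply_apply, psiEquiv_apply, psiEquiv_apply,
    permLin_psiLin]
  rfl

open scoped Classical in
theorem charpoly_permMat_real (σ : K ≃ₐ[ℚ] K) :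
    (permMat ℝ σ).charpoly = ((actMat σ).charpoly.map (Int.castRingHom ℝ)) * (X - 1) := by
  rw [← charpoly_permLin, permLin_eq_conj, LinearEquiv.charpoly_conj, LinearMap.charpoly_prodMap,
    Matrix.charpoly_toLin', Matrix.charpoly_map]
  congr 1
  have : (LinearMap.id : ℝ →ₗ[ℝ] ℝ) = 1 := rfl
  rw [this, LinearMap.charpoly_one, Module.finrank_self, pow_one]

open scoped Classical in
theorem charpoly_permMat_int (σ : K ≃ₐ[ℚ] K) :
    (permMat ℤ σ).charpoly = (actMat σ).charpoly * (X - 1) := by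
  apply Polynomial.map_injective (Int.castRingHom ℝ) Int.cast_injective
  rw [← Matrix.charpoly_map, permMat_map, charpoly_permMat_real, Polynomial.map_mul,
    Polynomial.map_sub, Polynomial.map_X, Polynomial.map_one]

open scoped Classical in
theorem charpoly_permMat (R : Type*) [CommRing R] (σ : K ≃ₐ[ℚ] K) :
    (permMat R σ).charpoly = ((actMat σ).map (Int.castRingHom R)).charpoly * (X - 1) := by
  rw [← permMat_map ℤ (Int.castRingHom R), Matrix.charpoly_map, charpoly_permMat_int,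
    Polynomial.map_mul, Matrix.charpoly_map, Polynomial.map_sub, Polynomial.map_X,
    Polynomial.map_one]


/-! ### Eigenspaces over a field in which `[K : ℚ]` is invertible -/

section eigen

variable {F : Type*} [Field F]

theorem exists_pow_smul_eq [IsGalois ℚ K] (σ : K ≃ₐ[ℚ] K)
    (hσ : ∀ τ : K ≃ₐ[ℚ] K, τ ∈ Subgroup.zpowers σ) (w w' : InfinitePlace K) :
    ∃ k : ℕ, (σ⁻¹) ^ k • w = w' := by
  have hcomap : w.comap (algebraMap ℚ K) = w'.comap (algebraMap ℚ K) := Subsingleton.elim _ _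
  obtain ⟨τ, hτ⟩ := exists_smul_eq_of_comap_eq hcomap
  have h1 : τ ∈ Subgroup.zpowers σ⁻¹ := by
    rw [Subgroup.zpowers_inv]
    exact hσ τ
  have h2 : τ ∈ Submonoid.powers σ⁻¹ := (mem_powers_iff_mem_zpowers).mpr h1
  obtain ⟨k, hk⟩ := h2
  have hk' : σ⁻¹ ^ k = τ := hk
  exact ⟨k, by rw [hk', hτ]⟩

theorem finrank_eigenspace_permLin_le_one (σ : K ≃ₐ[ℚ] K)
    (htrans : ∀ w w' : InfinitePlace K, ∃ k : ℕ, (σ⁻¹) ^ k • w = w') (μ : F) :
    finrank F ((permLin F σ).eigenspace μ) ≤ 1 := by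
  by_cases h : ∃ y ∈ (permLin F σ).eigenspace μ, y ≠ 0
  · obtain ⟨y, hy, hy0⟩ := h
    obtain ⟨w₁, hw₁⟩ : ∃ w₁, y w₁ ≠ 0 := by
      by_contra hcon
      apply hy0
      funext w
      by_contra hw
      exact hcon ⟨w, hw⟩
    have key : ∀ x ∈ (permLin F σ).eigenspace μ, ∀ k : ℕ, ∀ w, x ((σ⁻¹) ^ k • w) = μ ^ k * x w := by
      intro x hx k
      induction k with
      | zero => intro w; simp
      | succ k ih =>
        intro w
        rw [pow_succ', mul_smul]
        have h1 := congrFun (Module.End.mem_eigenspace_iff.mp hx) ((σ⁻¹) ^ k • w)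
        rw [permLin_apply, Pi.smul_apply, smul_eq_mul] at h1
        rw [h1, ih, pow_succ]
        ring
    refine finrank_le_one (⟨y, hy⟩ : (permLin F σ).eigenspace μ) ?_
    rintro ⟨x, hx⟩
    refine ⟨x w₁ / y w₁, ?_⟩
    apply Subtype.ext
    ext w
    obtain ⟨k, rfl⟩ := htrans w₁ w
    simp only [SetLike.val_smul, Pi.smul_apply, smul_eq_mul]
    rw [key x hx k w₁, key y hy k w₁]
    field_simp
  · have hbot : (permLin F σ).eigenspace μ = ⊥ := by
      rw [eq_bot_iff]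
      intro y hy
      rw [Submodule.mem_bot]
      by_contra hy0
      exact h ⟨y, hy, hy0⟩
    rw [hbot, finrank_bot]
    exact Nat.zero_le 1

theorem rootMultiplicity_charpoly_permLin_le_one [IsGalois ℚ K] (σ : K ≃ₐ[ℚ] K)
    (hσ : ∀ τ : K ≃ₐ[ℚ] K, τ ∈ Subgroup.zpowers σ)
    (hn : ((Nat.card (K ≃ₐ[ℚ] K) : ℕ) : F) ≠ 0) (μ : F) :
    (permLin F σ).charpoly.rootMultiplicity μ ≤ 1 := by
  set n := Nat.card (K ≃ₐ[ℚ] K) with hndef
  have hpow : permLin F σ ^ n = 1 := by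
    rw [← permLin_pow, hndef, pow_card_eq_one', permLin_one]
  have hsq : Squarefree (X ^ n - C (1 : F)) :=
    (separable_X_pow_sub_C (1 : F) hn one_ne_zero).squarefree
  have haeval : aeval (permLin F σ) (X ^ n - C (1 : F)) = 0 := by
    rw [map_sub, map_pow, aeval_X, aeval_C, hpow, map_one, sub_self]
  have hss : (permLin F σ).IsSemisimple :=
    Module.End.isSemisimple_of_squarefree_aeval_eq_zero hsq haeval
  rw [← LinearMap.finrank_maxGenEigenspace_eq,
    hss.isFinitelySemisimple.maxGenEigenspace_eq_eigenspace]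
  exact finrank_eigenspace_permLin_le_one σ (exists_pow_smul_eq σ hσ) μ

theorem finrank_eigenspace_actMat_le_one [IsGalois ℚ K] (σ : K ≃ₐ[ℚ] K)
    (hσ : ∀ τ : K ≃ₐ[ℚ] K, τ ∈ Subgroup.zpowers σ)
    (hn : ((Nat.card (K ≃ₐ[ℚ] K) : ℕ) : F) ≠ 0) (μ : F) :
    finrank F (Module.End.eigenspace
      (Matrix.toLin' ((actMat σ).map (Int.castRingHom F))) μ) ≤ 1 := by
  classical
  refine (LinearMap.finrank_eigenspace_le _ μ).trans ?_
  rw [Matrix.charpoly_toLin']
  have h1 := rootMultiplicity_charpoly_permLin_le_one (F := F) σ hσ hn μ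
  rw [charpoly_permLin, charpoly_permMat] at h1
  have hne : ((actMat σ).map (Int.castRingHom F)).charpoly * (X - 1) ≠ 0 := by
    apply mul_ne_zero
    · exact (Matrix.charpoly_monic _).ne_zero
    · exact X_sub_C_ne_zero (1 : F)
  rw [rootMultiplicity_mul hne] at h1
  omega

end eigen


/-! ### Units of a given type modulo `p`-th powers -/

section final

variable {p : ℕ} [hp : Fact p.Prime]

/-- `x` has type `e` with respect to `σ`, modulo `p`-th powers of units. -/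
def HasType (p : ℕ) (σ : K ≃ₐ[ℚ] K) (e : ℕ) (x : (𝓞 K)ˣ) : Prop :=
  ∃ w : (𝓞 K)ˣ, unitsMap σ x = x ^ e * w ^ p

theorem HasType.mul {σ : K ≃ₐ[ℚ] K} {e : ℕ} {x y : (𝓞 K)ˣ} (hx : HasType p σ e x)
    (hy : HasType p σ e y) : HasType p σ e (x * y) := by
  obtain ⟨w, hw⟩ := hx
  obtain ⟨w', hw'⟩ := hy
  refine ⟨w * w', ?_⟩
  rw [map_mul, hw, hw', mul_pow, mul_pow]
  exact mul_mul_mul_comm _ _ _ _

theorem HasType.inv {σ : K ≃ₐ[ℚ] K} {e : ℕ} {x : (𝓞 K)ˣ} (hx : HasType p σ e x) :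
    HasType p σ e x⁻¹ := by
  obtain ⟨w, hw⟩ := hx
  refine ⟨w⁻¹, ?_⟩
  rw [map_inv, hw, mul_inv, inv_pow, inv_pow]

theorem HasType.pow {σ : K ≃ₐ[ℚ] K} {e : ℕ} {x : (𝓞 K)ˣ} (hx : HasType p σ e x) (n : ℕ) :
    HasType p σ e (x ^ n) := by
  induction n with
  | zero => exact ⟨1, by simp⟩
  | succ n ih => rw [pow_succ]; exact ih.mul hx

theorem hasType_pow_self (σ : K ≃ₐ[ℚ] K) (e : ℕ) (y : (𝓞 K)ˣ) : HasType p σ e (y ^ p) := by
  refine ⟨unitsMap σ y * (y ^ e)⁻¹, ?_⟩
  rw [map_pow, mul_pow, inv_pow, ← pow_mul, ← pow_mul, mul_comm p e]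
  rw [mul_comm (unitsMap σ y ^ p), ← mul_assoc, mul_inv_cancel, one_mul]

/-- A unit whose exponent vector vanishes modulo `p` is a torsion unit times a `p`-th power. -/
theorem exists_torsion_mul_pow_of_expVec (x : (𝓞 K)ˣ)
    (h : ∀ i, ((expVec x i : ℤ) : ZMod p) = 0) :
    ∃ t ∈ torsion K, ∃ y : (𝓞 K)ˣ, x = t * y ^ p := by
  obtain ⟨t, ht, hx⟩ := expVec_spec x
  have hdiv : ∀ i, ∃ f : ℤ, expVec x i = (p : ℤ) * f := by
    intro i
    exact (ZMod.intCast_zmod_eq_zero_iff_dvd _ p).mp (h i)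
  choose f hf using hdiv
  refine ⟨t, ht, ∏ i, fundSystem K i ^ f i, ?_⟩
  rw [← Finset.prod_pow]
  conv_lhs => rw [hx]
  congr 1
  refine Finset.prod_congr rfl fun i _ => ?_
  rw [hf i, mul_comm, zpow_mul, zpow_natCast]

/-- A torsion unit of type `e`, where `σ` acts on `ζ` by the exponent `g ≢ e`, is a `p`-th power. -/
theorem torsion_isPow_of_hasType (σ : K ≃ₐ[ℚ] K) {ζ : (𝓞 K)ˣ} (hζ : orderOf ζ = p) {g e : ℕ}
    (hσζ : unitsMap σ ζ = ζ ^ g) (hge : (e : ZMod p) ≠ (g : ZMod p))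
    {t : (𝓞 K)ˣ} (ht : t ∈ torsion K) (htype : HasType p σ e t) :
    ∃ s : (𝓞 K)ˣ, t = s ^ p := by
  have hp0 : p ≠ 0 := hp.out.ne_zero
  -- `σ` acts on the (cyclic) torsion group by a power map
  obtain ⟨t₀, ht₀⟩ := IsCyclic.exists_generator (α := torsion K)
  have hσt₀ : unitsMap σ (t₀ : (𝓞 K)ˣ) ∈ torsion K := unitsMap_mem_torsion σ t₀.2
  obtain ⟨a, ha⟩ := Subgroup.mem_zpowers_iff.mp (ht₀ ⟨_, hσt₀⟩)
  have ha' : unitsMap σ (t₀ : (𝓞 K)ˣ) = (t₀ : (𝓞 K)ˣ) ^ a := by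
    have := congrArg (Subtype.val) ha
    simpa using this.symm
  have hact : ∀ s : (𝓞 K)ˣ, s ∈ torsion K → unitsMap σ s = s ^ a := by
    intro s hs
    obtain ⟨m, hm⟩ := Subgroup.mem_zpowers_iff.mp (ht₀ ⟨s, hs⟩)
    have hm' : s = (t₀ : (𝓞 K)ˣ) ^ m := by
      have := congrArg (Subtype.val) hm
      simpa using this.symm
    rw [hm', map_zpow, ha', ← zpow_mul, ← zpow_mul, mul_comm]
  -- `a ≡ g mod p`
  have hζtors : ζ ∈ torsion K := by
    rw [torsion, CommGroup.mem_torsion]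
    apply isOfFinOrder_iff_pow_eq_one.mpr
    exact ⟨p, Nat.pos_of_ne_zero hp0, by rw [← hζ]; exact pow_orderOf_eq_one ζ⟩
  have hag : (a : ZMod p) = (g : ZMod p) := by
    have h1 : ζ ^ a = ζ ^ (g : ℤ) := by
      rw [← hact ζ hζtors, hσζ, zpow_natCast]
    have h2 := zpow_eq_zpow_iff_modEq.mp h1
    rw [hζ] at h2
    have := (ZMod.intCast_eq_intCast_iff a (g : ℤ) p).mpr h2
    simpa using this
  -- the relation `t ^ (a - e) = w ^ p`
  obtain ⟨w, hw⟩ := htype
  rw [hact t ht] at hw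
  have hrel : t ^ (a - (e : ℤ)) = w ^ (p : ℤ) := by
    rw [zpow_sub, hw, zpow_natCast, zpow_natCast, mul_comm, ← mul_assoc, inv_mul_cancel, one_mul]
  have hd : ((a - (e : ℤ) : ℤ) : ZMod p) ≠ 0 := by
    rw [Int.cast_sub, Int.cast_natCast, hag]
    exact sub_ne_zero.mpr (Ne.symm hge)
  have hcop : IsCoprime (a - (e : ℤ)) (p : ℤ) := by
    rw [Int.isCoprime_iff_gcd_eq_one]
    have hndvd : ¬ (p : ℤ) ∣ (a - (e : ℤ)) := by
      intro hdvd
      exact hd ((ZMod.intCast_zmod_eq_zero_iff_dvd _ p).mpr hdvd)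
    have hprime : Prime (p : ℤ) := Nat.prime_iff_prime_int.mp hp.out
    have := (Int.isCoprime_iff_gcd_eq_one).mp
      ((hprime.coprime_iff_not_dvd.mpr hndvd).symm)
    exact this
  obtain ⟨x, y, hxy⟩ := hcop
  refine ⟨w ^ x * t ^ y, ?_⟩
  calc t = t ^ (x * (a - (e : ℤ)) + y * (p : ℤ)) := by rw [hxy, zpow_one]
    _ = (t ^ (a - (e : ℤ))) ^ x * (t ^ y) ^ (p : ℤ) := by
        rw [zpow_add, mul_comm x, zpow_mul, zpow_mul]
    _ = (w ^ x) ^ (p : ℤ) * (t ^ y) ^ (p : ℤ) := by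
        rw [hrel, ← zpow_mul, ← zpow_mul w, mul_comm (p : ℤ) x]
    _ = (w ^ x * t ^ y) ^ p := by
        rw [zpow_natCast, zpow_natCast, ← mul_pow]


theorem expVec_inv (x : (𝓞 K)ˣ) : expVec x⁻¹ = -expVec x := by
  have h := expVec_mul x x⁻¹
  rw [mul_inv_cancel, expVec_one] at h
  exact eq_neg_of_add_eq_zero_right h.symm

/-- The exponent vector reduced modulo `p`. -/
noncomputable def redVec (p : ℕ) (x : (𝓞 K)ˣ) : Fin (rank K) → ZMod p :=
  fun i => ((expVec x i : ℤ) : ZMod p)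

theorem redVec_mul (x y : (𝓞 K)ˣ) : redVec p (x * y) = redVec p x + redVec p y := by
  ext i
  simp [redVec, expVec_mul]

theorem redVec_inv (x : (𝓞 K)ˣ) : redVec p x⁻¹ = -redVec p x := by
  ext i
  simp [redVec, expVec_inv]

theorem redVec_pow (x : (𝓞 K)ˣ) (n : ℕ) : redVec p (x ^ n) = (n : ZMod p) • redVec p x := by
  ext i
  simp [redVec, expVec_pow]

theorem redVec_pow_self (x : (𝓞 K)ˣ) : redVec p (x ^ p) = 0 := by
  rw [redVec_pow, ZMod.natCast_self, zero_smul]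

theorem redVec_eigen {σ : K ≃ₐ[ℚ] K} {e : ℕ} {x : (𝓞 K)ˣ} (hx : HasType p σ e x) :
    Matrix.toLin' ((actMat σ).map (Int.castRingHom (ZMod p))) (redVec p x) =
      (e : ZMod p) • redVec p x := by
  obtain ⟨w, hw⟩ := hx
  have h1 := expVec_unitsMap σ x
  rw [hw] at h1
  ext i
  rw [Matrix.toLin'_apply]
  have h2 := RingHom.map_mulVec (Int.castRingHom (ZMod p)) (actMat σ) (expVec x) i
  have h3 : (⇑(Int.castRingHom (ZMod p)) ∘ expVec x) = redVec p x := by
    ext k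
    simp [redVec]
  rw [h3] at h2
  rw [← h2, ← h1]
  have h4 : redVec p (x ^ e * w ^ p) i = ((e : ZMod p) • redVec p x) i := by
    rw [redVec_mul, redVec_pow, redVec_pow_self, add_zero]
  simpa [redVec] using h4

theorem exists_pow_mul_pow_of_hasType [IsGalois ℚ K] (σ : K ≃ₐ[ℚ] K)
    (hσ : ∀ τ : K ≃ₐ[ℚ] K, τ ∈ Subgroup.zpowers σ)
    (hn : ¬ p ∣ Nat.card (K ≃ₐ[ℚ] K))
    {ζ : (𝓞 K)ˣ} (hζ : orderOf ζ = p) {g e : ℕ}
    (hσζ : unitsMap σ ζ = ζ ^ g) (hge : (e : ZMod p) ≠ (g : ZMod p))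
    {u v : (𝓞 K)ˣ} (hu : HasType p σ e u) (hv : HasType p σ e v)
    (hv' : ¬ ∃ w : (𝓞 K)ˣ, v = w ^ p) :
    ∃ (j : ℕ) (w : (𝓞 K)ˣ), u = v ^ j * w ^ p := by
  have hn' : ((Nat.card (K ≃ₐ[ℚ] K) : ℕ) : ZMod p) ≠ 0 := by
    intro h0
    exact hn ((ZMod.natCast_eq_zero_iff _ _).mp h0)
  -- the key step: a unit of type `e` with vanishing reduced exponent vector is a `p`-th power
  have key : ∀ x : (𝓞 K)ˣ, HasType p σ e x → redVec p x = 0 → ∃ s : (𝓞 K)ˣ, x = s ^ p := by
    intro x hx h0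
    obtain ⟨t, ht, y, hxy⟩ := exists_torsion_mul_pow_of_expVec (p := p) x (fun i => congrFun h0 i)
    have htt : HasType p σ e t := by
      have : t = x * (y ^ p)⁻¹ := by rw [hxy, mul_inv_cancel_right]
      rw [this]
      exact hx.mul (hasType_pow_self σ e y).inv
    obtain ⟨s, hs⟩ := torsion_isPow_of_hasType σ hζ hσζ hge ht htt
    exact ⟨s * y, by rw [hxy, hs, mul_pow]⟩
  have hv0 : redVec p v ≠ 0 := fun h0 => hv' (key v hv h0)
  -- both reduced vectors lie in an eigenspace of dimension at most one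
  set φ := Matrix.toLin' ((actMat σ).map (Int.castRingHom (ZMod p))) with hφ
  have hfin := finrank_eigenspace_actMat_le_one (F := ZMod p) σ hσ hn' (e : ZMod p)
  rw [← hφ] at hfin
  have hue : redVec p u ∈ Module.End.eigenspace φ (e : ZMod p) :=
    Module.End.mem_eigenspace_iff.mpr (redVec_eigen hu)
  have hve : redVec p v ∈ Module.End.eigenspace φ (e : ZMod p) :=
    Module.End.mem_eigenspace_iff.mpr (redVec_eigen hv)
  obtain ⟨v₀, hv₀⟩ := finrank_le_one_iff.mp hfin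
  obtain ⟨c₁, hc₁⟩ := hv₀ ⟨redVec p v, hve⟩
  obtain ⟨c₂, hc₂⟩ := hv₀ ⟨redVec p u, hue⟩
  have hc₁0 : c₁ ≠ 0 := by
    intro h0
    rw [h0, zero_smul] at hc₁
    exact hv0 (congrArg Subtype.val hc₁).symm
  have hcu : redVec p u = (c₂ / c₁) • redVec p v := by
    have h1 : (redVec p v) = c₁ • (v₀ : Fin (rank K) → ZMod p) := (congrArg Subtype.val hc₁).symm
    have h2 : (redVec p u) = c₂ • (v₀ : Fin (rank K) → ZMod p) := (congrArg Subtype.val hc₂).symm
    rw [h1, h2, smul_smul, div_mul_cancel₀ _ hc₁0]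
  set j : ℕ := (c₂ / c₁).val with hj
  have hjc : ((j : ℕ) : ZMod p) = c₂ / c₁ := ZMod.natCast_zmod_val _
  have hx0 : redVec p (u * (v ^ j)⁻¹) = 0 := by
    rw [redVec_mul, redVec_inv, redVec_pow, hjc, hcu, add_neg_cancel]
  obtain ⟨s, hs⟩ := key (u * (v ^ j)⁻¹) (hu.mul (hv.pow j).inv) hx0
  refine ⟨j, s, ?_⟩
  rw [← hs, mul_comm, inv_mul_cancel_right]


/-- `HasType` from an equation between elements of `K`. -/
theorem hasType_of_coe {σ : K ≃ₐ[ℚ] K} {e : ℕ} {x : (𝓞 K)ˣ}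
    (h : ∃ w : (𝓞 K)ˣ, σ ((x : 𝓞 K) : K) = ((x : 𝓞 K) : K) ^ e * ((w : 𝓞 K) : K) ^ p) :
    HasType p σ e x := by
  obtain ⟨w, hw⟩ := h
  refine ⟨w, ?_⟩
  apply Units.ext
  apply RingOfIntegers.ext
  rw [unitsMap_coe, hw]
  simp

/-- The version of `exists_pow_mul_pow_of_hasType` with all hypotheses stated in `K`. -/
theorem exists_pow_mul_pow_of_type [IsGalois ℚ K] (σ : K ≃ₐ[ℚ] K)
    (hσ : ∀ τ : K ≃ₐ[ℚ] K, τ ∈ Subgroup.zpowers σ)
    (hn : ¬ p ∣ Nat.card (K ≃ₐ[ℚ] K))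
    {ζ : K} (hζ : IsPrimitiveRoot ζ p) {g e : ℕ}
    (hσζ : σ ζ = ζ ^ g) (hge : (e : ZMod p) ≠ (g : ZMod p))
    {u v : (𝓞 K)ˣ}
    (hu : ∃ w : (𝓞 K)ˣ, σ ((u : 𝓞 K) : K) = ((u : 𝓞 K) : K) ^ e * ((w : 𝓞 K) : K) ^ p)
    (hv : ∃ w : (𝓞 K)ˣ, σ ((v : 𝓞 K) : K) = ((v : 𝓞 K) : K) ^ e * ((w : 𝓞 K) : K) ^ p)
    (hv' : ¬ ∃ w : (𝓞 K)ˣ, v = w ^ p) :
    ∃ (j : ℕ) (w : (𝓞 K)ˣ), u = v ^ j * w ^ p := by
  have hp0 : p ≠ 0 := hp.out.ne_zero
  have : NeZero p := ⟨hp0⟩
  -- `ζ` as a unit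
  have hunit : IsUnit hζ.toInteger := hζ.toInteger_isPrimitiveRoot.isUnit hp0
  set ζu : (𝓞 K)ˣ := hunit.unit with hζu
  have hcoe : (((ζu : (𝓞 K)ˣ) : 𝓞 K) : K) = ζ := by
    rw [hζu, IsUnit.unit_spec]
    exact hζ.coe_toInteger
  have hinj : Function.Injective (fun x : (𝓞 K)ˣ => ((x : 𝓞 K) : K)) := by
    intro x y hxy
    exact Units.ext (RingOfIntegers.ext hxy)
  have hord : orderOf ζu = p := by
    have h1 : orderOf ((algebraMap (𝓞 K) K).toMonoidHom.comp (Units.coeHom (𝓞 K)) ζu) =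
        orderOf ζu := orderOf_injective _ hinj ζu
    rw [← h1]
    have h2 : ((algebraMap (𝓞 K) K).toMonoidHom.comp (Units.coeHom (𝓞 K)) ζu) = ζ := hcoe
    rw [h2]
    exact hζ.eq_orderOf.symm
  have hσζu : unitsMap σ ζu = ζu ^ g := by
    apply hinj
    show (((unitsMap σ ζu : (𝓞 K)ˣ) : 𝓞 K) : K) = (((ζu ^ g : (𝓞 K)ˣ) : 𝓞 K) : K)
    rw [unitsMap_coe, hcoe, hσζ]
    simp [hcoe]
  exact exists_pow_mul_pow_of_hasType σ hσ hn hord hσζu hge (hasType_of_coe hu)
    (hasType_of_coe hv) hv'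

end final

/-! ### The cyclotomic field `ℚ(ζ_p)` -/

section cyclotomic

variable {p : ℕ} [hp : Fact p.Prime] [IsCyclotomicExtension {p} ℚ K]

/-- **(U ii)** For `K = ℚ(ζ_p)`, `p ≥ 3`: two units of type `ω²` modulo `p`-th powers, the second
of which is not a `p`-th power, are multiplicatively dependent modulo `p`-th powers. -/
theorem omegaSq_eigenspace_rank_le_one (hp3 : 3 ≤ p) (u v : (𝓞 K)ˣ)
    (hu : ∀ (σ : K ≃ₐ[ℚ] K) (ζ : K) (k : ℕ), IsPrimitiveRoot ζ p → σ ζ = ζ ^ k →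
      ∃ w : (𝓞 K)ˣ, σ ((u : 𝓞 K) : K) = ((u : 𝓞 K) : K) ^ (k ^ 2) * ((w : 𝓞 K) : K) ^ p)
    (hv : ∀ (σ : K ≃ₐ[ℚ] K) (ζ : K) (k : ℕ), IsPrimitiveRoot ζ p → σ ζ = ζ ^ k →
      ∃ w : (𝓞 K)ˣ, σ ((v : 𝓞 K) : K) = ((v : 𝓞 K) : K) ^ (k ^ 2) * ((w : 𝓞 K) : K) ^ p)
    (hv' : ¬ ∃ w : (𝓞 K)ˣ, v = w ^ p) :
    ∃ (j : ℕ) (w : (𝓞 K)ˣ), u = v ^ j * w ^ p := by
  have hp0 : p ≠ 0 := hp.out.ne_zero
  have : NeZero p := ⟨hp0⟩
  have : IsGalois ℚ K := IsCyclotomicExtension.isGalois {p} ℚ K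
  have hirr : Irreducible (Polynomial.cyclotomic p ℚ) :=
    Polynomial.cyclotomic.irreducible_rat hp.out.pos
  -- the Galois group is cyclic of order `p - 1`
  let E := IsCyclotomicExtension.autEquivPow K hirr
  have : IsCyclic (K ≃ₐ[ℚ] K) := isCyclic_of_surjective E.symm E.symm.surjective
  obtain ⟨σ, hσ⟩ := IsCyclic.exists_generator (α := K ≃ₐ[ℚ] K)
  have hcard : Nat.card (K ≃ₐ[ℚ] K) = p - 1 := by
    rw [IsGalois.card_aut_eq_finrank, IsCyclotomicExtension.Rat.finrank p K,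
      Nat.totient_prime hp.out]
  have hn : ¬ p ∣ Nat.card (K ≃ₐ[ℚ] K) := by
    rw [hcard]
    intro hdvd
    have := Nat.le_of_dvd (by omega) hdvd
    omega
  -- a primitive root and the exponent of `σ`
  have hζ : IsPrimitiveRoot (IsCyclotomicExtension.zeta p ℚ K) p :=
    IsCyclotomicExtension.zeta_spec p ℚ K
  set ζ := IsCyclotomicExtension.zeta p ℚ K with hζdef
  have hσζpow : (σ ζ) ^ p = 1 := by rw [← map_pow, hζ.pow_eq_one, map_one]
  obtain ⟨g, -, hg⟩ := hζ.eq_pow_of_pow_eq_one hσζpow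
  have hσζ : σ ζ = ζ ^ g := hg.symm
  -- `g ≢ 0, 1 mod p`
  have hg0 : (g : ZMod p) ≠ 0 := by
    intro h0
    have hdvd : p ∣ g := (ZMod.natCast_eq_zero_iff _ _).mp h0
    obtain ⟨m, rfl⟩ := hdvd
    rw [pow_mul, hζ.pow_eq_one, one_pow] at hσζ
    have h1 : σ ζ = σ 1 := by rw [hσζ, map_one]
    have h2 : ζ = 1 := σ.injective h1
    have := hζ.eq_orderOf
    rw [h2, orderOf_one] at this
    have := hp.out.one_lt
    omega
  have hg1 : (g : ZMod p) ≠ 1 := by
    intro h1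
    have hmod : g ≡ 1 [MOD p] := by
      have : ((g : ℕ) : ZMod p) = ((1 : ℕ) : ZMod p) := by simpa using h1
      exact (ZMod.natCast_eq_natCast_iff _ _ _).mp this
    have hfix : σ ζ = ζ := by
      rw [hσζ]
      have h1p : 1 % p = 1 := Nat.mod_eq_of_lt hp.out.one_lt
      have hgp : g % p = 1 := by
        have : g % p = 1 % p := hmod
        rw [this, h1p]
      rw [← pow_mod_orderOf, ← hζ.eq_orderOf, hgp, pow_one]
    -- then `σ = 1`, so the group is trivial
    have hσ1 : σ = 1 := by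
      have : (σ : K →ₐ[ℚ] K) = (AlgEquiv.refl : K ≃ₐ[ℚ] K) := by
        apply (hζ.powerBasis ℚ).algHom_ext
        rw [IsPrimitiveRoot.powerBasis_gen]
        exact hfix
      ext x
      exact congrArg (fun f : K →ₐ[ℚ] K => f x) this
    have hall : ∀ τ : K ≃ₐ[ℚ] K, τ = 1 := by
      intro τ
      obtain ⟨m, hm⟩ := Subgroup.mem_zpowers_iff.mp (hσ τ)
      rw [← hm, hσ1, one_zpow]
    have hc1 : Nat.card (K ≃ₐ[ℚ] K) = 1 := by
      rw [Nat.card_eq_one_iff_unique]
      exact ⟨⟨fun a b => by rw [hall a, hall b]⟩, ⟨1⟩⟩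
    rw [hcard] at hc1
    omega
  have hge : ((g ^ 2 : ℕ) : ZMod p) ≠ (g : ZMod p) := by
    intro h
    rw [Nat.cast_pow] at h
    have h2 : (g : ZMod p) * ((g : ZMod p) - 1) = 0 := by rw [mul_sub, mul_one, ← sq, h, sub_self]
    rcases mul_eq_zero.mp h2 with h3 | h3
    · exact hg0 h3
    · exact hg1 (sub_eq_zero.mp h3)
  exact exists_pow_mul_pow_of_type σ hσ hn hζ hσζ hge (hu σ ζ g hζ hσζ) (hv σ ζ g hζ hσζ) hv'

end cyclotomic

end Fermat.Agent.S14.UnitsEigen
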