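import Fermat.Agent.S14.Skeleton
import Fermat.Agent.S14.UnitsEigen

/-!
# S14 (U ii) in the exact shape of `Skeleton.UnitEigenPkg`
-/

set_option autoImplicit false

namespace Fermat.Agent.S14.UnitsEigenPkg

open NumberField Fermat.Agent.S14

theorem unitEigenPkg (p : ℕ) [Fact p.Prime] (hp3 : 3 ≤ p) : Skeleton.UnitEigenPkg p := by
  intro K _ _ _ ζ hζ u v hu hv hv'
  have hζK : IsPrimitiveRoot (ζ : K) p :=
    hζ.map_of_injective (RingOfIntegers.coe_injective)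
  -- any primitive root is a power of `ζ`, so the hypothesis for `ζ` gives it for all roots
  have conv : ∀ x : (𝓞 K)ˣ,
      (∀ (σ : K ≃ₐ[ℚ] K) (k : ℕ), σ (ζ : K) = (ζ : K) ^ k → ∃ w : (𝓞 K)ˣ,
        Units.map (RingOfIntegers.mapRingEquiv (σ : K ≃+* K) : 𝓞 K →* 𝓞 K) x =
          x ^ (k ^ 2) * w ^ p) →
      ∀ (σ : K ≃ₐ[ℚ] K) (ξ : K) (k : ℕ), IsPrimitiveRoot ξ p → σ ξ = ξ ^ k →
        ∃ w : (𝓞 K)ˣ, σ ((x : 𝓞 K) : K) = ((x : 𝓞 K) : K) ^ (k ^ 2) * ((w : 𝓞 K) : K) ^ p := by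
    intro x hx σ ξ k hξ hσξ
    have hp0 : p ≠ 0 := (Fact.out : p.Prime).ne_zero
    have : NeZero p := ⟨hp0⟩
    -- `ζ = ξ ^ i`
    obtain ⟨i, -, hi⟩ := hξ.eq_pow_of_pow_eq_one hζK.pow_eq_one
    have hσζ : σ (ζ : K) = (ζ : K) ^ k := by
      rw [← hi, map_pow, hσξ, ← pow_mul, ← pow_mul, mul_comm]
    obtain ⟨w, hw⟩ := hx σ k hσζ
    refine ⟨w, ?_⟩
    have := congrArg (fun y : (𝓞 K)ˣ => ((y : 𝓞 K) : K)) hw
    simpa using this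
  exact UnitsEigen.omegaSq_eigenspace_rank_le_one hp3 u v (conv u hu) (conv v hv) hv'

end Fermat.Agent.S14.UnitsEigenPkg
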