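/-
S14: final assembly of the number-field core (Thaine route).
-/
import Mathlib
import Fermat.Agent.S14.Defs
import Fermat.Agent.S14.Skeleton
import Fermat.Agent.S14.E2Bridge
import Fermat.Agent.S14.CharDual
import Fermat.Agent.S14.EndGame
import Fermat.Agent.S14.UnitsEigenPkg

set_option autoImplicit false

namespace Fermat.Agent.S14.Final

open NumberField Fermat.Agent.S14.Defs Fermat.Agent.S14.CharDual
open scoped nonZeroDivisors

/-- (C) in the language of the end game: a non-principal ideal `I` with `I ^ p` principal whose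
class has type `ω²` gives a nontrivial class group character of order `p` and type `ω²`. -/
theorem exists_char_of_not_principal (p : ℕ) [hp : Fact p.Prime] (K : Type) [Field K]
    [NumberField K] [IsCyclotomicExtension {p} ℚ K] (ζ : K) (hζK : IsPrimitiveRoot ζ p)
    (I : Ideal (𝓞 K)) (hI0 : I ≠ ⊥) (hIp : (I ^ p).IsPrincipal)
    (htype : ∀ (δ : K ≃ₐ[ℚ] K) (c : ℕ), δ ζ = ζ ^ c → ∃ x y : 𝓞 K, x ≠ 0 ∧ y ≠ 0 ∧
      Ideal.span {x} * galIdeal K δ I = Ideal.span {y} * I ^ (c ^ 2))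
    (hnp : ¬ I.IsPrincipal) :
    ∃ ψ : ClassGroup (𝓞 K) →* ℂˣ, ψ ≠ 1 ∧ ψ ^ p = 1 ∧ IsOmegaSqChar K ζ ψ := by
  have hp0 : p ≠ 0 := hp.out.ne_zero
  set I0 : (Ideal (𝓞 K))⁰ := ⟨I, mem_nonZeroDivisors_of_ne_zero hI0⟩ with hI0def
  set c : Additive (ClassGroup (𝓞 K)) := Additive.ofMul (ClassGroup.mk0 I0) with hcdef
  have hc0 : c ≠ 0 := by
    intro h
    apply hnp
    have h1 : ClassGroup.mk0 I0 = 1 := h
    exact (ClassGroup.mk0_eq_one_iff I0.2).1 h1
  have hpc : p • c = 0 := by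
    have h1 : ClassGroup.mk0 I0 ^ p = 1 := by
      rw [← map_pow]
      have h2 : ((I0 ^ p : (Ideal (𝓞 K))⁰) : Ideal (𝓞 K)) = I ^ p := rfl
      rw [ClassGroup.mk0_eq_one_iff (I0 ^ p).2, h2]
      exact hIp
    exact congrArg Additive.ofMul h1
  -- the action
  have hc : ∀ σ : K ≃ₐ[ℚ] K, rhoCl K σ c =
      ((((hζK.autToPow ℚ σ : (ZMod p)ˣ) : ZMod p) ^ 2).val) • c := by
    intro σ
    set k : ℕ := ((hζK.autToPow ℚ σ : (ZMod p)ˣ) : ZMod p).val with hk
    have hσζ : σ ζ = ζ ^ k := (hζK.autToPow_spec ℚ σ).symm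
    obtain ⟨x, y, hx, hy, hxy⟩ := htype σ k hσζ
    have h1 : ClassGroup.mulEquiv (gRing K σ) (ClassGroup.mk0 I0) = ClassGroup.mk0 I0 ^ (k ^ 2) := by
      rw [ClassGroup.mulEquiv_mk0, ← map_pow, ClassGroup.mk0_eq_mk0_iff]
      exact ⟨x, y, hx, hy, hxy⟩
    have h2 : rhoCl K σ c = (k ^ 2) • c := by
      rw [hcdef, rhoCl_apply, h1]
      rfl
    rw [h2]
    apply nsmul_eq_of_natCast_eq p hpc
    rw [ZMod.natCast_zmod_val, Nat.cast_pow, hk, ZMod.natCast_zmod_val]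
  obtain ⟨Φ, hΦ0, hΦ⟩ := exists_equivariant_hom p (card_gal_zmod p K) (rhoCl K) (rhoCl_mul K)
    (hζK.autToPow ℚ) c hc0 hpc hc
  obtain ⟨ω, hω'⟩ := exists_omega p
  have hω1 : ω ^ p = 1 := hω'.pow_eq_one
  refine ⟨charOf p K hω1 Φ, ?_, ?_, ?_⟩
  · -- nontrivial
    intro h
    apply hΦ0
    apply AddMonoidHom.ext
    intro x
    have h1 : ((charOf p K hω1 Φ (Additive.toMul x : ClassGroup (𝓞 K)) : ℂˣ) : ℂ) = 1 := by
      rw [h]; rfl
    rw [charOf_apply p K hω1 Φ, AddChar.zmodChar_apply] at h1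
    have h2 : (Φ x).val = 0 := by
      by_contra hne
      exact hω'.pow_ne_one_of_pos_of_lt hne (ZMod.val_lt _) h1
    rw [AddMonoidHom.zero_apply]
    exact (ZMod.val_eq_zero _).1 h2
  · -- order dividing `p`
    ext C
    rw [MonoidHom.pow_apply, MonoidHom.one_apply, Units.val_pow_eq_pow_val, Units.val_one,
      charOf_apply, AddChar.zmodChar_apply, ← pow_mul, mul_comm, pow_mul, hω1, one_pow]
  · -- type `ω²`
    intro σ k hk I' J' hJ'
    have hkκ := natCast_eq_autToPow p K hζK σ k hk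
    apply Units.ext
    rw [Units.val_pow_eq_pow_val, charOf_apply, charOf_apply, ← rhoCl_mk0 K σ I' J' hJ', hΦ,
      ← AddChar.map_nsmul_eq_pow, nsmul_eq_mul, Nat.cast_pow, hkκ]

/-- the class group input of the end game, from (T) and (D) -/
theorem classInput_of_packages (p : ℕ) [Fact p.Prime] (h5 : 5 ≤ p)
    (hT : Skeleton.ThainePkg p) (hDen : Skeleton.DensityPkg p) : EndGame.ClassInput p := by
  intro K _ _ _ ζ hζ I hI hIp htype
  by_contra hnp
  obtain ⟨ψ, hψ1, hψp, hψ2⟩ := exists_char_of_not_principal p K ζ hζ I hI hIp htype hnp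
  have hζ' : IsPrimitiveRoot hζ.toInteger p := hζ.toInteger_isPrimitiveRoot
  obtain ⟨Q, hQp, hQ0, hq, hpQ, hnres, hne⟩ :=
    hDen K hζ.toInteger hζ' (E2num K p hζ.toInteger) (E2Bridge.E2num_not_pow h5 hζ') ψ hψp hψ1
  exact hne (hT K hζ.toInteger hζ' ψ hψp hψ2 Q hQp hQ0 hq hpQ hnres)

/-- `CoreStd p` for `p ≥ 5` from (T) and (D) -/
theorem coreStd_of_packages (p : ℕ) [Fact p.Prime] (h5 : 5 ≤ p)
    (hT : Skeleton.ThainePkg p) (hDen : Skeleton.DensityPkg p) : CoreStd.CoreStd p :=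
  EndGame.coreStd_of_inputs p h5 (classInput_of_packages p h5 hT hDen)
    (UnitsEigenPkg.unitEigenPkg p (by omega))

end Fermat.Agent.S14.Final
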