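/-
S14 (Thaine route): adapters between the class-group language (`Defs`, packages C/D) and the
function-on-ideals form of Thaine's relation (package T), as cut in board #887 (helper5).

(F1) `idealChar ψ I` : the character `ψ` of the class group as a function on ALL ideals
     (value `1` at `⊥`), multiplicative on nonzero ideals, trivial on principal ideals, of exponent
     `p`, and `ω²`-equivariant for the pointwise Galois action on ideals.
(F2) `not_residue_transfer` : `Defs.E2num` versus `∏_u (ζ^u - 1)^(cexp u)` (they differ by a sign,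
     which is a `p`-th power for odd `p`).
(F3) `mod_eq_one_of_absNorm_prime` : a prime `Q ∌ p` of `𝓞 K`, `K ∋ ζ_p`, of prime norm `q` has
     `q ≡ 1 mod p`.
-/
import Mathlib
import Fermat.Agent.S14.Defs
import Fermat.Agent.S14.E2Bridge

set_option autoImplicit false
set_option linter.unusedSectionVars false
set_option linter.style.haveILetI false

namespace Fermat.Agent.S14.Adapters

open NumberField Fermat.Agent.S14.Defs
open scoped nonZeroDivisors Pointwise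

variable (K : Type) [Field K] [NumberField K]

/-! ### (F1) class-group characters as functions on ideals -/

/-- the class group character `ψ` as a function on all ideals (`1` at `⊥`) -/
noncomputable def idealChar (ψ : ClassGroup (𝓞 K) →* ℂˣ) (I : Ideal (𝓞 K)) : ℂˣ :=
  if h : I = ⊥ then 1 else ψ (ClassGroup.mk0 ⟨I, mem_nonZeroDivisors_of_ne_zero h⟩)

variable {K}
variable (ψ : ClassGroup (𝓞 K) →* ℂˣ)

theorem idealChar_bot : idealChar K ψ ⊥ = 1 := dif_pos rfl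

theorem idealChar_of_ne_bot {I : Ideal (𝓞 K)} (hI : I ≠ ⊥) :
    idealChar K ψ I = ψ (ClassGroup.mk0 ⟨I, mem_nonZeroDivisors_of_ne_zero hI⟩) := dif_neg hI

theorem idealChar_mul (I J : Ideal (𝓞 K)) (hI : I ≠ ⊥) (hJ : J ≠ ⊥) :
    idealChar K ψ (I * J) = idealChar K ψ I * idealChar K ψ J := by
  have hIJ : I * J ≠ ⊥ := by
    rw [← Ideal.zero_eq_bot] at hI hJ ⊢
    exact mul_ne_zero hI hJ
  rw [idealChar_of_ne_bot ψ hIJ, idealChar_of_ne_bot ψ hI, idealChar_of_ne_bot ψ hJ, ← map_mul,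
    ← map_mul]
  rfl

theorem idealChar_span_singleton (x : 𝓞 K) (hx : x ≠ 0) :
    idealChar K ψ (Ideal.span {x}) = 1 := by
  have h : Ideal.span {x} ≠ (⊥ : Ideal (𝓞 K)) := by
    rwa [Ne, Ideal.span_singleton_eq_bot]
  rw [idealChar_of_ne_bot ψ h]
  have : ClassGroup.mk0 (⟨Ideal.span {x}, mem_nonZeroDivisors_of_ne_zero h⟩ : (Ideal (𝓞 K))⁰) = 1 := by
    rw [ClassGroup.mk0_eq_one_iff]
    exact ⟨⟨x, rfl⟩⟩
  rw [this, map_one]

theorem idealChar_pow_eq_one {p : ℕ} (hψ : ψ ^ p = 1) (I : Ideal (𝓞 K)) :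
    idealChar K ψ I ^ p = 1 := by
  by_cases hI : I = ⊥
  · rw [hI, idealChar_bot, one_pow]
  · rw [idealChar_of_ne_bot ψ hI, ← MonoidHom.pow_apply, hψ, MonoidHom.one_apply]

/-- the pointwise Galois action on ideals of `𝓞 K` is `Defs.galIdeal` -/
theorem smul_eq_galIdeal (σ : K ≃ₐ[ℚ] K) (I : Ideal (𝓞 K)) : σ • I = galIdeal K σ I := by
  rw [Ideal.pointwise_smul_def, galIdeal]
  congr 1

theorem galIdeal_ne_bot (σ : K ≃ₐ[ℚ] K) {I : Ideal (𝓞 K)} (hI : I ≠ ⊥) : galIdeal K σ I ≠ ⊥ := by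
  rw [galIdeal]
  intro h
  apply hI
  have := Ideal.map_eq_bot_iff_of_injective
    (f := ((RingOfIntegers.mapRingEquiv (σ : K ≃+* K)) : 𝓞 K →+* 𝓞 K))
    (RingOfIntegers.mapRingEquiv (σ : K ≃+* K)).injective (I := I)
  exact this.1 h

theorem galIdeal_bot (σ : K ≃ₐ[ℚ] K) : galIdeal K σ (⊥ : Ideal (𝓞 K)) = ⊥ := by
  rw [galIdeal, Ideal.map_bot]

/-- `ω²`-equivariance of `idealChar`, in the form consumed by Thaine's relation. -/
theorem idealChar_smul {p : ℕ} [hp : Fact p.Prime] [IsCyclotomicExtension {p} ℚ K] {ζ : K}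
    (hζ : IsPrimitiveRoot ζ p) (hψ : ψ ^ p = 1) (h2 : IsOmegaSqChar K ζ ψ) (σ : K ≃ₐ[ℚ] K)
    (I : Ideal (𝓞 K)) (k : ℕ)
    (hk : (k : ZMod p) = ((IsCyclotomicExtension.Rat.galEquivZMod p K σ : (ZMod p)ˣ) : ZMod p) ^ 2) :
    idealChar K ψ (σ • I) = idealChar K ψ I ^ k := by
  rw [smul_eq_galIdeal]
  by_cases hI : I = ⊥
  · rw [hI, galIdeal_bot, idealChar_bot, one_pow]
  have hJ := galIdeal_ne_bot σ hI
  rw [idealChar_of_ne_bot ψ hJ, idealChar_of_ne_bot ψ hI]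
  set k' : ℕ := ((IsCyclotomicExtension.Rat.galEquivZMod p K σ : (ZMod p)ˣ) : ZMod p).val with hk'
  have hσ : σ ζ = ζ ^ k' :=
    IsCyclotomicExtension.Rat.galEquivZMod_apply_of_pow_eq p K σ hζ.pow_eq_one
  have h3 := h2 σ k' hσ ⟨I, mem_nonZeroDivisors_of_ne_zero hI⟩
    ⟨galIdeal K σ I, mem_nonZeroDivisors_of_ne_zero hJ⟩ rfl
  rw [h3]
  -- `k ≡ k'^2 mod p` and the value has order dividing `p`
  set x := ψ (ClassGroup.mk0 ⟨I, mem_nonZeroDivisors_of_ne_zero hI⟩) with hx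
  have hxp : x ^ p = 1 := by
    rw [hx, ← MonoidHom.pow_apply, hψ, MonoidHom.one_apply]
  have hmod : k' ^ 2 ≡ k [MOD p] := by
    rw [← ZMod.natCast_eq_natCast_iff, hk, Nat.cast_pow, hk', ZMod.natCast_zmod_val]
  exact (pow_eq_pow_iff_modEq.2 (hmod.of_dvd (orderOf_dvd_of_pow_eq_one hxp)))

/-! ### (F2) the two normalisations of `E₂` -/

theorem cexp_cast {p : ℕ} [hp : Fact p.Prime] (u : (ZMod p)ˣ) :
    (UnitLocal.cexp u : ZMod p) = ((u⁻¹ : (ZMod p)ˣ) : ZMod p) ^ 2 := by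
  rw [UnitLocal.cexp, ZMod.natCast_zmod_val, Units.val_pow_eq_pow_val]

theorem prod_sub_one_eq {p : ℕ} [hp : Fact p.Prime] [IsCyclotomicExtension {p} ℚ K] (ζ : 𝓞 K) :
    ∏ u : (ZMod p)ˣ, (ζ ^ (u : ZMod p).val - 1) ^ UnitLocal.cexp u =
      (-1) ^ (∑ u : (ZMod p)ˣ, UnitLocal.cexp u) * E2num K p ζ := by
  rw [E2Bridge.E2num_eq_prod_units, ← Finset.prod_pow_eq_pow_sum, ← Finset.prod_mul_distrib]
  refine Finset.prod_congr rfl fun u _ => ?_
  rw [← mul_pow]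
  congr 1
  ring

theorem not_residue_transfer {p : ℕ} [hp : Fact p.Prime] [IsCyclotomicExtension {p} ℚ K]
    (hp2 : p ≠ 2) (ζ : 𝓞 K) (Q : Ideal (𝓞 K)) (h : ¬ IsPowResidue K p (E2num K p ζ) Q) :
    ¬ ∃ y : 𝓞 K, (∏ u : (ZMod p)ˣ, (ζ ^ (u : ZMod p).val - 1) ^ UnitLocal.cexp u) - y ^ p ∈ Q := by
  rintro ⟨y, hy⟩
  apply h
  set s := ∑ u : (ZMod p)ˣ, UnitLocal.cexp u with hs
  have hodd : Odd p := hp.out.odd_of_ne_two hp2
  have hε : (((-1 : 𝓞 K)) ^ s) ^ p = (-1) ^ s := by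
    rw [← pow_mul, mul_comm, pow_mul, hodd.neg_one_pow]
  have hε2 : ((-1 : 𝓞 K) ^ s) * ((-1) ^ s) = 1 := by
    rw [← mul_pow]; simp
  refine ⟨(-1) ^ s * y, ?_⟩
  rw [prod_sub_one_eq] at hy
  have : E2num K p ζ - ((-1) ^ s * y) ^ p =
      (-1) ^ s * ((-1) ^ s * E2num K p ζ - y ^ p) := by
    rw [mul_pow, hε, mul_sub, ← mul_assoc, hε2, one_mul]
  rw [this]
  exact Q.mul_mem_left _ hy

/-! ### (F3) primes of prime norm -/

/-- the image of a primitive `p`-th root of unity in `𝓞 K ⧸ Q` has order `p` when `p ∉ Q` -/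
theorem orderOf_mk_eq {p : ℕ} (hp : p.Prime) {ζ : 𝓞 K} (hζ : IsPrimitiveRoot ζ p)
    (Q : Ideal (𝓞 K)) (hpQ : (p : 𝓞 K) ∉ Q) : orderOf (Ideal.Quotient.mk Q ζ) = p := by
  have h1 : (Ideal.Quotient.mk Q ζ) ^ p = 1 := by rw [← map_pow, hζ.pow_eq_one, map_one]
  have hd : orderOf (Ideal.Quotient.mk Q ζ) ∣ p := orderOf_dvd_of_pow_eq_one h1
  rcases (Nat.dvd_prime hp).1 hd with h | h
  · exfalso
    have hone : Ideal.Quotient.mk Q ζ = 1 := orderOf_eq_one_iff.1 h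
    have h2 : ∑ i ∈ Finset.range p, (Ideal.Quotient.mk Q ζ) ^ i = 0 := by
      have := congrArg (Ideal.Quotient.mk Q) (hζ.geom_sum_eq_zero hp.one_lt)
      simpa using this
    rw [hone] at h2
    simp only [one_pow, Finset.sum_const, Finset.card_range, nsmul_eq_mul, mul_one] at h2
    rw [← map_natCast (Ideal.Quotient.mk Q), Ideal.Quotient.eq_zero_iff_mem] at h2
    exact hpQ h2
  · exact h

theorem mod_eq_one_of_absNorm_prime {p : ℕ} [hp : Fact p.Prime] [IsCyclotomicExtension {p} ℚ K]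
    (Q : Ideal (𝓞 K)) [hQ : Q.IsPrime] (hq : (Ideal.absNorm Q).Prime) (hpQ : (p : 𝓞 K) ∉ Q) :
    Ideal.absNorm Q % p = 1 ∧ ((Ideal.absNorm Q : ℕ) : 𝓞 K) ∈ Q ∧ Ideal.absNorm Q ≠ p := by
  have hmem : ((Ideal.absNorm Q : ℕ) : 𝓞 K) ∈ Q := Ideal.absNorm_mem Q
  have hne : Ideal.absNorm Q ≠ p := fun h => hpQ (h ▸ hmem)
  refine ⟨?_, hmem, hne⟩
  haveI : NeZero p := ⟨hp.out.ne_zero⟩
  have hζ0 := IsCyclotomicExtension.zeta_spec p ℚ K
  have hζ : IsPrimitiveRoot hζ0.toInteger p := hζ0.toInteger_isPrimitiveRoot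
  have hQ0 : Q ≠ ⊥ := by
    rintro rfl
    rw [Ideal.absNorm_bot] at hq
    exact Nat.not_prime_zero hq
  haveI hQmax : Q.IsMaximal := hQ.isMaximal hQ0
  letI : Field (𝓞 K ⧸ Q) := Ideal.Quotient.field Q
  have hcard : Nat.card (𝓞 K ⧸ Q) = Ideal.absNorm Q := by
    rw [Ideal.absNorm_apply, Submodule.cardQuot_apply]
  haveI : Finite (𝓞 K ⧸ Q) := Nat.finite_of_card_ne_zero (by rw [hcard]; exact hq.ne_zero)
  have hord := orderOf_mk_eq hp.out hζ Q hpQ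
  have h1 : (Ideal.Quotient.mk Q hζ0.toInteger) ^ p = 1 := by
    rw [← map_pow, hζ.pow_eq_one, map_one]
  set u : (𝓞 K ⧸ Q)ˣ := Units.ofPowEqOne _ p h1 hp.out.ne_zero with hu
  have hordu : orderOf u = p := by
    rw [← orderOf_units, hu, Units.val_ofPowEqOne, hord]
  have hdvd : p ∣ Nat.card (𝓞 K ⧸ Q)ˣ := hordu ▸ orderOf_dvd_natCard u
  rw [Nat.card_units, hcard] at hdvd
  -- `p ∣ q - 1`, `q ≥ 2`
  obtain ⟨t, ht⟩ := hdvd
  have hq2 : 2 ≤ Ideal.absNorm Q := hq.two_le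
  have : Ideal.absNorm Q = 1 + p * t := by omega
  rw [this, Nat.add_mul_mod_self_left, Nat.mod_eq_of_lt hp.out.one_lt]

end Fermat.Agent.S14.Adapters
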