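import Mathlib

set_option autoImplicit false

/-!
# S14 (T-f): the projection algebra of Thaine's relation

Abstract form.  `R` a domain with an action of a finite group `G`, `Q0` a nonzero prime ideal,
`ψ` a multiplicative function on nonzero ideals, trivial on principal ideals, of exponent `p`,
with `ψ (σ • Q0) = ψ Q0 ^ κ σ`.  Given Thaine's relation

* `span {b} = 𝔠 ^ (q - 1) * ∏ σ, (σ • Q0) ^ r σ` with `b ≠ 0`, `p ∣ q - 1`,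
* `g ^ r σ * (z - 1) ≡ 1 mod σ • Q0` for all `σ` (`g` fixed by `G`),

and exponents `c σ ≡ κ σ mod p`: if `E = ∏ σ, (σ⁻¹ • z - 1) ^ c σ` is not a `p`-th power residue
modulo `Q0`, then `ψ Q0 = 1`.
-/

namespace Fermat.Agent.S14.ThaineProj

open scoped Pointwise

section Psi

variable {R : Type*} [CommRing R] [IsDomain R] {M : Type*} [CommMonoid M]

/-- `ψ 1 = 1` -/
theorem psi_one (ψ : Ideal R → M) (hprinc : ∀ x : R, x ≠ 0 → ψ (Ideal.span {x}) = 1) :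
    ψ 1 = 1 := by
  have := hprinc 1 one_ne_zero
  rwa [Ideal.span_singleton_one, ← Ideal.one_eq_top] at this

/-- `ψ (I ^ n) = ψ I ^ n` for `I ≠ ⊥` -/
theorem psi_pow (ψ : Ideal R → M)
    (hmul : ∀ I J : Ideal R, I ≠ ⊥ → J ≠ ⊥ → ψ (I * J) = ψ I * ψ J)
    (hprinc : ∀ x : R, x ≠ 0 → ψ (Ideal.span {x}) = 1) {I : Ideal R} (hI : I ≠ ⊥) (n : ℕ) :
    ψ (I ^ n) = ψ I ^ n := by
  induction n with
  | zero => rw [pow_zero, pow_zero]; exact psi_one ψ hprinc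
  | succ n ih =>
    rw [pow_succ, pow_succ, hmul _ _ (pow_ne_zero n hI) hI, ih]

/-- `ψ (∏ J i) = ∏ ψ (J i)` for nonzero ideals `J i` -/
theorem psi_prod (ψ : Ideal R → M)
    (hmul : ∀ I J : Ideal R, I ≠ ⊥ → J ≠ ⊥ → ψ (I * J) = ψ I * ψ J)
    (hprinc : ∀ x : R, x ≠ 0 → ψ (Ideal.span {x}) = 1) {ι : Type*} (s : Finset ι)
    (J : ι → Ideal R) (hJ : ∀ i ∈ s, J i ≠ ⊥) :
    ψ (∏ i ∈ s, J i) = ∏ i ∈ s, ψ (J i) := by
  classical
  induction s using Finset.induction_on with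
  | empty => rw [Finset.prod_empty, Finset.prod_empty]; exact psi_one ψ hprinc
  | insert a s ha ih =>
    have h1 : ∀ i ∈ s, J i ≠ ⊥ := fun i hi => hJ i (Finset.mem_insert_of_mem hi)
    have h2 : ∏ i ∈ s, J i ≠ ⊥ := by
      rw [← Ideal.zero_eq_bot]
      exact Finset.prod_ne_zero_iff.mpr fun i hi => by
        rw [Ideal.zero_eq_bot]; exact h1 i hi
    rw [Finset.prod_insert ha, Finset.prod_insert ha,
      hmul _ _ (hJ a (Finset.mem_insert_self a s)) h2, ih h1]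

/-- an element of a commutative monoid killed by two coprime exponents is trivial -/
theorem eq_one_of_pow_eq_one_of_coprime {m : M} {a b : ℕ} (ha : m ^ a = 1) (hb : m ^ b = 1)
    (hab : Nat.Coprime a b) : m = 1 := by
  have h : m ^ Nat.gcd a b = 1 := pow_gcd_eq_one.mpr ⟨ha, hb⟩
  rwa [hab.gcd_eq_one, pow_one] at h

end Psi

section Residue

variable {R : Type*} [CommRing R]

/-- if `G ^ p * E ≡ 1 mod Q0` then `E` is a `p`-th power residue modulo `Q0`. -/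
theorem exists_pow_of_mul_pow (Q0 : Ideal R) {p : ℕ} (hp : 0 < p) {G E : R}
    (h : G ^ p * E - 1 ∈ Q0) : ∃ y : R, E - y ^ p ∈ Q0 := by
  refine ⟨E * G ^ (p - 1), ?_⟩
  have h1 : Ideal.Quotient.mk Q0 (G ^ p * E) = 1 := by
    rw [← map_one (Ideal.Quotient.mk Q0)]
    exact Ideal.Quotient.eq.mpr h
  have h2 : (E * G ^ (p - 1)) ^ p = E * (G ^ p * E) ^ (p - 1) := by
    obtain ⟨n, rfl⟩ : ∃ n, p = n + 1 := ⟨p - 1, by omega⟩
    simp only [Nat.add_sub_cancel]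
    ring
  rw [← Ideal.Quotient.eq_zero_iff_mem, map_sub, sub_eq_zero, h2, map_mul, map_pow, h1, one_pow,
    mul_one]

/-- if `g ^ r i * x i ≡ 1 mod Q0` for all `i`, then `g ^ (∑ r i * c i) * ∏ x i ^ c i ≡ 1`. -/
theorem pow_sum_mul_prod_sub_one_mem (Q0 : Ideal R) {ι : Type*} (s : Finset ι) (g : R)
    (r c : ι → ℕ) (x : ι → R) (h : ∀ i ∈ s, g ^ r i * x i - 1 ∈ Q0) :
    g ^ (∑ i ∈ s, r i * c i) * ∏ i ∈ s, x i ^ c i - 1 ∈ Q0 := by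
  have h1 : ∀ i ∈ s, Ideal.Quotient.mk Q0 (g ^ r i * x i) = 1 := fun i hi => by
    rw [← map_one (Ideal.Quotient.mk Q0)]
    exact Ideal.Quotient.eq.mpr (h i hi)
  have h2 : g ^ (∑ i ∈ s, r i * c i) * ∏ i ∈ s, x i ^ c i = ∏ i ∈ s, (g ^ r i * x i) ^ c i := by
    rw [← Finset.prod_pow_eq_pow_sum, ← Finset.prod_mul_distrib]
    refine Finset.prod_congr rfl fun i _ => ?_
    rw [mul_pow, ← pow_mul]
  rw [← Ideal.Quotient.eq_zero_iff_mem, map_sub, sub_eq_zero, map_one, h2, map_prod]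
  refine Finset.prod_eq_one fun i hi => ?_
  rw [map_pow, h1 i hi, one_pow]

end Residue

section Main

variable {R : Type*} [CommRing R] [IsDomain R] {G : Type*} [Group G] [Fintype G]
  [MulSemiringAction G R] {M : Type*} [CommMonoid M]

/-- **Projection algebra of Thaine's relation (abstract form).** -/
theorem psi_eq_one_of_relation {p : ℕ} (hp : p.Prime) (ψ : Ideal R → M)
    (hmul : ∀ I J : Ideal R, I ≠ ⊥ → J ≠ ⊥ → ψ (I * J) = ψ I * ψ J)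
    (hprinc : ∀ x : R, x ≠ 0 → ψ (Ideal.span {x}) = 1)
    (hpow : ∀ I : Ideal R, ψ I ^ p = 1)
    (Q0 : Ideal R) (hQ0 : Q0 ≠ ⊥)
    (κ : G → ℕ) (hequiv : ∀ σ : G, ψ (σ • Q0) = ψ Q0 ^ κ σ)
    {q : ℕ} (hpq : p ∣ q - 1)
    {b : R} (hb : b ≠ 0) (𝔠 : Ideal R) (r : G → ℕ)
    (hfac : Ideal.span {b} = 𝔠 ^ (q - 1) * ∏ σ : G, (σ • Q0) ^ r σ)
    (g z : R) (hg : ∀ σ : G, σ • g = g)
    (hcong : ∀ σ : G, g ^ r σ * (z - 1) - 1 ∈ σ • Q0)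
    (c : G → ℕ) (hc : ∀ σ, c σ ≡ κ σ [MOD p])
    (hE : ¬ ∃ y : R, (∏ σ : G, (σ⁻¹ • z - 1) ^ c σ) - y ^ p ∈ Q0) : ψ Q0 = 1 := by
  -- the congruences transported to `Q0`
  have hx : ∀ σ : G, g ^ r σ * (σ⁻¹ • z - 1) - 1 ∈ Q0 := fun σ => by
    have := Ideal.mem_pointwise_smul_iff_inv_smul_mem.mp (hcong σ)
    simpa [smul_sub, smul_mul', smul_pow', hg] using this
  -- `p` does not divide `T = ∑ r σ * c σ`
  have hT : ¬ p ∣ ∑ σ : G, r σ * c σ := by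
    rintro ⟨m, hm⟩
    have h1 := pow_sum_mul_prod_sub_one_mem Q0 Finset.univ g r c (fun σ => σ⁻¹ • z - 1)
      (fun σ _ => hx σ)
    rw [hm, mul_comm p m, pow_mul] at h1
    exact hE (exists_pow_of_mul_pow Q0 hp.pos h1)
  -- hence not `S = ∑ r σ * κ σ`
  have hST : (∑ σ : G, r σ * κ σ) ≡ ∑ σ : G, r σ * c σ [MOD p] :=
    Nat.ModEq.sum fun σ _ => ((hc σ).symm).mul_left (r σ)  
  have hS : ¬ p ∣ ∑ σ : G, r σ * κ σ := fun h =>
    hT ((Nat.modEq_zero_iff_dvd.mp ((hST.symm).trans (Nat.modEq_zero_iff_dvd.mpr h))))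
  have hcop : Nat.Coprime (∑ σ : G, r σ * κ σ) p :=
    (Nat.Coprime.symm ((Nat.Prime.coprime_iff_not_dvd hp).mpr hS))
  -- `ψ Q0 ^ S = 1`
  have hsm : ∀ σ : G, σ • Q0 ≠ ⊥ := fun σ h => by
    apply hQ0
    have := congrArg (fun I => σ⁻¹ • I) h
    simpa [Ideal.smul_bot] using this
  have hprod : ψ (∏ σ : G, (σ • Q0) ^ r σ) = ψ Q0 ^ (∑ σ : G, r σ * κ σ) := by
    rw [psi_prod ψ hmul hprinc Finset.univ _ (fun σ _ => pow_ne_zero _ (hsm σ)),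
      ← Finset.prod_pow_eq_pow_sum]
    refine Finset.prod_congr rfl fun σ _ => ?_
    rw [psi_pow ψ hmul hprinc (hsm σ), hequiv, ← pow_mul, mul_comm]
  have hspan : Ideal.span {b} ≠ ⊥ := by
    rwa [Ne, Ideal.span_singleton_eq_bot]
  have hne2 : ∏ σ : G, (σ • Q0) ^ r σ ≠ ⊥ := by
    rw [← Ideal.zero_eq_bot]
    exact Finset.prod_ne_zero_iff.mpr fun σ _ => by
      rw [Ideal.zero_eq_bot]; exact pow_ne_zero _ (hsm σ)
  have hne1 : 𝔠 ^ (q - 1) ≠ ⊥ := by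
    intro h
    apply hspan
    rw [hfac, h, Ideal.bot_mul]
  have hc1 : ψ (𝔠 ^ (q - 1)) = 1 := by
    by_cases h𝔠 : 𝔠 = ⊥
    · have h0 : q - 1 = 0 := by
        by_contra h0
        apply hne1
        rw [h𝔠, ← Ideal.zero_eq_bot, zero_pow h0]
      rw [h0, pow_zero]
      exact psi_one ψ hprinc
    · obtain ⟨t, ht⟩ := hpq
      rw [psi_pow ψ hmul hprinc h𝔠, ht, pow_mul, hpow, one_pow]
  have hS1 : ψ Q0 ^ (∑ σ : G, r σ * κ σ) = 1 := by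
    have h1 : ψ (Ideal.span {b}) = ψ (𝔠 ^ (q - 1)) * ψ (∏ σ : G, (σ • Q0) ^ r σ) := by
      rw [hfac, hmul _ _ hne1 hne2]
    rw [hprinc b hb, hc1, one_mul, hprod] at h1
    exact h1.symm
  exact eq_one_of_pow_eq_one_of_coprime hS1 (hpow Q0) hcop

end Main

section Cyclotomic

open NumberField IsCyclotomicExtension.Rat

variable (p : ℕ) [Fact p.Prime] (K : Type*) [Field K] [NumberField K]
  [IsCyclotomicExtension {p} ℚ K]

/-- **Projection algebra of Thaine's relation for `K = ℚ(ζ_p)`**: the corollary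
`psi_eq_one_of_not_pow` of Thaine's relation, with the relation
(`b`, `𝔠`, `r`, `g`, factorisation and congruences) as hypotheses. -/
theorem psi_eq_one_of_not_pow_of_relation {M : Type*} [CommMonoid M] (ψ : Ideal (𝓞 K) → M)
    (hmul : ∀ I J : Ideal (𝓞 K), I ≠ ⊥ → J ≠ ⊥ → ψ (I * J) = ψ I * ψ J)
    (hprinc : ∀ x : 𝓞 K, x ≠ 0 → ψ (Ideal.span {x}) = 1)
    (hpow : ∀ I : Ideal (𝓞 K), ψ I ^ p = 1) (j : ℕ)
    (hequiv : ∀ (σ : Gal(K/ℚ)) (I : Ideal (𝓞 K)) (k : ℕ),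
      (k : ZMod p) = ((galEquivZMod p K σ : (ZMod p)ˣ) : ZMod p) ^ j → ψ (σ • I) = ψ I ^ k)
    (c : (ZMod p)ˣ → ℕ) (hc : ∀ u : (ZMod p)ˣ, (c u : ZMod p) = ((u⁻¹ : (ZMod p)ˣ) : ZMod p) ^ j)
    (ζ : 𝓞 K) (hζ : ζ ^ p = 1) (Q0 : Ideal (𝓞 K)) (hQ0 : Q0 ≠ ⊥) {q : ℕ} (hpq : p ∣ q - 1)
    (g : ℕ) (r : Gal(K/ℚ) → ℕ) (b : 𝓞 K) (𝔠 : Ideal (𝓞 K)) (hb : b ≠ 0)
    (hfac : Ideal.span {b} = 𝔠 ^ (q - 1) * ∏ σ : Gal(K/ℚ), (σ • Q0) ^ r σ)
    (hcong : ∀ σ : Gal(K/ℚ), (g : 𝓞 K) ^ r σ * (ζ - 1) - 1 ∈ σ • Q0)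
    (hE : ¬ ∃ y : 𝓞 K,
      (∏ u : (ZMod p)ˣ, (ζ ^ ((u : (ZMod p)ˣ) : ZMod p).val - 1) ^ c u) - y ^ p ∈ Q0) :
    ψ Q0 = 1 := by
  have hpp : p.Prime := Fact.out
  set κ : Gal(K/ℚ) → ℕ := fun σ => c ((galEquivZMod p K σ)⁻¹) with hκ
  refine psi_eq_one_of_relation hpp ψ hmul hprinc hpow Q0 hQ0 κ (fun σ => ?_) hpq hb 𝔠 r hfac
    (g : 𝓞 K) ζ (fun σ => ?_) hcong κ (fun σ => Nat.ModEq.refl _) ?_
  · refine hequiv σ Q0 (κ σ) ?_
    rw [hκ, hc, inv_inv]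
  · exact map_natCast (MulSemiringAction.toRingHom Gal(K/ℚ) (𝓞 K) σ) g
  · intro h
    apply hE
    obtain ⟨y, hy⟩ := h
    refine ⟨y, ?_⟩
    have e : ∏ σ : Gal(K/ℚ), (σ⁻¹ • ζ - 1) ^ κ σ =
        ∏ u : (ZMod p)ˣ, (ζ ^ ((u : (ZMod p)ˣ) : ZMod p).val - 1) ^ c u := by
      refine Fintype.prod_equiv ((galEquivZMod p K).toEquiv.trans (Equiv.inv (ZMod p)ˣ)) _ _
        fun σ => ?_
      rw [galEquivZMod_smul_of_pow_eq p K σ⁻¹ hζ, map_inv]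
      rfl
    rw [← e]
    exact hy

end Cyclotomic

end Fermat.Agent.S14.ThaineProj
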