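/-
S14 (Thaine route), package (T), final glue (helper10, board #915).

`ThaineRel p` : Thaine's raw relation for `K = ℚ(ζ_p)` and a degree-one prime `Q0 ∣ q`,
`q ≡ 1 mod p` (the statement proved by the integration file of package T).

`thainePkg_of_rel` : `ThaineRel p → Skeleton.ThainePkg p`, by the landed projection algebra
(`ThaineProj.psi_eq_one_of_not_pow_of_relation`) and the landed adapters
(`Adapters.idealChar`, `not_residue_transfer`, `mod_eq_one_of_absNorm_prime`).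
-/
import Mathlib
import Fermat.Agent.S14.Skeleton
import Fermat.Agent.S14.Adapters
import Fermat.Agent.S14.ThaineProj

set_option autoImplicit false

namespace Fermat.Agent.S14.ThainePkg

open NumberField Fermat.Agent.S14.Defs
open scoped nonZeroDivisors Pointwise

/-- **Thaine's raw relation** (board #831 / #915): for `K = ℚ(ζ_p)`, a prime `q ≡ 1 mod p` and a
prime `Q0` of `𝓞 K` above `q` there are `b ≠ 0`, an ideal `𝔠`, exponents `r σ` and an integer `g`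
with `(b) = 𝔠^(q-1) ∏_σ (σ Q0)^(r σ)` and `g^(r σ) (ζ - 1) ≡ 1 mod σ Q0`. -/
def ThaineRel (p : ℕ) [Fact p.Prime] : Prop :=
  ∀ (K : Type) [Field K] [NumberField K] [IsCyclotomicExtension {p} ℚ K] (ζ : 𝓞 K),
    IsPrimitiveRoot ζ p →
  ∀ (q : ℕ), q.Prime → q % p = 1 → ∀ (Q0 : Ideal (𝓞 K)), Q0.IsPrime → (q : 𝓞 K) ∈ Q0 →
    ∃ (g : ℕ) (r : Gal(K/ℚ) → ℕ) (b : 𝓞 K) (𝔠 : Ideal (𝓞 K)), b ≠ 0 ∧
      Ideal.span {b} = 𝔠 ^ (q - 1) * ∏ σ : Gal(K/ℚ), (σ • Q0) ^ r σ ∧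
      ∀ σ : Gal(K/ℚ), (g : 𝓞 K) ^ r σ * (ζ - 1) - 1 ∈ σ • Q0

/-- Package (T) in the `Skeleton` shape from Thaine's raw relation. -/
theorem thainePkg_of_rel (p : ℕ) [Fact p.Prime] (h5 : 5 ≤ p) (h : ThaineRel p) :
    Skeleton.ThainePkg p := by
  intro K _ _ _ ζ hζ ψ hψ h2 Q hQ hQ0 hq hpQ hE
  haveI := hQ
  obtain ⟨hmod, hmem, -⟩ := Adapters.mod_eq_one_of_absNorm_prime Q hq hpQ
  obtain ⟨g, r, b, 𝔠, hb, hfac, hcong⟩ := h K ζ hζ (Ideal.absNorm Q) hq hmod Q hQ hmem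
  have hp2 : p ≠ 2 := by omega
  have hpq : p ∣ Ideal.absNorm Q - 1 := by
    have h1 : 1 ≤ Ideal.absNorm Q := hq.one_lt.le
    exact (Nat.modEq_iff_dvd' h1).1 (by
      rw [Nat.ModEq, hmod, Nat.mod_eq_of_lt (by omega)])
  have hζK : IsPrimitiveRoot (ζ : K) p :=
    hζ.map_of_injective (RingOfIntegers.coe_injective)
  have key := ThaineProj.psi_eq_one_of_not_pow_of_relation p K (Adapters.idealChar K ψ)
    (Adapters.idealChar_mul ψ) (Adapters.idealChar_span_singleton ψ)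
    (Adapters.idealChar_pow_eq_one ψ hψ) 2
    (fun σ I k hk => Adapters.idealChar_smul ψ hζK hψ h2 σ I k hk)
    UnitLocal.cexp Adapters.cexp_cast ζ hζ.pow_eq_one Q hQ0 hpq g r b 𝔠 hb hfac hcong
    (Adapters.not_residue_transfer hp2 ζ Q hE)
  rw [Adapters.idealChar_of_ne_bot ψ hQ0] at key
  exact key

end Fermat.Agent.S14.ThainePkg
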