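import Mathlib

set_option autoImplicit false

/-!
# S14 (T), tower facts: `K = ℚ(ζ_p) ⊂ L = K(ζ_q)`
-/

namespace Fermat.Agent.S14.ThaineTower

open Polynomial

section Tower

/-- a product of primitive roots of coprime orders is a primitive root of the product order -/
theorem isPrimitiveRoot_mul {M : Type*} [CommMonoid M] {a b : M} {m n : ℕ} (ha : IsPrimitiveRoot a m)
    (hb : IsPrimitiveRoot b n) (hmn : Nat.Coprime m n) :
    IsPrimitiveRoot (a * b) (m * n) := by
  have h1 : orderOf a = m := ha.eq_orderOf.symm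
  have h2 : orderOf b = n := hb.eq_orderOf.symm
  have h3 : orderOf (a * b) = m * n := by
    rw [← h1, ← h2]
    exact (Commute.all a b).orderOf_mul_eq_mul_orderOf_of_coprime (by rw [h1, h2]; exact hmn)
  rw [← h3]
  exact IsPrimitiveRoot.orderOf (a * b)

theorem isCyclotomicExtension_mul {p q : ℕ} [hp : Fact p.Prime] [hq : Fact q.Prime] (hpq : p ≠ q)
    (K L : Type*) [Field K] [Field L] [CharZero K] [Algebra K L] [CharZero L]
    [IsCyclotomicExtension {p} ℚ K] [IsCyclotomicExtension {q} K L] :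
    IsCyclotomicExtension {p * q} ℚ L := by
  have h1 : IsCyclotomicExtension ({p} ∪ {q}) ℚ L :=
    IsCyclotomicExtension.trans (S := {p}) (T := {q}) ℚ K L (algebraMap K L).injective
  obtain ⟨a, ha⟩ := h1.exists_isPrimitiveRoot (n := p) (by simp) hp.out.ne_zero
  obtain ⟨b, hb⟩ := h1.exists_isPrimitiveRoot (n := q) (by simp) hq.out.ne_zero
  have hab : IsPrimitiveRoot (a * b) (p * q) := isPrimitiveRoot_mul ha hb
    ((Nat.coprime_primes hp.out hq.out).mpr hpq)
  have h2 : IsCyclotomicExtension (({p} ∪ {q}) ∪ {p * q}) ℚ L :=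
    IsCyclotomicExtension.union_of_isPrimitiveRoot _ ℚ L hab
  have hne : p * q ≠ 0 := Nat.mul_ne_zero hp.out.ne_zero hq.out.ne_zero
  have e : (({p} ∪ {q}) ∪ {p * q} : Set ℕ) = (({p * q} ∪ {p}) ∪ {q}) := by
    ext x
    simp only [Set.mem_union, Set.mem_singleton_iff]
    tauto
  rw [e] at h2
  have h3 : IsCyclotomicExtension ({p * q} ∪ {p}) ℚ L :=
    (IsCyclotomicExtension.iff_union_of_dvd ℚ L
      ⟨p * q, by simp, hne, Dvd.intro_left p rfl⟩).mpr h2
  exact (IsCyclotomicExtension.iff_union_of_dvd ℚ L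
    ⟨p * q, by simp, hne, Dvd.intro q rfl⟩).mpr h3

theorem finrank_eq {p q : ℕ} [hp : Fact p.Prime] [hq : Fact q.Prime] (hpq : p ≠ q)
    (K L : Type*) [Field K] [Field L] [CharZero K] [Algebra K L] [CharZero L]
    [IsCyclotomicExtension {p} ℚ K] [IsCyclotomicExtension {q} K L] :
    Module.finrank K L = q - 1 := by
  have := isCyclotomicExtension_mul hpq K L
  have : NeZero (p * q) := ⟨Nat.mul_ne_zero hp.out.ne_zero hq.out.ne_zero⟩
  have : NeZero p := ⟨hp.out.ne_zero⟩
  have h1 : Module.finrank ℚ L = (p * q).totient := IsCyclotomicExtension.Rat.finrank (p * q) L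
  have h2 : Module.finrank ℚ K = p.totient := IsCyclotomicExtension.Rat.finrank p K
  have h3 := Module.finrank_mul_finrank ℚ K L
  rw [h1, h2, Nat.totient_mul ((Nat.coprime_primes hp.out hq.out).mpr hpq),
    Nat.totient_prime hp.out, Nat.totient_prime hq.out] at h3
  exact Nat.eq_of_mul_eq_mul_left (Nat.sub_pos_of_lt hp.out.one_lt) h3

theorem cyclotomic_irreducible {p q : ℕ} [hp : Fact p.Prime] [hq : Fact q.Prime] (hpq : p ≠ q)
    (K L : Type*) [Field K] [Field L] [CharZero K] [Algebra K L] [CharZero L]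
    [IsCyclotomicExtension {p} ℚ K] [IsCyclotomicExtension {q} K L] :
    Irreducible (cyclotomic q K) := by
  have : NeZero q := ⟨hq.out.ne_zero⟩
  have hζ := IsCyclotomicExtension.zeta_spec q K L
  have hint : IsIntegral K (IsCyclotomicExtension.zeta q K L) := hζ.isIntegral hq.out.pos |>.tower_top
  have hdvd : minpoly K (IsCyclotomicExtension.zeta q K L) ∣ cyclotomic q K := by
    apply minpoly.dvd
    rw [aeval_def, eval₂_eq_eval_map, map_cyclotomic, ← IsRoot.def, isRoot_cyclotomic_iff]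
    exact hζ
  have hdeg : (minpoly K (IsCyclotomicExtension.zeta q K L)).natDegree = q - 1 := by
    rw [← hζ.powerBasis_dim K, ← PowerBasis.finrank, finrank_eq hpq K L]
  have heq : cyclotomic q K = minpoly K (IsCyclotomicExtension.zeta q K L) := by
    refine eq_of_monic_of_dvd_of_natDegree_le (minpoly.monic hint) (cyclotomic.monic q K) hdvd
      ?_
    rw [hdeg, natDegree_cyclotomic, Nat.totient_prime hq.out]
  rw [heq]
  exact minpoly.irreducible hint

open Algebra Finset in
/-- the norm of `ζ - c`, `c` in the base field, is `Φ_n(c)` (for `n > 2` and `Φ_n` irreducible) -/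
theorem norm_sub_algebraMap {n : ℕ} [NeZero n] {K L : Type*} [Field K] [Field L] [Algebra K L]
    [IsCyclotomicExtension {n} K L] {ζ : L} (hζ : IsPrimitiveRoot ζ n) (h : 2 < n)
    (hirr : Irreducible (cyclotomic n K)) (c : K) :
    Algebra.norm K (ζ - algebraMap K L c) = eval c (cyclotomic n K) := by
  have := IsCyclotomicExtension.neZero' n K L
  let E := AlgebraicClosure L
  obtain ⟨z, hz⟩ := IsAlgClosed.exists_root _ (degree_cyclotomic_pos n E (NeZero.pos _)).ne.symm
  apply (algebraMap K E).injective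
  let := IsCyclotomicExtension.finiteDimensional {n} K L
  let := IsCyclotomicExtension.isGalois {n} K L
  rw [norm_eq_prod_embeddings]
  have hterm : ∀ σ : L →ₐ[K] E, σ (ζ - algebraMap K L c) = -1 * (algebraMap K E c - σ ζ) := by
    intro σ
    rw [map_sub, AlgHom.commutes]
    ring
  simp only [hterm]
  rw [prod_mul_distrib, prod_const, Finset.card_univ, AlgHom.card,
    IsCyclotomicExtension.finrank L hirr, (Nat.totient_even h).neg_one_pow, one_mul]
  have Hprod : (Finset.univ.prod fun σ : L →ₐ[K] E => algebraMap K E c - σ ζ) =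
      eval (algebraMap K E c) (cyclotomic' n E) := by
    rw [cyclotomic', eval_prod, ← @Finset.prod_attach E E, ← univ_eq_attach]
    refine Fintype.prod_equiv (hζ.embeddingsEquivPrimitiveRoots E hirr) _ _ fun σ => ?_
    simp
  have : NeZero (n : E) := NeZero.of_faithfulSMul K _ n
  rw [Hprod, cyclotomic', ← cyclotomic_eq_prod_X_sub_primitiveRoots (isRoot_cyclotomic_iff.1 hz),
    ← map_cyclotomic n (algebraMap K E), eval_map_algebraMap, aeval_algebraMap_apply]
  rfl

/-- `Φ_q(x) = 1` if `x ^ q = x` and `x ≠ 1` -/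
theorem eval_cyclotomic_prime_eq_one {q : ℕ} [hq : Fact q.Prime] {K : Type*} [Field K] {x : K}
    (hx : x ^ q = x) (hx1 : x ≠ 1) : eval x (cyclotomic q K) = 1 := by
  have h := congrArg (eval x) (cyclotomic_prime_mul_X_sub_one K q)
  rw [eval_mul, eval_sub, eval_sub, eval_pow, eval_X, eval_one, hx] at h
  exact mul_right_cancel₀ (sub_ne_zero.mpr hx1) (by rw [h, one_mul])

/-- **`N_{L/K}(ζ_p ζ_q - 1) = 1`** for `q ≡ 1 mod p`. -/
theorem norm_mul_sub_one {p q : ℕ} [hp : Fact p.Prime] [hq : Fact q.Prime] (h : q % p = 1)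
    (K L : Type*) [Field K] [Field L] [CharZero K] [Algebra K L] [CharZero L]
    [IsCyclotomicExtension {p} ℚ K] [IsCyclotomicExtension {q} K L]
    {ζ : K} (hζ : IsPrimitiveRoot ζ p) {ζq : L} (hζq : IsPrimitiveRoot ζq q) :
    Algebra.norm K (algebraMap K L ζ * ζq - 1) = 1 := by
  have hpq : p ≠ q := by
    rintro rfl
    rw [Nat.mod_self] at h
    exact zero_ne_one h
  have hpdvd : p ∣ q - 1 := (Nat.modEq_iff_dvd' hq.out.one_le).mp
    (by rw [Nat.ModEq, h, Nat.mod_eq_of_lt hp.out.one_lt])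
  have hq2 : 2 < q := by
    have h1 := Nat.le_of_dvd (Nat.sub_pos_of_lt hq.out.one_lt) hpdvd
    have h2 := hp.out.two_le
    omega
  have : NeZero q := ⟨hq.out.ne_zero⟩
  have hζ0 : ζ ≠ 0 := hζ.ne_zero hp.out.ne_zero
  have hirr := cyclotomic_irreducible hpq K L
  have e : algebraMap K L ζ * ζq - 1 = algebraMap K L ζ * (ζq - algebraMap K L ζ⁻¹) := by
    rw [mul_sub, ← map_mul, mul_inv_cancel₀ hζ0, map_one]
  obtain ⟨k, hk⟩ := hpdvd
  have hpow : ζ ^ (q - 1) = 1 := by rw [hk, pow_mul, hζ.pow_eq_one, one_pow]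
  have hx : (ζ⁻¹) ^ q = ζ⁻¹ := by
    have hq1 : q = (q - 1) + 1 := (Nat.sub_add_cancel hq.out.one_le).symm
    rw [inv_pow]
    congr 1
    rw [hq1, pow_succ, hpow, one_mul]
  have hx1 : ζ⁻¹ ≠ 1 := by
    rw [Ne, inv_eq_one]
    exact hζ.ne_one hp.out.one_lt
  rw [e, map_mul, Algebra.norm_algebraMap, finrank_eq hpq K L, hpow, one_mul,
    norm_sub_algebraMap hζq hq2 hirr, eval_cyclotomic_prime_eq_one hx hx1]

/-- **`Gal(L/K)` is cyclic of order `q - 1`**, generated by `τ` with `τ ζ_q = ζ_q ^ g`, `g` a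
primitive root modulo `q`. -/
theorem exists_generator {p q : ℕ} [hp : Fact p.Prime] [hq : Fact q.Prime] (hpq : p ≠ q)
    (K L : Type*) [Field K] [Field L] [CharZero K] [Algebra K L] [CharZero L]
    [IsCyclotomicExtension {p} ℚ K] [IsCyclotomicExtension {q} K L]
    {ζq : L} (hζq : IsPrimitiveRoot ζq q) :
    ∃ (τ : L ≃ₐ[K] L) (g : ℕ), (∀ σ : L ≃ₐ[K] L, σ ∈ Subgroup.zpowers τ) ∧
      orderOf τ = q - 1 ∧ τ ζq = ζq ^ g ∧ orderOf (g : ZMod q) = q - 1 ∧
      ∀ x : L, x ^ q = 1 → τ x = x ^ g := by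
  have : NeZero q := ⟨hq.out.ne_zero⟩
  have hirr := cyclotomic_irreducible hpq K L
  have hcyc : IsCyclic (L ≃ₐ[K] L) :=
    isCyclic_of_surjective (IsCyclotomicExtension.autEquivPow L hirr).symm
      (IsCyclotomicExtension.autEquivPow L hirr).symm.surjective
  obtain ⟨τ, hτ⟩ := hcyc.exists_generator
  have := IsCyclotomicExtension.finiteDimensional {q} K L
  have := IsCyclotomicExtension.isGalois {q} K L
  have hord : orderOf τ = q - 1 := by
    rw [orderOf_eq_card_of_forall_mem_zpowers hτ, IsGalois.card_aut_eq_finrank,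
      finrank_eq hpq K L]
  set u : (ZMod q)ˣ := hζq.autToPow K τ with hu
  have hspec : ζq ^ (u : ZMod q).val = τ ζq := hζq.autToPow_spec K τ
  have hordu : orderOf u = q - 1 := by
    rw [hu, orderOf_injective (hζq.autToPow K) (hζq.autToPow_injective K) τ, hord]
  refine ⟨τ, (u : ZMod q).val, hτ, hord, hspec.symm, ?_, ?_⟩
  · rw [ZMod.natCast_zmod_val, orderOf_units, hordu]
  · intro x hx
    obtain ⟨i, -, rfl⟩ := hζq.eq_pow_of_pow_eq_one hx
    rw [map_pow, ← hspec, ← pow_mul, ← pow_mul, mul_comm]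

end Tower

end Fermat.Agent.S14.ThaineTower
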