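import Mathlib
import Fermat.Agent.S14.ThaineTower

set_option autoImplicit false

/-!
# S14 (T-e1): the Thaine unit `ε = ζ_p ζ_q - 1` and Hilbert 90 in `𝓞 L`, `L = K(ζ_q)`, `K = ℚ(ζ_p)`

* `eps K L ζ ζq = ζ ζq - 1 : 𝓞 L`, `norm_eps`, `ringOfIntegers_norm_eps`, `intNorm_eps`,
  `isUnit_eps` (any universes);
* Hilbert 90 (for `K L : Type`, as in Mathlib): `exists_eps_mul_galRestrict_eq` (`ε * τ β = β`),
  `exists_galRestrict_eq_eps_mul` (`τ β = ε * β`), and the `τ • β` forms;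
* `forall_exists_unit_smul`: `τ • β = u * β` for a generator `τ` gives `σ • β = v * β` for all `σ`.
-/

namespace Fermat.Agent.S14.ThaineH90

open NumberField

section Unit

variable {p q : ℕ} [hp : Fact p.Prime] [hq : Fact q.Prime]
  (K L : Type*) [Field K] [Field L] [NumberField K] [NumberField L] [Algebra K L]
  [IsCyclotomicExtension {p} ℚ K] [IsCyclotomicExtension {q} K L]

/-- the Thaine element `ε = ζ_p ζ_q - 1` of `𝓞 L` -/
noncomputable def eps (ζ : 𝓞 K) (ζq : 𝓞 L) : 𝓞 L := algebraMap (𝓞 K) (𝓞 L) ζ * ζq - 1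

omit [NumberField K] [NumberField L] in
theorem coe_eps (ζ : 𝓞 K) (ζq : 𝓞 L) :
    algebraMap (𝓞 L) L (eps K L ζ ζq) =
      algebraMap K L (algebraMap (𝓞 K) K ζ) * algebraMap (𝓞 L) L ζq - 1 := by
  rw [eps, map_sub, map_mul, map_one, ← IsScalarTower.algebraMap_apply (𝓞 K) (𝓞 L) L,
    IsScalarTower.algebraMap_apply (𝓞 K) K L]

/-- `N_{L/K} ε = 1` (field norm of the image in `L`). -/
theorem norm_eps (h : q % p = 1) {ζ : 𝓞 K} (hζ : IsPrimitiveRoot ζ p) {ζq : 𝓞 L}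
    (hζq : IsPrimitiveRoot ζq q) :
    Algebra.norm K (algebraMap (𝓞 L) L (eps K L ζ ζq)) = 1 := by
  rw [coe_eps]
  exact ThaineTower.norm_mul_sub_one h K L
    (hζ.map_of_injective (FaithfulSMul.algebraMap_injective (𝓞 K) K))
    (hζq.map_of_injective (FaithfulSMul.algebraMap_injective (𝓞 L) L))

/-- `N_{L/K} ε = 1` in `𝓞 K`. -/
theorem ringOfIntegers_norm_eps (h : q % p = 1) {ζ : 𝓞 K} (hζ : IsPrimitiveRoot ζ p) {ζq : 𝓞 L}
    (hζq : IsPrimitiveRoot ζq q) :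
    RingOfIntegers.norm K (eps K L ζ ζq) = 1 := by
  apply RingOfIntegers.ext
  rw [RingOfIntegers.coe_norm]
  exact (norm_eps K L h hζ hζq).trans (map_one _).symm

/-- `N_{L/K} ε = 1` (`Algebra.intNorm` form). -/
theorem intNorm_eps (h : q % p = 1) {ζ : 𝓞 K} (hζ : IsPrimitiveRoot ζ p) {ζq : 𝓞 L}
    (hζq : IsPrimitiveRoot ζq q) :
    Algebra.intNorm (𝓞 K) (𝓞 L) (eps K L ζ ζq) = 1 := by
  apply FaithfulSMul.algebraMap_injective (𝓞 K) K
  rw [Algebra.algebraMap_intNorm (A := 𝓞 K) (K := K) (L := L) (B := 𝓞 L), norm_eps K L h hζ hζq,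
    map_one]

/-- `ε` is a unit of `𝓞 L`. -/
theorem isUnit_eps (h : q % p = 1) {ζ : 𝓞 K} (hζ : IsPrimitiveRoot ζ p) {ζq : 𝓞 L}
    (hζq : IsPrimitiveRoot ζq q) : IsUnit (eps K L ζ ζq) := by
  have : NeZero q := ⟨hq.out.ne_zero⟩
  have := IsCyclotomicExtension.finiteDimensional {q} K L
  have := IsCyclotomicExtension.isGalois {q} K L
  rw [← RingOfIntegers.isUnit_norm_of_isGalois K, ringOfIntegers_norm_eps K L h hζ hζq]
  exact isUnit_one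

end Unit

section Restrict

variable (K L : Type*) [Field K] [Field L] [NumberField K] [NumberField L] [Algebra K L]

/-- the restriction of `τ` to `𝓞 L` is the Mathlib action of `Gal(L/K)` on `𝓞 L` -/
theorem galRestrict_eq_smul (τ : L ≃ₐ[K] L) (β : 𝓞 L) :
    galRestrict (𝓞 K) K L (𝓞 L) τ β = τ • β := by
  apply RingOfIntegers.ext
  rw [RingOfIntegers.coe_eq_algebraMap, algebraMap_galRestrict_apply]
  rfl

omit [NumberField K] [NumberField L] in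
theorem coe_smul (τ : L ≃ₐ[K] L) (β : 𝓞 L) :
    algebraMap (𝓞 L) L (τ • β) = τ (algebraMap (𝓞 L) L β) := rfl

end Restrict

section Stable

/-- if `τ • β = u * β` with `u` a unit for a generator `τ` of `G`, then `(β)` is `G`-stable:
every `σ • β` is a unit multiple of `β`. -/
theorem forall_exists_unit_smul {G B : Type*} [Group G] [CommRing B] [MulSemiringAction G B]
    {τ : G} (hτ : ∀ σ : G, σ ∈ Subgroup.zpowers τ) {β u : B} (hu : IsUnit u)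
    (h : τ • β = u * β) : ∀ σ : G, ∃ v : Bˣ, σ • β = v * β := by
  let H : Subgroup G :=
    { carrier := {σ | ∃ v : Bˣ, σ • β = v * β}
      one_mem' := ⟨1, by simp⟩
      mul_mem' := by
        rintro a b ⟨v, hv⟩ ⟨w, hw⟩
        refine ⟨Units.map (MulSemiringAction.toRingHom G B a : B →* B) w * v, ?_⟩
        rw [mul_smul, hw, smul_mul', hv, Units.val_mul, Units.coe_map, mul_assoc]
        rfl
      inv_mem' := by
        rintro a ⟨v, hv⟩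
        refine ⟨(Units.map (MulSemiringAction.toRingHom G B a⁻¹ : B →* B) v)⁻¹, ?_⟩
        have h1 : a⁻¹ • (a • β) = a⁻¹ • ((v : B) * β) := by rw [hv]
        rw [inv_smul_smul, smul_mul'] at h1
        rw [Units.eq_inv_mul_iff_mul_eq, Units.coe_map]
        exact h1.symm }
  have hτH : τ ∈ H := ⟨hu.unit, by rw [h, IsUnit.unit_spec]⟩
  intro σ
  have : σ ∈ H := (Subgroup.zpowers_le.mpr hτH) (hτ σ)
  exact this

end Stable

section H90

variable {p q : ℕ} [hp : Fact p.Prime] [hq : Fact q.Prime]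
  (K L : Type) [Field K] [Field L] [NumberField K] [NumberField L] [Algebra K L]
  [IsCyclotomicExtension {p} ℚ K] [IsCyclotomicExtension {q} K L]

/-- Hilbert 90 for the Thaine unit (Mathlib direction): `ε * τ β = β`. -/
theorem exists_eps_mul_galRestrict_eq (h : q % p = 1) {ζ : 𝓞 K} (hζ : IsPrimitiveRoot ζ p)
    {ζq : 𝓞 L} (hζq : IsPrimitiveRoot ζq q) {τ : L ≃ₐ[K] L}
    (hτ : ∀ σ : L ≃ₐ[K] L, σ ∈ Subgroup.zpowers τ) :
    ∃ β : 𝓞 L, β ≠ 0 ∧ eps K L ζ ζq * galRestrict (𝓞 K) K L (𝓞 L) τ β = β := by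
  have : NeZero q := ⟨hq.out.ne_zero⟩
  have := IsCyclotomicExtension.finiteDimensional {q} K L
  have := IsCyclotomicExtension.isGalois {q} K L
  have : IsCyclic (L ≃ₐ[K] L) := ⟨⟨τ, hτ⟩⟩
  exact groupCohomology.exists_mul_galRestrict_of_norm_eq_one (A := 𝓞 K) (B := 𝓞 L) hτ
    (norm_eps K L h hζ hζq)

/-- Hilbert 90 for the Thaine unit: `τ β = ε * β`. -/
theorem exists_galRestrict_eq_eps_mul (h : q % p = 1) {ζ : 𝓞 K} (hζ : IsPrimitiveRoot ζ p)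
    {ζq : 𝓞 L} (hζq : IsPrimitiveRoot ζq q) {τ : L ≃ₐ[K] L}
    (hτ : ∀ σ : L ≃ₐ[K] L, σ ∈ Subgroup.zpowers τ) :
    ∃ β : 𝓞 L, β ≠ 0 ∧ galRestrict (𝓞 K) K L (𝓞 L) τ β = eps K L ζ ζq * β := by
  have : NeZero q := ⟨hq.out.ne_zero⟩
  have := IsCyclotomicExtension.finiteDimensional {q} K L
  have := IsCyclotomicExtension.isGalois {q} K L
  have : IsCyclic (L ≃ₐ[K] L) := ⟨⟨τ, hτ⟩⟩
  obtain ⟨u, hu⟩ := isUnit_eps K L h hζ hζq
  have hn : Algebra.norm K (algebraMap (𝓞 L) L ((u⁻¹ : (𝓞 L)ˣ) : 𝓞 L)) = 1 := by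
    have h1 : Algebra.norm K (algebraMap (𝓞 L) L ((u : 𝓞 L) * ((u⁻¹ : (𝓞 L)ˣ) : 𝓞 L))) = 1 := by
      rw [Units.mul_inv, map_one, map_one]
    rw [map_mul, map_mul, hu, norm_eps K L h hζ hζq, one_mul] at h1
    exact h1
  obtain ⟨β, hβ0, hβ⟩ :=
    groupCohomology.exists_mul_galRestrict_of_norm_eq_one (A := 𝓞 K) (B := 𝓞 L) hτ hn
  refine ⟨β, hβ0, ?_⟩
  rw [← hu]
  exact (Units.inv_mul_eq_iff_eq_mul u).mp hβ

/-- `ε * (τ • β) = β` with the Mathlib action of `Gal(L/K)` on `𝓞 L`. -/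
theorem exists_eps_mul_smul_eq (h : q % p = 1) {ζ : 𝓞 K} (hζ : IsPrimitiveRoot ζ p)
    {ζq : 𝓞 L} (hζq : IsPrimitiveRoot ζq q) {τ : L ≃ₐ[K] L}
    (hτ : ∀ σ : L ≃ₐ[K] L, σ ∈ Subgroup.zpowers τ) :
    ∃ β : 𝓞 L, β ≠ 0 ∧ eps K L ζ ζq * τ • β = β := by
  obtain ⟨β, hβ0, hβ⟩ := exists_eps_mul_galRestrict_eq K L h hζ hζq hτ
  exact ⟨β, hβ0, by rw [← galRestrict_eq_smul]; exact hβ⟩

/-- `τ • β = ε * β` with the Mathlib action of `Gal(L/K)` on `𝓞 L`. -/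
theorem exists_smul_eq_eps_mul (h : q % p = 1) {ζ : 𝓞 K} (hζ : IsPrimitiveRoot ζ p)
    {ζq : 𝓞 L} (hζq : IsPrimitiveRoot ζq q) {τ : L ≃ₐ[K] L}
    (hτ : ∀ σ : L ≃ₐ[K] L, σ ∈ Subgroup.zpowers τ) :
    ∃ β : 𝓞 L, β ≠ 0 ∧ τ • β = eps K L ζ ζq * β := by
  obtain ⟨β, hβ0, hβ⟩ := exists_galRestrict_eq_eps_mul K L h hζ hζq hτ
  exact ⟨β, hβ0, by rw [← galRestrict_eq_smul]; exact hβ⟩

/-- **The Hilbert 90 package of Thaine's argument**: a generator `τ` of `Gal(L/K)` acting on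
`q`-th roots of unity by `x ↦ x ^ g`, `g` a primitive root mod `q`, and `β ≠ 0` in `𝓞 L` with
`ε * τ β = β`, `ε = ζ ζq - 1` a unit; the ideal `(β)` is Galois stable. -/
theorem exists_thaine_data (h : q % p = 1) {ζ : 𝓞 K} (hζ : IsPrimitiveRoot ζ p)
    {ζq : 𝓞 L} (hζq : IsPrimitiveRoot ζq q) :
    ∃ (τ : L ≃ₐ[K] L) (g : ℕ) (β : 𝓞 L),
      (∀ σ : L ≃ₐ[K] L, σ ∈ Subgroup.zpowers τ) ∧ orderOf τ = q - 1 ∧
      orderOf (g : ZMod q) = q - 1 ∧ τ • ζq = ζq ^ g ∧ β ≠ 0 ∧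
      IsUnit (eps K L ζ ζq) ∧ eps K L ζ ζq * τ • β = β ∧
      ∀ σ : L ≃ₐ[K] L, ∃ v : (𝓞 L)ˣ, σ • β = v * β := by
  have hpq : p ≠ q := by
    rintro rfl
    rw [Nat.mod_self] at h
    exact zero_ne_one h
  have hζq' : IsPrimitiveRoot (algebraMap (𝓞 L) L ζq) q :=
    hζq.map_of_injective (FaithfulSMul.algebraMap_injective (𝓞 L) L)
  obtain ⟨τ, g, hτ, hord, hτζ, hg, -⟩ := ThaineTower.exists_generator hpq K L hζq'
  obtain ⟨β, hβ0, hβ⟩ := exists_eps_mul_smul_eq K L h hζ hζq hτ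
  obtain ⟨u, hu⟩ := isUnit_eps K L h hζ hζq
  refine ⟨τ, g, β, hτ, hord, hg, ?_, hβ0, ⟨u, hu⟩, hβ, ?_⟩
  · apply RingOfIntegers.ext
    rw [RingOfIntegers.coe_eq_algebraMap, coe_smul, hτζ, RingOfIntegers.coe_eq_algebraMap,
      map_pow]
  · have h1 : τ • β = ((u⁻¹ : (𝓞 L)ˣ) : 𝓞 L) * β := by
      rw [← hu] at hβ
      exact ((Units.inv_mul_eq_iff_eq_mul u).mpr hβ.symm).symm
    exact forall_exists_unit_smul hτ (u⁻¹).isUnit h1

end H90

end Fermat.Agent.S14.ThaineH90
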