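import Mathlib

/-!
# Thaine's relation: the norm / factorisation half (T-g), abstract Dedekind form

`A ⊆ B` Dedekind domains, `B` finite over `A`, `G` a finite group with `IsGaloisGroup G A B`.

* `exists_map_eq_of_stable`: a nonzero `G`-stable ideal of `B`, all of whose prime divisors are
  unramified over `A`, is extended from `A`.
* `span_intNorm_eq`: if `β ≠ 0` generates a `G`-stable ideal, `PP i` are finitely many distinct
  `G`-fixed primes of `B` with residue degree one, every other nonzero prime of `B` is unramified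
  over `A`, and `r i` is the exact order of `β` at `PP i`, then
  `(N β) = c ^ |G| * ∏ i, (PP i ∩ A) ^ r i` for some ideal `c` of `A`.
* `exists_exact_order`, `exists_unit_smul_of_generator`: the two small inputs.
-/

open scoped Pointwise

namespace Fermat.Agent.S14.ThaineNorm_helper29

section Small

variable {B G : Type*} [CommRing B] [Group G] [MulSemiringAction G B]

theorem smul_span_singleton (σ : G) (β : B) : σ • Ideal.span {β} = Ideal.span {σ • β} := by
  rw [Ideal.smul_closure, Set.smul_set_singleton]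

/-- If `τ` generates `G` and `τ β = ε β` with `ε` a unit, then every `σ β` is a unit multiple
of `β`. -/
theorem exists_unit_smul_of_generator {τ : G} (hgen : ∀ σ : G, σ ∈ Subgroup.zpowers τ) {β : B}
    {ε : Bˣ} (h : τ • β = ε * β) : ∀ σ : G, ∃ ε' : Bˣ, σ • β = ε' * β := by
  let S : Subgroup G :=
    { carrier := {σ | ∃ e : B, IsUnit e ∧ σ • β = e * β}
      one_mem' := ⟨1, isUnit_one, by rw [one_smul, one_mul]⟩
      mul_mem' := by
        rintro σ ρ ⟨e, he, hσ⟩ ⟨f, hf, hρ⟩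
        refine ⟨σ • f * e, (hf.map (MulSemiringAction.toRingHom G B σ)).mul he, ?_⟩
        rw [mul_smul, hρ, smul_mul', hσ, mul_assoc]
      inv_mem' := by
        rintro σ ⟨e, he, hσ⟩
        have hu : IsUnit (σ⁻¹ • e) := he.map (MulSemiringAction.toRingHom G B σ⁻¹)
        obtain ⟨u, hu'⟩ := hu
        refine ⟨((u⁻¹ : Bˣ) : B), (u⁻¹).isUnit, ?_⟩
        have h1 : β = u * σ⁻¹ • β := by
          have := congrArg (fun x => σ⁻¹ • x) hσ
          simp only [inv_smul_smul, smul_mul'] at this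
          rw [hu', ← this]
        calc σ⁻¹ • β = ((u⁻¹ : Bˣ) : B) * (u * σ⁻¹ • β) := by
              rw [← mul_assoc, Units.inv_mul, one_mul]
          _ = ((u⁻¹ : Bˣ) : B) * β := by rw [← h1] }
  have hτ : τ ∈ S := ⟨ε, ε.isUnit, h⟩
  intro σ
  have hσ : σ ∈ S := (Subgroup.zpowers_le.mpr hτ) (hgen σ)
  obtain ⟨e, he, hσ'⟩ := hσ
  obtain ⟨u, rfl⟩ := he
  exact ⟨u, hσ'⟩

/-- A nonzero element of a Dedekind domain has an exact order at every nonzero prime. -/
theorem exists_exact_order [IsDedekindDomain B] (P : Ideal B) (hP : P.IsPrime) {β : B}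
    (hβ : β ≠ 0) : ∃ r : ℕ, β ∈ P ^ r ∧ β ∉ P ^ (r + 1) := by
  by_contra hcon
  have hall : ∀ r : ℕ, β ∈ P ^ r := by
    intro r
    induction r with
    | zero => simp
    | succ n ih =>
      by_contra hn
      exact hcon ⟨n, ih, hn⟩
  have hbot : (⨅ i : ℕ, P ^ i) = ⊥ := Ideal.iInf_pow_eq_bot_of_isDomain P hP.ne_top
  have : β ∈ (⨅ i : ℕ, P ^ i) := by
    rw [Ideal.mem_iInf]
    exact hall
  rw [hbot, Ideal.mem_bot] at this
  exact hβ this

end Small

variable {A B G : Type*} [CommRing A] [CommRing B] [IsDedekindDomain A] [IsDedekindDomain B]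
  [Algebra A B] [Module.Finite A B] [Module.IsTorsionFree A B]
  [Group G] [Finite G] [MulSemiringAction G B] [IsGaloisGroup G A B]

omit [IsDedekindDomain A] [IsDedekindDomain B] [Module.Finite A B] [Module.IsTorsionFree A B]
  [Finite G] in
theorem smul_map_algebraMap (σ : G) (c : Ideal A) :
    σ • (c.map (algebraMap A B)) = c.map (algebraMap A B) := by
  rw [Ideal.pointwise_smul_def, Ideal.map_map]
  congr 1
  ext a
  simp [smul_algebraMap]

/-- **(G1)** A nonzero `G`-stable ideal of `B` all of whose prime divisors are unramified over `A`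
is extended from `A`. -/
theorem exists_map_eq_of_stable (J : Ideal B) (hJ0 : J ≠ ⊥) (hst : ∀ σ : G, σ • J = J)
    (hun : ∀ Q : Ideal B, Q.IsPrime → Q ≠ ⊥ → J ≤ Q → Q.ramificationIdx A = 1) :
    ∃ c : Ideal A, J = c.map (algebraMap A B) := by
  induction J using WellFoundedGT.induction with
  | ind J ih =>
  by_cases hJ : J = ⊤
  · exact ⟨⊤, by rw [hJ, Ideal.map_top]⟩
  obtain ⟨Q, hQmax, hJQ⟩ := Ideal.exists_le_maximal J hJ
  have hQprime : Q.IsPrime := hQmax.isPrime
  have hQ0 : Q ≠ ⊥ := fun h => hJ0 (le_bot_iff.mp (h ▸ hJQ))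
  have hPmax : (Q.under A).IsMaximal := inferInstance
  have hP0 : Q.under A ≠ ⊥ := Ideal.under_ne_bot A hQ0
  have hmap := Ideal.map_algebraMap_eq_finsetProd_pow (R := B) hP0
  -- all primes over `P = Q ∩ A` contain `J`
  have hall : ∀ Q' ∈ ((Q.under A).primesOver B).toFinset, J ≤ Q' := by
    intro Q' hQ'
    rw [Set.mem_toFinset] at hQ'
    have h1 : Q'.IsPrime := hQ'.1
    have h2 : Q'.LiesOver (Q.under A) := hQ'.2
    obtain ⟨σ, rfl⟩ := Ideal.exists_smul_eq_of_isGaloisGroup (Q.under A) Q Q' G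
    rw [← hst σ]
    exact Ideal.pointwise_smul_le_pointwise_smul_iff.mpr hJQ
  have hne : ∀ Q' ∈ ((Q.under A).primesOver B).toFinset, Q' ≠ ⊥ := by
    intro Q' hQ'
    rw [Set.mem_toFinset] at hQ'
    have h2 : Q'.LiesOver (Q.under A) := hQ'.2
    exact Ideal.ne_bot_of_liesOver_of_ne_bot hP0 Q'
  have hmap' : (Q.under A).map (algebraMap A B) =
      ∏ Q' ∈ ((Q.under A).primesOver B).toFinset, Q' := by
    rw [hmap]
    refine Finset.prod_congr rfl fun Q' hQ' => ?_
    have h1 : Q'.IsPrime := by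
      rw [Set.mem_toFinset] at hQ'
      exact hQ'.1
    rw [hun Q' h1 (hne Q' hQ') (hall Q' hQ'), pow_one]
  have hdvd : (Q.under A).map (algebraMap A B) ∣ J := by
    rw [hmap']
    refine Finset.prod_primes_dvd J (fun Q' hQ' => ?_) (fun Q' hQ' => ?_)
    · have h1 : Q'.IsPrime := by
        rw [Set.mem_toFinset] at hQ'
        exact hQ'.1
      exact Ideal.prime_of_isPrime (hne Q' hQ') h1
    · exact Ideal.dvd_iff_le.mpr (hall Q' hQ')
  obtain ⟨J1, hJ1⟩ := hdvd
  have hPB0 : (Q.under A).map (algebraMap A B) ≠ ⊥ := Ideal.map_ne_bot_of_ne_bot hP0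
  have hJ10 : J1 ≠ ⊥ := by
    rintro rfl
    exact hJ0 (by rw [hJ1, Ideal.mul_bot])
  have hJJ1 : J ≤ J1 := by
    rw [hJ1]
    exact Ideal.mul_le_right (I := (Q.under A).map (algebraMap A B)) (J := J1)
  have hPBQ : (Q.under A).map (algebraMap A B) ≤ Q := Ideal.map_le_iff_le_comap.mpr le_rfl
  have hlt : J < J1 := by
    refine lt_of_le_of_ne hJJ1 fun h => ?_
    rw [h] at hJ1
    have h3 : (Q.under A).map (algebraMap A B) = 1 := by
      have := hJ1.symm
      rwa [mul_eq_right₀ hJ10] at this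
    rw [Ideal.one_eq_top] at h3
    exact hQmax.ne_top (top_le_iff.mp (h3 ▸ hPBQ))
  have hst1 : ∀ σ : G, σ • J1 = J1 := by
    intro σ
    have h3 := hst σ
    rw [hJ1, smul_mul', smul_map_algebraMap] at h3
    exact mul_left_cancel₀ hPB0 h3
  have hun1 : ∀ Q' : Ideal B, Q'.IsPrime → Q' ≠ ⊥ → J1 ≤ Q' → Q'.ramificationIdx A = 1 :=
    fun Q' h1 h2 h3 => hun Q' h1 h2 (hJJ1.trans h3)
  obtain ⟨c1, hc1⟩ := ih J1 hlt hJ10 hst1 hun1
  exact ⟨Q.under A * c1, by rw [Ideal.map_mul, ← hc1, ← hJ1]⟩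

/-- The relative norm of a prime of residue degree one is the prime below it. -/
theorem relNorm_of_inertiaDeg_one (G : Type*) [Group G] [Finite G] [MulSemiringAction G B]
    [IsGaloisGroup G A B] (P : Ideal B) (hP : P.IsPrime) (hP0 : P ≠ ⊥)
    (hf : P.inertiaDeg A = 1) : Ideal.relNorm A P = P.under A := by
  let _ := FractionRing.liftAlgebra A (FractionRing B)
  let _ := IsFractionRing.mulSemiringAction G B (FractionRing B)
  have : IsGalois (FractionRing A) (FractionRing B) :=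
    IsGaloisGroup.isGalois G (FractionRing A) (FractionRing B)
  have : P.IsMaximal := hP.isMaximal hP0
  rw [Ideal.relNorm_eq_pow_of_isPrime_isGalois P (P.under A), hf, pow_one]

/-- **(G2)** ideal form: a nonzero `G`-stable ideal `I` with exact orders `r i` at the `G`-fixed
degree-one primes `PP i`, everything else unramified: `N I = c ^ |G| * ∏ i, (PP i ∩ A) ^ r i`. -/
theorem relNorm_eq_of_stable {ι : Type*} [Fintype ι] (PP : ι → Ideal B)
    (hprime : ∀ i, (PP i).IsPrime) (hne : ∀ i, PP i ≠ ⊥) (hinj : Function.Injective PP)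
    (hfix : ∀ i (σ : G), σ • PP i = PP i) (hf : ∀ i, (PP i).inertiaDeg A = 1)
    (hunr : ∀ Q : Ideal B, Q.IsPrime → Q ≠ ⊥ → (∀ i, Q ≠ PP i) → Q.ramificationIdx A = 1)
    (I : Ideal B) (hI0 : I ≠ ⊥) (hst : ∀ σ : G, σ • I = I) (r : ι → ℕ)
    (hr : ∀ i, I ≤ PP i ^ r i) (hr' : ∀ i, ¬ I ≤ PP i ^ (r i + 1)) :
    ∃ c : Ideal A, Ideal.relNorm A I = c ^ Nat.card G * ∏ i, (PP i).under A ^ r i := by
  classical
  -- the product of the `PP i ^ r i` divides `I`
  have hdvd : (∏ i, PP i ^ r i) ∣ I := by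
    rw [← IsDedekindDomain.inf_pow_eq_prod_of_prime Finset.univ PP r
      (fun i _ => Ideal.prime_of_isPrime (hne i) (hprime i))
      (fun i _ j _ hij => fun h => hij (hinj h)), Ideal.dvd_iff_le]
    exact Finset.le_inf fun i _ => hr i
  obtain ⟨J', hJ'⟩ := hdvd
  have hI00 : (∏ i, PP i ^ r i) ≠ (⊥ : Ideal B) := by
    intro h
    rw [h, Ideal.bot_mul] at hJ'
    exact hI0 hJ'
  have hJ'0 : J' ≠ ⊥ := by
    rintro rfl
    rw [Ideal.mul_bot] at hJ'
    exact hI0 hJ'
  have hstI0 : ∀ σ : G, σ • (∏ i, PP i ^ r i) = ∏ i, PP i ^ r i := by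
    intro σ
    rw [Finset.smul_prod']
    refine Finset.prod_congr rfl fun i _ => ?_
    rw [smul_pow', hfix i σ]
  have hstJ' : ∀ σ : G, σ • J' = J' := by
    intro σ
    have h3 := hst σ
    rw [hJ', smul_mul', hstI0 σ] at h3
    exact mul_left_cancel₀ hI00 h3
  have hnot : ∀ i, ¬ J' ≤ PP i := by
    intro i hle
    apply hr' i
    rw [← Ideal.dvd_iff_le, hJ', pow_succ]
    exact mul_dvd_mul (Finset.dvd_prod_of_mem (fun i => PP i ^ r i) (Finset.mem_univ i))
      (Ideal.dvd_iff_le.mpr hle)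
  have hun' : ∀ Q : Ideal B, Q.IsPrime → Q ≠ ⊥ → J' ≤ Q → Q.ramificationIdx A = 1 := by
    intro Q hQ hQ0 hle
    exact hunr Q hQ hQ0 fun i h => hnot i (h ▸ hle)
  obtain ⟨c, hc⟩ := exists_map_eq_of_stable (A := A) (G := G) J' hJ'0 hstJ' hun'
  refine ⟨c, ?_⟩
  rw [hJ', map_mul, map_prod, hc, Ideal.relNorm_algebraMap,
    ← IsGaloisGroup.card_eq_finrank' G A B, mul_comm]
  congr 1
  refine Finset.prod_congr rfl fun i _ => ?_
  rw [map_pow, relNorm_of_inertiaDeg_one G (PP i) (hprime i) (hne i) (hf i)]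

/-- **(G3)** element form: `β ≠ 0` with `σ β = unit * β` for all `σ : G`, exact orders `r i` at
the `G`-fixed degree-one primes `PP i`, everything else unramified:
`(N β) = c ^ |G| * ∏ i, (PP i ∩ A) ^ r i`. -/
theorem span_intNorm_eq {ι : Type*} [Fintype ι] (PP : ι → Ideal B)
    (hprime : ∀ i, (PP i).IsPrime) (hne : ∀ i, PP i ≠ ⊥) (hinj : Function.Injective PP)
    (hfix : ∀ i (σ : G), σ • PP i = PP i) (hf : ∀ i, (PP i).inertiaDeg A = 1)
    (hunr : ∀ Q : Ideal B, Q.IsPrime → Q ≠ ⊥ → (∀ i, Q ≠ PP i) → Q.ramificationIdx A = 1)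
    (β : B) (hβ : β ≠ 0) (hinv : ∀ σ : G, ∃ ε : Bˣ, σ • β = ε * β) (r : ι → ℕ)
    (hr : ∀ i, β ∈ PP i ^ r i) (hr' : ∀ i, β ∉ PP i ^ (r i + 1)) :
    ∃ c : Ideal A, Ideal.span {Algebra.intNorm A B β} =
      c ^ Nat.card G * ∏ i, (PP i).under A ^ r i := by
  have hspan0 : Ideal.span {β} ≠ (⊥ : Ideal B) := by
    rwa [Ne, Ideal.span_singleton_eq_bot]
  have hstβ : ∀ σ : G, σ • Ideal.span {β} = Ideal.span {β} := by
    intro σ
    obtain ⟨ε, hε⟩ := hinv σ
    rw [smul_span_singleton, hε, Ideal.span_singleton_mul_left_unit ε.isUnit]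
  obtain ⟨c, hc⟩ := relNorm_eq_of_stable (A := A) (G := G) PP hprime hne hinj hfix hf hunr
    (Ideal.span {β}) hspan0 hstβ r
    (fun i => by rw [Ideal.span_singleton_le_iff_mem]; exact hr i)
    (fun i => by rw [Ideal.span_singleton_le_iff_mem]; exact hr' i)
  exact ⟨c, by rw [← Ideal.relNorm_singleton, hc]⟩

/-- **(G3')** as `span_intNorm_eq`, with the exact orders produced rather than assumed, and the
invariance only required for a generator `τ` of `G`. -/
theorem exists_span_intNorm_eq {ι : Type*} [Fintype ι] (PP : ι → Ideal B)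
    (hprime : ∀ i, (PP i).IsPrime) (hne : ∀ i, PP i ≠ ⊥) (hinj : Function.Injective PP)
    (hfix : ∀ i (σ : G), σ • PP i = PP i) (hf : ∀ i, (PP i).inertiaDeg A = 1)
    (hunr : ∀ Q : Ideal B, Q.IsPrime → Q ≠ ⊥ → (∀ i, Q ≠ PP i) → Q.ramificationIdx A = 1)
    {τ : G} (hgen : ∀ σ : G, σ ∈ Subgroup.zpowers τ)
    (β : B) (hβ : β ≠ 0) {ε : Bˣ} (hτ : τ • β = ε * β) :
    ∃ (c : Ideal A) (r : ι → ℕ), (∀ i, β ∈ PP i ^ r i ∧ β ∉ PP i ^ (r i + 1)) ∧
      Ideal.span {Algebra.intNorm A B β} = c ^ Nat.card G * ∏ i, (PP i).under A ^ r i := by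
  choose r hr hr' using fun i => exists_exact_order (PP i) (hprime i) hβ
  obtain ⟨c, hc⟩ := span_intNorm_eq (A := A) (G := G) PP hprime hne hinj hfix hf hunr β hβ
    (exists_unit_smul_of_generator hgen hτ) r hr hr'
  exact ⟨c, r, fun i => ⟨hr i, hr' i⟩, hc⟩

end Fermat.Agent.S14.ThaineNorm_helper29
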