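import Mathlib

/-!
S14 (Thaine route), glue between T-d (ramification) and T-c (local step) (helper24):
at a prime `q` of `B` of residue degree one over `p = q ∩ A`, every `A`-endomorphism of `B`
preserving `q` acts trivially on `B ⧸ q`; if `q` is the only prime over `p`, every
`A`-automorphism preserves `q`.  These give hypothesis `h1` of
`ThaineLocal_helper24.pow_step / eps_congr / eps_congr_of_pow`.
-/

set_option autoImplicit false

namespace Fermat.Agent.S14.ThaineInertia_helper24

variable {A B : Type*} [CommRing A] [CommRing B] [Algebra A B]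

/-- If the residue degree of `q` over `p` is one, every element of `B` is congruent modulo `q`
to an element of `A`. -/
theorem exists_algebraMap_sub_mem (p : Ideal A) (q : Ideal B) [q.LiesOver p] [p.IsMaximal]
    [q.IsMaximal] (hf : q.inertiaDeg A = 1) (x : B) : ∃ a : A, x - algebraMap A B a ∈ q := by
  rw [Ideal.inertiaDeg_eq_of_isMaximal p q] at hf
  let _ : Field (A ⧸ p) := Ideal.Quotient.field p
  let _ : Field (B ⧸ q) := Ideal.Quotient.field q
  have h1 : (⊥ : Subalgebra (A ⧸ p) (B ⧸ q)) = ⊤ := Subalgebra.bot_eq_top_iff_finrank_eq_one.mpr hf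
  have h2 : Ideal.Quotient.mk q x ∈ (⊥ : Subalgebra (A ⧸ p) (B ⧸ q)) := by
    rw [h1]; exact Algebra.mem_top
  obtain ⟨abar, ha⟩ := Algebra.mem_bot.mp h2
  obtain ⟨a, rfl⟩ := Ideal.Quotient.mk_surjective abar
  refine ⟨a, ?_⟩
  rw [← Ideal.Quotient.eq]
  rw [← ha]
  rfl

/-- **Inertia.** If the residue degree of `q` over `p` is one, every ring endomorphism of `B`
fixing `A` and preserving `q` acts trivially on `B ⧸ q`. -/
theorem sub_mem_of_inertiaDeg_eq_one (p : Ideal A) (q : Ideal B) [q.LiesOver p] [p.IsMaximal]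
    [q.IsMaximal] (hf : q.inertiaDeg A = 1) (τ : B →+* B)
    (hA : ∀ a : A, τ (algebraMap A B a) = algebraMap A B a) (hτ : ∀ y ∈ q, τ y ∈ q) (x : B) :
    τ x - x ∈ q := by
  obtain ⟨a, ha⟩ := exists_algebraMap_sub_mem p q hf x
  have e : τ x - x = τ (x - algebraMap A B a) - (x - algebraMap A B a) := by
    rw [map_sub, hA]; ring
  rw [e]
  exact q.sub_mem (hτ _ ha) ha

/-- If `q` is the only prime of `B` over `p`, every `A`-automorphism of `B` preserves `q`. -/
theorem map_mem_of_unique (p : Ideal A) (q : Ideal B) [q.IsPrime] [q.LiesOver p]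
    (huniq : ∀ q' : Ideal B, q'.IsPrime → q'.LiesOver p → q' = q) (τ : B ≃ₐ[A] B) :
    ∀ y ∈ q, τ y ∈ q := by
  have hprime : (q.comap (τ : B →+* B)).IsPrime := Ideal.comap_isPrime _ q
  have hover : (q.comap (τ : B →+* B)).LiesOver p := by
    constructor
    have h0 : p = q.under A := Ideal.LiesOver.over
    rw [h0]
    ext a
    simp only [Ideal.under, Ideal.mem_comap]
    rw [show ((τ : B →+* B) (algebraMap A B a)) = algebraMap A B a from τ.commutes a]
  have := huniq _ hprime hover
  intro y hy
  rw [← this] at hy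
  exact hy

/-- **Inertia, Galois form.** `q` the unique prime over `p`, of residue degree one: every
`A`-automorphism `τ` of `B` satisfies `τ x - x ∈ q`. -/
theorem algEquiv_sub_mem (p : Ideal A) (q : Ideal B) [q.LiesOver p] [p.IsMaximal] [q.IsMaximal]
    (hf : q.inertiaDeg A = 1)
    (huniq : ∀ q' : Ideal B, q'.IsPrime → q'.LiesOver p → q' = q) (τ : B ≃ₐ[A] B) (x : B) :
    τ x - x ∈ q :=
  sub_mem_of_inertiaDeg_eq_one p q hf (τ : B →+* B) (fun a => τ.commutes a)
    (map_mem_of_unique p q huniq τ) x

end Fermat.Agent.S14.ThaineInertia_helper24
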