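import Mathlib

/-!
S14 (Thaine route), sub-leaf (T-c): the abstract local step of Thaine's relation (helper24).

`B` a commutative ring, `Q` an ideal, `τ : B →+* B` a ring endomorphism acting trivially on `B ⧸ Q`
(`τ x - x ∈ Q`) and by multiplication by `g` on `Q ⧸ Q²` (`τ z - g z ∈ Q²` for `z ∈ Q`).
Then `τ` acts on `Q^r ⧸ Q^(r+1)` by `g^r` (`pow_step`), and if `τ β = ε β` with `β` of exact
`Q`-order `r` (in a Dedekind domain) then `ε ≡ g^r mod Q` (`eps_congr`).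
-/

set_option autoImplicit false

namespace Fermat.Agent.S14.ThaineLocal_helper24

variable {B : Type*} [CommRing B]

/-- `τ` preserves `Q` if it acts trivially modulo `Q`. -/
theorem map_mem_of_mem (Q : Ideal B) (τ : B →+* B) (h1 : ∀ x, τ x - x ∈ Q) {x : B} (hx : x ∈ Q) :
    τ x ∈ Q := by
  have := Q.add_mem (h1 x) hx
  simpa using this

/-- **Local step.** If `τ` is trivial on `B ⧸ Q` and acts as `g` on `Q ⧸ Q²`, then it acts as
`g ^ r` on `Q ^ r ⧸ Q ^ (r + 1)`. -/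
theorem pow_step (Q : Ideal B) (τ : B →+* B) (g : B) (h1 : ∀ x, τ x - x ∈ Q)
    (h2 : ∀ z ∈ Q, τ z - g * z ∈ Q ^ 2) :
    ∀ (r : ℕ) (x : B), x ∈ Q ^ r → τ x - g ^ r * x ∈ Q ^ (r + 1) := by
  intro r
  induction r with
  | zero =>
    intro x _
    simpa using h1 x
  | succ r ih =>
    intro x hx
    rw [pow_succ] at hx
    refine Submodule.mul_induction_on hx ?_ ?_
    · intro y hy z hz
      have e : τ (y * z) - g ^ (r + 1) * (y * z) =
          (τ y - g ^ r * y) * τ z + g ^ r * y * (τ z - g * z) := by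
        rw [map_mul]; ring
      rw [e]
      refine (Q ^ (r + 1 + 1)).add_mem ?_ ?_
      · rw [pow_succ (Q) (r + 1)]
        exact Ideal.mul_mem_mul (ih y hy) (map_mem_of_mem Q τ h1 hz)
      · have h3 : g ^ r * y * (τ z - g * z) ∈ Q ^ r * Q ^ 2 :=
          Ideal.mul_mem_mul (Ideal.mul_mem_left _ _ hy) (h2 z hz)
        rw [← pow_add] at h3
        exact h3
    · intro a b ha hb
      have e : τ (a + b) - g ^ (r + 1) * (a + b) =
          (τ a - g ^ (r + 1) * a) + (τ b - g ^ (r + 1) * b) := by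
        rw [map_add]; ring
      rw [e]
      exact (Q ^ (r + 1 + 1)).add_mem ha hb

/-- `(1 - z ^ g) - g (1 - z)` is divisible by `(1 - z) ^ 2`. -/
theorem one_sub_pow_sub (z : B) (g : ℕ) :
    ∃ c : B, (1 - z ^ g) - (g : B) * (1 - z) = (1 - z) ^ 2 * c := by
  induction g with
  | zero => exact ⟨0, by simp⟩
  | succ g ih =>
    obtain ⟨c, hc⟩ := ih
    refine ⟨c - ∑ i ∈ Finset.range g, z ^ i, ?_⟩
    have hgeo : (1 - z) * ∑ i ∈ Finset.range g, z ^ i = 1 - z ^ g := mul_neg_geom_sum z g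
    have e : (1 - z ^ (g + 1)) - ((g + 1 : ℕ) : B) * (1 - z) =
        ((1 - z ^ g) - (g : B) * (1 - z)) - (1 - z) * (1 - z ^ g) := by
      push_cast; ring
    rw [e, hc, ← hgeo]
    ring

section Dedekind

variable [IsDedekindDomain B]

/-- In a Dedekind domain a prime `Q` is generated modulo `Q²` by any `π ∈ Q \ Q²`. -/
theorem sup_span_sq_eq {Q : Ideal B} (hQ : Q.IsPrime) (hQ0 : Q ≠ ⊥) {π : B} (hπ : π ∈ Q)
    (hπ2 : π ∉ Q ^ 2) : Ideal.span {π} ⊔ Q ^ 2 = Q := by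
  have hle : Ideal.span {π} ⊔ Q ^ 2 ≤ Q ^ 1 := by
    rw [pow_one]
    refine sup_le ?_ (Ideal.pow_le_self two_ne_zero)
    rw [Ideal.span_singleton_le_iff_mem]
    exact hπ
  have hlt : Q ^ (1 + 1) < Ideal.span {π} ⊔ Q ^ 2 := by
    refine lt_of_le_of_ne le_sup_right ?_
    intro h
    apply hπ2
    have : π ∈ Ideal.span {π} ⊔ Q ^ 2 :=
      Ideal.mem_sup_left (Ideal.mem_span_singleton_self π)
    rw [← h] at this
    exact this
  have := Ideal.eq_prime_pow_of_succ_lt_of_le hQ0 hlt hle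
  rw [this, pow_one]

/-- The hypothesis `h2` of `pow_step` follows from its instance at one uniformiser. -/
theorem h2_of_uniformizer {Q : Ideal B} (hQ : Q.IsPrime) (hQ0 : Q ≠ ⊥) (τ : B →+* B) (g : B)
    (h1 : ∀ x, τ x - x ∈ Q) {π : B} (hπ : π ∈ Q) (hπ2 : π ∉ Q ^ 2)
    (hτπ : τ π - g * π ∈ Q ^ 2) : ∀ z ∈ Q, τ z - g * z ∈ Q ^ 2 := by
  intro z hz
  rw [← sup_span_sq_eq hQ hQ0 hπ hπ2] at hz
  obtain ⟨u, hu, w, hw, rfl⟩ := Submodule.mem_sup.mp hz
  obtain ⟨a, rfl⟩ := Ideal.mem_span_singleton'.mp hu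
  have e : τ (a * π + w) - g * (a * π + w) =
      (τ a - a) * τ π + a * (τ π - g * π) + (τ w - g * w) := by
    rw [map_add, map_mul]; ring
  rw [e]
  have hτw : τ w ∈ Q ^ 2 := by
    have : τ w - 1 ^ 2 * w ∈ Q ^ 2 := by
      -- `τ` preserves `Q ^ 2`
      rw [pow_two] at hw ⊢
      refine Submodule.mul_induction_on hw ?_ ?_
      · intro y hy z hz
        have hy' := map_mem_of_mem Q τ h1 hy
        have hz' := map_mem_of_mem Q τ h1 hz
        have : τ (y * z) - 1 ^ 2 * (y * z) = τ y * τ z - y * z := by rw [map_mul]; ring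
        rw [this]
        exact (Q * Q).sub_mem (Ideal.mul_mem_mul hy' hz') (Ideal.mul_mem_mul hy hz)
      · intro a b ha hb
        have : τ (a + b) - 1 ^ 2 * (a + b) = (τ a - 1 ^ 2 * a) + (τ b - 1 ^ 2 * b) := by
          rw [map_add]; ring
        rw [this]
        exact (Q * Q).add_mem ha hb
    have h3 := (Q ^ 2).add_mem this hw
    simpa using h3
  refine (Q ^ 2).add_mem ((Q ^ 2).add_mem ?_ ?_) ?_
  · rw [pow_two]
    exact Ideal.mul_mem_mul (h1 a) (map_mem_of_mem Q τ h1 hπ)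
  · exact Ideal.mul_mem_left _ _ hτπ
  · exact (Q ^ 2).sub_mem hτw (Ideal.mul_mem_left _ _ hw)

/-- In a Dedekind domain: `a * β ∈ Q ^ n` and `β ∉ Q ^ n` force `a ∈ Q`. -/
theorem mem_of_mul_mem_pow_succ {Q : Ideal B} (hQ : Q.IsPrime) (hQ0 : Q ≠ ⊥) {a β : B} {n : ℕ}
    (hr' : β ∉ Q ^ n) (h : a * β ∈ Q ^ n) : a ∈ Q := by
  by_contra ha
  apply hr'
  have hp : Prime Q := Ideal.prime_of_isPrime hQ0 hQ
  have h1 : Q ^ n ∣ Ideal.span {a} * Ideal.span {β} := by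
    rw [Ideal.span_singleton_mul_span_singleton, Ideal.dvd_span_singleton]
    exact h
  have h2 : ¬ Q ∣ Ideal.span {a} := by
    rw [Ideal.dvd_span_singleton]
    exact ha
  have h3 := hp.pow_dvd_of_dvd_mul_left n h2 h1
  rwa [Ideal.dvd_span_singleton] at h3

/-- **Congruence for the Hilbert 90 quotient.** If `τ β = ε β` and `β` has exact `Q`-order `r`,
then `ε ≡ g ^ r mod Q`. -/
theorem eps_congr {Q : Ideal B} (hQ : Q.IsPrime) (hQ0 : Q ≠ ⊥) (τ : B →+* B) (g : B)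
    (h1 : ∀ x, τ x - x ∈ Q) (h2 : ∀ z ∈ Q, τ z - g * z ∈ Q ^ 2) {β ε : B}
    (hb : τ β = ε * β) {r : ℕ} (hr : β ∈ Q ^ r) (hr' : β ∉ Q ^ (r + 1)) :
    ε - g ^ r ∈ Q := by
  have h3 := pow_step Q τ g h1 h2 r β hr
  rw [hb, ← sub_mul] at h3
  exact mem_of_mul_mem_pow_succ hQ hQ0 hr' h3

/-- **Cyclotomic form.** `τ z = z ^ g`, `π = 1 - z` a uniformiser at `Q`, `τ` trivial on `B ⧸ Q`,
`τ β = ε β`, `β` of exact `Q`-order `r`: then `ε ≡ g ^ r mod Q`. -/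
theorem eps_congr_of_pow {Q : Ideal B} (hQ : Q.IsPrime) (hQ0 : Q ≠ ⊥) (τ : B →+* B)
    (h1 : ∀ x, τ x - x ∈ Q) {z : B} {g : ℕ} (hz : τ z = z ^ g) (hπ : 1 - z ∈ Q)
    (hπ2 : 1 - z ∉ Q ^ 2) {β ε : B} (hb : τ β = ε * β) {r : ℕ} (hr : β ∈ Q ^ r)
    (hr' : β ∉ Q ^ (r + 1)) : ε - (g : B) ^ r ∈ Q := by
  have hτπ : τ (1 - z) - (g : B) * (1 - z) ∈ Q ^ 2 := by
    obtain ⟨c, hc⟩ := one_sub_pow_sub z g
    rw [map_sub, map_one, hz, hc]
    exact Ideal.mul_mem_right _ _ (Ideal.pow_mem_pow hπ 2)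
  exact eps_congr hQ hQ0 τ (g : B) h1 (h2_of_uniformizer hQ hQ0 τ (g : B) h1 hπ hπ2 hτπ) hb hr hr'

end Dedekind

end Fermat.Agent.S14.ThaineLocal_helper24
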