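import Mathlib

set_option autoImplicit false
set_option linter.unusedSectionVars false

/-!
# S14 / Thaine (T-d): ramification in `L = K(ζ_q)` over `K = ℚ(ζ_p)`

`p ≠ q` primes, `K = ℚ(ζ_p)`, `L = K(ζ_q) = ℚ(ζ_{pq})`.  For `q ≡ 1 (mod p)`:
every prime `𝔔` of `𝓞 L` above a prime `Q` of `𝓞 K` above `q` is totally ramified over `K`
(`e = q - 1 = [L : K]`, `f = 1`), it is the unique prime above `Q`, `Q 𝓞 L = 𝔔 ^ (q - 1)`,
and `1 - ζ_q ∈ 𝔔 \ 𝔔 ^ 2`.  Primes of `𝓞 L` not above `q` are unramified over `K`.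
-/

namespace Fermat.Agent.S14.ThaineRam

open NumberField Ideal

variable (p q : ℕ) [hp : Fact p.Prime] [hq : Fact q.Prime]
variable (K L : Type*) [Field K] [NumberField K] [hK : IsCyclotomicExtension {p} ℚ K]
  [Field L] [NumberField L] [Algebra K L] [hL : IsCyclotomicExtension {q} K L]

include hp hq hK hL in
/-- `L = K(ζ_q)` is the `pq`-th cyclotomic field. -/
theorem isCyclotomicExtension_mul (hpq : p ≠ q) : IsCyclotomicExtension {p * q} ℚ L := by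
  have : NeZero p := ⟨hp.out.ne_zero⟩
  have : NeZero q := ⟨hq.out.ne_zero⟩
  have : NeZero (p * q) := ⟨mul_ne_zero hp.out.ne_zero hq.out.ne_zero⟩
  have h1 : IsCyclotomicExtension ({p} ∪ {q}) ℚ L :=
    IsCyclotomicExtension.trans {p} {q} ℚ K L (algebraMap K L).injective
  obtain ⟨ζp, hζp⟩ := h1.exists_isPrimitiveRoot (show p ∈ ({p} ∪ {q} : Set ℕ) by simp)
    hp.out.ne_zero
  obtain ⟨ζq, hζq⟩ := h1.exists_isPrimitiveRoot (show q ∈ ({p} ∪ {q} : Set ℕ) by simp)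
    hq.out.ne_zero
  have hord : orderOf (ζp * ζq) = p * q := by
    rw [(Commute.all ζp ζq).orderOf_mul_eq_mul_orderOf_of_coprime, ← hζp.eq_orderOf,
      ← hζq.eq_orderOf]
    rw [← hζp.eq_orderOf, ← hζq.eq_orderOf]
    exact (Nat.coprime_primes hp.out hq.out).mpr hpq
  have hζ : IsPrimitiveRoot (ζp * ζq) (p * q) := hord ▸ IsPrimitiveRoot.orderOf (ζp * ζq)
  have h2 : IsCyclotomicExtension ({p} ∪ {q} ∪ {p * q}) ℚ L :=
    IsCyclotomicExtension.union_of_isPrimitiveRoot _ ℚ L hζ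
  have h3 : IsCyclotomicExtension ({p * q} ∪ {p} ∪ {q}) ℚ L := by
    have hset : ({p * q} ∪ {p} ∪ {q} : Set ℕ) = {p} ∪ {q} ∪ {p * q} := by
      ext x
      simp only [Set.mem_union, Set.mem_singleton_iff]
      tauto
    rw [hset]
    exact h2
  have h4 : IsCyclotomicExtension ({p * q} ∪ {p}) ℚ L :=
    (IsCyclotomicExtension.iff_union_of_dvd ℚ L
      ⟨p * q, by simp, mul_ne_zero hp.out.ne_zero hq.out.ne_zero, dvd_mul_left q p⟩).mpr h3
  exact (IsCyclotomicExtension.iff_union_of_dvd ℚ L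
      ⟨p * q, by simp, mul_ne_zero hp.out.ne_zero hq.out.ne_zero, dvd_mul_right p q⟩).mpr h4

omit hq in
theorem ne_of_mod (hqp : q % p = 1) : p ≠ q := by
  rintro rfl
  rw [Nat.mod_self] at hqp
  exact zero_ne_one hqp

theorem not_dvd_of_mod (hqp : q % p = 1) : ¬ q ∣ p := by
  intro h
  rcases (Nat.dvd_prime hp.out).mp h with h1 | h1
  · exact hq.out.one_lt.ne' h1
  · exact ne_of_mod p q hqp h1.symm

omit hq in
theorem natCast_eq_one (hqp : q % p = 1) : ((q : ℕ) : ZMod p) = 1 := by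
  have h : ((q % p : ℕ) : ZMod p) = ((q : ℕ) : ZMod p) := ZMod.natCast_mod q p
  rw [← h, hqp, Nat.cast_one]

include hp hq hK hL in
/-- `[L : K] = q - 1`. -/
theorem finrank_eq (hpq : p ≠ q) : Module.finrank K L = q - 1 := by
  have : NeZero p := ⟨hp.out.ne_zero⟩
  have : NeZero (p * q) := ⟨mul_ne_zero hp.out.ne_zero hq.out.ne_zero⟩
  have := isCyclotomicExtension_mul p q K L hpq
  have hL' : Module.finrank ℚ L = (p * q).totient :=
    IsCyclotomicExtension.finrank L (Polynomial.cyclotomic.irreducible_rat (NeZero.pos _))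
  have hK' : Module.finrank ℚ K = p.totient :=
    IsCyclotomicExtension.finrank K (Polynomial.cyclotomic.irreducible_rat (NeZero.pos _))
  have hmul := Module.finrank_mul_finrank ℚ K L
  rw [hL', hK', Nat.totient_mul ((Nat.coprime_primes hp.out hq.out).mpr hpq),
    Nat.totient_prime hp.out, Nat.totient_prime hq.out] at hmul
  have hp1 : 0 < p - 1 := Nat.sub_pos_of_lt hp.out.one_lt
  exact Nat.eq_of_mul_eq_mul_left hp1 hmul

omit hp hK in
/-- a prime of `𝓞 K` containing `q` lies over `q`. -/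
theorem liesOver_of_natCast_mem (Q0 : Ideal (𝓞 K)) [hQ0 : Q0.IsPrime] (h : (q : 𝓞 K) ∈ Q0) :
    Q0.LiesOver (span {(q : ℤ)}) := by
  refine ⟨?_⟩
  have hle : (span {(q : ℤ)} : Ideal ℤ) ≤ Q0.under ℤ := by
    rw [Ideal.span_singleton_le_iff_mem, Ideal.under_def, Ideal.mem_comap]
    simpa using h
  have hne : Q0.under ℤ ≠ ⊤ := (Ideal.IsPrime.under ℤ Q0).ne_top
  exact (Int.ideal_span_isMaximal_of_prime q).eq_of_le hne hle

section Over

variable (Q0 : Ideal (𝓞 K)) [hQ0 : Q0.IsPrime] [hQ0' : Q0.LiesOver (span {(q : ℤ)})]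
  (𝔔 : Ideal (𝓞 L)) [h𝔔 : 𝔔.IsPrime] [h𝔔' : 𝔔.LiesOver Q0]

include hQ0' h𝔔' in
theorem liesOver_int : 𝔔.LiesOver (span {(q : ℤ)}) := LiesOver.trans 𝔔 Q0 _

include hp hK hL hQ0 hQ0' h𝔔 h𝔔' in
/-- `e(𝔔 | q) = q - 1`. -/
theorem ramificationIdx_int (hqp : q % p = 1) : 𝔔.ramificationIdx ℤ = q - 1 := by
  have := isCyclotomicExtension_mul p q K L (ne_of_mod p q hqp)
  have := liesOver_int q K L Q0 𝔔
  have h := IsCyclotomicExtension.Rat.ramificationIdx_eq (p * q) L 𝔔 (m := p) (p := q) (k := 0)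
    (by ring) (not_dvd_of_mod p q hqp)
  simpa using h

include hp hK hL hQ0 hQ0' h𝔔 h𝔔' in
/-- `f(𝔔 | q) = 1`. -/
theorem inertiaDeg_int (hqp : q % p = 1) : 𝔔.inertiaDeg ℤ = 1 := by
  have := isCyclotomicExtension_mul p q K L (ne_of_mod p q hqp)
  have := liesOver_int q K L Q0 𝔔
  have h := IsCyclotomicExtension.Rat.inertiaDeg_eq (p * q) L 𝔔 (m := p) (p := q) (k := 0)
    (by ring) (not_dvd_of_mod p q hqp)
  rw [h, natCast_eq_one p q hqp, orderOf_one]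

include hp hK hQ0 hQ0' in
/-- `e(Q | q) = 1`. -/
theorem ramificationIdx_base (hqp : q % p = 1) : Q0.ramificationIdx ℤ = 1 := by
  have : NeZero p := ⟨hp.out.ne_zero⟩
  exact IsCyclotomicExtension.Rat.ramificationIdx_eq_of_not_dvd q K Q0 (not_dvd_of_mod p q hqp)

include hp hK hQ0 hQ0' in
/-- `f(Q | q) = 1`. -/
theorem inertiaDeg_base (hqp : q % p = 1) : Q0.inertiaDeg ℤ = 1 := by
  have : NeZero p := ⟨hp.out.ne_zero⟩
  rw [IsCyclotomicExtension.Rat.inertiaDeg_eq_of_not_dvd q K Q0 (not_dvd_of_mod p q hqp),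
    natCast_eq_one p q hqp, orderOf_one]

include hp hK hL hQ0 hQ0' h𝔔 h𝔔' in
/-- **Total ramification**: `e(𝔔 | Q) = q - 1`. -/
theorem ramificationIdx_eq (hqp : q % p = 1) : 𝔔.ramificationIdx (𝓞 K) = q - 1 := by
  have h := Ideal.ramificationIdx_tower (R := ℤ) Q0 𝔔
  rw [ramificationIdx_int p q K L Q0 𝔔 hqp, ramificationIdx_base p q K Q0 hqp, one_mul] at h
  exact h.symm

include hp hK hL hQ0 hQ0' h𝔔 h𝔔' in
/-- `f(𝔔 | Q) = 1`. -/
theorem inertiaDeg_eq (hqp : q % p = 1) : 𝔔.inertiaDeg (𝓞 K) = 1 := by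
  have h := Ideal.inertiaDeg_tower (R := ℤ) Q0 𝔔
  rw [inertiaDeg_int p q K L Q0 𝔔 hqp, inertiaDeg_base p q K Q0 hqp, one_mul] at h
  exact h.symm

include hp hq hK hL hQ0 hQ0' h𝔔 h𝔔' in
/-- there is exactly one prime of `𝓞 L` above `Q`. -/
theorem ncard_primesOver (hqp : q % p = 1) : (Q0.primesOver (𝓞 L)).ncard = 1 := by
  have : IsGalois K L := IsCyclotomicExtension.isGalois {q} K L
  have h := Ideal.ncard_primesOver_mul_ramificationIdxIn_mul_inertiaDegIn Q0 (𝓞 L) Gal(L/K)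
  rw [Ideal.ramificationIdxIn_eq_ramificationIdx Q0 𝔔 Gal(L/K),
    Ideal.inertiaDegIn_eq_inertiaDeg Q0 𝔔 Gal(L/K), ramificationIdx_eq p q K L Q0 𝔔 hqp,
    inertiaDeg_eq p q K L Q0 𝔔 hqp, mul_one, IsGalois.card_aut_eq_finrank,
    finrank_eq p q K L (ne_of_mod p q hqp)] at h
  have hq1 : 0 < q - 1 := Nat.sub_pos_of_lt hq.out.one_lt
  exact Nat.eq_of_mul_eq_mul_right hq1 (by rw [h, one_mul])

include hp hq hK hL hQ0 hQ0' h𝔔 h𝔔' in
/-- `𝔔` is the unique prime of `𝓞 L` above `Q`. -/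
theorem eq_of_liesOver (hqp : q % p = 1) (𝔔' : Ideal (𝓞 L)) [h1 : 𝔔'.IsPrime]
    [h2 : 𝔔'.LiesOver Q0] : 𝔔' = 𝔔 := by
  obtain ⟨a, ha⟩ := Set.ncard_eq_one.mp (ncard_primesOver p q K L Q0 𝔔 hqp)
  have m1 : 𝔔' ∈ Q0.primesOver (𝓞 L) := ⟨h1, h2⟩
  have m2 : 𝔔 ∈ Q0.primesOver (𝓞 L) := ⟨h𝔔, h𝔔'⟩
  rw [ha, Set.mem_singleton_iff] at m1 m2
  rw [m1, m2]

include hQ0 hQ0' hq in
theorem base_ne_bot : Q0 ≠ ⊥ := by
  intro h
  have h1 : (q : ℤ) ∈ (span {(q : ℤ)} : Ideal ℤ) := Ideal.mem_span_singleton_self _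
  rw [hQ0'.over, Ideal.mem_comap, h, Ideal.mem_bot] at h1
  have h2 : ((q : ℤ) : 𝓞 K) = 0 := h1
  rw [Int.cast_natCast, Nat.cast_eq_zero] at h2
  exact hq.out.ne_zero h2

include hp hq hK hL hQ0 hQ0' h𝔔 h𝔔' in
/-- `Q 𝓞 L = 𝔔 ^ (q - 1)`. -/
theorem map_eq_pow (hqp : q % p = 1) :
    Q0.map (algebraMap (𝓞 K) (𝓞 L)) = 𝔔 ^ (q - 1) := by
  classical
  have hQ0b : Q0 ≠ ⊥ := base_ne_bot q K Q0
  have : Q0.IsMaximal := hQ0.isMaximal hQ0b
  have hI : Q0.map (algebraMap (𝓞 K) (𝓞 L)) ≠ ⊥ := map_ne_bot_of_ne_bot hQ0b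
  have hall : ∀ P ∈ UniqueFactorizationMonoid.normalizedFactors
      (Q0.map (algebraMap (𝓞 K) (𝓞 L))), P = 𝔔 := by
    intro P hP
    have hP' : P ∈ Q0.primesOver (𝓞 L) :=
      (Ideal.mem_primesOver_iff_mem_normalizedFactors (𝓞 L) hQ0b).mpr hP
    have := hP'.1
    have := hP'.2
    exact eq_of_liesOver p q K L Q0 𝔔 hqp P
  have hrep := Multiset.eq_replicate_of_mem hall
  have hcount := IsDedekindDomain.ramificationIdx_eq_normalizedFactors_count Q0 𝔔 hI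
  rw [ramificationIdx_eq p q K L Q0 𝔔 hqp, hrep, Multiset.count_replicate_self] at hcount
  have hprod := Ideal.prod_normalizedFactors_eq_self hI
  rw [hrep, Multiset.prod_replicate, ← hcount] at hprod
  exact hprod.symm

include hQ0' h𝔔' in
theorem natCast_mem : (q : 𝓞 L) ∈ 𝔔 := by
  have := liesOver_int q K L Q0 𝔔
  have h1 : (q : ℤ) ∈ (span {(q : ℤ)} : Ideal ℤ) := Ideal.mem_span_singleton_self _
  rw [(liesOver_int q K L Q0 𝔔).over, Ideal.mem_comap] at h1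
  simpa using h1

include hQ0' h𝔔 h𝔔' in
/-- `ζ_q - 1 ∈ 𝔔`. -/
theorem zeta_sub_one_mem {ζ : L} (hζ : IsPrimitiveRoot ζ q) :
    haveI : NeZero q := ⟨hq.out.ne_zero⟩
    hζ.toInteger - 1 ∈ 𝔔 := by
  have : NeZero q := ⟨hq.out.ne_zero⟩
  obtain ⟨u, hu⟩ := IsCyclotomicExtension.Rat.associated_zeta_sub_one_pow_prime q hζ
  have h1 : (hζ.toInteger - 1) ^ (q - 1) * (u : 𝓞 L) ∈ 𝔔 := by
    rw [hu]
    exact natCast_mem q K L Q0 𝔔
  have h2 : (hζ.toInteger - 1) ^ (q - 1) ∈ 𝔔 := by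
    rcases h𝔔.mem_or_mem h1 with h | h
    · exact h
    · exact absurd (𝔔.eq_top_of_isUnit_mem h u.isUnit) h𝔔.ne_top
  exact h𝔔.mem_of_pow_mem _ h2

include hp hK hL hQ0 hQ0' h𝔔 h𝔔' in
/-- `ζ_q - 1 ∉ 𝔔 ^ 2`: `ζ_q - 1` is a uniformiser at `𝔔`. -/
theorem zeta_sub_one_not_mem_sq (hqp : q % p = 1) {ζ : L} (hζ : IsPrimitiveRoot ζ q) :
    haveI : NeZero q := ⟨hq.out.ne_zero⟩
    hζ.toInteger - 1 ∉ 𝔔 ^ 2 := by
  have : NeZero q := ⟨hq.out.ne_zero⟩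
  intro hmem
  obtain ⟨u, hu⟩ := IsCyclotomicExtension.Rat.associated_zeta_sub_one_pow_prime q hζ
  have h1 : (q : 𝓞 L) ∈ 𝔔 ^ (2 * (q - 1)) := by
    rw [← hu, pow_mul]
    exact Ideal.mul_mem_right _ _ (Ideal.pow_mem_pow hmem _)
  have := liesOver_int q K L Q0 𝔔
  have hmap : (span {(q : ℤ)} : Ideal ℤ).map (algebraMap ℤ (𝓞 L)) = span {(q : 𝓞 L)} := by
    rw [Ideal.map_span, Set.image_singleton]
    simp
  have hne : (span {(q : ℤ)} : Ideal ℤ).map (algebraMap ℤ (𝓞 L)) ≠ ⊥ := by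
    rw [hmap, Ne, Ideal.span_singleton_eq_bot, Nat.cast_eq_zero]
    exact hq.out.ne_zero
  have hdvd : 𝔔 ^ (2 * (q - 1)) ∣ (span {(q : ℤ)} : Ideal ℤ).map (algebraMap ℤ (𝓞 L)) := by
    rw [Ideal.dvd_iff_le, hmap, Ideal.span_singleton_le_iff_mem]
    exact h1
  have hfin : FiniteMultiplicity 𝔔 ((span {(q : ℤ)} : Ideal ℤ).map (algebraMap ℤ (𝓞 L))) :=
    FiniteMultiplicity.of_not_isUnit (by rw [Ideal.isUnit_iff]; exact h𝔔.ne_top) hne
  have hle := hfin.le_multiplicity_of_pow_dvd hdvd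
  rw [← IsDedekindDomain.ramificationIdx_eq_multiplicity (span {(q : ℤ)}) 𝔔 hne,
    ramificationIdx_int p q K L Q0 𝔔 hqp] at hle
  have hq1 : 0 < q - 1 := Nat.sub_pos_of_lt hq.out.one_lt
  omega

include hQ0' h𝔔 h𝔔' in
/-- `1 - ζ_q ∈ 𝔔` for a primitive `q`-th root of unity `ζ_q ∈ 𝓞 L`. -/
theorem one_sub_zeta_mem {z : 𝓞 L} (hz : IsPrimitiveRoot z q) : 1 - z ∈ 𝔔 := by
  have : NeZero q := ⟨hq.out.ne_zero⟩
  have hz' : IsPrimitiveRoot (z : L) q := hz.map_of_injective RingOfIntegers.coe_injective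
  have h := zeta_sub_one_mem q K L Q0 𝔔 hz'
  have he : hz'.toInteger = z := RingOfIntegers.ext rfl
  rw [he] at h
  have : 1 - z = -(z - 1) := by ring
  rw [this]
  exact 𝔔.neg_mem h

include hp hK hL hQ0 hQ0' h𝔔 h𝔔' in
/-- `1 - ζ_q ∉ 𝔔 ^ 2`. -/
theorem one_sub_zeta_not_mem_sq (hqp : q % p = 1) {z : 𝓞 L} (hz : IsPrimitiveRoot z q) :
    1 - z ∉ 𝔔 ^ 2 := by
  have : NeZero q := ⟨hq.out.ne_zero⟩
  have hz' : IsPrimitiveRoot (z : L) q := hz.map_of_injective RingOfIntegers.coe_injective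
  have h := zeta_sub_one_not_mem_sq p q K L Q0 𝔔 hqp hz'
  have he : hz'.toInteger = z := RingOfIntegers.ext rfl
  rw [he] at h
  intro hmem
  apply h
  have : z - 1 = -(1 - z) := by ring
  rw [this]
  exact (𝔔 ^ 2).neg_mem hmem

end Over

section Away

include hp hq hK hL in
/-- primes of `𝓞 L` not above `q` are unramified over `K`. -/
theorem ramificationIdx_eq_one_of_not_mem (hpq : p ≠ q) (𝔏 : Ideal (𝓞 L)) [h𝔏 : 𝔏.IsPrime]
    (h0 : 𝔏 ≠ ⊥) (hq𝔏 : (q : 𝓞 L) ∉ 𝔏) : 𝔏.ramificationIdx (𝓞 K) = 1 := by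
  have : NeZero 𝔏 := ⟨h0⟩
  have : NeZero p := ⟨hp.out.ne_zero⟩
  have : NeZero (p * q) := ⟨mul_ne_zero hp.out.ne_zero hq.out.ne_zero⟩
  set ℓ : ℕ := absNorm (under ℤ 𝔏) with hℓ
  have hℓp : ℓ.Prime := Nat.absNorm_under_prime 𝔏
  have : Fact ℓ.Prime := ⟨hℓp⟩
  have hover : 𝔏.LiesOver (span {(ℓ : ℤ)}) := Int.liesOver_span_absNorm 𝔏
  have hℓq : ℓ ≠ q := by
    intro h
    apply hq𝔏
    rw [← h]
    exact Int.absNorm_under_mem 𝔏
  have := isCyclotomicExtension_mul p q K L hpq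
  have : (𝔏.under (𝓞 K)).IsPrime := Ideal.IsPrime.under (𝓞 K) 𝔏
  have : (𝔏.under (𝓞 K)).LiesOver (span {(ℓ : ℤ)}) :=
    LiesOver.tower_bot 𝔏 (𝔏.under (𝓞 K)) (span {(ℓ : ℤ)})
  have htower := Ideal.ramificationIdx_tower (R := ℤ) (𝔏.under (𝓞 K)) 𝔏
  by_cases hℓp' : ℓ = p
  · -- the prime `p`: `e = p - 1` both in `K` and in `L`
    have hL' : 𝔏.ramificationIdx ℤ = p - 1 := by
      have h := IsCyclotomicExtension.Rat.ramificationIdx_eq (p * q) L 𝔏 (m := q) (p := ℓ)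
        (k := 0) (by rw [hℓp']; ring) (by
          rw [hℓp']
          intro hdvd
          exact hpq ((Nat.prime_dvd_prime_iff_eq hp.out hq.out).mp hdvd))
      rw [h, hℓp']
      simp
    have hK' : (𝔏.under (𝓞 K)).ramificationIdx ℤ = p - 1 := by
      have hK'' : IsCyclotomicExtension {ℓ} ℚ K := by rw [hℓp']; exact hK
      have h := IsCyclotomicExtension.Rat.ramificationIdx_eq_of_prime ℓ K (𝔏.under (𝓞 K))
      rw [h, hℓp']
    rw [hL', hK'] at htower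
    have hp1 : 0 < p - 1 := Nat.sub_pos_of_lt hp.out.one_lt
    exact (Nat.eq_of_mul_eq_mul_left hp1 (by rw [mul_one]; exact htower)).symm
  · -- other primes are unramified in `L / ℚ`
    have hndvd : ¬ ℓ ∣ p * q := by
      intro hdvd
      rcases (Nat.Prime.dvd_mul hℓp).mp hdvd with h | h
      · exact hℓp' ((Nat.prime_dvd_prime_iff_eq hℓp hp.out).mp h)
      · exact hℓq ((Nat.prime_dvd_prime_iff_eq hℓp hq.out).mp h)
    have hL' : 𝔏.ramificationIdx ℤ = 1 :=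
      IsCyclotomicExtension.Rat.ramificationIdx_eq_of_not_dvd ℓ L 𝔏 hndvd
    rw [hL'] at htower
    exact Nat.eq_one_of_mul_eq_one_left htower.symm

end Away

end Fermat.Agent.S14.ThaineRam
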