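import Mathlib
import Fermat.Agent.S14.ThaineTower
import Fermat.Agent.S14.ThaineRam
import Fermat.Agent.S14.ThaineInertia_helper24
import Fermat.Agent.S14.ThaineLocal_helper24

/-!
# Thaine's relation: integration (S14, package T) - hedge file of helper18

`thaine_relation_of`: for `K = Q(zeta_p)`, `L = K(zeta_q)`, `q = 1 mod p`, `Q0` a prime of `O_K`
over `q`: from the Hilbert 90 element `beta` with `tau beta = (zeta zeta_q - 1) beta` (hypothesis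
`HE`, package T-e1) and the factorisation of the norm of a Galois-stable principal ideal (hypothesis
`HG`, package T-g) we get `g`, `r`, `b`, `c` with `(b) = c^(q-1) prod_s (s Q0)^(r s)` and
`g^(r s) (zeta - 1) = 1 mod s Q0`.  Uses the landed ThaineTower / ThaineRam / ThaineInertia /
ThaineLocal files.
-/

set_option autoImplicit false
set_option linter.unusedSectionVars false

namespace Fermat.Agent.S14.ThaineRel_helper18

open NumberField Ideal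
open scoped Pointwise

/-- exact order of a nonzero element at a proper ideal of a Noetherian domain -/
theorem exists_exact_order {B : Type*} [CommRing B] [IsDomain B] [IsNoetherianRing B]
    (Q : Ideal B) (hQ : Q ≠ ⊤) {β : B} (hβ : β ≠ 0) : ∃ r : ℕ, β ∈ Q ^ r ∧ β ∉ Q ^ (r + 1) := by
  classical
  have h : ∃ n, β ∉ Q ^ n := by
    by_contra hcon
    push Not at hcon
    have : β ∈ ⨅ n : ℕ, Q ^ n := by
      rw [Ideal.mem_iInf]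
      exact hcon
    rw [Ideal.iInf_pow_eq_bot_of_isDomain Q hQ, Ideal.mem_bot] at this
    exact hβ this
  have hm := Nat.find_spec h
  have hmin := fun k (hk : k < Nat.find h) => Nat.find_min h hk
  have h0 : Nat.find h ≠ 0 := by
    intro h0
    rw [h0, pow_zero, Ideal.one_eq_top] at hm
    exact hm (Submodule.mem_top)
  refine ⟨Nat.find h - 1, ?_, ?_⟩
  · have := hmin (Nat.find h - 1) (by omega)
    push Not at this
    exact this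
  · have e : Nat.find h - 1 + 1 = Nat.find h := by omega
    rw [e]
    exact hm

section Base

variable (p q : ℕ) [hp : Fact p.Prime] [hq : Fact q.Prime]
variable (K : Type) [Field K] [NumberField K] [hK : IsCyclotomicExtension {p} ℚ K]

omit hq in
theorem natCast_mem_smul (Q0 : Ideal (𝓞 K)) (h : (q : 𝓞 K) ∈ Q0) (σ : Gal(K/ℚ)) :
    (q : 𝓞 K) ∈ σ • Q0 := by
  have h1 := Ideal.smul_mem_pointwise_smul σ (q : 𝓞 K) Q0 h
  have h2 : σ • (q : 𝓞 K) = (q : 𝓞 K) := by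
    exact map_natCast (MulSemiringAction.toRingHom Gal(K/ℚ) (𝓞 K) σ) q
  rwa [h2] at h1

include hp hq hK in
theorem smul_injective (Q0 : Ideal (𝓞 K)) [Q0.IsPrime] (hqQ0 : (q : 𝓞 K) ∈ Q0)
    (hqp : q % p = 1) : Function.Injective (fun σ : Gal(K/ℚ) => σ • Q0) := by
  have : IsGalois ℚ K := IsCyclotomicExtension.isGalois {p} ℚ K
  have : Q0.LiesOver (span {(q : ℤ)}) := ThaineRam.liesOver_of_natCast_mem q K Q0 hqQ0
  have hprime : (span {(q : ℤ)}).IsPrime := by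
    rw [Ideal.span_singleton_prime (by exact_mod_cast hq.out.ne_zero)]
    exact Nat.prime_iff_prime_int.mp hq.out
  have hstab : Nat.card (MulAction.stabilizer Gal(K/ℚ) Q0) = 1 := by
    rw [Ideal.card_stabilizer_eq (G := Gal(K/ℚ)) (span {(q : ℤ)}) Q0,
      ramificationIdxIn_eq_ramificationIdx _ Q0 Gal(K/ℚ), inertiaDegIn_eq_inertiaDeg _ Q0 Gal(K/ℚ),
      ThaineRam.ramificationIdx_base p q K Q0 hqp, ThaineRam.inertiaDeg_base p q K Q0 hqp]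
  intro σ σ' h
  have hmem : σ'⁻¹ * σ ∈ MulAction.stabilizer Gal(K/ℚ) Q0 := by
    rw [MulAction.mem_stabilizer_iff, mul_smul]
    change σ'⁻¹ • (σ • Q0) = Q0
    have h' : σ • Q0 = σ' • Q0 := h
    rw [h', inv_smul_smul]
  have hsub : Subsingleton (MulAction.stabilizer Gal(K/ℚ) Q0) :=
    (Nat.card_eq_one_iff_unique.mp hstab).1
  have h1 : (⟨σ'⁻¹ * σ, hmem⟩ : MulAction.stabilizer Gal(K/ℚ) Q0) = 1 := Subsingleton.elim _ _
  have h2 : σ'⁻¹ * σ = 1 := congrArg Subtype.val h1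
  exact (inv_mul_eq_one.mp h2).symm

include hp hq hK in
/-- every prime of `𝓞 K` containing `q` is a conjugate of `Q0` -/
theorem exists_smul_eq (Q0 : Ideal (𝓞 K)) [Q0.IsPrime] (hqQ0 : (q : 𝓞 K) ∈ Q0)
    (P : Ideal (𝓞 K)) [P.IsPrime] (hqP : (q : 𝓞 K) ∈ P) : ∃ σ : Gal(K/ℚ), σ • Q0 = P := by
  have : IsGalois ℚ K := IsCyclotomicExtension.isGalois {p} ℚ K
  have : Q0.LiesOver (span {(q : ℤ)}) := ThaineRam.liesOver_of_natCast_mem q K Q0 hqQ0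
  have : P.LiesOver (span {(q : ℤ)}) := ThaineRam.liesOver_of_natCast_mem q K P hqP
  exact Ideal.exists_smul_eq_of_isGaloisGroup (span {(q : ℤ)}) Q0 P Gal(K/ℚ)

end Base

section Arith

/-- inverse of `g` modulo `q` in any commutative ring where `q` lies in the ideal -/
theorem pow_pred_sub_one_mem {R : Type*} [CommRing R] (I : Ideal R) {q g : ℕ} (hq : q.Prime)
    (hqI : (q : R) ∈ I) (hg : ¬ q ∣ g) : ((g : R) ^ (q - 1)) - 1 ∈ I := by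
  have := Fact.mk hq
  have h1 : ((g : ZMod q)) ^ (q - 1) = 1 := by
    apply ZMod.pow_card_sub_one_eq_one
    rwa [Ne, ZMod.natCast_eq_zero_iff]
  have h2 : ((g ^ (q - 1) : ℕ) : ZMod q) = ((1 : ℕ) : ZMod q) := by
    push_cast
    exact h1
  rw [ZMod.natCast_eq_natCast_iff] at h2
  have h3 : (q : ℤ) ∣ ((g ^ (q - 1) : ℕ) : ℤ) - ((1 : ℕ) : ℤ) := h2.symm.dvd
  obtain ⟨k, hk⟩ := h3
  have h4 : ((g : R) ^ (q - 1)) - 1 = (q : R) * (k : R) := by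
    have := congrArg (Int.cast : ℤ → R) hk
    push_cast at this
    exact this
  rw [h4]
  exact I.mul_mem_right _ hqI

end Arith


section Top

variable (p q : ℕ) [hp : Fact p.Prime] [hq : Fact q.Prime]
variable (K L : Type) [Field K] [NumberField K] [hK : IsCyclotomicExtension {p} ℚ K]
  [Field L] [NumberField L] [Algebra K L] [hL : IsCyclotomicExtension {q} K L]

include hp hq hK hL in
/-- the local congruence at the prime `𝔔` of `𝓞 L` above a prime `Q` of `𝓞 K` over `q`. -/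
theorem local_congr (hqp : q % p = 1) (ζ : 𝓞 K)
    (Q : Ideal (𝓞 K)) [Q.IsPrime] (hqQ : (q : 𝓞 K) ∈ Q)
    (𝔔 : Ideal (𝓞 L)) [𝔔.IsPrime] [𝔔.LiesOver Q]
    [IsGalois K L] (τ : Gal(L/K)) {zq : 𝓞 L} (hzq : IsPrimitiveRoot zq q) {g : ℕ}
    (hτz : τ • zq = zq ^ g) {β ε : 𝓞 L} (hε : ε = algebraMap (𝓞 K) (𝓞 L) ζ * zq - 1)
    (hτβ : τ • β = ε * β) {r : ℕ} (hr : β ∈ 𝔔 ^ r) (hr' : β ∉ 𝔔 ^ (r + 1)) :
    (ζ - 1) - (g : 𝓞 K) ^ r ∈ Q := by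
  have hlo : Q.LiesOver (span {(q : ℤ)}) := ThaineRam.liesOver_of_natCast_mem q K Q hqQ
  have hQ0 : Q ≠ ⊥ := ThaineRam.base_ne_bot q K Q
  have h𝔔0 : 𝔔 ≠ ⊥ := by
    intro h
    have := ThaineRam.natCast_mem q K L Q 𝔔
    rw [h, Ideal.mem_bot] at this
    exact hq.out.ne_zero (by exact_mod_cast this)
  have hQmax : Q.IsMaximal := Ideal.IsPrime.isMaximal inferInstance hQ0
  have h𝔔max : 𝔔.IsMaximal := Ideal.IsPrime.isMaximal inferInstance h𝔔0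
  let τA : 𝓞 L ≃ₐ[𝓞 K] 𝓞 L := MulSemiringAction.toAlgEquiv (𝓞 K) (𝓞 L) τ
  have h1 : ∀ x, (τA : 𝓞 L →+* 𝓞 L) x - x ∈ 𝔔 := fun x =>
    ThaineInertia_helper24.algEquiv_sub_mem Q 𝔔 (ThaineRam.inertiaDeg_eq p q K L Q 𝔔 hqp)
      (fun 𝔔' h1 h2 => ThaineRam.eq_of_liesOver p q K L Q 𝔔 hqp 𝔔') τA x
  have hcong := ThaineLocal_helper24.eps_congr_of_pow (inferInstance : 𝔔.IsPrime) h𝔔0
    (τA : 𝓞 L →+* 𝓞 L) h1 (z := zq) (g := g) hτz
    (ThaineRam.one_sub_zeta_mem q K L Q 𝔔 hzq)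
    (ThaineRam.one_sub_zeta_not_mem_sq p q K L Q 𝔔 hqp hzq) (β := β) (ε := ε) hτβ hr hr'
  -- contract to `𝓞 K`
  have hmem : algebraMap (𝓞 K) (𝓞 L) ((ζ - 1) - (g : 𝓞 K) ^ r) ∈ 𝔔 := by
    have h2 : algebraMap (𝓞 K) (𝓞 L) ((ζ - 1) - (g : 𝓞 K) ^ r) =
        (ε - (g : 𝓞 L) ^ r) + algebraMap (𝓞 K) (𝓞 L) ζ * (1 - zq) := by
      rw [hε, map_sub, map_sub, map_one, map_pow, map_natCast]
      ring
    rw [h2]
    exact 𝔔.add_mem hcong (𝔔.mul_mem_left _ (ThaineRam.one_sub_zeta_mem q K L Q 𝔔 hzq))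
  rw [Ideal.over_def 𝔔 Q]
  exact hmem


include hp hq hK hL in
theorem smul_eq_self (hqp : q % p = 1) (Q : Ideal (𝓞 K)) [Q.IsPrime] (hqQ : (q : 𝓞 K) ∈ Q)
    (𝔔 : Ideal (𝓞 L)) [𝔔.IsPrime] [𝔔.LiesOver Q] [IsGalois K L] (ρ : Gal(L/K)) : ρ • 𝔔 = 𝔔 := by
  have hlo : Q.LiesOver (span {(q : ℤ)}) := ThaineRam.liesOver_of_natCast_mem q K Q hqQ
  exact ThaineRam.eq_of_liesOver p q K L Q 𝔔 hqp (ρ • 𝔔)

include hp hq hK hL in
theorem unramified_of_ne (hqp : q % p = 1) (Q0 : Ideal (𝓞 K)) [Q0.IsPrime]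
    (hqQ0 : (q : 𝓞 K) ∈ Q0) (𝔔 : Gal(K/ℚ) → Ideal (𝓞 L)) (h𝔔p : ∀ σ, (𝔔 σ).IsPrime)
    (h𝔔o : ∀ σ, (𝔔 σ).LiesOver (σ • Q0)) (P : Ideal (𝓞 L)) (hP : P.IsPrime) (hP0 : P ≠ ⊥)
    (hne : ∀ σ, P ≠ 𝔔 σ) : P.ramificationIdx (𝓞 K) = 1 := by
  by_cases hqP : (q : 𝓞 L) ∈ P
  · exfalso
    have hu : (P.under (𝓞 K)).IsPrime := inferInstance
    have hqu : (q : 𝓞 K) ∈ P.under (𝓞 K) := by
      rw [Ideal.under_def, Ideal.mem_comap, map_natCast]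
      exact hqP
    obtain ⟨σ, hσ⟩ := exists_smul_eq p q K Q0 hqQ0 (P.under (𝓞 K)) hqu
    have hqσ : (q : 𝓞 K) ∈ σ • Q0 := natCast_mem_smul q K Q0 hqQ0 σ
    have hlo : (σ • Q0).LiesOver (span {(q : ℤ)}) :=
      ThaineRam.liesOver_of_natCast_mem q K (σ • Q0) hqσ
    have := h𝔔p σ
    have := h𝔔o σ
    have hPo : P.LiesOver (σ • Q0) := ⟨hσ.symm ▸ rfl⟩
    exact hne σ (ThaineRam.eq_of_liesOver p q K L (σ • Q0) (𝔔 σ) hqp P)
  · exact ThaineRam.ramificationIdx_eq_one_of_not_mem p q K L (ThaineRam.ne_of_mod p q hqp) P hP0 hqP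

/-- the ideal `(β)` is stable under the cyclic group generated by `τ` -/
theorem exists_unit_smul [IsGalois K L] (τ : Gal(L/K))
    (hgen : ∀ σ : Gal(L/K), σ ∈ Subgroup.zpowers τ) {β : 𝓞 L} {ε : (𝓞 L)ˣ}
    (hτβ : τ • β = (ε : 𝓞 L) * β) (ρ : Gal(L/K)) : ∃ u : (𝓞 L)ˣ, ρ • β = (u : 𝓞 L) * β := by
  have hfin : IsOfFinOrder τ := isOfFinOrder_of_finite τ
  have hρ : ρ ∈ Submonoid.powers τ := (hfin.mem_powers_iff_mem_zpowers).mpr (hgen ρ)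
  obtain ⟨n, hn⟩ := hρ
  have hn' : τ ^ n = ρ := hn
  rw [← hn']
  clear hn hn'
  induction n with
  | zero => exact ⟨1, by simp⟩
  | succ n ih =>
    obtain ⟨u, hu⟩ := ih
    refine ⟨(Units.map (MulSemiringAction.toRingHom Gal(L/K) (𝓞 L) τ : 𝓞 L →* 𝓞 L) u) * ε, ?_⟩
    rw [pow_succ', mul_smul, hu, smul_mul', hτβ]
    simp only [Units.val_mul, Units.coe_map, MonoidHom.coe_coe,
      MulSemiringAction.toRingHom_apply]
    ring


include hp hq hK hL in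
/-- **Thaine's relation**, from the Hilbert 90 element (T-e1) and the factorisation of the norm of
a Galois-stable principal ideal (T-g). -/
theorem thaine_relation_of (hqp : q % p = 1) (ζ : 𝓞 K)
    (Q0 : Ideal (𝓞 K)) [Q0.IsPrime] (hqQ0 : (q : 𝓞 K) ∈ Q0)
    (HE : ∀ (zq : 𝓞 L) (τ : Gal(L/K)), IsPrimitiveRoot zq q →
      (∀ σ : Gal(L/K), σ ∈ Subgroup.zpowers τ) →
      ∃ (β : 𝓞 L) (ε : (𝓞 L)ˣ), β ≠ 0 ∧ (ε : 𝓞 L) = algebraMap (𝓞 K) (𝓞 L) ζ * zq - 1 ∧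
        τ • β = (ε : 𝓞 L) * β)
    (HG : ∀ (PP : Gal(K/ℚ) → Ideal (𝓞 L)), (∀ i, (PP i).IsPrime) → (∀ i, PP i ≠ ⊥) →
      Function.Injective PP → (∀ i (ρ : Gal(L/K)), ρ • PP i = PP i) →
      (∀ i, (PP i).inertiaDeg (𝓞 K) = 1) →
      (∀ P : Ideal (𝓞 L), P.IsPrime → P ≠ ⊥ → (∀ i, P ≠ PP i) → P.ramificationIdx (𝓞 K) = 1) →
      ∀ β : 𝓞 L, β ≠ 0 → (∀ ρ : Gal(L/K), ∃ u : (𝓞 L)ˣ, ρ • β = (u : 𝓞 L) * β) →
      ∀ r : Gal(K/ℚ) → ℕ, (∀ i, β ∈ PP i ^ r i) → (∀ i, β ∉ PP i ^ (r i + 1)) →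
      ∃ c : Ideal (𝓞 K), Ideal.span {Algebra.intNorm (𝓞 K) (𝓞 L) β} =
        c ^ Nat.card Gal(L/K) * ∏ i, (PP i).under (𝓞 K) ^ r i) :
    ∃ (g : ℕ) (r : Gal(K/ℚ) → ℕ) (b : 𝓞 K) (𝔠 : Ideal (𝓞 K)), b ≠ 0 ∧
      Ideal.span {b} = 𝔠 ^ (q - 1) * ∏ σ : Gal(K/ℚ), (σ • Q0) ^ r σ ∧
      ∀ σ : Gal(K/ℚ), (g : 𝓞 K) ^ r σ * (ζ - 1) - 1 ∈ σ • Q0 := by
  classical
  have hpq : p ≠ q := ThaineRam.ne_of_mod p q hqp
  have hgal : IsGalois K L := IsCyclotomicExtension.isGalois {q} K L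
  have hnz : NeZero q := ⟨hq.out.ne_zero⟩
  obtain ⟨zqL, hzqL⟩ := hL.exists_isPrimitiveRoot (Set.mem_singleton q) hq.out.ne_zero
  have hzq : IsPrimitiveRoot hzqL.toInteger q := hzqL.toInteger_isPrimitiveRoot
  obtain ⟨τ, g, hgen, -, hτz, hgord, -⟩ := ThaineTower.exists_generator hpq K L hzqL
  obtain ⟨β, ε, hβ0, hε, hτβ⟩ := HE hzqL.toInteger τ hzq hgen
  have hτz' : τ • hzqL.toInteger = hzqL.toInteger ^ g := RingOfIntegers.ext hτz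
  -- the primes
  have hQσ : ∀ σ : Gal(K/ℚ), (q : 𝓞 K) ∈ σ • Q0 := natCast_mem_smul q K Q0 hqQ0
  have hex : ∀ σ : Gal(K/ℚ), ∃ 𝔔 : Ideal (𝓞 L), 𝔔.IsPrime ∧ 𝔔.LiesOver (σ • Q0) := fun σ => by
    obtain ⟨⟨P, hP1, hP2⟩⟩ := (inferInstance : Nonempty ((σ • Q0).primesOver (𝓞 L)))
    exact ⟨P, hP1, hP2⟩
  choose 𝔔 h𝔔p h𝔔o using hex
  have h𝔔0 : ∀ σ, 𝔔 σ ≠ ⊥ := fun σ h => by
    have := h𝔔p σ
    have := h𝔔o σ
    have hlo : (σ • Q0).LiesOver (span {(q : ℤ)}) :=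
      ThaineRam.liesOver_of_natCast_mem q K (σ • Q0) (hQσ σ)
    have hm := ThaineRam.natCast_mem q K L (σ • Q0) (𝔔 σ)
    rw [h, Ideal.mem_bot] at hm
    exact hq.out.ne_zero (by exact_mod_cast hm)
  -- exact orders
  have hord : ∀ σ, ∃ r : ℕ, β ∈ 𝔔 σ ^ r ∧ β ∉ 𝔔 σ ^ (r + 1) := fun σ =>
    exists_exact_order (𝔔 σ) (h𝔔p σ).ne_top hβ0
  choose r hr hr' using hord
  -- the inverse of `g` modulo `q`
  have hgq : ¬ q ∣ g := by
    intro hdvd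
    have h0 : (g : ZMod q) = 0 := (ZMod.natCast_eq_zero_iff g q).mpr hdvd
    rw [h0, orderOf_zero] at hgord
    have := hq.out.two_le
    omega
  -- factorisation
  obtain ⟨c, hc⟩ := HG 𝔔 h𝔔p h𝔔0
    (fun σ σ' h => by
      have h1 := (h𝔔o σ).over
      have h2 := (h𝔔o σ').over
      have h3 : σ • Q0 = σ' • Q0 := by rw [h1, h2, h]
      exact smul_injective p q K Q0 hqQ0 hqp h3)
    (fun σ ρ => by
      have := h𝔔p σ
      have := h𝔔o σ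
      exact smul_eq_self p q K L hqp (σ • Q0) (hQσ σ) (𝔔 σ) ρ)
    (fun σ => by
      have := h𝔔p σ
      have := h𝔔o σ
      have hlo : (σ • Q0).LiesOver (span {(q : ℤ)}) :=
        ThaineRam.liesOver_of_natCast_mem q K (σ • Q0) (hQσ σ)
      exact ThaineRam.inertiaDeg_eq p q K L (σ • Q0) (𝔔 σ) hqp)
    (fun P hP hP0 hne => unramified_of_ne p q K L hqp Q0 hqQ0 𝔔 h𝔔p h𝔔o P hP hP0 hne)
    β hβ0 (exists_unit_smul K L τ hgen hτβ) r hr hr'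
  have hcard : Nat.card Gal(L/K) = q - 1 := by
    rw [IsGalois.card_aut_eq_finrank, ThaineRam.finrank_eq p q K L hpq]
  refine ⟨g ^ (q - 2), r, Algebra.intNorm (𝓞 K) (𝓞 L) β, c, ?_, ?_, ?_⟩
  · exact Algebra.intNorm_ne_zero.mpr hβ0
  · rw [hc, hcard]
    congr 1
    refine Finset.prod_congr rfl fun σ _ => ?_
    rw [← (h𝔔o σ).over]
  · intro σ
    have := h𝔔p σ
    have := h𝔔o σ
    have h1 := local_congr p q K L hqp ζ (σ • Q0) (hQσ σ) (𝔔 σ) τ hzq hτz' hε hτβ (hr σ) (hr' σ)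
    have h2 := pow_pred_sub_one_mem (σ • Q0) hq.out (hQσ σ) hgq
    -- `g'^r (ζ - 1) - 1 = g'^r ((ζ - 1) - g^r) + ((g^(q-1))^r - 1)`
    have h3 : ((g : 𝓞 K) ^ (q - 1)) ^ r σ - 1 ∈ σ • Q0 := by
      have hd : ((g : 𝓞 K) ^ (q - 1)) - 1 ∣ ((g : 𝓞 K) ^ (q - 1)) ^ r σ - 1 := by
        simpa using sub_dvd_pow_sub_pow ((g : 𝓞 K) ^ (q - 1)) 1 (r σ)
      obtain ⟨k, hk⟩ := hd
      rw [hk]
      exact (σ • Q0).mul_mem_right _ h2
    have hq2 : q - 2 + 1 = q - 1 := by have := hq.out.two_le; omega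
    have h4 : ((g ^ (q - 2) : ℕ) : 𝓞 K) ^ r σ * (ζ - 1) - 1 =
        ((g : 𝓞 K) ^ (q - 2)) ^ r σ * ((ζ - 1) - (g : 𝓞 K) ^ r σ) +
          (((g : 𝓞 K) ^ (q - 1)) ^ r σ - 1) := by
      push_cast
      rw [← hq2, pow_succ]
      ring
    rw [h4]
    exact (σ • Q0).add_mem ((σ • Q0).mul_mem_left _ h1) h3

end Top

end Fermat.Agent.S14.ThaineRel_helper18
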