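import Mathlib
import Fermat.Agent.S14.ThaineRel_helper18
import Fermat.Agent.S14.ThaineH90
import Fermat.Agent.S14.ThaineNorm_helper29
import Fermat.Agent.S14.ThainePkg

/-!
# Thaine's relation `ThainePkg.ThaineRel p`, unconditional (hedge file of helper18)

`thaine_relation p : ThainePkg.ThaineRel p`, by `ThaineRel_helper18.thaine_relation_of` applied to
`L = CyclotomicField q K`, with the Hilbert 90 element of `ThaineH90` (T-e1) and the norm
factorisation `ThaineNorm_helper29.span_intNorm_eq` (T-g).
-/

set_option autoImplicit false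

namespace Fermat.Agent.S14.ThaineRelFinal_helper18

open NumberField
open scoped Pointwise

theorem thaine_relation (p : ℕ) [Fact p.Prime] : ThainePkg.ThaineRel p := by
  intro K _ _ _ ζ hζ q hq hqp Q0 hQ0 hqQ0
  have := Fact.mk hq
  have : NeZero q := ⟨hq.ne_zero⟩
  have hgal : IsGalois K (CyclotomicField q K) :=
    IsCyclotomicExtension.isGalois {q} K (CyclotomicField q K)
  refine ThaineRel_helper18.thaine_relation_of p q K (CyclotomicField q K) hqp ζ Q0 hqQ0 ?_ ?_
  · intro zq τ hzq hgen
    obtain ⟨β, hβ0, hβ⟩ :=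
      ThaineH90.exists_smul_eq_eps_mul K (CyclotomicField q K) hqp hζ hzq hgen
    obtain ⟨ε, hε⟩ := ThaineH90.isUnit_eps K (CyclotomicField q K) hqp hζ hzq
    refine ⟨β, ε, hβ0, ?_, ?_⟩
    · rw [hε]; rfl
    · rw [hε]; exact hβ
  · intro PP hprime hne hinj hfix hf hunr β hβ hinv r hr hr'
    exact ThaineNorm_helper29.span_intNorm_eq PP hprime hne hinj hfix hf hunr β hβ hinv r hr hr'

end Fermat.Agent.S14.ThaineRelFinal_helper18
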