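import Mathlib
import Fermat.Agent.S14.CoreStd
import Fermat.Agent.Kummer.NoUnramified

/-!
# S14: the case `p = 3`

`ℚ(ζ₃)` has class number one, so it has no everywhere unramified cyclic cubic extension
(`Kummer.not_unramified_of_pid`); hence `CoreStd 3`.
-/

set_option autoImplicit false

namespace Fermat.Agent.S14.Three

open scoped NumberField

/-- If every nonzero prime of `𝓞 L` has ramification index one over `𝓞 K`, the different ideal of
`𝓞 L / 𝓞 K` is trivial. -/
theorem differentIdeal_eq_top_of_ramificationIdx {K L : Type} [Field K] [Field L]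
    [NumberField K] [NumberField L] [Algebra K L]
    (h : ∀ P : Ideal (𝓞 L), P.IsPrime → P ≠ ⊥ → P.ramificationIdx (𝓞 K) = 1) :
    differentIdeal (𝓞 K) (𝓞 L) = ⊤ := by
  by_contra hne
  obtain ⟨P, hPmax, hle⟩ := Ideal.exists_le_maximal _ hne
  have hP : P.IsPrime := hPmax.isPrime
  have hD0 : differentIdeal (𝓞 K) (𝓞 L) ≠ ⊥ := differentIdeal_ne_bot
  have hP0 : P ≠ ⊥ := by
    rintro rfl
    exact hD0 (le_bot_iff.mp hle)
  have hdvd : P ∣ differentIdeal (𝓞 K) (𝓞 L) := Ideal.dvd_iff_le.mpr hle
  rw [dvd_differentIdeal_iff] at hdvd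
  apply hdvd
  exact Ideal.ramificationIdx_eq_one_iff.mp (h P hP hP0)

/-- **`CoreStd 3`**: there is no unramified cyclic cubic extension of `ℚ(ζ₃)` at all. -/
theorem coreStd_three [Fact (Nat.Prime 3)] : CoreStd.CoreStd 3 := by
  intro K L _ _ _ _ _ _ _ _ hdeg hunr _ _
  have : IsPrincipalIdealRing (𝓞 K) := IsCyclotomicExtension.Rat.three_pid K
  exact Fermat.Agent.Kummer.not_unramified_of_pid Nat.prime_three (by norm_num) hdeg
    (differentIdeal_eq_top_of_ramificationIdx hunr)

end Fermat.Agent.S14.Three
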