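import Mathlib
import Fermat.Agent.S14.CharDual

/-!
# S14, package (C), ideal-level form

`exists_char_of_not_principal`: the statement of `CharDual.charPkg` with the type-`ω²` hypothesis
given directly on the ideal `I` (the shape produced by `KummerGen` / consumed by `EndGame`):
`(x) σ(I) = (y) I^(c²)` whenever `σ ζ = ζ^c`.

`exists_char_of_class` is the common core: a class `[I] ≠ 1` with `[I]^p = 1` and
`[σ I] = [I]^(k²)` gives a nontrivial character of order `p` and of type `ω²`.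
-/

set_option autoImplicit false

noncomputable section

namespace Fermat.Agent.S14.CharDualIdeal

open NumberField Fermat.Agent.S14.Defs Fermat.Agent.S14.CharDual
open scoped nonZeroDivisors

/-- the common core of package (C), at the level of ideal classes. -/
theorem exists_char_of_class (p : ℕ) [hp : Fact p.Prime] (K : Type) [Field K] [NumberField K]
    [IsCyclotomicExtension {p} ℚ K] (ζ : K) (hζK : IsPrimitiveRoot ζ p) (C : ClassGroup (𝓞 K))
    (hC1 : C ≠ 1) (hCp : C ^ p = 1)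
    (hrel : ∀ (σ : K ≃ₐ[ℚ] K) (k : ℕ), σ ζ = ζ ^ k →
      ClassGroup.mulEquiv (gRing K σ) C = C ^ (k ^ 2)) :
    ∃ ψ : ClassGroup (𝓞 K) →* ℂˣ, ψ ≠ 1 ∧ ψ ^ p = 1 ∧ IsOmegaSqChar K ζ ψ := by
  set c : Additive (ClassGroup (𝓞 K)) := Additive.ofMul C with hcdef
  have hc0 : c ≠ 0 := fun h => hC1 h
  have hpc : p • c = 0 := congrArg Additive.ofMul hCp
  have hc : ∀ σ : K ≃ₐ[ℚ] K, rhoCl K σ c =
      ((((hζK.autToPow ℚ σ : (ZMod p)ˣ) : ZMod p) ^ 2).val) • c := by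
    intro σ
    set k : ℕ := ((hζK.autToPow ℚ σ : (ZMod p)ˣ) : ZMod p).val with hk
    have hσζ : σ ζ = ζ ^ k := (hζK.autToPow_spec ℚ σ).symm
    have h1 := hrel σ k hσζ
    have h2 : rhoCl K σ c = (k ^ 2) • c := by
      rw [hcdef, rhoCl_apply, h1]
      rfl
    rw [h2]
    apply nsmul_eq_of_natCast_eq p hpc
    rw [ZMod.natCast_zmod_val, Nat.cast_pow, hk, ZMod.natCast_zmod_val]
  obtain ⟨Φ, hΦ0, hΦ⟩ := exists_equivariant_hom p (card_gal_zmod p K) (rhoCl K) (rhoCl_mul K)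
    (hζK.autToPow ℚ) c hc0 hpc hc
  obtain ⟨ω, hω'⟩ := exists_omega p
  have hω1 : ω ^ p = 1 := hω'.pow_eq_one
  refine ⟨charOf p K hω1 Φ, ?_, ?_, ?_⟩
  · intro h
    apply hΦ0
    apply AddMonoidHom.ext
    intro x
    have h1 : ((charOf p K hω1 Φ (Additive.toMul x : ClassGroup (𝓞 K)) : ℂˣ) : ℂ) = 1 := by
      rw [h]; rfl
    rw [charOf_apply p K hω1 Φ, AddChar.zmodChar_apply] at h1
    have h2 : (Φ x).val = 0 := by
      by_contra hne
      exact hω'.pow_ne_one_of_pos_of_lt hne (ZMod.val_lt _) h1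
    rw [AddMonoidHom.zero_apply]
    exact (ZMod.val_eq_zero _).1 h2
  · ext D
    rw [MonoidHom.pow_apply, MonoidHom.one_apply, Units.val_pow_eq_pow_val, Units.val_one,
      charOf_apply, AddChar.zmodChar_apply, ← pow_mul, mul_comm, pow_mul, hω1, one_pow]
  · intro σ k hk I' J' hJ'
    have hkκ := natCast_eq_autToPow p K hζK σ k hk
    apply Units.ext
    rw [Units.val_pow_eq_pow_val, charOf_apply, charOf_apply, ← rhoCl_mk0 K σ I' J' hJ', hΦ,
      ← AddChar.map_nsmul_eq_pow, nsmul_eq_mul, Nat.cast_pow, hkκ]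

/-- **(C), ideal-level form** (consumer shape of `EndGame`/`KummerGen`). -/
theorem exists_char_of_not_principal (p : ℕ) [hp : Fact p.Prime] (_hp2 : p ≠ 2) (K : Type) [Field K]
    [NumberField K] [IsCyclotomicExtension {p} ℚ K] (ζ : K) (hζ : IsPrimitiveRoot ζ p)
    (I : Ideal (𝓞 K)) (hI : I ≠ ⊥) (hIp : (I ^ p).IsPrincipal)
    (htype : ∀ (δ : K ≃ₐ[ℚ] K) (c : ℕ), δ ζ = ζ ^ c → ∃ x y : 𝓞 K, x ≠ 0 ∧ y ≠ 0 ∧
      Ideal.span {x} * I.map (RingOfIntegers.mapRingEquiv (δ : K ≃+* K)) =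
        Ideal.span {y} * I ^ (c ^ 2))
    (hnp : ¬ I.IsPrincipal) :
    ∃ ψ : ClassGroup (𝓞 K) →* ℂˣ, ψ ≠ 1 ∧ ψ ^ p = 1 ∧ IsOmegaSqChar K ζ ψ := by
  set I0 : (Ideal (𝓞 K))⁰ := ⟨I, mem_nonZeroDivisors_of_ne_zero hI⟩ with hI0def
  refine exists_char_of_class p K ζ hζ (ClassGroup.mk0 I0) ?_ ?_ ?_
  · intro h
    exact hnp ((ClassGroup.mk0_eq_one_iff I0.2).1 h)
  · rw [← map_pow, ClassGroup.mk0_eq_one_iff (I0 ^ p).2]
    exact hIp
  · intro σ k hk
    obtain ⟨x, y, hx, hy, hxy⟩ := htype σ k hk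
    rw [ClassGroup.mulEquiv_mk0, ← map_pow, ClassGroup.mk0_eq_mk0_iff]
    exact ⟨x, y, hx, hy, hxy⟩

end Fermat.Agent.S14.CharDualIdeal
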