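import Fermat.Agent.S14.LBounded

/-!
# Density core (S14, package D)

Multiplicative form of the density argument: finite Euler products over prime ideals are split
into bad primes / primes of non-prime norm / primes on which `psi` is trivial / primes having `p`
primes of the same norm above them in a second number field `K'`; comparing the pole orders of
`zeta_K^(p-1)` and `zeta_K'` at `s = 1` gives a contradiction for `p >= 3`.
-/

set_option autoImplicit false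
set_option linter.unusedSectionVars false

open NumberField IsDedekindDomain nonZeroDivisors Filter Topology

namespace Fermat.Agent.S14.DensityCore

open Fermat.Agent.S14.EulerIdeal Fermat.Agent.S14.ZetaIdeal Fermat.Agent.S14.LClass
  Fermat.Agent.S14.LBounded

/-- pole orders: `ζ_K(s)^n ≤ C ζ_{K'}(s)` near `1` is impossible for `n ≥ 2`. -/
theorem false_of_zetaR_pow_le {K K' : Type*} [Field K] [NumberField K] [Field K'] [NumberField K']
    {n : ℕ} (hn : 2 ≤ n) {C : ℝ}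
    (h : ∀ s : ℝ, 1 < s → s ≤ 2 → zetaR K s ^ n ≤ C * zetaR K' s) : False := by
  have hK := tendsto_sub_one_mul_zetaR K
  have hK' := tendsto_sub_one_mul_zetaR K'
  have h1 : Tendsto (fun s : ℝ => ((s - 1) * zetaR K s) ^ n) (𝓝[>] 1)
      (𝓝 (dedekindZeta_residue K ^ n)) := hK.pow n
  have h0 : Tendsto (fun s : ℝ => (s - 1) ^ (n - 1)) (𝓝[>] 1) (𝓝 0) := by
    have h : Tendsto (fun s : ℝ => (s - 1) ^ (n - 1)) (𝓝 1) (𝓝 ((1 - 1) ^ (n - 1))) :=
      ((continuous_id.sub continuous_const).pow _).tendsto 1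
    rw [sub_self, zero_pow (by omega)] at h
    exact h.mono_left nhdsWithin_le_nhds
  have h2 : Tendsto (fun s : ℝ => C * (s - 1) ^ (n - 1) * ((s - 1) * zetaR K' s)) (𝓝[>] 1)
      (𝓝 (C * 0 * dedekindZeta_residue K')) :=
    (tendsto_const_nhds.mul h0).mul hK'
  have hle : ∀ᶠ s in 𝓝[>] (1:ℝ),
      ((s - 1) * zetaR K s) ^ n ≤ C * (s - 1) ^ (n - 1) * ((s - 1) * zetaR K' s) := by
    have hmem : Set.Ioc (1:ℝ) 2 ∈ 𝓝[>] (1:ℝ) := Ioc_mem_nhdsGT (by norm_num)
    filter_upwards [hmem] with s hs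
    have hpos : 0 < s - 1 := sub_pos.mpr hs.1
    have hh := h s hs.1 hs.2
    have hsplit : (s - 1) ^ n = (s - 1) ^ (n - 1) * (s - 1) := by
      rw [← pow_succ]; congr 1; omega
    calc ((s - 1) * zetaR K s) ^ n = (s - 1) ^ n * zetaR K s ^ n := mul_pow _ _ _
      _ ≤ (s - 1) ^ n * (C * zetaR K' s) := by gcongr
      _ = C * (s - 1) ^ (n - 1) * ((s - 1) * zetaR K' s) := by rw [hsplit]; ring
  have hfin := le_of_tendsto_of_tendsto h1 h2 hle
  have hpos := pow_pos (dedekindZeta_residue_pos K) n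
  simp only [mul_zero, zero_mul] at hfin
  linarith

theorem pow_ne_one_of_prime {G : Type*} [Group G] {ψ : G} {p : ℕ} (hp : p.Prime) (hψ : ψ ^ p = 1)
    (hψ1 : ψ ≠ 1) {k : ℕ} (hk0 : 0 < k) (hkp : k < p) : ψ ^ k ≠ 1 := by
  have := Fact.mk hp
  have ho : orderOf ψ = p := orderOf_eq_prime hψ hψ1
  intro h
  have := orderOf_dvd_of_pow_eq_one h
  rw [ho] at this
  exact absurd (Nat.le_of_dvd hk0 this) (by omega)

variable (K : Type*) [Field K] [NumberField K]

theorem finite_primes_mem {x : 𝓞 K} (hx : x ≠ 0) :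
    {Q : HeightOneSpectrum (𝓞 K) | x ∈ Q.asIdeal}.Finite := by
  have h := Ideal.finite_factors (I := Ideal.span {x}) (by
    rw [Ne, Ideal.zero_eq_bot, Ideal.span_singleton_eq_bot]; exact hx)
  refine h.subset fun Q hQ => ?_
  simp only [Set.mem_ofPred_eq] at hQ ⊢
  rw [Ideal.dvd_span_singleton]
  exact hQ

/-- the Euler factor of `ζ_K` at `Q` -/
noncomputable def fac (s : ℝ) (Q : HeightOneSpectrum (𝓞 K)) : ℝ :=
  (1 - normPow K s (primeNZ Q))⁻¹

theorem one_le_fac {s : ℝ} (hs : 1 < s) (Q : HeightOneSpectrum (𝓞 K)) : 1 ≤ fac K s Q :=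
  one_le_factor K hs Q

theorem two_le_nrm (Q : HeightOneSpectrum (𝓞 K)) : 2 ≤ nrm K (primeNZ Q) := by
  have h0 := nrm_pos (primeNZ Q)
  have h1 : nrm K (primeNZ Q) ≠ 1 := by
    unfold nrm
    rw [Ne, Ideal.absNorm_eq_one_iff]
    exact Q.isPrime.ne_top
  omega

theorem normPow_prime_le_half {s : ℝ} (hs : 1 ≤ s) (Q : HeightOneSpectrum (𝓞 K)) :
    normPow K s (primeNZ Q) ≤ 1 / 2 := by
  rw [normPow_apply]
  have h2 : (2 : ℝ) ≤ (nrm K (primeNZ Q) : ℝ) := by exact_mod_cast two_le_nrm K Q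
  calc (nrm K (primeNZ Q) : ℝ) ^ (-s) ≤ (nrm K (primeNZ Q) : ℝ) ^ (-1 : ℝ) :=
        Real.rpow_le_rpow_of_exponent_le (by linarith) (by linarith)
    _ = ((nrm K (primeNZ Q) : ℝ))⁻¹ := Real.rpow_neg_one _
    _ ≤ 1 / 2 := by
        rw [one_div]
        exact inv_anti₀ (by norm_num) h2

theorem fac_le_two {s : ℝ} (hs : 1 ≤ s) (Q : HeightOneSpectrum (𝓞 K)) : fac K s Q ≤ 2 := by
  unfold fac
  have h := normPow_prime_le_half K hs Q
  rw [inv_le_comm₀ (by linarith) (by norm_num)]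
  linarith


theorem fac_nonneg {s : ℝ} (hs : 1 < s) (Q : HeightOneSpectrum (𝓞 K)) : 0 ≤ fac K s Q :=
  le_trans zero_le_one (one_le_fac K hs Q)

theorem fac_congr {K' : Type*} [Field K'] [NumberField K'] (s : ℝ)
    {Q : HeightOneSpectrum (𝓞 K)} {P : HeightOneSpectrum (𝓞 K')}
    (h : Ideal.absNorm P.asIdeal = Ideal.absNorm Q.asIdeal) : fac K' s P = fac K s Q := by
  unfold fac
  rw [normPow_apply, normPow_apply]
  have : nrm K' (primeNZ P) = nrm K (primeNZ Q) := h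
  rw [this]

/-- **(b)** primes of `K` having `p` primes of `K'` of the same norm above them. -/
theorem prod_pow_le_zetaR_of_split {K' : Type*} [Field K'] [NumberField K'] {s : ℝ} (hs : 1 < s)
    (p : ℕ) (π : HeightOneSpectrum (𝓞 K') → Ideal (𝓞 K))
    (T : Finset (HeightOneSpectrum (𝓞 K)))
    (h : ∀ Q ∈ T, ∃ f : Fin p → HeightOneSpectrum (𝓞 K'), Function.Injective f ∧
        ∀ i, Ideal.absNorm (f i).asIdeal = Ideal.absNorm Q.asIdeal ∧ π (f i) = Q.asIdeal) :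
    ∏ Q ∈ T, fac K s Q ^ p ≤ zetaR K' s := by
  classical
  choose f hfinj hf using fun Q : T => h Q.1 Q.2
  let g : (Σ _ : T, Fin p) → HeightOneSpectrum (𝓞 K') := fun x => f x.1 x.2
  have hg : Function.Injective g := by
    rintro ⟨Q, i⟩ ⟨Q', i'⟩ hx
    have hx' : f Q i = f Q' i' := hx
    have h1 : Q.1.asIdeal = Q'.1.asIdeal := by
      rw [← (hf Q i).2, ← (hf Q' i').2, hx']
    have h2 : Q = Q' := Subtype.ext (HeightOneSpectrum.ext h1)
    subst h2
    rw [hfinj Q hx']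
  have h1 : ∏ P ∈ Finset.univ.map ⟨g, hg⟩, fac K' s P = ∏ Q ∈ T, fac K s Q ^ p := by
    rw [Finset.prod_map, Fintype.prod_sigma, ← Finset.prod_coe_sort T]
    refine Finset.prod_congr rfl fun Q _ => ?_
    have : ∀ i ∈ (Finset.univ : Finset (Fin p)), fac K' s (f Q i) = fac K s Q.1 := fun i _ =>
      fac_congr K s (hf Q i).1
    simp only [Function.Embedding.coeFn_mk, g]
    rw [Finset.prod_congr rfl this, Finset.prod_const, Finset.card_univ, Fintype.card_fin]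
  rw [← h1]
  exact prod_le_zetaR K' hs _


/-- **(a)** primes on which `ψ` is trivial. -/
theorem prod_pow_le_of_trivial {p : ℕ} (hp : p.Prime) {r : ℝ} (hr0 : 0 ≤ r) (hr1 : r < 1)
    (hLP : CountRate K r) (ψ : ClassGroup (𝓞 K) →* ℂˣ) (hψp : ψ ^ p = 1) (hψ1 : ψ ≠ 1) :
    ∃ B : ℝ, 0 ≤ B ∧ ∀ s : ℝ, 1 < s → s ≤ 2 → ∀ T : Finset (HeightOneSpectrum (𝓞 K)),
      (∀ Q ∈ T, ψ (ClassGroup.mk0 (primeNZ Q)) = 1) →
      ∏ Q ∈ T, fac K s Q ^ p ≤ zetaR K s * B := by
  classical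
  have hB : ∀ k : ℕ, ∃ B : ℝ, k ∈ Finset.Ico 1 p → ∀ s : ℝ, 1 < s → s ≤ 2 →
      ‖Lval K (ψ ^ k) s‖ ≤ B := by
    intro k
    by_cases hk : k ∈ Finset.Ico 1 p
    · rw [Finset.mem_Ico] at hk
      obtain ⟨B, hB⟩ := norm_Lval_le K hr0 hr1 hLP
        (pow_ne_one_of_prime (G := ClassGroup (𝓞 K) →* ℂˣ) hp hψp hψ1 (by omega : 0 < k) hk.2)
      exact ⟨B, fun _ => hB⟩
    · exact ⟨0, fun h => absurd h hk⟩
  choose Bf hBf using hB
  refine ⟨∏ k ∈ Finset.Ico 1 p, Bf k, ?_, ?_⟩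
  · refine Finset.prod_nonneg fun k hk => ?_
    exact le_trans (norm_nonneg _) (hBf k hk 2 (by norm_num) le_rfl)
  · intro s hs hs2 T hT
    have h1 := prod_pow_le_prod_norm_Lval K ψ hp hψp hs T hT
    refine le_trans h1 ?_
    have h0 : ψ ^ 0 = 1 := pow_zero ψ
    rw [Finset.range_eq_Ico, Finset.prod_eq_prod_Ico_succ_bot hp.pos, h0, Lval_one,
      Complex.norm_real, Real.norm_eq_abs, abs_of_pos (zetaR_pos K hs)]
    refine mul_le_mul_of_nonneg_left ?_ (zetaR_pos K hs).le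
    exact Finset.prod_le_prod (fun k _ => norm_nonneg _) fun k hk => hBf k hk s hs hs2


/-- **Density core**: a nontrivial class group character `ψ` of prime order `p ≥ 3` cannot be
trivial on all primes `Q` of prime norm outside a finite set which are not `good`, if every `good`
prime has `p` primes of the same norm above it in a second number field `K'`. -/
theorem density_core {p : ℕ} (hp : p.Prime) (hp3 : 3 ≤ p) {r : ℝ} (hr0 : 0 ≤ r) (hr1 : r < 1)
    (hLP : CountRate K r)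
    (hDT : ∃ C : ℝ, ∀ s : ℝ, 1 ≤ s → ∀ T : Finset (HeightOneSpectrum (𝓞 K)),
      (∀ Q ∈ T, ¬ (Ideal.absNorm Q.asIdeal).Prime) →
      ∏ Q ∈ T, (1 - normPow K s (primeNZ Q))⁻¹ ≤ C)
    {K' : Type*} [Field K'] [NumberField K'] (π : HeightOneSpectrum (𝓞 K') → Ideal (𝓞 K))
    (good : HeightOneSpectrum (𝓞 K) → Prop) {x : 𝓞 K} (hx : x ≠ 0)
    (hKS : ∀ Q : HeightOneSpectrum (𝓞 K), x ∉ Q.asIdeal → good Q →
      ∃ f : Fin p → HeightOneSpectrum (𝓞 K'), Function.Injective f ∧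
        ∀ i, Ideal.absNorm (f i).asIdeal = Ideal.absNorm Q.asIdeal ∧ π (f i) = Q.asIdeal)
    (ψ : ClassGroup (𝓞 K) →* ℂˣ) (hψp : ψ ^ p = 1) (hψ1 : ψ ≠ 1)
    (hψ : ∀ Q : HeightOneSpectrum (𝓞 K), (Ideal.absNorm Q.asIdeal).Prime → x ∉ Q.asIdeal →
      ¬ good Q → ψ (ClassGroup.mk0 (primeNZ Q)) = 1) : False := by
  classical
  obtain ⟨Cc, hCc⟩ := hDT
  obtain ⟨B, hB0, hB⟩ := prod_pow_le_of_trivial K hp hr0 hr1 hLP ψ hψp hψ1
  set Sbad : Finset (HeightOneSpectrum (𝓞 K)) := (finite_primes_mem K hx).toFinset with hSbad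
  have hCc1 : 1 ≤ Cc := by
    have := hCc 1 le_rfl ∅ (by simp)
    simpa using this
  have key : ∀ s : ℝ, 1 < s → s ≤ 2 → ∀ T : Finset (HeightOneSpectrum (𝓞 K)),
      ∏ Q ∈ T, fac K s Q ^ p ≤
        (2 ^ p) ^ Sbad.card * (Cc ^ p * ((zetaR K s * B) * zetaR K' s)) := by
    intro s hs hs2 T
    have hnn : ∀ (U : Finset (HeightOneSpectrum (𝓞 K))), 0 ≤ ∏ Q ∈ U, fac K s Q ^ p := fun U =>
      Finset.prod_nonneg fun Q _ => pow_nonneg (fac_nonneg K hs Q) p
    set T1 := T.filter (fun Q => x ∈ Q.asIdeal) with hT1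
    set R1 := T.filter (fun Q => ¬ x ∈ Q.asIdeal) with hR1
    set T2 := R1.filter (fun Q => ¬ (Ideal.absNorm Q.asIdeal).Prime) with hT2
    set R2 := R1.filter (fun Q => ¬ ¬ (Ideal.absNorm Q.asIdeal).Prime) with hR2
    set T3 := R2.filter (fun Q => ¬ good Q) with hT3
    set T4 := R2.filter (fun Q => ¬ ¬ good Q) with hT4
    have e1 : ∏ Q ∈ T, fac K s Q ^ p = (∏ Q ∈ T1, fac K s Q ^ p) * ∏ Q ∈ R1, fac K s Q ^ p :=
      (Finset.prod_filter_mul_prod_filter_not T _ _).symm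
    have e2 : ∏ Q ∈ R1, fac K s Q ^ p = (∏ Q ∈ T2, fac K s Q ^ p) * ∏ Q ∈ R2, fac K s Q ^ p :=
      (Finset.prod_filter_mul_prod_filter_not R1 _ _).symm
    have e3 : ∏ Q ∈ R2, fac K s Q ^ p = (∏ Q ∈ T3, fac K s Q ^ p) * ∏ Q ∈ T4, fac K s Q ^ p :=
      (Finset.prod_filter_mul_prod_filter_not R2 _ _).symm
    have b1 : ∏ Q ∈ T1, fac K s Q ^ p ≤ (2 ^ p) ^ Sbad.card := by
      have hsub : T1 ⊆ Sbad := by
        intro Q hQ
        rw [hT1, Finset.mem_filter] at hQ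
        rw [hSbad, Set.Finite.mem_toFinset]
        exact hQ.2
      calc ∏ Q ∈ T1, fac K s Q ^ p ≤ ∏ _Q ∈ T1, (2 : ℝ) ^ p :=
            Finset.prod_le_prod (fun Q _ => pow_nonneg (fac_nonneg K hs Q) p) fun Q _ =>
              pow_le_pow_left₀ (fac_nonneg K hs Q) (fac_le_two K hs.le Q) p
        _ = (2 ^ p) ^ T1.card := by rw [Finset.prod_const]
        _ ≤ (2 ^ p) ^ Sbad.card :=
            pow_le_pow_right₀ (one_le_pow₀ (by norm_num)) (Finset.card_le_card hsub)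
    have b2 : ∏ Q ∈ T2, fac K s Q ^ p ≤ Cc ^ p := by
      rw [Finset.prod_pow]
      refine pow_le_pow_left₀ (Finset.prod_nonneg fun Q _ => fac_nonneg K hs Q) ?_ p
      refine hCc s hs.le T2 fun Q hQ => ?_
      rw [hT2, Finset.mem_filter] at hQ
      exact hQ.2
    have b3 : ∏ Q ∈ T3, fac K s Q ^ p ≤ zetaR K s * B := by
      refine hB s hs hs2 T3 fun Q hQ => ?_
      rw [hT3, Finset.mem_filter, hR2, Finset.mem_filter, hR1, Finset.mem_filter] at hQ
      exact hψ Q (not_not.mp hQ.1.2) hQ.1.1.2 hQ.2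
    have b4 : ∏ Q ∈ T4, fac K s Q ^ p ≤ zetaR K' s := by
      refine prod_pow_le_zetaR_of_split K hs p π T4 fun Q hQ => ?_
      rw [hT4, Finset.mem_filter, hR2, Finset.mem_filter, hR1, Finset.mem_filter] at hQ
      exact hKS Q hQ.1.1.2 (not_not.mp hQ.2)
    rw [e1, e2, e3]
    have hz : 0 ≤ zetaR K s * B := mul_nonneg (zetaR_pos K hs).le hB0
    exact mul_le_mul b1 (mul_le_mul b2 (mul_le_mul b3 b4 (hnn _) hz)
      (mul_nonneg (hnn _) (hnn _)) (pow_nonneg (by linarith) p))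
      (mul_nonneg (hnn _) (mul_nonneg (hnn _) (hnn _))) (by positivity)
  refine false_of_zetaR_pow_le (K := K) (K' := K') (n := p - 1) (by omega)
    (C := (2 ^ p) ^ Sbad.card * (Cc ^ p * B)) fun s hs hs2 => ?_
  have ht : Tendsto (fun T : Finset (HeightOneSpectrum (𝓞 K)) => ∏ Q ∈ T, fac K s Q) atTop
      (𝓝 (zetaR K s)) := by
    have h := hasProd_zetaR K hs
    rw [HasProd] at h
    simp only [SummationFilter.unconditional_filter] at h
    exact h
  have hle : zetaR K s ^ p ≤ (2 ^ p) ^ Sbad.card * (Cc ^ p * ((zetaR K s * B) * zetaR K' s)) :=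
    le_of_tendsto' (ht.pow p) fun T => by
      rw [← Finset.prod_pow]
      exact key s hs hs2 T
  have hzpos := zetaR_pos K hs
  have hsplit : zetaR K s ^ p = zetaR K s ^ (p - 1) * zetaR K s := by
    rw [← pow_succ]; congr 1; omega
  rw [hsplit] at hle
  refine le_of_mul_le_mul_right (le_trans hle (le_of_eq ?_)) hzpos
  ring

end Fermat.Agent.S14.DensityCore
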