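import Mathlib

/-!
# S14, package (LP)-L2: the frontier of `normLeOne K` is a finite union of Lipschitz images of cubes

For a number field `K` of degree `d`, the set `NumberField.mixedEmbedding.fundamentalCone.normLeOne K`
(points of the fundamental cone of norm `≤ 1`, Mathlib) has a frontier which is contained in finitely
many images of the unit cube `[0,1]^(d-1)` under Lipschitz (indeed smooth) maps.  This is the
geometric input for the lattice point count with error term `O(t^(1-1/d))`.

Main statement: `frontier_normLeOne_subset`.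

Proof: Mathlib gives `closure (normLeOne K) ⊆ normAtAllPlaces ⁻¹' compactSet K` and
`normAtAllPlaces ⁻¹' (expMapBasis '' interior (paramSet K)) ⊆ interior (normLeOne K)`; a point of
`compactSet K` outside `expMapBasis '' interior (paramSet K)` is `c • expMapBasis y` with `(c, y)`
on a face of the closed parameter box (`exists_face`); the points of the mixed space with prescribed
norms are parametrised by signs (real places) and angles (complex places) (`exists_param`).
-/

set_option autoImplicit false

noncomputable section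

namespace Fermat.Agent.S14.FrontierNormLeOne

open NumberField NumberField.InfinitePlace NumberField.mixedEmbedding
  NumberField.mixedEmbedding.fundamentalCone NumberField.Units NumberField.Units.dirichletUnitTheorem

variable (K : Type*) [Field K] [NumberField K]

open scoped Classical

/-- `expMapBasis` is smooth. -/
theorem contDiff_expMapBasis {n : WithTop ℕ∞} :
    ContDiff ℝ n (expMapBasis : realSpace K → realSpace K) := by
  have h1 : ContDiff ℝ n (fun x : realSpace K => (completeBasis K).equivFunL.symm x) :=
    (completeBasis K).equivFunL.symm.contDiff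
  have h2 : ContDiff ℝ n (fun x : realSpace K => (expMap x : realSpace K)) := by
    rw [contDiff_pi]
    intro w
    simp only [expMap_apply]
    exact Real.contDiff_exp.comp (contDiff_const.mul (contDiff_apply ℝ ℝ w))
  exact h2.comp h1

/-- the base point map: `y ↦ expMapBasis (y with the w₀-coordinate set to 0)` -/
def yMap : realSpace K →L[ℝ] realSpace K :=
  ContinuousLinearMap.pi fun i => if i = w₀ then 0 else ContinuousLinearMap.proj i

theorem yMap_apply (y : realSpace K) (i : InfinitePlace K) :
    yMap K y i = if i = w₀ then 0 else y i := by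
  unfold yMap
  simp only [ContinuousLinearMap.pi_apply]
  split_ifs <;> simp

/-- **Step A**: a point of `compactSet K` which is not in the image of the interior of `paramSet K`
lies on a face of the parameter box. -/
theorem exists_face {v : realSpace K} (hv : v ∈ compactSet K)
    (hv' : v ∉ expMapBasis '' interior (paramSet K)) :
    ∃ c ∈ Set.Icc (0 : ℝ) 1, ∃ y : realSpace K, (∀ w, y w ∈ Set.Icc (0 : ℝ) 1) ∧
      v = c • expMapBasis (yMap K y) ∧
      (c = 0 ∨ c = 1 ∨ ∃ w, w ≠ w₀ ∧ (y w = 0 ∨ y w = 1)) := by
  classical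
  obtain ⟨c, hc, _, ⟨y, hy, rfl⟩, rfl⟩ := hv
  have hy0 : y w₀ = 0 := by simpa using hy w₀ (Set.mem_univ _)
  have hyw : ∀ w, w ≠ w₀ → y w ∈ Set.Icc (0 : ℝ) 1 := fun w hw => by
    simpa [hw] using hy w (Set.mem_univ _)
  have hyy : yMap K y = y := by
    ext i
    rw [yMap_apply]
    split_ifs with h
    · rw [h, hy0]
    · rfl
  refine ⟨c, hc, y, fun w => ?_, by rw [hyy], ?_⟩
  · by_cases hw : w = w₀
    · rw [hw, hy0]; exact ⟨le_rfl, zero_le_one⟩
    · exact hyw w hw
  · by_contra hcon
    push Not at hcon
    obtain ⟨hc0, hc1, hface⟩ := hcon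
    apply hv'
    have hcpos : 0 < c := lt_of_le_of_ne hc.1 (Ne.symm hc0)
    have hclt : c < 1 := lt_of_le_of_ne hc.2 hc1
    refine ⟨fun w => if w = w₀ then Real.log c else y w, ?_, ?_⟩
    · rw [interior_paramSet, Set.mem_univ_pi]
      intro w
      by_cases hw : w = w₀
      · simp only [hw, if_true]
        exact Real.log_neg hcpos hclt
      · simp only [hw, if_false]
        have h1 := hyw w hw
        have h2 := hface w hw
        exact ⟨lt_of_le_of_ne h1.1 (Ne.symm h2.1), lt_of_le_of_ne h1.2 h2.2⟩
    · rw [expMapBasis_apply'', if_pos rfl, Real.exp_log hcpos]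
      congr 2
      ext w
      split_ifs with h
      · rw [h, hy0]
      · rfl

/-- the parameter index type: one coordinate per infinite place (the `w₀`-coordinate is the radial
parameter `c`), and one angle per complex place. -/
abbrev Par := InfinitePlace K ⊕ {w : InfinitePlace K // IsComplex w}


/-- the `realSpace` part of the parametrisation. -/
def radial (u : Par K → ℝ) : realSpace K :=
  u (Sum.inl w₀) • expMapBasis (yMap K (fun i => u (Sum.inl i)))

theorem contDiff_radial {n : WithTop ℕ∞} : ContDiff ℝ n (radial K) := by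
  unfold radial
  have h1 : ContDiff ℝ n (fun u : Par K → ℝ => (fun i => u (Sum.inl i) : realSpace K)) :=
    contDiff_pi.2 fun i => contDiff_apply ℝ ℝ (Sum.inl i)
  have h2 : ContDiff ℝ n (fun u : Par K → ℝ => yMap K (fun i => u (Sum.inl i))) :=
    (yMap K).contDiff.comp h1
  exact (contDiff_apply ℝ ℝ (Sum.inl w₀)).smul ((contDiff_expMapBasis K).comp h2)

/-- the parametrisation of the mixed space (for a fixed sign vector `ε` at the real places). -/
def G (ε : {w : InfinitePlace K // IsReal w} → ℝ) (u : Par K → ℝ) : mixedSpace K :=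
  (fun w => ε w * radial K u w.1,
   fun w => ((radial K u w.1 : ℝ) : ℂ) * Complex.exp (2 * Real.pi * u (Sum.inr w) * Complex.I))

theorem contDiff_G {n : WithTop ℕ∞} (ε : {w : InfinitePlace K // IsReal w} → ℝ) :
    ContDiff ℝ n (G K ε) := by
  unfold G
  refine ContDiff.prodMk ?_ ?_
  · rw [contDiff_pi]
    intro w
    exact contDiff_const.mul ((contDiff_apply ℝ ℝ w.1).comp (contDiff_radial K))
  · rw [contDiff_pi]
    intro w
    refine ContDiff.mul ?_ ?_
    · exact Complex.ofRealCLM.contDiff.comp ((contDiff_apply ℝ ℝ w.1).comp (contDiff_radial K))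
    · refine ContDiff.cexp ?_
      refine ContDiff.mul ?_ contDiff_const
      refine ContDiff.mul contDiff_const ?_
      exact Complex.ofRealCLM.contDiff.comp (contDiff_apply ℝ ℝ (Sum.inr w))

/-- **Step C**: every point of the mixed space whose vector of norms is `c • expMapBasis (yMap y)`
is in the image of the parametrisation. -/
theorem exists_param {x : mixedSpace K} {c : ℝ} (hc : c ∈ Set.Icc (0 : ℝ) 1) {y : realSpace K}
    (hy : ∀ w, y w ∈ Set.Icc (0 : ℝ) 1)
    (hx : normAtAllPlaces x = c • expMapBasis (yMap K y)) :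
    ∃ ε : {w : InfinitePlace K // IsReal w} → Bool, ∃ u : Par K → ℝ,
      u ∈ Set.Icc (0 : Par K → ℝ) 1 ∧ u (Sum.inl w₀) = c ∧ (∀ w, w ≠ w₀ → u (Sum.inl w) = y w) ∧
      G K (fun w => if ε w then 1 else -1) u = x := by
  classical
  -- the angle parameters
  let t : {w : InfinitePlace K // IsComplex w} → ℝ := fun w =>
    Int.fract (Complex.arg (x.2 w) / (2 * Real.pi))
  let u : Par K → ℝ := fun i => match i with
    | Sum.inl w => if w = w₀ then c else y w
    | Sum.inr w => t w
  have hrad : radial K u = normAtAllPlaces x := by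
    rw [hx]
    unfold radial
    have h1 : u (Sum.inl w₀) = c := by simp [u]
    have h2 : yMap K (fun i => u (Sum.inl i)) = yMap K y := by
      ext i
      rw [yMap_apply, yMap_apply]
      split_ifs with h
      · rfl
      · simp [u, h]
    rw [h1, h2]
  refine ⟨fun w => decide (0 ≤ x.1 w), u, ⟨fun i => ?_, fun i => ?_⟩, by simp [u],
    fun w hw => by simp [u, hw], ?_⟩
  · rcases i with w | w
    · by_cases hw : w = w₀
      · simp only [u, hw, if_true]; exact hc.1
      · simp only [u, hw, if_false]; exact (hy w).1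
    · exact Int.fract_nonneg _
  · rcases i with w | w
    · by_cases hw : w = w₀
      · simp only [u, hw, if_true]; exact hc.2
      · simp only [u, hw, if_false]; exact (hy w).2
    · exact (Int.fract_lt_one _).le
  · unfold G
    rw [hrad]
    refine Prod.ext ?_ ?_
    · funext w
      simp only [normAtPlace_apply_of_isReal w.2]
      by_cases h : 0 ≤ x.1 w
      · simp [h, abs_of_nonneg h]
      · have h' : x.1 w < 0 := not_le.mp h
        simp [h, abs_of_neg h']
    · funext w
      simp only [normAtPlace_apply_of_isComplex w.2]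
      have h2pi : (2 * Real.pi : ℝ) ≠ 0 := by positivity
      have e1 : (2 * (Real.pi : ℂ) * ((t w : ℝ) : ℂ) * Complex.I) =
          (Complex.arg (x.2 w) : ℂ) * Complex.I -
            ((⌊Complex.arg (x.2 w) / (2 * Real.pi)⌋ : ℤ) : ℂ) * (2 * Real.pi * Complex.I) := by
        have : (t w : ℝ) = Complex.arg (x.2 w) / (2 * Real.pi) -
            (⌊Complex.arg (x.2 w) / (2 * Real.pi)⌋ : ℝ) := by
          simp only [t, Int.fract]
        rw [this]
        push_cast
        have h2pi' : (2 * (Real.pi : ℂ)) ≠ 0 := by
          exact_mod_cast h2pi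
        field_simp
      show ((‖x.2 w‖ : ℝ) : ℂ) * Complex.exp (2 * (Real.pi : ℂ) * ((t w : ℝ) : ℂ) * Complex.I) = x.2 w
      rw [e1, Complex.exp_sub, Complex.exp_int_mul_two_pi_mul_I, div_one]
      exact Complex.norm_mul_exp_arg_mul_I (x.2 w)

section Faces

variable {K}

/-- insert the value `v` at the coordinate `Sum.inl i₀`. -/
def extend {m : ℕ} (i₀ : InfinitePlace K) (v : ℝ)
    (e : {i : Par K // i ≠ Sum.inl i₀} ≃ Fin m) (z : Fin m → ℝ) : Par K → ℝ :=
  fun i => if h : i = Sum.inl i₀ then v else z (e ⟨i, h⟩)

theorem contDiff_extend {n : WithTop ℕ∞} {m : ℕ} (i₀ : InfinitePlace K) (v : ℝ)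
    (e : {i : Par K // i ≠ Sum.inl i₀} ≃ Fin m) : ContDiff ℝ n (extend i₀ v e) := by
  rw [contDiff_pi]
  intro i
  unfold extend
  by_cases h : i = Sum.inl i₀
  · simp only [h, dif_pos]
    exact contDiff_const
  · simp only [h, dif_neg, not_false_eq_true]
    exact contDiff_apply ℝ ℝ _

omit [NumberField K] in
theorem extend_restrict {m : ℕ} (i₀ : InfinitePlace K) (v : ℝ)
    (e : {i : Par K // i ≠ Sum.inl i₀} ≃ Fin m) (u : Par K → ℝ) (hu : u (Sum.inl i₀) = v) :
    extend i₀ v e (fun k => u (e.symm k).1) = u := by
  funext i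
  unfold extend
  by_cases h : i = Sum.inl i₀
  · simp only [h, dif_pos, hu]
  · simp only [h, dif_neg, not_false_eq_true, Equiv.symm_apply_apply]

end Faces

theorem card_par : Fintype.card (Par K) = Module.finrank ℚ K := by
  rw [Fintype.card_sum, card_eq_nrRealPlaces_add_nrComplexPlaces, ← card_add_two_mul_card_eq_rank]
  unfold nrComplexPlaces
  ring

theorem card_par_ne (i₀ : InfinitePlace K) :
    Fintype.card {i : Par K // i ≠ Sum.inl i₀} = Module.finrank ℚ K - 1 := by
  rw [← card_par K]
  exact Set.card_ne_eq (Sum.inl i₀ : Par K)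

/-- the equivalence used to index the free parameters of a face. -/
def faceEquiv (i₀ : InfinitePlace K) :
    {i : Par K // i ≠ Sum.inl i₀} ≃ Fin (Module.finrank ℚ K - 1) :=
  Fintype.equivFinOfCardEq (card_par_ne K i₀)

/-- the index type of the faces. -/
abbrev FaceIdx := ({w : InfinitePlace K // IsReal w} → Bool) × InfinitePlace K × Bool

/-- the parametrisation of a face. -/
def faceMap (j : FaceIdx K) : (Fin (Module.finrank ℚ K - 1) → ℝ) → mixedSpace K :=
  fun z => G K (fun w => if j.1 w then 1 else -1)
    (extend j.2.1 (if j.2.2 then 1 else 0) (faceEquiv K j.2.1) z)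

theorem contDiff_faceMap {n : WithTop ℕ∞} (j : FaceIdx K) : ContDiff ℝ n (faceMap K j) :=
  (contDiff_G K _).comp (contDiff_extend _ _ _)

theorem exists_lipschitzOnWith_faceMap (j : FaceIdx K) :
    ∃ C : NNReal, LipschitzOnWith C (faceMap K j) (Set.Icc 0 1) := by
  have h1 : LocallyLipschitz (faceMap K j) :=
    (contDiff_faceMap K (n := 1) j).locallyLipschitz
  exact (h1.locallyLipschitzOn (s := Set.Icc 0 1)).exists_lipschitzOnWith_of_compact isCompact_Icc

/-- **the frontier of `normLeOne K` is covered by the faces.** -/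
theorem frontier_normLeOne_subset_faces :
    frontier (normLeOne K) ⊆ ⋃ j : FaceIdx K, faceMap K j '' Set.Icc 0 1 := by
  intro x hx
  have hx1 : normAtAllPlaces x ∈ compactSet K := closure_normLeOne_subset K hx.1
  have hx2 : normAtAllPlaces x ∉ expMapBasis '' interior (paramSet K) := fun h =>
    hx.2 (subset_interior_normLeOne K h)
  obtain ⟨c, hc, y, hy, hxy, hface⟩ := exists_face K hx1 hx2
  obtain ⟨ε, u, hu, hu0, huy, hG⟩ := exists_param K hc hy hxy
  -- the face
  have key : ∃ (i₀ : InfinitePlace K) (b : Bool), u (Sum.inl i₀) = if b then 1 else 0 := by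
    rcases hface with h | h | ⟨w, hw, h | h⟩
    · exact ⟨w₀, false, by simp [hu0, h]⟩
    · exact ⟨w₀, true, by simp [hu0, h]⟩
    · exact ⟨w, false, by simp [huy w hw, h]⟩
    · exact ⟨w, true, by simp [huy w hw, h]⟩
  obtain ⟨i₀, b, hb⟩ := key
  rw [Set.mem_iUnion]
  refine ⟨(ε, i₀, b), fun k => u ((faceEquiv K i₀).symm k).1, ⟨fun k => hu.1 _, fun k => hu.2 _⟩, ?_⟩
  unfold faceMap
  simp only
  rw [extend_restrict i₀ _ (faceEquiv K i₀) u hb]
  exact hG

/-- **(LP)-L2**: the frontier of `normLeOne K` is contained in finitely many Lipschitz images of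
the `(d - 1)`-dimensional unit cube, `d = [K : ℚ]`. -/
theorem frontier_normLeOne_subset :
    ∃ (n : ℕ) (g : Fin n → (Fin (Module.finrank ℚ K - 1) → ℝ) → mixedSpace K),
      (∀ j, ∃ C : NNReal, LipschitzOnWith C (g j) (Set.Icc 0 1)) ∧
      frontier (normLeOne K) ⊆ ⋃ j, g j '' Set.Icc 0 1 := by
  let e := Fintype.equivFin (FaceIdx K)
  refine ⟨Fintype.card (FaceIdx K), fun k => faceMap K (e.symm k),
    fun k => exists_lipschitzOnWith_faceMap K _, ?_⟩
  intro x hx
  obtain ⟨j, hj⟩ := Set.mem_iUnion.mp (frontier_normLeOne_subset_faces K hx)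
  exact Set.mem_iUnion.mpr ⟨e j, by simpa using hj⟩

end Fermat.Agent.S14.FrontierNormLeOne
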