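/-
S14 / LP leaf, general part: counting lattice points near the frontier of a dilated set.
Mathlib only.  No measure theory.
-/
import Mathlib

set_option autoImplicit false
set_option linter.unusedSectionVars false

noncomputable section

namespace Fermat.Agent.S14.LatticeBoundary

open Set Metric Bornology
open scoped Pointwise

variable {E : Type*} [NormedAddCommGroup E]

/-- A preconnected set meeting both `S` and its complement meets the frontier of `S`. -/
theorem exists_mem_frontier_of_isPreconnected {T S : Set E} (hT : IsPreconnected T)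
    {a b : E} (ha : a ∈ T) (haS : a ∈ S) (hb : b ∈ T) (hbS : b ∉ S) :
    ∃ z ∈ T, z ∈ frontier S := by
  by_contra hcon
  simp only [not_exists, not_and] at hcon
  have hcov : T ⊆ interior S ∪ (closure S)ᶜ := by
    intro z hz
    by_cases h1 : z ∈ interior S
    · exact Or.inl h1
    · right
      intro h2
      exact hcon z hz ⟨h2, h1⟩
  have ha' : a ∈ interior S := by
    by_contra h1
    exact hcon a ha ⟨subset_closure haS, h1⟩
  have hb' : b ∈ (closure S)ᶜ := by
    intro h2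
    exact hcon b hb ⟨h2, fun h3 => hbS (interior_subset h3)⟩
  obtain ⟨z, -, hz1, hz2⟩ := hT _ _ isOpen_interior isClosed_closure.isOpen_compl hcov
    ⟨a, ha, ha'⟩ ⟨b, hb, hb'⟩
  exact hz2 (interior_subset_closure hz1)

variable [NormedSpace ℝ E]

/-- If `a ∈ S` and `b ∉ S` (or conversely) there is a frontier point of `S` within
`‖a - b‖` of `a`. -/
theorem exists_frontier_near {S : Set E} {a b : E} (h : (a ∈ S ∧ b ∉ S) ∨ (a ∉ S ∧ b ∈ S)) :
    ∃ z ∈ frontier S, ‖a - z‖ ≤ ‖a - b‖ := by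
  have hseg : IsPreconnected (segment ℝ a b) := (convex_segment a b).isPreconnected
  have hdist : ∀ z ∈ segment ℝ a b, ‖a - z‖ ≤ ‖a - b‖ := by
    intro z hz
    have := norm_sub_le_of_mem_segment hz
    rw [norm_sub_rev a z, norm_sub_rev a b]
    exact this
  rcases h with ⟨haS, hbS⟩ | ⟨haS, hbS⟩
  · obtain ⟨z, hz, hzf⟩ := exists_mem_frontier_of_isPreconnected hseg
      (left_mem_segment ℝ a b) haS (right_mem_segment ℝ a b) hbS
    exact ⟨z, hzf, hdist z hz⟩
  · obtain ⟨z, hz, hzf⟩ := exists_mem_frontier_of_isPreconnected hseg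
      (right_mem_segment ℝ a b) hbS (left_mem_segment ℝ a b) haS
    exact ⟨z, hzf, hdist z hz⟩


/-! ### Uniform bound for the number of lattice points in a ball -/

/-- `Λ` has finitely many points in every ball centred at `0`. -/
def LocFinite (Λ : AddSubgroup E) : Prop :=
  ∀ R : ℝ, (closedBall (0 : E) R ∩ (Λ : Set E)).Finite

theorem LocFinite.finite_ball {Λ : AddSubgroup E} (h : LocFinite Λ) (x : E) (R : ℝ) :
    (closedBall x R ∩ (Λ : Set E)).Finite := by
  refine (h (‖x‖ + R)).subset ?_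
  rintro y ⟨hy, hyΛ⟩
  refine ⟨?_, hyΛ⟩
  rw [mem_closedBall, dist_zero_right]
  rw [mem_closedBall, dist_eq_norm] at hy
  calc ‖y‖ = ‖x + (y - x)‖ := by rw [add_sub_cancel]
    _ ≤ ‖x‖ + ‖y - x‖ := norm_add_le _ _
    _ ≤ ‖x‖ + R := by linarith

/-- The number of points of `Λ` in a ball of radius `R` is bounded by the number of points of `Λ`
in the ball of radius `2 R` centred at the origin. -/
theorem LocFinite.ncard_ball_le {Λ : AddSubgroup E} (h : LocFinite Λ) (x : E) (R : ℝ) :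
    (closedBall x R ∩ (Λ : Set E)).ncard ≤ (closedBall (0 : E) (2 * R) ∩ (Λ : Set E)).ncard := by
  by_cases hne : (closedBall x R ∩ (Λ : Set E)).Nonempty
  · obtain ⟨y0, hy0, hy0Λ⟩ := hne
    refine Set.ncard_le_ncard_of_injOn (fun y => y - y0) ?_ ?_ (h (2 * R))
    · rintro y ⟨hy, hyΛ⟩
      refine ⟨?_, Λ.sub_mem hyΛ hy0Λ⟩
      rw [mem_closedBall, dist_eq_norm] at hy hy0
      rw [mem_closedBall, dist_zero_right]
      calc ‖y - y0‖ = ‖(y - x) - (y0 - x)‖ := by rw [sub_sub_sub_cancel_right]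
        _ ≤ ‖y - x‖ + ‖y0 - x‖ := norm_sub_le _ _
        _ ≤ 2 * R := by linarith
    · intro y _ y' _ hyy'
      simpa using hyy'
  · rw [Set.not_nonempty_iff_eq_empty] at hne
    rw [hne]
    simp


/-! ### Box-counting bound and lattice points near a dilated set -/

/-- `F` can be covered, at every scale `1 / M`, by `C * M ^ m` balls of radius `L / M`. -/
def BoxBound (m : ℕ) (F : Set E) : Prop :=
  ∃ C L : ℝ, 0 ≤ C ∧ 0 ≤ L ∧ ∀ M : ℕ, 1 ≤ M →
    ∃ P : Finset E, (P.card : ℝ) ≤ C * (M : ℝ) ^ m ∧ ∀ z ∈ F, ∃ p ∈ P, ‖z - p‖ ≤ L / M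

theorem BoxBound.mono {m : ℕ} {F G : Set E} (h : BoxBound m G) (hFG : F ⊆ G) : BoxBound m F := by
  obtain ⟨C, L, hC, hL, h⟩ := h
  refine ⟨C, L, hC, hL, fun M hM => ?_⟩
  obtain ⟨P, hP, hcov⟩ := h M hM
  exact ⟨P, hP, fun z hz => hcov z (hFG hz)⟩

theorem BoxBound.union {m : ℕ} {F G : Set E} (hF : BoxBound m F) (hG : BoxBound m G) :
    BoxBound m (F ∪ G) := by
  classical
  obtain ⟨C, L, hC, hL, h⟩ := hF
  obtain ⟨C', L', hC', hL', h'⟩ := hG
  refine ⟨C + C', max L L', by positivity, le_max_of_le_left hL, fun M hM => ?_⟩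
  obtain ⟨P, hP, hcov⟩ := h M hM
  obtain ⟨P', hP', hcov'⟩ := h' M hM
  have hMpos : (0 : ℝ) < M := by exact_mod_cast hM
  refine ⟨P ∪ P', ?_, ?_⟩
  · calc ((P ∪ P').card : ℝ) ≤ (P.card + P'.card : ℕ) := by exact_mod_cast Finset.card_union_le P P'
      _ = (P.card : ℝ) + P'.card := by push_cast; ring
      _ ≤ C * (M : ℝ) ^ m + C' * (M : ℝ) ^ m := add_le_add hP hP'
      _ = (C + C') * (M : ℝ) ^ m := by ring
  · rintro z (hz | hz)
    · obtain ⟨p, hp, hzp⟩ := hcov z hz
      exact ⟨p, Finset.mem_union_left _ hp, hzp.trans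
        (div_le_div_of_nonneg_right (le_max_left _ _) hMpos.le)⟩
    · obtain ⟨p, hp, hzp⟩ := hcov' z hz
      exact ⟨p, Finset.mem_union_right _ hp, hzp.trans
        (div_le_div_of_nonneg_right (le_max_right _ _) hMpos.le)⟩

theorem BoxBound.empty (m : ℕ) : BoxBound m (∅ : Set E) :=
  ⟨0, 0, le_rfl, le_rfl, fun _ _ => ⟨∅, by simp, fun z hz => (Set.notMem_empty z hz).elim⟩⟩

theorem BoxBound.singleton (m : ℕ) (x : E) : BoxBound m ({x} : Set E) := by
  refine ⟨1, 0, zero_le_one, le_rfl, fun M hM => ⟨{x}, ?_, ?_⟩⟩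
  · have : (1 : ℝ) ≤ (M : ℝ) ^ m := one_le_pow₀ (by exact_mod_cast hM)
    simpa using this
  · intro z hz
    rw [Set.mem_singleton_iff] at hz
    exact ⟨x, Finset.mem_singleton_self x, by simp [hz]⟩

theorem BoxBound.biUnion {ι : Type*} {m : ℕ} (s : Finset ι) {F : ι → Set E}
    (h : ∀ i ∈ s, BoxBound m (F i)) : BoxBound m (⋃ i ∈ s, F i) := by
  classical
  induction s using Finset.induction_on with
  | empty => simpa using BoxBound.empty m
  | insert a s ha ih =>
    rw [Finset.set_biUnion_insert]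
    exact (h a (Finset.mem_insert_self a s)).union
      (ih fun i hi => h i (Finset.mem_insert_of_mem hi))

/-- The set of lattice points within `δ` of `r • F`. -/
def nearSet (Λ : AddSubgroup E) (F : Set E) (δ r : ℝ) : Set E :=
  {x | x ∈ Λ ∧ ∃ z ∈ F, ‖x - r • z‖ ≤ δ}

/-- **Boundary count.** If `F` satisfies an `m`-dimensional box-counting bound then the number of
lattice points within `δ` of `r • F` is `O(r ^ m)`. -/
theorem exists_nearSet_bound {Λ : AddSubgroup E} (hΛ : LocFinite Λ) {m : ℕ} {F : Set E}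
    (hF : BoxBound m F) (δ : ℝ) :
    ∃ B : ℝ, 0 ≤ B ∧ ∀ r : ℝ, 1 ≤ r →
      (nearSet Λ F δ r).Finite ∧ ((nearSet Λ F δ r).ncard : ℝ) ≤ B * r ^ m := by
  classical
  obtain ⟨C, L, hC, hL, h⟩ := hF
  set N : ℕ := (closedBall (0 : E) (2 * (δ + L)) ∩ (Λ : Set E)).ncard with hN
  refine ⟨C * 2 ^ m * N, by positivity, fun r hr => ?_⟩
  have hr0 : (0 : ℝ) < r := lt_of_lt_of_le one_pos hr
  set M : ℕ := ⌈r⌉₊ with hM
  have hM1 : 1 ≤ M := by
    rw [hM]; exact Nat.one_le_iff_ne_zero.mpr (by positivity)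
  have hrM : r ≤ M := Nat.le_ceil r
  have hM2 : (M : ℝ) ≤ 2 * r := by
    have := Nat.ceil_lt_add_one hr0.le
    linarith
  have hMpos : (0 : ℝ) < M := by exact_mod_cast hM1
  obtain ⟨P, hP, hcov⟩ := h M hM1
  have hsub : nearSet Λ F δ r ⊆ ⋃ p ∈ P, (closedBall (r • p) (δ + L) ∩ (Λ : Set E)) := by
    rintro x ⟨hxΛ, z, hz, hxz⟩
    obtain ⟨p, hp, hzp⟩ := hcov z hz
    refine Set.mem_biUnion hp ⟨?_, hxΛ⟩
    rw [mem_closedBall, dist_eq_norm]
    have h1 : ‖r • z - r • p‖ ≤ L := by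
      rw [← smul_sub, norm_smul, Real.norm_of_nonneg hr0.le]
      calc r * ‖z - p‖ ≤ r * (L / M) := by gcongr
        _ = L * (r / M) := by ring
        _ ≤ L * 1 := by
            gcongr
            exact (div_le_one hMpos).mpr hrM
        _ = L := mul_one L
    calc ‖x - r • p‖ = ‖(x - r • z) + (r • z - r • p)‖ := by rw [sub_add_sub_cancel]
      _ ≤ ‖x - r • z‖ + ‖r • z - r • p‖ := norm_add_le _ _
      _ ≤ δ + L := add_le_add hxz h1
  have hfinU : (⋃ p ∈ P, (closedBall (r • p) (δ + L) ∩ (Λ : Set E))).Finite :=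
    Set.Finite.biUnion P.finite_toSet fun p _ => hΛ.finite_ball _ _
  refine ⟨hfinU.subset hsub, ?_⟩
  have h1 : (nearSet Λ F δ r).ncard ≤ P.card * N := by
    calc (nearSet Λ F δ r).ncard
        ≤ (⋃ p ∈ P, (closedBall (r • p) (δ + L) ∩ (Λ : Set E))).ncard :=
          Set.ncard_le_ncard hsub hfinU
      _ ≤ ∑ p ∈ P, (closedBall (r • p) (δ + L) ∩ (Λ : Set E)).ncard :=
          Finset.set_ncard_biUnion_le P _
      _ ≤ ∑ _p ∈ P, N := Finset.sum_le_sum fun p _ => hΛ.ncard_ball_le _ _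
      _ = P.card * N := by simp
  calc ((nearSet Λ F δ r).ncard : ℝ) ≤ ((P.card * N : ℕ) : ℝ) := by exact_mod_cast h1
    _ = (P.card : ℝ) * N := by push_cast; ring
    _ ≤ (C * (M : ℝ) ^ m) * N := by gcongr
    _ ≤ (C * (2 * r) ^ m) * N := by gcongr
    _ = C * 2 ^ m * N * r ^ m := by rw [mul_pow]; ring


/-- The image of a unit cube of dimension `≤ m` under a map which is Lipschitz on the cube
satisfies the `m`-dimensional box-counting bound. -/
theorem BoxBound.of_lipschitz_cube {κ : Type*} [Fintype κ] {m : ℕ} (hm : Fintype.card κ ≤ m)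
    (g : (κ → ℝ) → E) (L : ℝ) (hL : 0 ≤ L)
    (hg : ∀ u ∈ Icc (0 : κ → ℝ) 1, ∀ v ∈ Icc (0 : κ → ℝ) 1, ‖g u - g v‖ ≤ L * ‖u - v‖) :
    BoxBound m (g '' Icc (0 : κ → ℝ) 1) := by
  classical
  refine ⟨2 ^ m, L, by positivity, hL, fun M hM => ?_⟩
  have hMpos : (0 : ℝ) < M := by exact_mod_cast hM
  let pt : (κ → Fin (M + 1)) → (κ → ℝ) := fun k i => ((k i : ℕ) : ℝ) / M
  have hpt : ∀ k, pt k ∈ Icc (0 : κ → ℝ) 1 := by
    intro k
    refine ⟨fun i => ?_, fun i => ?_⟩
    · simp only [Pi.zero_apply, pt]; positivity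
    · simp only [Pi.one_apply, pt]
      rw [div_le_one hMpos]
      exact_mod_cast Nat.lt_succ_iff.mp (k i).2
  refine ⟨Finset.image (fun k => g (pt k)) Finset.univ, ?_, ?_⟩
  · have h1 : (Finset.image (fun k => g (pt k)) Finset.univ).card ≤ (M + 1) ^ Fintype.card κ := by
      refine Finset.card_image_le.trans ?_
      simp
    have h2 : ((M + 1 : ℕ) : ℝ) ≤ 2 * M := by
      have : (1 : ℝ) ≤ M := by exact_mod_cast hM
      push_cast; linarith
    have h3 : (1 : ℝ) ≤ 2 * M := by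
      have : (1 : ℝ) ≤ M := by exact_mod_cast hM
      linarith
    calc ((Finset.image (fun k => g (pt k)) Finset.univ).card : ℝ)
        ≤ (((M + 1) ^ Fintype.card κ : ℕ) : ℝ) := by exact_mod_cast h1
      _ = ((M + 1 : ℕ) : ℝ) ^ Fintype.card κ := by push_cast; ring
      _ ≤ (2 * M : ℝ) ^ Fintype.card κ := by gcongr
      _ ≤ (2 * M : ℝ) ^ m := pow_le_pow_right₀ h3 hm
      _ = 2 ^ m * (M : ℝ) ^ m := by rw [mul_pow]
  · rintro z ⟨u, hu, rfl⟩
    have hu0 : ∀ i, 0 ≤ u i := fun i => hu.1 i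
    have hu1 : ∀ i, u i ≤ 1 := fun i => hu.2 i
    have hfl : ∀ i, ⌊u i * M⌋₊ < M + 1 := by
      intro i
      have : u i * M ≤ M := by
        calc u i * M ≤ 1 * M := by gcongr; exact hu1 i
          _ = M := one_mul _
      exact Nat.lt_succ_iff.mpr (Nat.floor_le_of_le this)
    let k : κ → Fin (M + 1) := fun i => ⟨⌊u i * M⌋₊, hfl i⟩
    refine ⟨g (pt k), Finset.mem_image.mpr ⟨k, Finset.mem_univ _, rfl⟩, ?_⟩
    have hnorm : ‖u - pt k‖ ≤ 1 / M := by
      rw [pi_norm_le_iff_of_nonneg (by positivity)]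
      intro i
      have hnn : 0 ≤ u i * M := mul_nonneg (hu0 i) hMpos.le
      have h1 : (⌊u i * M⌋₊ : ℝ) ≤ u i * M := Nat.floor_le hnn
      have h2 : u i * M < ⌊u i * M⌋₊ + 1 := Nat.lt_floor_add_one _
      simp only [Pi.sub_apply, pt, k, Real.norm_eq_abs]
      rw [abs_le]
      constructor
      · have : (⌊u i * M⌋₊ : ℝ) / M ≤ u i := by
          rw [div_le_iff₀ hMpos]; exact h1
        have h3 : (0 : ℝ) ≤ 1 / M := by positivity
        linarith
      · have : u i < (⌊u i * M⌋₊ : ℝ) / M + 1 / M := by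
          rw [← add_div, lt_div_iff₀ hMpos]; exact h2
        linarith
    calc ‖g u - g (pt k)‖ ≤ L * ‖u - pt k‖ := hg u hu _ (hpt k)
      _ ≤ L * (1 / M) := by gcongr
      _ = L / M := by ring


/-! ### The `n`-adic comparison -/

theorem frontier_smul_set {c : ℝ} (hc : c ≠ 0) (S : Set E) : frontier (c • S) = c • frontier S := by
  have := (Homeomorph.smulOfNeZero c hc).image_frontier S
  simpa [Set.image_smul] using this.symm

section Nadic

variable {ι : Type*} [Fintype ι]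

/-- The coordinate map `ℤ^ι → E` attached to a family of vectors. -/
def coord (v : ι → E) (x : ι → ℤ) : E := ∑ i, (x i : ℝ) • v i

theorem coord_affine (v : ι → E) (n : ℕ) (q : ι → ℤ) (e : ι → ℤ) :
    coord v (fun i => (n : ℤ) * q i + e i) = (n : ℝ) • coord v q + coord v e := by
  simp only [coord, Finset.smul_sum, ← Finset.sum_add_distrib]
  refine Finset.sum_congr rfl fun i _ => ?_
  push_cast
  rw [add_smul, mul_smul]

/-- the translation vector attached to a residue class -/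
def shift (v : ι → E) (n : ℕ) (e : ι → Fin n) : E :=
  (n : ℝ)⁻¹ • coord v (fun i => ((e i : ℕ) : ℤ))

theorem norm_shift_le (v : ι → E) (n : ℕ) (e : ι → Fin n) :
    ‖shift v n e‖ ≤ ∑ i, ‖v i‖ := by
  rcases Nat.eq_zero_or_pos n with hn | hn
  · subst hn
    simp only [shift, CharP.cast_eq_zero, inv_zero, zero_smul, norm_zero]
    positivity
  have hnpos : (0 : ℝ) < n := by exact_mod_cast hn
  rw [shift, norm_smul, norm_inv, Real.norm_of_nonneg hnpos.le, inv_mul_le_iff₀ hnpos, coord,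
    Finset.mul_sum]
  refine (norm_sum_le _ _).trans (Finset.sum_le_sum fun i _ => ?_)
  rw [norm_smul]
  gcongr
  simp only [Int.cast_natCast, Real.norm_natCast]
  exact_mod_cast (e i).2.le

theorem nadic_compare (Λ : AddSubgroup E) (v : ι → E) (hinj : Function.Injective (coord v))
    (hrange : ∀ y : E, y ∈ Λ ↔ ∃ x, coord v x = y) (hΛ : LocFinite Λ) (D : Set E)
    (hD : IsBounded D) {m : ℕ} (hm : Fintype.card ι = m + 1) (hF : BoxBound m (frontier D)) :
    ∃ B : ℝ, 0 ≤ B ∧ ∀ (n : ℕ) (r : ℝ), 1 ≤ n → 1 ≤ r →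
      |((((n : ℝ) * r) • D ∩ (Λ : Set E)).ncard : ℝ) -
        (n : ℝ) ^ (m + 1) * ((r • D ∩ (Λ : Set E)).ncard : ℝ)| ≤ (n : ℝ) ^ (m + 1) * B * r ^ m := by
  classical
  set δ : ℝ := ∑ i, ‖v i‖ with hδ
  obtain ⟨B, hB0, hB⟩ := exists_nearSet_bound hΛ hF δ
  refine ⟨B, hB0, fun n r hn hr => ?_⟩
  have hnpos : (0 : ℝ) < n := by exact_mod_cast hn
  have hr0 : (0 : ℝ) < r := lt_of_lt_of_le one_pos hr
  obtain ⟨hnearfin, hnear⟩ := hB r hr
  set S : Set E := r • D with hS
  have hSb : IsBounded S := hD.smul₀ r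
  obtain ⟨R, hR⟩ := hSb.subset_closedBall (0 : E)
  -- the coordinate sets
  set U : Set (ι → ℤ) := {q | coord v q ∈ S} with hU
  let Ue : (ι → Fin n) → Set (ι → ℤ) := fun e => {q | coord v q + shift v n e ∈ S}
  have hcoordΛ : ∀ q, coord v q ∈ Λ := fun q => (hrange _).mpr ⟨q, rfl⟩
  -- finiteness
  have hfinShift : ∀ c : E, {q : ι → ℤ | coord v q + c ∈ S}.Finite := by
    intro c
    refine Set.Finite.of_finite_image ?_ hinj.injOn
    refine (hΛ (R + ‖c‖)).subset ?_
    rintro _ ⟨q, hq, rfl⟩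
    refine ⟨?_, hcoordΛ q⟩
    have := hR hq
    rw [mem_closedBall, dist_zero_right] at this ⊢
    calc ‖coord v q‖ = ‖(coord v q + c) - c‖ := by rw [add_sub_cancel_right]
      _ ≤ ‖coord v q + c‖ + ‖c‖ := norm_sub_le _ _
      _ ≤ R + ‖c‖ := by linarith
  have hUfin : U.Finite := by simpa [hU] using hfinShift 0
  have hUefin : ∀ e, (Ue e).Finite := fun e => hfinShift _
  -- counts in coordinates
  have hcountS : (S ∩ (Λ : Set E)).ncard = U.ncard := by
    rw [← Set.ncard_image_of_injective U hinj]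
    congr 1
    ext y
    constructor
    · rintro ⟨hyS, hyΛ⟩
      obtain ⟨q, rfl⟩ := (hrange y).mp hyΛ
      exact ⟨q, hyS, rfl⟩
    · rintro ⟨q, hq, rfl⟩
      exact ⟨hq, hcoordΛ q⟩
  -- decomposition of the big count
  let θ : (ι → Fin n) → (ι → ℤ) → (ι → ℤ) := fun e q i => (n : ℤ) * q i + ((e i : ℕ) : ℤ)
  have hθcoord : ∀ e q, coord v (θ e q) = (n : ℝ) • (coord v q + shift v n e) := by
    intro e q
    rw [coord_affine, smul_add, shift, smul_smul, mul_inv_cancel₀ hnpos.ne', one_smul]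
  have hθinj : ∀ e, Function.Injective (θ e) := by
    intro e q q' h
    funext i
    have := congrFun h i
    simp only [θ, add_left_inj] at this
    exact mul_left_cancel₀ (by exact_mod_cast (by omega : n ≠ 0) : ((n : ℤ)) ≠ 0) this
  have hbig : {x : ι → ℤ | coord v x ∈ ((n : ℝ) * r) • D} = ⋃ e, θ e '' Ue e := by
    ext x
    simp only [Set.mem_ofPred_eq, Set.mem_iUnion, Set.mem_image]
    constructor
    · intro hx
      have hlt : ∀ i, (x i % (n : ℤ)).toNat < n := by
        intro i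
        have h1 : 0 ≤ x i % (n : ℤ) := Int.emod_nonneg _ (by exact_mod_cast (by omega : n ≠ 0))
        have h2 : x i % (n : ℤ) < n := Int.emod_lt_of_pos _ (by exact_mod_cast hn)
        omega
      refine ⟨fun i => ⟨(x i % (n : ℤ)).toNat, hlt i⟩, fun i => x i / (n : ℤ), ?_, ?_⟩
      · show coord v _ + shift v n _ ∈ S
        have hx' : coord v x = (n : ℝ) • (coord v (fun i => x i / (n : ℤ)) +
            shift v n (fun i => ⟨(x i % (n : ℤ)).toNat, hlt i⟩)) := by
          rw [← hθcoord]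
          congr 1
          funext i
          simp only [θ]
          have h1 : 0 ≤ x i % (n : ℤ) := Int.emod_nonneg _ (by exact_mod_cast (by omega : n ≠ 0))
          rw [Int.toNat_of_nonneg h1]
          exact (Int.mul_ediv_add_emod (x i) n).symm
        rw [hx', mul_smul] at hx
        rw [hS]
        exact (Set.smul_mem_smul_set_iff₀ hnpos.ne' _ _).mp hx
      · funext i
        simp only [θ]
        have h1 : 0 ≤ x i % (n : ℤ) := Int.emod_nonneg _ (by exact_mod_cast (by omega : n ≠ 0))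
        rw [Int.toNat_of_nonneg h1]
        exact Int.mul_ediv_add_emod (x i) n
    · rintro ⟨e, q, hq, rfl⟩
      rw [hθcoord, mul_smul]
      exact Set.smul_mem_smul_set hq
  have hdisj : Pairwise (Function.onFun Disjoint fun e => θ e '' Ue e) := by
    intro e e' hee'
    rw [Function.onFun, Set.disjoint_left]
    rintro x ⟨q, -, rfl⟩ ⟨q', -, h⟩
    apply hee'
    funext i
    have h1 := congrFun h i
    simp only [θ] at h1
    have h2 : ((e i : ℕ) : ℤ) % n = ((e' i : ℕ) : ℤ) % n := by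
      have := congrArg (· % (n : ℤ)) h1
      simp only [Int.mul_add_emod_self_left] at this
      exact this.symm
    rw [Int.emod_eq_of_lt (by positivity) (by exact_mod_cast (e i).2),
      Int.emod_eq_of_lt (by positivity) (by exact_mod_cast (e' i).2)] at h2
    exact Fin.ext (by exact_mod_cast h2)
  have hcountBig : ((((n : ℝ) * r) • D) ∩ (Λ : Set E)).ncard = ∑ e, (Ue e).ncard := by
    have h1 : ((((n : ℝ) * r) • D) ∩ (Λ : Set E)).ncard =
        {x : ι → ℤ | coord v x ∈ ((n : ℝ) * r) • D}.ncard := by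
      rw [← Set.ncard_image_of_injective _ hinj]
      congr 1
      ext y
      constructor
      · rintro ⟨hyS, hyΛ⟩
        obtain ⟨q, rfl⟩ := (hrange y).mp hyΛ
        exact ⟨q, hyS, rfl⟩
      · rintro ⟨q, hq, rfl⟩
        exact ⟨hq, hcoordΛ q⟩
    rw [h1, hbig, Set.ncard_iUnion_of_finite (fun e => (hUefin e).image _) hdisj,
      finsum_eq_sum_of_fintype]
    exact Finset.sum_congr rfl fun e _ => Set.ncard_image_of_injective _ (hθinj e)
  -- comparison of each translated count with the untranslated one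
  have hcmp : ∀ e, |((Ue e).ncard : ℝ) - (U.ncard : ℝ)| ≤ B * r ^ m := by
    intro e
    have hce : ‖shift v n e‖ ≤ δ := norm_shift_le v n e
    have hmap : ∀ q, (q ∈ Ue e ∧ q ∉ U) ∨ (q ∉ Ue e ∧ q ∈ U) →
        coord v q ∈ nearSet Λ (frontier D) δ r := by
      intro q hq
      have hq' : (coord v q ∈ S ∧ coord v q + shift v n e ∉ S) ∨
          (coord v q ∉ S ∧ coord v q + shift v n e ∈ S) := by
        rcases hq with ⟨h1, h2⟩ | ⟨h1, h2⟩
        · exact Or.inr ⟨h2, h1⟩
        · exact Or.inl ⟨h2, h1⟩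
      obtain ⟨z, hz, hzn⟩ := exists_frontier_near hq'
      rw [hS, frontier_smul_set hr0.ne'] at hz
      obtain ⟨z', hz', rfl⟩ := hz
      refine ⟨hcoordΛ q, z', hz', hzn.trans ?_⟩
      simpa using hce
    have h1 : (Ue e \ U).ncard ≤ (nearSet Λ (frontier D) δ r).ncard :=
      Set.ncard_le_ncard_of_injOn (coord v) (fun q hq => hmap q (Or.inl ⟨hq.1, hq.2⟩))
        hinj.injOn hnearfin
    have h2 : (U \ Ue e).ncard ≤ (nearSet Λ (frontier D) δ r).ncard :=
      Set.ncard_le_ncard_of_injOn (coord v) (fun q hq => hmap q (Or.inr ⟨hq.2, hq.1⟩))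
        hinj.injOn hnearfin
    have h3 := Set.ncard_le_ncard_sdiff_add_ncard (Ue e) U hUfin
    have h4 := Set.ncard_le_ncard_sdiff_add_ncard U (Ue e) (hUefin e)
    have h5 : ((Ue e).ncard : ℝ) ≤ (nearSet Λ (frontier D) δ r).ncard + U.ncard := by
      exact_mod_cast h3.trans (Nat.add_le_add_right h1 _)
    have h6 : (U.ncard : ℝ) ≤ (nearSet Λ (frontier D) δ r).ncard + (Ue e).ncard := by
      exact_mod_cast h4.trans (Nat.add_le_add_right h2 _)
    rw [abs_le]
    constructor <;> linarith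
  rw [hcountBig, hcountS]
  have hcard : (Fintype.card (ι → Fin n) : ℝ) = (n : ℝ) ^ (m + 1) := by
    rw [Fintype.card_fun, Fintype.card_fin, hm]; push_cast; ring
  calc |((∑ e, (Ue e).ncard : ℕ) : ℝ) - (n : ℝ) ^ (m + 1) * (U.ncard : ℝ)|
      = |∑ e : ι → Fin n, (((Ue e).ncard : ℝ) - (U.ncard : ℝ))| := by
        rw [Finset.sum_sub_distrib, Finset.sum_const, Finset.card_univ, nsmul_eq_mul, hcard]
        push_cast; ring_nf
    _ ≤ ∑ e : ι → Fin n, |((Ue e).ncard : ℝ) - (U.ncard : ℝ)| := Finset.abs_sum_le_sum_abs _ _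
    _ ≤ ∑ _e : ι → Fin n, B * r ^ m := Finset.sum_le_sum fun e _ => hcmp e
    _ = (n : ℝ) ^ (m + 1) * B * r ^ m := by
        rw [Finset.sum_const, Finset.card_univ, nsmul_eq_mul, hcard]; ring

end Nadic


/-! ### From the `n`-adic comparison and a limit to an error term -/

theorem error_of_tendsto {N : ℝ → ℝ} {V B : ℝ} {m : ℕ}
    (hcmp : ∀ (n : ℕ) (r : ℝ), 1 ≤ n → 1 ≤ r →
      |N ((n : ℝ) * r) - (n : ℝ) ^ (m + 1) * N r| ≤ (n : ℝ) ^ (m + 1) * B * r ^ m)
    (hlim : Filter.Tendsto (fun r : ℝ => N r / r ^ (m + 1)) Filter.atTop (nhds V))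
    {r : ℝ} (hr : 1 ≤ r) : |N r - V * r ^ (m + 1)| ≤ B * r ^ m := by
  have hr0 : (0 : ℝ) < r := lt_of_lt_of_le one_pos hr
  have hrm : (0 : ℝ) < r ^ (m + 1) := by positivity
  have h1 : Filter.Tendsto (fun n : ℕ => N ((n : ℝ) * r) / ((n : ℝ) * r) ^ (m + 1)) Filter.atTop
      (nhds V) :=
    hlim.comp ((tendsto_natCast_atTop_atTop (R := ℝ)).atTop_mul_const hr0)
  have h2 : Filter.Tendsto
      (fun n : ℕ => |N ((n : ℝ) * r) / ((n : ℝ) * r) ^ (m + 1) - N r / r ^ (m + 1)|) Filter.atTop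
      (nhds |V - N r / r ^ (m + 1)|) := (h1.sub_const _).abs
  have h3 : |V - N r / r ^ (m + 1)| ≤ B / r := by
    refine le_of_tendsto h2 ?_
    filter_upwards [Filter.eventually_ge_atTop 1] with n hn
    have hnpos : (0 : ℝ) < n := by exact_mod_cast hn
    have hnm : (0 : ℝ) < (n : ℝ) ^ (m + 1) := by positivity
    have key := hcmp n r hn hr
    have e1 : N ((n : ℝ) * r) / ((n : ℝ) * r) ^ (m + 1) - N r / r ^ (m + 1) =
        (N ((n : ℝ) * r) - (n : ℝ) ^ (m + 1) * N r) / ((n : ℝ) ^ (m + 1) * r ^ (m + 1)) := by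
      rw [mul_pow]; field_simp
    rw [e1, abs_div, abs_of_pos (mul_pos hnm hrm), div_le_div_iff₀ (mul_pos hnm hrm) hr0]
    calc |N ((n : ℝ) * r) - (n : ℝ) ^ (m + 1) * N r| * r
        ≤ ((n : ℝ) ^ (m + 1) * B * r ^ m) * r := by gcongr
      _ = B * ((n : ℝ) ^ (m + 1) * r ^ (m + 1)) := by ring
  have e2 : N r - V * r ^ (m + 1) = -((V - N r / r ^ (m + 1)) * r ^ (m + 1)) := by
    field_simp; ring
  rw [e2, abs_neg, abs_mul, abs_of_pos hrm]
  calc |V - N r / r ^ (m + 1)| * r ^ (m + 1) ≤ (B / r) * r ^ (m + 1) := by gcongr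
    _ = B * r ^ m := by field_simp; ring

end Fermat.Agent.S14.LatticeBoundary
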