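import Mathlib
import Fermat.Agent.S14.LatticeBoundary
import Fermat.Agent.S14.FrontierNormLeOne

/-!
# S14, (LP): the frontier of `normLeOne K` satisfies the `(d-1)`-dimensional box-counting bound

Adapter between `FrontierNormLeOne.frontier_normLeOne_subset` (finitely many Lipschitz images of
the `(d-1)`-cube) and `LatticeBoundary.BoxBound`.
-/

set_option autoImplicit false

noncomputable section

namespace Fermat.Agent.S14.FrontierBox_helper14

open NumberField NumberField.InfinitePlace NumberField.mixedEmbedding
  NumberField.mixedEmbedding.fundamentalCone Fermat.Agent.S14.LatticeBoundary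

open scoped Classical

variable (K : Type*) [Field K] [NumberField K]

/-- the frontier of `normLeOne K` satisfies the box-counting bound of dimension `[K : ℚ] - 1`. -/
theorem boxBound_frontier_normLeOne :
    BoxBound (Module.finrank ℚ K - 1) (frontier (normLeOne K)) := by
  obtain ⟨n, g, hg, hsub⟩ := FrontierNormLeOne.frontier_normLeOne_subset K
  have h1 : ∀ j ∈ (Finset.univ : Finset (Fin n)),
      BoxBound (Module.finrank ℚ K - 1) (g j '' Set.Icc (0 : Fin (Module.finrank ℚ K - 1) → ℝ) 1) := by
    intro j _
    obtain ⟨C, hC⟩ := hg j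
    refine BoxBound.of_lipschitz_cube (by simp) (g j) (C : ℝ) C.coe_nonneg ?_
    intro u hu v hv
    have := hC.dist_le_mul u hu v hv
    rwa [dist_eq_norm, dist_eq_norm] at this
  refine (BoxBound.biUnion Finset.univ h1).mono ?_
  intro x hx
  obtain ⟨j, hj⟩ := Set.mem_iUnion.mp (hsub hx)
  exact Set.mem_biUnion (Finset.mem_univ j) hj

end Fermat.Agent.S14.FrontierBox_helper14
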