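/-
S14 / LP: the number of integral ideals of norm `≤ t` in a fixed ideal class is
`κ t + O(t^(1 - 1/d))`.  Uses Mathlib's limit theorem together with the `n`-adic comparison of
`LatticeBoundary` and the box-counting bound for the frontier of `normLeOne K`.
-/
import Mathlib
import Fermat.Agent.S14.LatticeBoundary
import Fermat.Agent.S14.FrontierBox_helper14

set_option autoImplicit false

noncomputable section

namespace Fermat.Agent.S14.IdealCount

open NumberField NumberField.InfinitePlace NumberField.mixedEmbedding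
  NumberField.mixedEmbedding.fundamentalCone NumberField.Units Ideal
open Fermat.Agent.S14.LatticeBoundary
open scoped nonZeroDivisors Real Pointwise Classical

variable (K : Type*) [Field K] [NumberField K]

/-- Mathlib's (private) first reduction: ideals in the class `C` of norm `≤ s` correspond to
principal ideals divisible by `J` of norm `≤ s * N J`, where `[J] = C⁻¹`. -/
theorem card_class_eq {C : ClassGroup (𝓞 K)} {J : (Ideal (𝓞 K))⁰}
    (hJ : ClassGroup.mk0 J = C⁻¹) (s : ℝ) :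
    Nat.card {I : (Ideal (𝓞 K))⁰ // absNorm (I : Ideal (𝓞 K)) ≤ s ∧ ClassGroup.mk0 I = C}
      = Nat.card {I : (Ideal (𝓞 K))⁰ // (J : Ideal (𝓞 K)) ∣ I ∧ Submodule.IsPrincipal (I : Ideal (𝓞 K)) ∧
        absNorm (I : Ideal (𝓞 K)) ≤ s * absNorm (J : Ideal (𝓞 K))} := by
  simp_rw [← nonZeroDivisors_dvd_iff_dvd_coe]
  refine Nat.card_congr ?_
  refine ((Equiv.dvd J).subtypeEquiv fun I ↦ ?_).trans
    (Equiv.subtypeSubtypeEquivSubtypeInter (fun I : (Ideal (𝓞 K))⁰ ↦ J ∣ I) _)
  rw [← ClassGroup.mk0_eq_one_iff (SetLike.coe_mem _)]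
  simp_rw [Equiv.dvd_apply, Submonoid.coe_mul, ← Submonoid.mul_def, _root_.map_mul, hJ,
    inv_mul_eq_one, Nat.cast_mul, mul_comm s, eq_comm, and_comm, and_congr_left_iff]
  exact fun _ ↦
    (mul_le_mul_iff_of_pos_left (Nat.cast_pos.mpr (absNorm_pos_of_nonZeroDivisors J))).symm

/-- the lattice of the ideal `J` in the mixed space, as an additive subgroup -/
def latt (J : (Ideal (𝓞 K))⁰) : AddSubgroup (mixedSpace K) :=
  (mixedEmbedding.idealLattice K (FractionalIdeal.mk0 K J)).toAddSubgroup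

theorem mem_latt (J : (Ideal (𝓞 K))⁰) (x : mixedSpace K) :
    x ∈ latt K J ↔ x ∈ mixedEmbedding.idealLattice K (FractionalIdeal.mk0 K J) := Iff.rfl

/-- homogeneity: the part of the cone of norm `≤ r^d` is `r • normLeOne` -/
theorem smul_normLeOne {r : ℝ} (hr : 0 < r) :
    r • normLeOne K = {x | x ∈ fundamentalCone K ∧ mixedEmbedding.norm x ≤ r ^ Module.finrank ℚ K} := by
  ext x
  rw [Set.mem_smul_set_iff_inv_smul_mem₀ hr.ne', mem_normLeOne, smul_mem_iff_mem (inv_ne_zero hr.ne'),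
    mixedEmbedding.norm_smul, abs_of_pos (inv_pos.mpr hr), inv_pow,
    inv_mul_le_iff₀ (pow_pos hr _), mul_one]
  rfl

/-- the counting function of the lattice in the dilated region -/
def cnt (J : (Ideal (𝓞 K))⁰) (r : ℝ) : ℝ :=
  ((r • normLeOne K ∩ (latt K J : Set (mixedSpace K))).ncard : ℝ)

theorem card_idealSet_eq (J : (Ideal (𝓞 K))⁰) {r : ℝ} (hr : 0 < r) :
    (Nat.card {a : idealSet K J // mixedEmbedding.norm (a : mixedSpace K) ≤ r ^ Module.finrank ℚ K} : ℝ)
      = cnt K J r := by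
  rw [cnt, smul_normLeOne K hr, ← Nat.card_coe_set_eq]
  congr 1
  refine Nat.card_congr ?_
  refine (Equiv.subtypeSubtypeEquivSubtypeInter (· ∈ idealSet K J)
    (fun x => mixedEmbedding.norm x ≤ r ^ Module.finrank ℚ K)).trans (Equiv.setCongr ?_)
  ext x
  show ((x ∈ fundamentalCone K ∧ x ∈ (mixedEmbedding.idealLattice K (FractionalIdeal.mk0 K J) :
      Set (mixedSpace K))) ∧ mixedEmbedding.norm x ≤ r ^ Module.finrank ℚ K) ↔
    (x ∈ fundamentalCone K ∧ mixedEmbedding.norm x ≤ r ^ Module.finrank ℚ K) ∧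
      x ∈ (latt K J : Set (mixedSpace K))
  simp only [SetLike.mem_coe, mem_latt]
  tauto


/-! ### the lattice data -/

theorem locFinite_latt (J : (Ideal (𝓞 K))⁰) : LocFinite (latt K J) := by
  intro R
  have hd : DiscreteTopology (latt K J) :=
    inferInstanceAs (DiscreteTopology (mixedEmbedding.idealLattice K (FractionalIdeal.mk0 K J)))
  have hc : IsClosed ((latt K J : AddSubgroup _) : Set (mixedSpace K)) :=
    AddSubgroup.isClosed_of_discrete
  exact Metric.finite_isBounded_inter_isClosed (isDiscrete_iff_discreteTopology.mpr hd)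
    Metric.isBounded_closedBall hc

/-- the basis of the lattice -/
def lbasis (J : (Ideal (𝓞 K))⁰) :
    Module.Basis (Module.Free.ChooseBasisIndex ℤ (FractionalIdeal.mk0 K J)) ℝ (mixedSpace K) :=
  fractionalIdealLatticeBasis K (FractionalIdeal.mk0 K J)

theorem coord_injective (J : (Ideal (𝓞 K))⁰) : Function.Injective (coord (lbasis K J)) := by
  intro x y hxy
  simp only [coord] at hxy
  have h := congrArg (lbasis K J).repr hxy
  have h2 := DFunLike.congr_fun h
  funext i
  have h3 := h2 i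
  rw [Module.Basis.repr_sum_self, Module.Basis.repr_sum_self] at h3
  exact_mod_cast h3

theorem mem_latt_iff_coord (J : (Ideal (𝓞 K))⁰) (y : mixedSpace K) :
    y ∈ latt K J ↔ ∃ x, coord (lbasis K J) x = y := by
  rw [mem_latt, ← span_idealLatticeBasis, Submodule.mem_span_range_iff_exists_fun]
  simp only [coord, lbasis, Int.cast_smul_eq_zsmul]

theorem card_index (J : (Ideal (𝓞 K))⁰) :
    Fintype.card (Module.Free.ChooseBasisIndex ℤ (FractionalIdeal.mk0 K J)) =
      Module.finrank ℚ K := by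
  rw [← Module.finrank_eq_card_chooseBasisIndex, fractionalIdeal_rank, RingOfIntegers.rank]


theorem finrank_pos' : 0 < Module.finrank ℚ K := Module.finrank_pos

/-- the `n`-adic comparison for the counting function -/
theorem cnt_compare (J : (Ideal (𝓞 K))⁰) :
    ∃ B : ℝ, 0 ≤ B ∧ ∀ (n : ℕ) (r : ℝ), 1 ≤ n → 1 ≤ r →
      |cnt K J ((n : ℝ) * r) - (n : ℝ) ^ (Module.finrank ℚ K - 1 + 1) * cnt K J r| ≤
        (n : ℝ) ^ (Module.finrank ℚ K - 1 + 1) * B * r ^ (Module.finrank ℚ K - 1) := by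
  have hm : Fintype.card (Module.Free.ChooseBasisIndex ℤ (FractionalIdeal.mk0 K J)) =
      Module.finrank ℚ K - 1 + 1 := by
    rw [card_index]
    have := finrank_pos' K
    omega
  exact nadic_compare (latt K J) (lbasis K J) (coord_injective K J) (mem_latt_iff_coord K J)
    (locFinite_latt K J) (normLeOne K) (isBounded_normLeOne K) hm
    (FrontierBox_helper14.boxBound_frontier_normLeOne K)

/-- the leading constant of Mathlib's ideal-counting theorem -/
def kappa : ℝ :=
  (2 ^ nrRealPlaces K * (2 * π) ^ nrComplexPlaces K * regulator K) /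
    (torsionOrder K * Real.sqrt |discr K|)

/-- the number of ideals of norm `≤ t` in the class `C` -/
def classCount (C : ClassGroup (𝓞 K)) (t : ℝ) : ℝ :=
  (Nat.card {I : (Ideal (𝓞 K))⁰ // absNorm (I : Ideal (𝓞 K)) ≤ t ∧ ClassGroup.mk0 I = C} : ℝ)

theorem classCount_mul_torsion {C : ClassGroup (𝓞 K)} {J : (Ideal (𝓞 K))⁰}
    (hJ : ClassGroup.mk0 J = C⁻¹) {r : ℝ} (hr : 0 < r) :
    classCount K C (r ^ Module.finrank ℚ K / absNorm (J : Ideal (𝓞 K))) * torsionOrder K =
      cnt K J r := by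
  have hN : (absNorm (J : Ideal (𝓞 K)) : ℝ) ≠ 0 :=
    Nat.cast_ne_zero.mpr (absNorm_ne_zero_of_nonZeroDivisors J)
  rw [classCount, card_class_eq K hJ, div_mul_cancel₀ _ hN, ← card_idealSet_eq K J hr,
    ← card_isPrincipal_dvd_norm_le]
  push_cast
  rfl


open Filter Topology in
theorem tendsto_cnt (J : (Ideal (𝓞 K))⁰) :
    Tendsto (fun r : ℝ => cnt K J r / r ^ (Module.finrank ℚ K - 1 + 1)) atTop
      (𝓝 (kappa K * torsionOrder K / absNorm (J : Ideal (𝓞 K)))) := by
  set C : ClassGroup (𝓞 K) := (ClassGroup.mk0 J)⁻¹ with hC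
  have hJ : ClassGroup.mk0 J = C⁻¹ := by rw [hC, inv_inv]
  have hd : Module.finrank ℚ K - 1 + 1 = Module.finrank ℚ K := by
    have := finrank_pos' K
    omega
  rw [hd]
  have hNpos : (0 : ℝ) < absNorm (J : Ideal (𝓞 K)) :=
    Nat.cast_pos.mpr (absNorm_pos_of_nonZeroDivisors J)
  have h0 := NumberField.Ideal.tendsto_norm_le_and_mk_eq_div_atTop K C
  have hg : Tendsto (fun r : ℝ => r ^ Module.finrank ℚ K / absNorm (J : Ideal (𝓞 K)))
      atTop atTop :=
    (tendsto_pow_atTop (finrank_pos' K).ne').atTop_div_const hNpos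
  have h1 := (h0.comp hg).mul_const ((torsionOrder K : ℝ) / absNorm (J : Ideal (𝓞 K)))
  have h2 : kappa K * torsionOrder K / absNorm (J : Ideal (𝓞 K)) =
      (2 ^ nrRealPlaces K * (2 * π) ^ nrComplexPlaces K * regulator K) /
        (torsionOrder K * Real.sqrt |discr K|) *
        ((torsionOrder K : ℝ) / absNorm (J : Ideal (𝓞 K))) := by
    rw [kappa, mul_div_assoc]
  rw [h2]
  refine h1.congr' ?_
  filter_upwards [eventually_gt_atTop 0] with r hr
  have hrd : (0 : ℝ) < r ^ Module.finrank ℚ K := pow_pos hr _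
  rw [← classCount_mul_torsion K hJ hr]
  show classCount K C (r ^ Module.finrank ℚ K / absNorm (J : Ideal (𝓞 K))) /
      (r ^ Module.finrank ℚ K / absNorm (J : Ideal (𝓞 K))) *
      ((torsionOrder K : ℝ) / absNorm (J : Ideal (𝓞 K))) = _
  generalize classCount K C (r ^ Module.finrank ℚ K / absNorm (J : Ideal (𝓞 K))) = c
  field_simp


/-- **Ideal counting with error term.** The number of nonzero integral ideals of norm `≤ t` in the
class `C` is `κ t + O(t^(1 - 1/d))`, `d = [K : ℚ]`, with `κ` independent of `C`. -/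
theorem ideal_count_error (C : ClassGroup (𝓞 K)) :
    ∃ B : ℝ, ∀ t : ℝ, 1 ≤ t →
      |(Nat.card {I : (Ideal (𝓞 K))⁰ // absNorm (I : Ideal (𝓞 K)) ≤ t ∧ ClassGroup.mk0 I = C} : ℝ)
        - kappa K * t| ≤ B * t ^ (1 - 1 / (Module.finrank ℚ K : ℝ)) := by
  obtain ⟨J, hJ⟩ := ClassGroup.mk0_surjective C⁻¹
  obtain ⟨B, hB0, hB⟩ := cnt_compare K J
  have herr : ∀ r : ℝ, 1 ≤ r → |cnt K J r - kappa K * torsionOrder K /
      absNorm (J : Ideal (𝓞 K)) * r ^ (Module.finrank ℚ K - 1 + 1)| ≤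
      B * r ^ (Module.finrank ℚ K - 1) := fun r hr => error_of_tendsto hB (tendsto_cnt K J) hr
  have hdpos := finrank_pos' K
  have hd : Module.finrank ℚ K - 1 + 1 = Module.finrank ℚ K := by omega
  have hdR : (0 : ℝ) < (Module.finrank ℚ K : ℝ) := by exact_mod_cast hdpos
  have hN1 : (1 : ℝ) ≤ absNorm (J : Ideal (𝓞 K)) := by
    exact_mod_cast absNorm_pos_of_nonZeroDivisors J
  have hNpos : (0 : ℝ) < absNorm (J : Ideal (𝓞 K)) := lt_of_lt_of_le one_pos hN1
  have hwpos : (0 : ℝ) < torsionOrder K := by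
    exact_mod_cast Nat.pos_of_ne_zero (torsionOrder_ne_zero K)
  refine ⟨B * (absNorm (J : Ideal (𝓞 K)) : ℝ) ^ (1 - 1 / (Module.finrank ℚ K : ℝ)) /
    torsionOrder K, fun t ht => ?_⟩
  have htpos : (0 : ℝ) < t := lt_of_lt_of_le one_pos ht
  have htN : (1 : ℝ) ≤ t * absNorm (J : Ideal (𝓞 K)) := by nlinarith
  have htN0 : (0 : ℝ) ≤ t * absNorm (J : Ideal (𝓞 K)) := by linarith
  set r : ℝ := (t * absNorm (J : Ideal (𝓞 K))) ^ (1 / (Module.finrank ℚ K : ℝ)) with hr
  have hr1 : 1 ≤ r := Real.one_le_rpow htN (by positivity)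
  have hr0 : 0 < r := lt_of_lt_of_le one_pos hr1
  have hrd : r ^ Module.finrank ℚ K = t * absNorm (J : Ideal (𝓞 K)) := by
    rw [hr, ← Real.rpow_natCast, ← Real.rpow_mul htN0, one_div, inv_mul_cancel₀ hdR.ne',
      Real.rpow_one]
  have hrm : r ^ (Module.finrank ℚ K - 1) =
      t ^ (1 - 1 / (Module.finrank ℚ K : ℝ)) *
        (absNorm (J : Ideal (𝓞 K)) : ℝ) ^ (1 - 1 / (Module.finrank ℚ K : ℝ)) := by
    rw [hr, ← Real.rpow_natCast, ← Real.rpow_mul htN0, ← Real.mul_rpow htpos.le hNpos.le]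
    congr 1
    rw [Nat.cast_sub hdpos, Nat.cast_one]
    field_simp
  have h1 := herr r hr1
  rw [hd, hrd, hrm, ← classCount_mul_torsion K hJ hr0, hrd,
    mul_div_cancel_right₀ _ hNpos.ne'] at h1
  have h2 : classCount K C t * torsionOrder K - kappa K * torsionOrder K /
      absNorm (J : Ideal (𝓞 K)) * (t * absNorm (J : Ideal (𝓞 K))) =
      (classCount K C t - kappa K * t) * torsionOrder K := by
    field_simp
  rw [h2, abs_mul, abs_of_pos hwpos] at h1
  rw [div_mul_eq_mul_div, le_div_iff₀ hwpos]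
  calc _ ≤ _ := h1
    _ = _ := by ring

end Fermat.Agent.S14.IdealCount
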