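import Fermat.Agent.S14.DensityCore
import Fermat.Agent.S14.IdealCount
import Fermat.Agent.S14.Skeleton

/-!
# (D) `Skeleton.DensityPkg p` for `p >= 3`, from the two remaining inputs

`densityPkg_of`: the density package from `DegTwoHyp` (uniform bound of the Euler factors at the
primes of non-prime norm) and `KummerSplitHyp p` (the field `K(E^(1/p))` and its completely split
primes); the ideal count with error term (LP) is taken from `IdealCount`.
-/

set_option autoImplicit false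

open NumberField IsDedekindDomain nonZeroDivisors

namespace Fermat.Agent.S14.DensityOf

open Fermat.Agent.S14.EulerIdeal Fermat.Agent.S14.ZetaIdeal Fermat.Agent.S14.LClass
  Fermat.Agent.S14.LBounded Fermat.Agent.S14.DensityCore Fermat.Agent.S14.Defs

/-- (LP) in the `CountRate` form. -/
theorem countRate (K : Type*) [Field K] [NumberField K] :
    CountRate K (1 - 1 / (Module.finrank ℚ K : ℝ)) :=
  ⟨IdealCount.kappa K, fun C => IdealCount.ideal_count_error K C⟩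

/-- hypothesis (DT): uniform bound for the Euler factors at the primes of non-prime norm -/
def DegTwoHyp : Prop :=
  ∀ (K : Type) [Field K] [NumberField K], ∃ C : ℝ, ∀ s : ℝ, 1 ≤ s →
    ∀ T : Finset (HeightOneSpectrum (𝓞 K)), (∀ Q ∈ T, ¬ (Ideal.absNorm Q.asIdeal).Prime) →
      ∏ Q ∈ T, (1 - normPow K s (primeNZ Q))⁻¹ ≤ C

/-- hypothesis (KS): the Kummer extension `K(E^(1/p))` and its completely split primes -/
def KummerSplitHyp (p : ℕ) : Prop :=
  ∀ (K : Type) [Field K] [NumberField K] (ζ : 𝓞 K), IsPrimitiveRoot ζ p → ∀ E : 𝓞 K,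
    (¬ ∃ y : K, (E : K) = y ^ p) →
    ∃ (K' : Type) (_ : Field K') (_ : NumberField K') (_ : Algebra K K'),
      Module.finrank K K' = p ∧
      ∀ (Q : Ideal (𝓞 K)), Q.IsPrime → Q ≠ ⊥ → (p : 𝓞 K) ∉ Q → E ∉ Q → IsPowResidue K p E Q →
        ∃ f : Fin p → Ideal (𝓞 K'), Function.Injective f ∧ ∀ i, (f i).IsPrime ∧ f i ≠ ⊥ ∧
          (f i).comap (algebraMap (𝓞 K) (𝓞 K')) = Q ∧ Ideal.absNorm (f i) = Ideal.absNorm Q

theorem densityPkg_of (p : ℕ) [Fact p.Prime] (hp3 : 3 ≤ p) (hDT : DegTwoHyp)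
    (hKS : KummerSplitHyp p) : Skeleton.DensityPkg p := by
  intro K _ _ ζ hζ E hE ψ hψp hψ1
  by_contra hcon
  push Not at hcon
  have hp : p.Prime := Fact.out
  obtain ⟨K', _, _, _, -, hsplit⟩ := hKS K ζ hζ E hE
  have hE0 : E ≠ 0 := by
    rintro rfl
    exact hE ⟨0, by simp [zero_pow hp.ne_zero]⟩
  have hp0 : (p : 𝓞 K) ≠ 0 := Nat.cast_ne_zero.mpr hp.ne_zero
  have hd : (0 : ℝ) < (Module.finrank ℚ K : ℝ) := by exact_mod_cast Module.finrank_pos
  have hd1 : (1 : ℝ) ≤ (Module.finrank ℚ K : ℝ) := by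
    exact_mod_cast (Module.finrank_pos : 0 < Module.finrank ℚ K)
  have hr0 : (0 : ℝ) ≤ 1 - 1 / (Module.finrank ℚ K : ℝ) := by
    rw [sub_nonneg, div_le_one hd]; exact hd1
  have hr1 : 1 - 1 / (Module.finrank ℚ K : ℝ) < 1 := by
    have : 0 < 1 / (Module.finrank ℚ K : ℝ) := by positivity
    linarith
  refine density_core K hp hp3 hr0 hr1 (countRate K) (hDT K) (K' := K')
    (fun P => P.asIdeal.comap (algebraMap (𝓞 K) (𝓞 K')))
    (fun Q => IsPowResidue K p E Q.asIdeal) (x := (p : 𝓞 K) * E) (mul_ne_zero hp0 hE0) ?_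
    ψ hψp hψ1 ?_
  · intro Q hxQ hgood
    have hpQ : (p : 𝓞 K) ∉ Q.asIdeal := fun h => hxQ (Ideal.mul_mem_right _ _ h)
    have hEQ : E ∉ Q.asIdeal := fun h => hxQ (Ideal.mul_mem_left _ _ h)
    obtain ⟨f, hfinj, hf⟩ := hsplit Q.asIdeal Q.isPrime Q.ne_bot hpQ hEQ hgood
    refine ⟨fun i => ⟨f i, (hf i).1, (hf i).2.1⟩, ?_, fun i => ⟨(hf i).2.2.2, (hf i).2.2.1⟩⟩
    intro i j hij
    exact hfinj (congrArg HeightOneSpectrum.asIdeal hij)
  · intro Q hQprime hxQ hng
    have hpQ : (p : 𝓞 K) ∉ Q.asIdeal := fun h => hxQ (Ideal.mul_mem_right _ _ h)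
    exact hcon Q.asIdeal Q.isPrime Q.ne_bot hQprime hpQ hng

end Fermat.Agent.S14.DensityOf
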