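import Mathlib
import Fermat.Agent.S14.EndGame
import Fermat.Agent.S14.E2Bridge

/-!
# S14: the end game from the packages of `Skeleton.lean`
-/

set_option autoImplicit false

namespace Fermat.Agent.S14.EndPkgs

open scoped NumberField
open NumberField Fermat.Agent.S14 Fermat.Agent.S14.EndGame

/-- **The class group input, element form**: if `α` has type `ω²` and `(α) = I ^ p` then `I` is
principal. -/
def ClassInputElt (p : ℕ) [Fact p.Prime] : Prop :=
  ∀ (K : Type) [Field K] [NumberField K] [IsCyclotomicExtension {p} ℚ K] (ζ : K),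
    IsPrimitiveRoot ζ p → ∀ (α : 𝓞 K) (I : Ideal (𝓞 K)), α ≠ 0 →
    Defs.IsOmegaSqElt K p ζ (α : K) → Ideal.span {α} = I ^ p → I.IsPrincipal

/-- the ideal form of the class group input implies the element form -/
theorem classInputElt_of_classInput (p : ℕ) [hpf : Fact p.Prime] (h : ClassInput p) :
    ClassInputElt p := by
  intro K _ _ _ ζ hζ α I hα0 htype hI
  have hp : p.Prime := hpf.out
  have hI0 : I ≠ ⊥ := by
    rintro rfl
    rw [Ideal.bot_pow hp.ne_zero, Ideal.span_singleton_eq_bot] at hI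
    exact hα0 hI
  refine h K ζ hζ I hI0 ⟨⟨α, hI.symm⟩⟩ ?_
  intro δ c hc
  obtain ⟨β, hβ⟩ := htype δ c hc
  have hβ0 : β ≠ 0 := by
    rintro rfl
    rw [zero_pow hp.ne_zero, mul_zero] at hβ
    have : (α : K) = 0 := (map_eq_zero_iff δ δ.injective).mp hβ
    exact hα0 (RingOfIntegers.coe_eq_zero_iff.mp this)
  exact ideal_type hp.ne_zero α I hI δ c β hβ0 hβ

/-- the class group input from the packages (C), (T), (D) -/
theorem classInputElt_of_pkgs (p : ℕ) [hpf : Fact p.Prime] (h5 : 5 ≤ p)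
    (hC : Skeleton.CharPkg p) (hT : Skeleton.ThainePkg p) (hDens : Skeleton.DensityPkg p) :
    ClassInputElt p := by
  intro K _ _ _ ζ hζ α I hα0 htype hI
  by_contra hnp
  have hζ' : IsPrimitiveRoot hζ.toInteger p := hζ.toInteger_isPrimitiveRoot
  have hcoe : ((hζ.toInteger : 𝓞 K) : K) = ζ := hζ.coe_toInteger
  obtain ⟨ψ, hψ1, hψp, hψtype⟩ := hC K hζ.toInteger hζ' α I hα0 (by rw [hcoe]; exact htype) hI hnp
  obtain ⟨Q, hQ, hQ0, hnorm, hpQ, hres, hψQ⟩ :=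
    hDens K hζ.toInteger hζ' (Defs.E2num K p hζ.toInteger) (E2Bridge.E2num_not_pow h5 hζ') ψ hψp hψ1
  exact hψQ (hT K hζ.toInteger hζ' ψ hψp hψtype Q hQ hQ0 hnorm hpQ hres)

/-- **The end game** with the element form of the class group input. -/
theorem coreStd_of_classInputElt (p : ℕ) [hpf : Fact p.Prime] (h5 : 5 ≤ p)
    (hD : ClassInputElt p) (hU : Skeleton.UnitEigenPkg p) : CoreStd.CoreStd p := by
  intro K L _ _ _ _ _ _ _ _ hdeg hunr _ hact
  have hp : p.Prime := hpf.out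
  have hp2 : p ≠ 2 := by omega
  obtain ⟨ζ, hζ⟩ := IsCyclotomicExtension.exists_isPrimitiveRoot ℚ K (Set.mem_singleton p) hp.ne_zero
  obtain ⟨α, hα0, hnp, ⟨I, hI⟩, htype, ⟨x, hpx, hcong⟩⟩ :=
    KummerGen.exists_kummer_generator K L hp2 hdeg hunr hact hζ
  set π := hζ.toInteger - 1 with hπdef
  have hπ : Prime π := hζ.zeta_sub_one_prime'
  have hπp : π ∣ (p : 𝓞 K) := hζ.toInteger_sub_one_dvd_prime'
  -- `α` is prime to `π`
  have hαπ : ¬ π ∣ α := by
    intro hdvd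
    have h1 : π ∣ (x : 𝓞 K) ^ p := by
      have h2 : π ∣ α - (x : 𝓞 K) ^ p := by
        rw [← Ideal.mem_span_singleton]
        exact Ideal.pow_le_self hp.ne_zero hcong
      have := dvd_sub hdvd h2
      rwa [sub_sub_cancel] at this
    have h3 : π ∣ (x : 𝓞 K) := hπ.dvd_of_dvd_pow h1
    have hcop : IsCoprime x (p : ℤ) :=
      ((Nat.prime_iff_prime_int.mp hp).irreducible.coprime_iff_not_dvd.mpr hpx).symm
    obtain ⟨a, b, hab⟩ := hcop
    have h4 : π ∣ (1 : 𝓞 K) := by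
      have : (1 : 𝓞 K) = (a : 𝓞 K) * (x : 𝓞 K) + (b : 𝓞 K) * (p : 𝓞 K) := by
        have := congrArg (fun z : ℤ => (z : 𝓞 K)) hab
        push_cast at this
        exact this.symm
      rw [this]
      exact dvd_add (Dvd.dvd.mul_left h3 _) (Dvd.dvd.mul_left hπp _)
    exact hπ.not_isUnit (isUnit_of_dvd_one h4)
  -- the ideal `I` is principal
  have hI0 : I ≠ ⊥ := by
    rintro rfl
    rw [Ideal.bot_pow hp.ne_zero, Ideal.span_singleton_eq_bot] at hI
    exact hα0 hI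
  have hprinc : I.IsPrincipal := by
    refine hD K ζ hζ α I hα0 ?_ hI
    intro δ c hc
    obtain ⟨β, _, hβ⟩ := htype δ c hc
    exact ⟨β, hβ⟩
  obtain ⟨a₀, ha₀⟩ := hprinc.principal
  rw [Ideal.submodule_span_eq] at ha₀
  have ha₀0 : a₀ ≠ 0 := by
    rintro rfl
    rw [Ideal.span_singleton_eq_bot.mpr rfl] at ha₀
    exact hI0 ha₀
  have hspan : Ideal.span {α} = Ideal.span {a₀ ^ p} := by
    rw [hI, ha₀, Ideal.span_singleton_pow]
  obtain ⟨u₀, hu₀⟩ := Ideal.span_singleton_eq_span_singleton.mp hspan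
  set u : (𝓞 K)ˣ := u₀⁻¹ with hu
  have hαu : α = (u : 𝓞 K) * a₀ ^ p := by
    rw [← hu₀, hu, mul_comm α, ← mul_assoc, Units.inv_mul, one_mul]
  -- `u` has type `ω²`
  have hutype : ∀ (δ : K ≃ₐ[ℚ] K) (c : ℕ), δ ζ = ζ ^ c →
      ∃ w : (𝓞 K)ˣ, δ ((u : 𝓞 K) : K) = ((u : 𝓞 K) : K) ^ (c ^ 2) * ((w : 𝓞 K) : K) ^ p := by
    intro δ c hc
    obtain ⟨β, _, hβ⟩ := htype δ c hc
    exact unit_type hp.pos α a₀ ha₀0 u hαu δ c β hβ
  have hζ' : ((hζ.toInteger : 𝓞 K) : K) = ζ := hζ.coe_toInteger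
  obtain ⟨j, w, hjw⟩ := hU K hζ.toInteger hζ.toInteger_isPrimitiveRoot u (UnitLocal.E2u hζ)
    (fun σ k hk => unit_type_skeleton u σ k (hutype σ k (by rwa [hζ'] at hk)))
    (fun σ k hk => unit_type_skeleton _ σ k (UnitLocal.E2u_type hζ h5 σ k (by rwa [hζ'] at hk)))
    (by
      rintro ⟨w, hw⟩
      apply UnitLocal.E2u_not_pow hζ h5 ((w : 𝓞 K) : K)
      rw [hw, Units.val_pow_eq_pow_val]
      show algebraMap (𝓞 K) K (_ ^ p) = _
      rw [map_pow])
  -- `α = E2u ^ j * z ^ p`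
  set E : 𝓞 K := ((UnitLocal.E2u hζ : (𝓞 K)ˣ) : 𝓞 K) with hE
  set z : 𝓞 K := (w : 𝓞 K) * a₀ with hz
  have hαE : α = E ^ j * z ^ p := by
    rw [hαu, hjw, Units.val_mul, Units.val_pow_eq_pow_val, Units.val_pow_eq_pow_val, hz, mul_pow,
      mul_assoc]
  have hzπ : ¬ π ∣ z := by
    intro hdvd
    apply hαπ
    rw [hαE]
    exact Dvd.dvd.mul_left (dvd_pow hdvd hp.ne_zero) _
  obtain ⟨t, ht⟩ := exists_inv_mod_cube hπ z hzπ
  have hcong3 : α - (x : 𝓞 K) ^ p ∈ Ideal.span {π} ^ 3 :=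
    Ideal.pow_le_pow_right (by omega : 3 ≤ p) hcong
  have hkey : E ^ j - ((x : 𝓞 K) * t) ^ p ∈ Ideal.span {π} ^ 3 := by
    obtain ⟨q, hq⟩ := sub_dvd_pow_sub_pow (z * t) 1 p
    rw [one_pow] at hq
    have e : E ^ j - ((x : 𝓞 K) * t) ^ p =
        t ^ p * (α - (x : 𝓞 K) ^ p) - E ^ j * q * (z * t - 1) := by
      rw [hαE]
      linear_combination (-(E ^ j)) * hq
    rw [e]
    exact Ideal.sub_mem _ (Ideal.mul_mem_left _ _ hcong3) (Ideal.mul_mem_left _ _ ht)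
  have hdvd : p ∣ j := by
    apply UnitLocal.dvd_of_pow_congr hζ h5 j ((x : 𝓞 K) * t)
    have : (Ideal.span {1 - hζ.toInteger} : Ideal (𝓞 K)) = Ideal.span {π} := by
      rw [hπdef, ← neg_sub, Ideal.span_singleton_neg]
    rw [this]
    exact hkey
  obtain ⟨j', rfl⟩ := hdvd
  apply hnp
  refine ⟨((E ^ j' * z : 𝓞 K) : K), ?_⟩
  rw [hαE]
  show (algebraMap (𝓞 K) K (E ^ j' * z)) ^ p = algebraMap (𝓞 K) K (E ^ (p * j') * z ^ p)
  rw [← map_pow]
  congr 1
  ring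


/-- **`CoreStd p` for `p ≥ 5` from the packages of `Skeleton.lean`.** -/
theorem coreStd_of_pkgs (p : ℕ) [Fact p.Prime] (h5 : 5 ≤ p)
    (hC : Skeleton.CharPkg p) (hT : Skeleton.ThainePkg p) (hDens : Skeleton.DensityPkg p)
    (hU : Skeleton.UnitEigenPkg p) : CoreStd.CoreStd p :=
  coreStd_of_classInputElt p h5 (classInputElt_of_pkgs p h5 hC hT hDens) hU

end Fermat.Agent.S14.EndPkgs
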