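import Mathlib

/-!
# Euler products over the nonzero ideals of a Dedekind domain

`Fermat.Agent.S14.EulerIdeal`: for a Dedekind domain `R` and a completely multiplicative,
norm-summable function `f` on the monoid of nonzero ideals,
`∑' I, f I = ∏' Q, (1 - f Q)⁻¹`, the product running over the height one primes.
-/

set_option autoImplicit false
set_option linter.unusedSectionVars false

open IsDedekindDomain nonZeroDivisors Filter Topology

namespace Fermat.Agent.S14.EulerIdeal

variable {R : Type*} [CommRing R] [IsDedekindDomain R]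

/-- A height one prime as a nonzero ideal. -/
noncomputable def primeNZ (Q : HeightOneSpectrum R) : (Ideal R)⁰ :=
  ⟨Q.asIdeal, mem_nonZeroDivisors_of_ne_zero Q.ne_bot⟩

@[simp] theorem primeNZ_coe (Q : HeightOneSpectrum R) : ((primeNZ Q : (Ideal R)⁰) : Ideal R) = Q.asIdeal :=
  rfl

/-- The nonzero ideals all of whose prime divisors lie in `T`. -/
def smoothSet (T : Finset (HeightOneSpectrum R)) : Set (Ideal R)⁰ :=
  {I | ∀ Q : HeightOneSpectrum R, Q.asIdeal ∣ (I : Ideal R) → Q ∈ T}

theorem mem_smoothSet {T : Finset (HeightOneSpectrum R)} {I : (Ideal R)⁰} :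
    I ∈ smoothSet T ↔ ∀ Q : HeightOneSpectrum R, Q.asIdeal ∣ (I : Ideal R) → Q ∈ T := Iff.rfl

theorem smoothSet_mono {T T' : Finset (HeightOneSpectrum R)} (h : T ⊆ T') :
    smoothSet T ⊆ smoothSet T' := fun _ hI Q hQ => h (hI Q hQ)

theorem coe_ne_zero (I : (Ideal R)⁰) : (I : Ideal R) ≠ 0 := nonZeroDivisors.coe_ne_zero I

/-- A nonzero ideal without prime divisors is the unit ideal. -/
theorem eq_one_of_forall_not_dvd {I : (Ideal R)⁰}
    (h : ∀ Q : HeightOneSpectrum R, ¬ Q.asIdeal ∣ (I : Ideal R)) : I = 1 := by
  apply Subtype.ext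
  change (I : Ideal R) = 1
  rw [Ideal.one_eq_top]
  by_contra htop
  obtain ⟨M, hM, hIM⟩ := Ideal.exists_le_maximal (I : Ideal R) htop
  have hMbot : M ≠ ⊥ := by
    rintro rfl
    exact coe_ne_zero I (le_bot_iff.mp hIM)
  exact h ⟨M, hM.isPrime, hMbot⟩ (Ideal.dvd_iff_le.mpr hIM)

theorem smoothSet_empty : smoothSet (∅ : Finset (HeightOneSpectrum R)) = {1} := by
  ext I
  constructor
  · intro hI
    exact eq_one_of_forall_not_dvd fun Q hQ => by simpa using hI Q hQ
  · rintro rfl Q hQ
    exfalso
    have : Q.asIdeal = ⊤ := by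
      have h1 : ((1 : (Ideal R)⁰) : Ideal R) = ⊤ := Ideal.one_eq_top
      rw [h1] at hQ
      exact top_le_iff.mp (Ideal.dvd_iff_le.mp hQ)
    exact Q.isPrime.ne_top this

theorem dvd_primeNZ_iff {P Q : HeightOneSpectrum R} : P.asIdeal ∣ Q.asIdeal ↔ P = Q := by
  constructor
  · intro h
    have hle : Q.asIdeal ≤ P.asIdeal := Ideal.dvd_iff_le.mp h
    have hQmax : Q.asIdeal.IsMaximal := Q.isPrime.isMaximal Q.ne_bot
    exact (HeightOneSpectrum.ext (hQmax.eq_of_le P.isPrime.ne_top hle)).symm
  · rintro rfl
    exact dvd_rfl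

/-- Decomposition of the `insert Q T`-smooth ideals. -/
theorem smoothSet_insert {T : Finset (HeightOneSpectrum R)} {Q : HeightOneSpectrum R}
    [DecidableEq (HeightOneSpectrum R)] :
    smoothSet (insert Q T) = smoothSet T ∪ (fun I => primeNZ Q * I) '' smoothSet (insert Q T) := by
  ext I
  constructor
  · intro hI
    by_cases hQ : Q.asIdeal ∣ (I : Ideal R)
    · right
      obtain ⟨J, hJ⟩ := hQ
      have hJ0 : J ≠ 0 := by
        rintro rfl
        exact coe_ne_zero I (by rw [hJ, mul_zero])
      refine ⟨⟨J, mem_nonZeroDivisors_of_ne_zero hJ0⟩, ?_, ?_⟩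
      · intro P hP
        apply hI P
        rw [hJ]
        exact Dvd.dvd.mul_left hP _
      · apply Subtype.ext
        change Q.asIdeal * J = I
        exact hJ.symm
    · left
      intro P hP
      have := hI P hP
      rcases Finset.mem_insert.mp this with rfl | h
      · exact absurd hP hQ
      · exact h
  · rintro (hI | ⟨J, hJ, rfl⟩)
    · exact smoothSet_mono (Finset.subset_insert _ _) hI
    · intro P hP
      have hP' : P.asIdeal ∣ Q.asIdeal * (J : Ideal R) := hP
      rcases P.prime.dvd_or_dvd hP' with h | h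
      · rw [dvd_primeNZ_iff.mp h]
        exact Finset.mem_insert_self _ _
      · exact hJ P h

theorem disjoint_smoothSet_image {T : Finset (HeightOneSpectrum R)} {Q : HeightOneSpectrum R}
    (hQ : Q ∉ T) (S : Set (Ideal R)⁰) :
    Disjoint (smoothSet T) ((fun I => primeNZ Q * I) '' S) := by
  rw [Set.disjoint_left]
  rintro I hI ⟨J, _, rfl⟩
  exact hQ (hI Q ⟨(J : Ideal R), rfl⟩)

theorem mul_left_injective_primeNZ (Q : HeightOneSpectrum R) :
    Function.Injective (fun I : (Ideal R)⁰ => primeNZ Q * I) := by
  intro I J h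
  apply Subtype.ext
  have : Q.asIdeal * (I : Ideal R) = Q.asIdeal * (J : Ideal R) := congrArg Subtype.val h
  exact mul_left_cancel₀ Q.ne_bot this

section Complex

variable {F : Type*} [NormedField F] [CompleteSpace F]

/-- The norm of `f Q` is `< 1` when `f` is multiplicative and norm-summable. -/
theorem norm_prime_lt_one (f : (Ideal R)⁰ →* F) (hf : Summable fun I => ‖f I‖)
    (Q : HeightOneSpectrum R) : ‖f (primeNZ Q)‖ < 1 := by
  by_contra h
  rw [not_lt] at h
  -- the powers of `Q` are pairwise distinct, and `‖f (Q^n)‖ ≥ 1`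
  have hinj : Function.Injective (fun n : ℕ => (primeNZ Q) ^ n) := by
    intro m n hmn
    have h1 : Q.asIdeal ^ m = Q.asIdeal ^ n := by
      have := congrArg Subtype.val hmn
      simpa using this
    have hnu : ¬ IsUnit Q.asIdeal := by
      rw [Ideal.isUnit_iff]
      exact Q.isPrime.ne_top
    exact pow_injective_of_not_isUnit hnu Q.ne_bot h1
  have hsum : Summable fun n : ℕ => ‖f ((primeNZ Q) ^ n)‖ := hf.comp_injective hinj
  have htend := hsum.tendsto_atTop_zero
  have hge : ∀ n : ℕ, 1 ≤ ‖f ((primeNZ Q) ^ n)‖ := by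
    intro n
    rw [map_pow, norm_pow]
    exact one_le_pow₀ h
  have : (1 : ℝ) ≤ 0 := ge_of_tendsto' htend hge
  linarith

theorem summable_subtype (f : (Ideal R)⁰ →* F) (hf : Summable fun I => ‖f I‖)
    (S : Set (Ideal R)⁰) : Summable fun I : S => f I :=
  (hf.of_norm).subtype S

/-- Finite Euler product: sum over the `T`-smooth ideals. -/
theorem tsum_smoothSet (f : (Ideal R)⁰ →* F) (hf : Summable fun I => ‖f I‖)
    (T : Finset (HeightOneSpectrum R)) :
    ∑' I : smoothSet T, f I = ∏ Q ∈ T, (1 - f (primeNZ Q))⁻¹ := by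
  classical
  induction T using Finset.induction_on with
  | empty =>
    rw [smoothSet_empty, Finset.prod_empty, tsum_singleton (1 : (Ideal R)⁰) (fun I => f I), map_one]
  | insert Q T hQ ih =>
    rw [Finset.prod_insert hQ, ← ih]
    set A := ∑' I : smoothSet T, f I with hA
    set A' := ∑' I : smoothSet (insert Q T), f I with hA'
    have h1 : A' = ∑' I : ↑(smoothSet T ∪ (fun I => primeNZ Q * I) '' smoothSet (insert Q T)),
        f I := by
      rw [hA']
      exact tsum_congr_set_coe (fun I => f I) smoothSet_insert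
    have h2 : ∑' I : ↑(smoothSet T ∪ (fun I => primeNZ Q * I) '' smoothSet (insert Q T)), f I
        = A + ∑' I : ↑((fun I => primeNZ Q * I) '' smoothSet (insert Q T)), f I :=
      Summable.tsum_union_disjoint (f := fun I => f I)
        (disjoint_smoothSet_image hQ _) (summable_subtype f hf _) (summable_subtype f hf _)
    have h3 : ∑' I : ↑((fun I => primeNZ Q * I) '' smoothSet (insert Q T)), f I
        = f (primeNZ Q) * A' := by
      rw [tsum_image (fun I => f I) (mul_left_injective_primeNZ Q).injOn]
      simp only [map_mul]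
      rw [Summable.tsum_mul_left]
      exact summable_subtype f hf _
    have hdec : A' = A + f (primeNZ Q) * A' := by
      rw [← h3, ← h2]
      exact h1
    have hne : (1 - f (primeNZ Q)) ≠ 0 := by
      intro h0
      have h1 : f (primeNZ Q) = 1 := (sub_eq_zero.mp h0).symm
      have := norm_prime_lt_one f hf Q
      rw [h1, norm_one] at this
      exact lt_irrefl _ this
    have : (1 - f (primeNZ Q)) * A' = A := by
      rw [sub_mul, one_mul]
      nth_rewrite 1 [hdec]
      ring
    rw [← this]
    field_simp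

/-- **Euler product** over the height one primes of a Dedekind domain. -/
theorem hasProd_euler (f : (Ideal R)⁰ →* F) (hf : Summable fun I => ‖f I‖) :
    HasProd (fun Q : HeightOneSpectrum R => (1 - f (primeNZ Q))⁻¹) (∑' I, f I) := by
  classical
  rw [HasProd]
  simp only [SummationFilter.unconditional_filter]
  have key : Tendsto (fun T : Finset (HeightOneSpectrum R) =>
      ∑' I, (smoothSet T).indicator (fun I => f I) I) atTop (𝓝 (∑' I, f I)) := by
    refine tendsto_tsum_of_dominated_convergence (bound := fun I => ‖f I‖) hf ?_ ?_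
    · intro I
      refine tendsto_const_nhds.congr' ?_
      have hfin := Ideal.finite_factors (coe_ne_zero I)
      filter_upwards [eventually_ge_atTop hfin.toFinset] with T hT
      rw [Set.indicator_of_mem]
      intro Q hQ
      exact hT (hfin.mem_toFinset.mpr hQ)
    · filter_upwards with T I
      exact norm_indicator_le_norm_self _ _
  refine key.congr fun T => ?_
  rw [← tsum_subtype, tsum_smoothSet f hf T]

end Complex

end Fermat.Agent.S14.EulerIdeal
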