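import Fermat.Agent.S14.ZetaIdeal

/-!
# Partial zeta functions: sums of `N(I)^(-s)` over a set of nonzero ideals

`Fermat.Agent.S14.ZetaClass`: for a set `𝒜` of nonzero ideals of a number field, the real sum
`∑_{I ∈ 𝒜} N(I)^(-s)` (`s > 1`) is the `L`-series of the counting function
`n ↦ #{I ∈ 𝒜 | N(I) = n}`, whose partial sums count the ideals of `𝒜` of norm `≤ n`.
-/

set_option autoImplicit false
set_option linter.unusedSectionVars false

open NumberField nonZeroDivisors Filter Topology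

namespace Fermat.Agent.S14.ZetaClass

open Fermat.Agent.S14.ZetaIdeal

variable (K : Type*) [Field K] [NumberField K] (𝒜 : Set (Ideal (𝓞 K))⁰)

/-- number of ideals of `𝒜` of norm `n` -/
noncomputable def cnt (n : ℕ) : ℕ := Nat.card {I : 𝒜 // nrm K I.1 = n}

instance finite_fiber (n : ℕ) : Finite {I : 𝒜 // nrm K I.1 = n} :=
  Finite.of_injective
    (fun I : {I : 𝒜 // nrm K I.1 = n} =>
      (⟨I.1.1, I.2⟩ : {I : (Ideal (𝓞 K))⁰ // nrm K I = n}))
    (fun I J h => Subtype.ext (Subtype.ext (congrArg (fun x => x.1) h)))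

theorem cnt_le_coeff {n : ℕ} (hn : n ≠ 0) : cnt K 𝒜 n ≤ coeff K n := by
  rw [← card_fiber K hn]
  unfold cnt
  exact Nat.card_le_card_of_injective
    (fun I : {I : 𝒜 // nrm K I.1 = n} =>
      (⟨I.1.1, I.2⟩ : {I : (Ideal (𝓞 K))⁰ // nrm K I = n}))
    (fun I J h => Subtype.ext (Subtype.ext (congrArg (fun x => x.1) h)))

theorem cnt_zero : cnt K 𝒜 0 = 0 := by
  unfold cnt
  have : IsEmpty {I : 𝒜 // nrm K I.1 = 0} := ⟨fun I => nrm_ne_zero I.1.1 I.2⟩
  exact Nat.card_of_isEmpty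

theorem summable_cnt_mul_rpow {s : ℝ} (hs : 1 < s) :
    Summable fun n : ℕ => (cnt K 𝒜 n : ℝ) * (n : ℝ) ^ (-s) := by
  refine Summable.of_nonneg_of_le (fun n => by positivity) (fun n => ?_)
    (summable_coeff_mul_rpow K hs)
  rcases eq_or_ne n 0 with rfl | hn
  · rw [cnt_zero, Nat.cast_zero, zero_mul]
    positivity
  · exact mul_le_mul_of_nonneg_right (Nat.cast_le.mpr (cnt_le_coeff K 𝒜 hn)) (by positivity)

theorem lseriesSummable_cnt {s : ℝ} (hs : 1 < s) :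
    LSeriesSummable (fun n => (cnt K 𝒜 n : ℂ)) (s : ℂ) := by
  unfold LSeriesSummable
  refine Summable.of_norm_bounded (summable_cnt_mul_rpow K 𝒜 hs) fun n => ?_
  rcases eq_or_ne n 0 with rfl | hn
  · rw [LSeries.term_zero, norm_zero]; positivity
  · rw [LSeries.term_of_ne_zero hn, norm_div, Complex.norm_natCast,
      Complex.norm_natCast_cpow_of_pos (Nat.pos_of_ne_zero hn), Complex.ofReal_re,
      Real.rpow_neg (Nat.cast_nonneg _), div_eq_mul_inv]

/-- the partial zeta function of `𝒜` -/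
noncomputable def zetaA (s : ℝ) : ℝ := ∑' I : 𝒜, normPow K s I.1

theorem summable_normPow_subtype {s : ℝ} (hs : 1 < s) : Summable fun I : 𝒜 => normPow K s I.1 :=
  (summable_normPow K hs).subtype 𝒜

theorem tsum_fiber {s : ℝ} (n : ℕ) :
    ∑' I : {I : 𝒜 // nrm K I.1 = n}, normPow K s I.1.1 = (cnt K 𝒜 n : ℝ) * (n : ℝ) ^ (-s) := by
  have : ∀ I : {I : 𝒜 // nrm K I.1 = n}, normPow K s I.1.1 = (n : ℝ) ^ (-s) := by
    intro I
    rw [normPow_apply, I.2]
  rw [tsum_congr this, tsum_const, nsmul_eq_mul, cnt]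

theorem zetaA_eq_tsum_cnt {s : ℝ} (hs : 1 < s) :
    zetaA K 𝒜 s = ∑' n : ℕ, (cnt K 𝒜 n : ℝ) * (n : ℝ) ^ (-s) := by
  unfold zetaA
  set e := Equiv.sigmaFiberEquiv (fun I : 𝒜 => nrm K I.1) with he
  set f : 𝒜 → ℝ := fun I => normPow K s I.1 with hf
  have h1 : ∑' I : 𝒜, f I = ∑' c, f (e c) := (Equiv.tsum_eq e f).symm
  have hf0 : Summable f := summable_normPow_subtype K 𝒜 hs
  have hsum : Summable (fun c => f (e c)) := hf0.comp_injective e.injective
  have h2 : ∑' c, f (e c) = ∑' (n : ℕ) (I : {I : 𝒜 // nrm K I.1 = n}), f (e ⟨n, I⟩) :=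
    Summable.tsum_sigma' (fun n => Summable.of_finite) hsum
  rw [h1, h2]
  exact tsum_congr fun n => tsum_fiber K 𝒜 n

theorem ofReal_zetaA {s : ℝ} (hs : 1 < s) :
    ((zetaA K 𝒜 s : ℝ) : ℂ) = LSeries (fun n => (cnt K 𝒜 n : ℂ)) (s : ℂ) := by
  rw [zetaA_eq_tsum_cnt K 𝒜 hs, LSeries, Complex.ofReal_tsum]
  refine tsum_congr fun n => ?_
  rcases eq_or_ne n 0 with rfl | hn
  · rw [LSeries.term_zero, cnt_zero]; simp
  · rw [LSeries.term_of_ne_zero hn, Complex.ofReal_mul, Complex.ofReal_natCast,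
      Complex.ofReal_cpow (Nat.cast_nonneg _), Complex.ofReal_neg, Complex.cpow_neg,
      Complex.ofReal_natCast, div_eq_mul_inv]

/-- partial sums of `cnt` count ideals of bounded norm -/
theorem sum_cnt (n : ℕ) :
    ∑ k ∈ Finset.Icc 1 n, cnt K 𝒜 k = Nat.card {I : 𝒜 // nrm K I.1 ≤ n} := by
  unfold cnt
  have hfin : ∀ k ∈ Finset.Icc 1 n, {I : 𝒜 | nrm K I.1 = k}.Finite := fun k _ =>
    @Set.toFinite _ {I : 𝒜 | nrm K I.1 = k} (finite_fiber K 𝒜 k)
  rw [← Finset.card_preimage_eq_sum_card_image_eq (f := fun I : 𝒜 => nrm K I.1) hfin]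
  refine Nat.card_congr (Equiv.subtypeEquivRight fun I => ?_)
  simp only [Set.mem_preimage, Finset.coe_Icc, Set.mem_Icc]
  exact ⟨fun h => h.2, fun h => ⟨nrm_pos I.1, h⟩⟩

end Fermat.Agent.S14.ZetaClass
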