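import Fermat.Agent.S14.LClass
import Fermat.Agent.S14.ZetaClass

/-!
# `L(s, ψ)` is bounded near `s = 1` for a nontrivial class group character

`Fermat.Agent.S14.LBounded`: from an ideal count per class with a power-saving error term.
-/

set_option autoImplicit false
set_option linter.unusedSectionVars false

open NumberField nonZeroDivisors Filter Topology MeasureTheory

namespace Fermat.Agent.S14.LBounded

open Fermat.Agent.S14.EulerIdeal Fermat.Agent.S14.ZetaIdeal Fermat.Agent.S14.ZetaClass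
  Fermat.Agent.S14.LClass

variable (K : Type*) [Field K] [NumberField K]

/-- the ideals in the class `C` -/
def classSet (C : ClassGroup (𝓞 K)) : Set (Ideal (𝓞 K))⁰ := {I | ClassGroup.mk0 I = C}

/-- number of ideals of class `C` and norm `≤ t` -/
noncomputable def countLE (C : ClassGroup (𝓞 K)) (t : ℝ) : ℕ :=
  Nat.card {I : (Ideal (𝓞 K))⁰ // (Ideal.absNorm (I : Ideal (𝓞 K)) : ℝ) ≤ t ∧ ClassGroup.mk0 I = C}

/-- **Hypothesis (LP)**: ideal count per class with error term `O(t^r)`. -/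
def CountRate (r : ℝ) : Prop :=
  ∃ κ : ℝ, ∀ C : ClassGroup (𝓞 K), ∃ B : ℝ, ∀ t : ℝ, 1 ≤ t →
    |(countLE K C t : ℝ) - κ * t| ≤ B * t ^ r

theorem card_classSet_le (C : ClassGroup (𝓞 K)) (n : ℕ) :
    Nat.card {I : classSet K C // nrm K I.1 ≤ n} = countLE K C n := by
  unfold countLE
  refine Nat.card_congr ?_
  refine
    { toFun := fun I => ⟨I.1.1, by exact_mod_cast I.2, I.1.2⟩
      invFun := fun I => ⟨⟨I.1, I.2.2⟩, by exact_mod_cast I.2.1⟩
      left_inv := fun I => rfl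
      right_inv := fun I => rfl }

/-- the coefficients of the `L`-series of `ψ` -/
noncomputable def acoef (ψ : ClassGroup (𝓞 K) →* ℂˣ) : ℕ → ℂ :=
  ∑ C : ClassGroup (𝓞 K), ((ψ C : ℂˣ) : ℂ) • fun n => (cnt K (classSet K C) n : ℂ)

theorem acoef_apply (ψ : ClassGroup (𝓞 K) →* ℂˣ) (n : ℕ) :
    acoef K ψ n = ∑ C : ClassGroup (𝓞 K), ((ψ C : ℂˣ) : ℂ) * (cnt K (classSet K C) n : ℂ) := by
  unfold acoef
  rw [Finset.sum_apply]
  rfl

theorem lseriesSummable_acoef (ψ : ClassGroup (𝓞 K) →* ℂˣ) {s : ℝ} (hs : 1 < s) :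
    LSeriesSummable (acoef K ψ) (s : ℂ) := by
  unfold acoef
  refine LSeriesSummable.sum fun C _ => ?_
  exact (lseriesSummable_cnt K (classSet K C) hs).smul _

theorem LSeries_acoef (ψ : ClassGroup (𝓞 K) →* ℂˣ) {s : ℝ} (hs : 1 < s) :
    LSeries (acoef K ψ) (s : ℂ) =
      ∑ C : ClassGroup (𝓞 K), ((ψ C : ℂˣ) : ℂ) * ((zetaA K (classSet K C) s : ℝ) : ℂ) := by
  unfold acoef
  rw [LSeries_sum fun C _ => (lseriesSummable_cnt K (classSet K C) hs).smul _]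
  refine Finset.sum_congr rfl fun C _ => ?_
  rw [LSeries_smul, ofReal_zetaA K _ hs]

/-- `L(s, ψ) = ∑_C ψ(C) ζ(s, C)` -/
theorem Lval_eq_sum (ψ : ClassGroup (𝓞 K) →* ℂˣ) {s : ℝ} (hs : 1 < s) :
    Lval K ψ s =
      ∑ C : ClassGroup (𝓞 K), ((ψ C : ℂˣ) : ℂ) * ((zetaA K (classSet K C) s : ℝ) : ℂ) := by
  unfold Lval
  set e := Equiv.sigmaFiberEquiv (fun I : (Ideal (𝓞 K))⁰ => ClassGroup.mk0 I) with he
  set f : (Ideal (𝓞 K))⁰ → ℂ := fun I => lterm K ψ s I with hf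
  have h1 : ∑' I, f I = ∑' c, f (e c) := (Equiv.tsum_eq e f).symm
  have hf0 : Summable f := (summable_norm_lterm K ψ hs).of_norm
  have hsum : Summable (fun c => f (e c)) := hf0.comp_injective e.injective
  have h2 : ∑' c, f (e c) =
      ∑' (C : ClassGroup (𝓞 K)) (I : {I : (Ideal (𝓞 K))⁰ // ClassGroup.mk0 I = C}), f (e ⟨C, I⟩) :=
    Summable.tsum_sigma' (fun C => hsum.sigma_factor C) hsum
  rw [h1, h2, tsum_fintype]
  refine Finset.sum_congr rfl fun C _ => ?_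
  unfold zetaA
  rw [Complex.ofReal_tsum, ← tsum_mul_left]
  refine tsum_congr fun I => ?_
  change lterm K ψ s I.1 = _
  rw [lterm_apply, chi_apply, I.2]

theorem Lval_eq_LSeries (ψ : ClassGroup (𝓞 K) →* ℂˣ) {s : ℝ} (hs : 1 < s) :
    Lval K ψ s = LSeries (acoef K ψ) (s : ℂ) := by
  rw [Lval_eq_sum K ψ hs, LSeries_acoef K ψ hs]

/-- partial sums of the coefficients -/
theorem sum_acoef (ψ : ClassGroup (𝓞 K) →* ℂˣ) (n : ℕ) :
    ∑ k ∈ Finset.Icc 1 n, acoef K ψ k =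
      ∑ C : ClassGroup (𝓞 K), ((ψ C : ℂˣ) : ℂ) * (countLE K C n : ℂ) := by
  simp_rw [acoef_apply]
  rw [Finset.sum_comm]
  refine Finset.sum_congr rfl fun C _ => ?_
  rw [← Finset.mul_sum, ← Nat.cast_sum, sum_cnt, card_classSet_le]

theorem sum_char_eq_zero {ψ : ClassGroup (𝓞 K) →* ℂˣ} (hψ : ψ ≠ 1) :
    ∑ C : ClassGroup (𝓞 K), ((ψ C : ℂˣ) : ℂ) = 0 := by
  have h := sum_hom_units_eq_zero ((Units.coeHom ℂ).comp ψ) ?_
  · simpa using h
  · intro h1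
    apply hψ
    ext C
    have := congrArg (fun g : ClassGroup (𝓞 K) →* ℂ => g C) h1
    simpa using this

/-- the key bound on the partial sums -/
theorem norm_sum_acoef_le {r : ℝ} (hr : 0 ≤ r) (hLP : CountRate K r)
    {ψ : ClassGroup (𝓞 K) →* ℂˣ} (hψ : ψ ≠ 1) :
    ∃ B : ℝ, 0 ≤ B ∧ ∀ n : ℕ, 1 ≤ n → ‖∑ k ∈ Finset.Icc 1 n, acoef K ψ k‖ ≤ B * (n : ℝ) ^ r := by
  obtain ⟨κ, hκ⟩ := hLP
  choose Bc hBc using hκ
  refine ⟨∑ C : ClassGroup (𝓞 K), |Bc C|, Finset.sum_nonneg fun C _ => abs_nonneg _, ?_⟩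
  intro n hn
  have hn1 : (1 : ℝ) ≤ (n : ℝ) := by exact_mod_cast hn
  rw [sum_acoef]
  have hsplit : ∑ C : ClassGroup (𝓞 K), ((ψ C : ℂˣ) : ℂ) * (countLE K C n : ℂ) =
      ∑ C : ClassGroup (𝓞 K), ((ψ C : ℂˣ) : ℂ) * (((countLE K C n : ℝ) - κ * n : ℝ) : ℂ) := by
    have h0 : ∑ C : ClassGroup (𝓞 K), ((ψ C : ℂˣ) : ℂ) * ((κ * n : ℝ) : ℂ) = 0 := by
      rw [← Finset.sum_mul, sum_char_eq_zero K hψ, zero_mul]
    rw [← sub_zero (∑ C : ClassGroup (𝓞 K), ((ψ C : ℂˣ) : ℂ) * (countLE K C n : ℂ)), ← h0,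
      ← Finset.sum_sub_distrib]
    refine Finset.sum_congr rfl fun C _ => ?_
    push_cast
    ring
  rw [hsplit, Finset.sum_mul]
  refine (norm_sum_le _ _).trans (Finset.sum_le_sum fun C _ => ?_)
  rw [norm_mul, Complex.norm_real, Real.norm_eq_abs]
  have hnorm : ‖((ψ C : ℂˣ) : ℂ)‖ = 1 := by
    have hcard : (C : ClassGroup (𝓞 K)) ^ Nat.card (ClassGroup (𝓞 K)) = 1 := pow_card_eq_one'
    have h1 : ((ψ C : ℂˣ) : ℂ) ^ Nat.card (ClassGroup (𝓞 K)) = 1 := by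
      rw [← Units.val_pow_eq_pow_val, ← map_pow, hcard, map_one, Units.val_one]
    exact Complex.norm_eq_one_of_pow_eq_one h1 Nat.card_pos.ne'
  rw [hnorm, one_mul]
  refine (hBc C n hn1).trans ?_
  exact mul_le_mul_of_nonneg_right (le_abs_self _) (Real.rpow_nonneg (by positivity) _)

/-- **`L(s, ψ)` is bounded on `(1, 2]`** for a nontrivial class group character, given the
ideal count with error term `O(t^r)`, `r < 1`. -/
theorem norm_Lval_le {r : ℝ} (hr0 : 0 ≤ r) (hr1 : r < 1) (hLP : CountRate K r)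
    {ψ : ClassGroup (𝓞 K) →* ℂˣ} (hψ : ψ ≠ 1) :
    ∃ B : ℝ, ∀ s : ℝ, 1 < s → s ≤ 2 → ‖Lval K ψ s‖ ≤ B := by
  obtain ⟨B₁, hB₁0, hB₁⟩ := norm_sum_acoef_le K hr0 hLP hψ
  refine ⟨2 * B₁ / (1 - r), fun s hs hs2 => ?_⟩
  rw [Lval_eq_LSeries K ψ hs]
  have hbigO : (fun n : ℕ => ∑ k ∈ Finset.Icc 1 n, acoef K ψ k) =O[atTop]
      fun n : ℕ => ((n : ℝ) ^ r : ℝ) := by
    refine Asymptotics.IsBigO.of_bound B₁ ?_
    filter_upwards [eventually_ge_atTop 1] with n hn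
    rw [Real.norm_eq_abs, abs_of_nonneg (Real.rpow_nonneg (Nat.cast_nonneg n) r)]
    exact hB₁ n hn
  have hsre : r < (s : ℂ).re := by
    rw [Complex.ofReal_re]; linarith
  rw [LSeries_eq_mul_integral (acoef K ψ) hr0 hsre (lseriesSummable_acoef K ψ hs) hbigO]
  rw [norm_mul, Complex.norm_real, Real.norm_eq_abs, abs_of_pos (by linarith : (0 : ℝ) < s)]
  have hexp : r - s - 1 < -1 := by linarith
  have hint : IntegrableOn (fun t : ℝ => B₁ * t ^ (r - s - 1)) (Set.Ioi 1) volume :=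
    (integrableOn_Ioi_rpow_of_lt hexp zero_lt_one).const_mul B₁
  have hbound : ‖∫ t in Set.Ioi (1 : ℝ), (∑ k ∈ Finset.Icc 1 ⌊t⌋₊, acoef K ψ k) *
      (t : ℂ) ^ (-((s : ℂ) + 1))‖ ≤ ∫ t in Set.Ioi (1 : ℝ), B₁ * t ^ (r - s - 1) := by
    refine norm_integral_le_of_norm_le hint ?_
    refine (ae_restrict_iff' measurableSet_Ioi).mpr (Eventually.of_forall fun t ht => ?_)
    have ht1 : (1 : ℝ) < t := ht
    have ht0 : (0 : ℝ) < t := by linarith
    have hfl : 1 ≤ ⌊t⌋₊ := Nat.one_le_floor_iff t |>.mpr ht1.le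
    rw [norm_mul, Complex.norm_cpow_eq_rpow_re_of_pos ht0]
    have hre : (-((s : ℂ) + 1)).re = -(s + 1) := by simp
    rw [hre]
    have h1 := hB₁ ⌊t⌋₊ hfl
    have h2 : ((⌊t⌋₊ : ℕ) : ℝ) ^ r ≤ t ^ r :=
      Real.rpow_le_rpow (Nat.cast_nonneg _) (Nat.floor_le ht0.le) hr0
    have h3 : t ^ (r - s - 1) = t ^ r * t ^ (-(s + 1)) := by
      rw [← Real.rpow_add ht0]; congr 1; ring
    rw [h3, ← mul_assoc]
    refine mul_le_mul_of_nonneg_right (h1.trans ?_) (Real.rpow_nonneg ht0.le _)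
    exact mul_le_mul_of_nonneg_left h2 hB₁0
  have hval : ∫ t in Set.Ioi (1 : ℝ), B₁ * t ^ (r - s - 1) = B₁ / (s - r) := by
    rw [integral_const_mul, integral_Ioi_rpow_of_lt hexp zero_lt_one, Real.one_rpow]
    have : r - s - 1 + 1 = -(s - r) := by ring
    rw [this]
    have hsr : s - r ≠ 0 := by linarith
    field_simp
  rw [hval] at hbound
  have hsr : 0 < s - r := by linarith
  have h1r : 0 < 1 - r := by linarith
  calc s * ‖∫ t in Set.Ioi (1 : ℝ), (∑ k ∈ Finset.Icc 1 ⌊t⌋₊, acoef K ψ k) *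
        (t : ℂ) ^ (-((s : ℂ) + 1))‖ ≤ s * (B₁ / (s - r)) :=
        mul_le_mul_of_nonneg_left hbound (by linarith)
    _ ≤ 2 * B₁ / (1 - r) := by
        rw [mul_div_assoc', div_le_div_iff₀ hsr h1r]
        have : s * B₁ * (1 - r) ≤ 2 * B₁ * (s - r) := by
          have ha : s * B₁ ≤ 2 * B₁ := mul_le_mul_of_nonneg_right hs2 hB₁0
          have hb : 1 - r ≤ s - r := by linarith
          exact mul_le_mul ha hb h1r.le (by positivity)
        exact this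

end Fermat.Agent.S14.LBounded
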