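import Fermat.Agent.S14.ZetaIdeal

/-!
# L-series of class group characters over the ideals (real `s > 1`), Euler products

`Fermat.Agent.S14.LClass`.
-/

set_option autoImplicit false
set_option linter.unusedSectionVars false

open NumberField IsDedekindDomain nonZeroDivisors Filter Topology

namespace Fermat.Agent.S14.LClass

open Fermat.Agent.S14.EulerIdeal Fermat.Agent.S14.ZetaIdeal

theorem one_le_finset_prod {ι : Type*} {f : ι → ℝ} (h1 : ∀ i, 1 ≤ f i) (T : Finset ι) :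
    1 ≤ ∏ i ∈ T, f i := by
  classical
  induction T using Finset.induction_on with
  | empty => simp
  | insert a T ha ih =>
    rw [Finset.prod_insert ha]
    calc (1 : ℝ) = 1 * 1 := by ring
      _ ≤ f a * ∏ i ∈ T, f i := mul_le_mul (h1 a) ih zero_le_one (le_trans zero_le_one (h1 a))

/-- Partial products of a convergent product with factors `≥ 1` are below the limit. -/
theorem prod_le_of_hasProd {ι : Type*} {f : ι → ℝ} {a : ℝ} (hf : HasProd f a)
    (h1 : ∀ i, 1 ≤ f i) (T : Finset ι) : ∏ i ∈ T, f i ≤ a := by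
  classical
  rw [HasProd] at hf
  simp only [SummationFilter.unconditional_filter] at hf
  refine ge_of_tendsto hf ?_
  filter_upwards [eventually_ge_atTop T] with T' hT'
  rw [← Finset.prod_sdiff hT']
  have h2 := one_le_finset_prod h1 (T' \ T)
  have h3 : 0 ≤ ∏ i ∈ T, f i := le_trans zero_le_one (one_le_finset_prod h1 T)
  calc ∏ i ∈ T, f i = 1 * ∏ i ∈ T, f i := by ring
    _ ≤ (∏ i ∈ T' \ T, f i) * ∏ i ∈ T, f i := mul_le_mul_of_nonneg_right h2 h3

theorem prod_range_one_sub_mul {ω : ℂ} {p : ℕ} (hp : 0 < p) (hω : IsPrimitiveRoot ω p) (x : ℂ) :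
    ∏ k ∈ Finset.range p, (1 - ω ^ k * x) = 1 - x ^ p := by
  classical
  have h := hω.pow_sub_pow_eq_prod_sub_mul (1 : ℂ) x hp
  rw [one_pow] at h
  rw [h]
  have himg : Polynomial.nthRootsFinset p (1 : ℂ) = (Finset.range p).image (fun k => ω ^ k) := by
    ext z
    have : NeZero p := ⟨hp.ne'⟩
    rw [Polynomial.mem_nthRootsFinset hp, Finset.mem_image]
    constructor
    · intro hz
      obtain ⟨i, hi, rfl⟩ := hω.eq_pow_of_pow_eq_one hz
      exact ⟨i, Finset.mem_range.mpr hi, rfl⟩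
    · rintro ⟨i, _, rfl⟩
      rw [← pow_mul, mul_comm, pow_mul, hω.pow_eq_one, one_pow]
  rw [himg, Finset.prod_image]
  intro i hi j hj hij
  exact hω.pow_inj (Finset.mem_range.mp hi) (Finset.mem_range.mp hj) hij

/-- the local factor of `∏_k L(s, ψ^k)`. -/
theorem prod_range_one_sub_pow_mul {ω : ℂ} {p : ℕ} (hp : p.Prime) (hω : ω ^ p = 1) (x : ℂ) :
    ∏ k ∈ Finset.range p, (1 - ω ^ k * x) = if ω = 1 then (1 - x) ^ p else 1 - x ^ p := by
  split_ifs with h1
  · subst h1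
    simp
  · have hord : orderOf ω = p := by
      have hdvd : orderOf ω ∣ p := orderOf_dvd_of_pow_eq_one hω
      rcases (Nat.dvd_prime hp).mp hdvd with h | h
      · exact absurd (orderOf_eq_one_iff.mp h) h1
      · exact h
    have hprim : IsPrimitiveRoot ω p := hord ▸ IsPrimitiveRoot.orderOf ω
    exact prod_range_one_sub_mul hp.pos hprim x

variable (K : Type*) [Field K] [NumberField K]

/-- the value of a class group character on a nonzero ideal -/
noncomputable def chi (ψ : ClassGroup (𝓞 K) →* ℂˣ) : (Ideal (𝓞 K))⁰ →* ℂ :=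
  (Units.coeHom ℂ).comp (ψ.comp ClassGroup.mk0)

theorem chi_apply (ψ : ClassGroup (𝓞 K) →* ℂˣ) (I : (Ideal (𝓞 K))⁰) :
    chi K ψ I = ((ψ (ClassGroup.mk0 I) : ℂˣ) : ℂ) := rfl

theorem norm_chi (ψ : ClassGroup (𝓞 K) →* ℂˣ) (I : (Ideal (𝓞 K))⁰) : ‖chi K ψ I‖ = 1 := by
  rw [chi_apply]
  have hfin : Finite (ClassGroup (𝓞 K)) := inferInstance
  have hcard : (ClassGroup.mk0 I : ClassGroup (𝓞 K)) ^ Nat.card (ClassGroup (𝓞 K)) = 1 :=
    pow_card_eq_one'
  have h1 : ((ψ (ClassGroup.mk0 I) : ℂˣ) : ℂ) ^ Nat.card (ClassGroup (𝓞 K)) = 1 := by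
    rw [← Units.val_pow_eq_pow_val, ← map_pow, hcard, map_one, Units.val_one]
  exact Complex.norm_eq_one_of_pow_eq_one h1 Nat.card_pos.ne'

/-- the terms of the `L`-series of `ψ` -/
noncomputable def lterm (ψ : ClassGroup (𝓞 K) →* ℂˣ) (s : ℝ) : (Ideal (𝓞 K))⁰ →* ℂ :=
  chi K ψ * (Complex.ofRealHom : ℝ →* ℂ).comp (normPow K s)

theorem lterm_apply (ψ : ClassGroup (𝓞 K) →* ℂˣ) (s : ℝ) (I : (Ideal (𝓞 K))⁰) :
    lterm K ψ s I = chi K ψ I * ((normPow K s I : ℝ) : ℂ) := rfl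

theorem norm_lterm (ψ : ClassGroup (𝓞 K) →* ℂˣ) (s : ℝ) (I : (Ideal (𝓞 K))⁰) :
    ‖lterm K ψ s I‖ = normPow K s I := by
  rw [lterm_apply, norm_mul, norm_chi, one_mul, Complex.norm_real, Real.norm_eq_abs,
    abs_of_pos (normPow_pos K s I)]

theorem summable_norm_lterm (ψ : ClassGroup (𝓞 K) →* ℂˣ) {s : ℝ} (hs : 1 < s) :
    Summable fun I => ‖lterm K ψ s I‖ := by
  simp_rw [norm_lterm]
  exact summable_normPow K hs

/-- The `L`-series of the class group character `ψ` at real `s`, as a sum over nonzero ideals. -/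
noncomputable def Lval (ψ : ClassGroup (𝓞 K) →* ℂˣ) (s : ℝ) : ℂ := ∑' I, lterm K ψ s I

theorem Lval_one (s : ℝ) : Lval K 1 s = ((zetaR K s : ℝ) : ℂ) := by
  unfold Lval zetaR
  rw [Complex.ofReal_tsum]
  refine tsum_congr fun I => ?_
  rw [lterm_apply, chi_apply]
  simp

theorem hasProd_Lval (ψ : ClassGroup (𝓞 K) →* ℂˣ) {s : ℝ} (hs : 1 < s) :
    HasProd (fun Q : HeightOneSpectrum (𝓞 K) => (1 - lterm K ψ s (primeNZ Q))⁻¹) (Lval K ψ s) :=
  hasProd_euler (lterm K ψ s) (summable_norm_lterm K ψ hs)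

theorem hasProd_zetaR {s : ℝ} (hs : 1 < s) :
    HasProd (fun Q : HeightOneSpectrum (𝓞 K) => (1 - normPow K s (primeNZ Q))⁻¹) (zetaR K s) := by
  refine hasProd_euler (normPow K s) ?_
  refine (summable_normPow K hs).congr fun I => ?_
  rw [Real.norm_eq_abs, abs_of_pos (normPow_pos K s I)]

theorem normPow_prime_lt_one {s : ℝ} (hs : 1 < s) (Q : HeightOneSpectrum (𝓞 K)) :
    normPow K s (primeNZ Q) < 1 := by
  have h := norm_prime_lt_one (normPow K s)
    ((summable_normPow K hs).congr fun I => by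
      rw [Real.norm_eq_abs, abs_of_pos (normPow_pos K s I)]) Q
  rwa [Real.norm_eq_abs, abs_of_pos (normPow_pos K s _)] at h

theorem one_le_factor {s : ℝ} (hs : 1 < s) (Q : HeightOneSpectrum (𝓞 K)) :
    1 ≤ (1 - normPow K s (primeNZ Q))⁻¹ := by
  have h1 := normPow_prime_lt_one K hs Q
  have h0 := normPow_pos K s (primeNZ Q)
  rw [one_le_inv₀ (by linarith)]
  linarith

/-- finite Euler products are below `ζ_K(s)`. -/
theorem prod_le_zetaR {s : ℝ} (hs : 1 < s) (T : Finset (HeightOneSpectrum (𝓞 K))) :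
    ∏ Q ∈ T, (1 - normPow K s (primeNZ Q))⁻¹ ≤ zetaR K s :=
  prod_le_of_hasProd (hasProd_zetaR K hs) (one_le_factor K hs) T

theorem chi_pow (ψ : ClassGroup (𝓞 K) →* ℂˣ) (k : ℕ) (I : (Ideal (𝓞 K))⁰) :
    chi K (ψ ^ k) I = chi K ψ I ^ k := by
  rw [chi_apply, chi_apply, MonoidHom.pow_apply, Units.val_pow_eq_pow_val]

theorem lterm_pow (ψ : ClassGroup (𝓞 K) →* ℂˣ) (k : ℕ) (s : ℝ) (I : (Ideal (𝓞 K))⁰) :
    lterm K (ψ ^ k) s I = chi K ψ I ^ k * ((normPow K s I : ℝ) : ℂ) := by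
  rw [lterm_apply, chi_pow]

/-- the real local factor of `∏_{k<p} L(s, ψ^k)` -/
noncomputable def locFactor (ψ : ClassGroup (𝓞 K) →* ℂˣ) (p : ℕ) (s : ℝ)
    (Q : HeightOneSpectrum (𝓞 K)) : ℝ :=
  open Classical in
  if chi K ψ (primeNZ Q) = 1 then ((1 - normPow K s (primeNZ Q))⁻¹) ^ p
  else (1 - normPow K s (primeNZ Q) ^ p)⁻¹

theorem one_le_locFactor (ψ : ClassGroup (𝓞 K) →* ℂˣ) {p : ℕ} (hp : p ≠ 0) {s : ℝ} (hs : 1 < s)
    (Q : HeightOneSpectrum (𝓞 K)) : 1 ≤ locFactor K ψ p s Q := by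
  unfold locFactor
  have h1 := normPow_prime_lt_one K hs Q
  have h0 := normPow_pos K s (primeNZ Q)
  split_ifs
  · exact one_le_pow₀ (one_le_factor K hs Q)
  · have hlt : normPow K s (primeNZ Q) ^ p < 1 := pow_lt_one₀ h0.le h1 hp
    have hpos : 0 < normPow K s (primeNZ Q) ^ p := pow_pos h0 p
    rw [one_le_inv₀ (by linarith)]
    linarith

theorem prod_factor_eq_locFactor (ψ : ClassGroup (𝓞 K) →* ℂˣ) {p : ℕ} (hp : p.Prime)
    (hψ : ψ ^ p = 1) (s : ℝ) (Q : HeightOneSpectrum (𝓞 K)) :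
    ∏ k ∈ Finset.range p, (1 - lterm K (ψ ^ k) s (primeNZ Q))⁻¹ =
      ((locFactor K ψ p s Q : ℝ) : ℂ) := by
  have hω : chi K ψ (primeNZ Q) ^ p = 1 := by
    rw [← chi_pow, hψ, chi_apply, MonoidHom.one_apply, Units.val_one]
  simp_rw [lterm_pow]
  rw [Finset.prod_inv_distrib, prod_range_one_sub_pow_mul hp hω]
  unfold locFactor
  split_ifs with h1
  · push_cast
    rw [inv_pow]
  · push_cast
    rfl

/-- **Key inequality**: the primes on which `ψ` is trivial contribute `p`-th powers of their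
Euler factors to `∏_{k<p} |L(s, ψ^k)|`. -/
theorem prod_pow_le_prod_norm_Lval (ψ : ClassGroup (𝓞 K) →* ℂˣ) {p : ℕ} (hp : p.Prime)
    (hψ : ψ ^ p = 1) {s : ℝ} (hs : 1 < s) (T0 : Finset (HeightOneSpectrum (𝓞 K)))
    (hT0 : ∀ Q ∈ T0, ψ (ClassGroup.mk0 (primeNZ Q)) = 1) :
    ∏ Q ∈ T0, ((1 - normPow K s (primeNZ Q))⁻¹) ^ p ≤
      ∏ k ∈ Finset.range p, ‖Lval K (ψ ^ k) s‖ := by
  classical
  have hprod : HasProd (fun Q : HeightOneSpectrum (𝓞 K) =>
      ∏ k ∈ Finset.range p, (1 - lterm K (ψ ^ k) s (primeNZ Q))⁻¹)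
      (∏ k ∈ Finset.range p, Lval K (ψ ^ k) s) :=
    hasProd_prod fun k _ => hasProd_Lval K (ψ ^ k) hs
  simp_rw [prod_factor_eq_locFactor K ψ hp hψ s] at hprod
  set P := ∏ k ∈ Finset.range p, Lval K (ψ ^ k) s with hP
  have hreal : HasProd (fun Q => locFactor K ψ p s Q) P.re := by
    rw [HasProd] at hprod ⊢
    simp only [SummationFilter.unconditional_filter] at hprod ⊢
    have := (Complex.continuous_re.tendsto P).comp hprod
    refine this.congr fun T => ?_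
    simp only [Function.comp_apply]
    rw [← Complex.ofReal_prod, Complex.ofReal_re]
  have h1 := prod_le_of_hasProd hreal (one_le_locFactor K ψ hp.ne_zero hs) T0
  have h2 : ∏ Q ∈ T0, locFactor K ψ p s Q = ∏ Q ∈ T0, ((1 - normPow K s (primeNZ Q))⁻¹) ^ p := by
    refine Finset.prod_congr rfl fun Q hQ => ?_
    unfold locFactor
    rw [if_pos]
    rw [chi_apply, hT0 Q hQ, Units.val_one]
  rw [← h2]
  refine h1.trans ((Complex.re_le_norm P).trans ?_)
  rw [hP, norm_prod]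

end Fermat.Agent.S14.LClass
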