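import Fermat.Agent.S14.ThaineRamAdapt
import Fermat.Agent.S14.ThaineInertia_helper24
import Fermat.Agent.S14.ThaineLocal_helper24

set_option autoImplicit false
set_option linter.unusedSectionVars false

/-!
# S14 / Thaine (T-h): the local congruence of Thaine's relation

`K = ℚ(ζ_p)`, `L = K(ζ_q)`, `q ≡ 1 (mod p)`, `τ ∈ Gal(L/K)` with `τ ζ_q = ζ_q ^ g`,
`ε = ζ ζ_q - 1` and `β ∈ 𝓞 L` with `τ β = ε β`.  If `𝔔` is a prime of `𝓞 L` above `q` and `r` is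
the exact order of `β` at `𝔔`, then `ζ - 1 ≡ g ^ r` modulo `𝔔 ∩ 𝓞 K`.
-/

namespace Fermat.Agent.S14.ThaineCong

open NumberField Ideal Fermat.Agent.S14.ThaineRam Fermat.Agent.S14.ThaineRamAdapt

variable (p q : ℕ) [hp : Fact p.Prime] [hq : Fact q.Prime]
variable (K L : Type*) [Field K] [NumberField K] [hK : IsCyclotomicExtension {p} ℚ K]
  [Field L] [NumberField L] [Algebra K L] [hL : IsCyclotomicExtension {q} K L]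

variable (𝔔 : Ideal (𝓞 L)) [h𝔔 : 𝔔.IsPrime]

include hq in
/-- a prime containing `q` is nonzero. -/
theorem ne_bot_of_mem (h : (q : 𝓞 L) ∈ 𝔔) : 𝔔 ≠ ⊥ := by
  intro h0
  rw [h0, Ideal.mem_bot, Nat.cast_eq_zero] at h
  exact hq.out.ne_zero h

include h𝔔 in
/-- every nonzero element has an exact order at a prime `𝔔`. -/
theorem exists_order {β : 𝓞 L} (hβ : β ≠ 0) : ∃ r : ℕ, β ∈ 𝔔 ^ r ∧ β ∉ 𝔔 ^ (r + 1) := by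
  classical
  have hex : ∃ n : ℕ, β ∉ 𝔔 ^ n := by
    by_contra hall
    push Not at hall
    have hmem : β ∈ ⨅ i : ℕ, 𝔔 ^ i := (Ideal.mem_iInf).mpr hall
    rw [Ideal.iInf_pow_eq_bot_of_isDomain 𝔔 h𝔔.ne_top, Ideal.mem_bot] at hmem
    exact hβ hmem
  have hfind := Nat.find_spec hex
  have hpos : Nat.find hex ≠ 0 := by
    intro h0
    rw [h0, pow_zero, Ideal.one_eq_top] at hfind
    exact hfind Submodule.mem_top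
  obtain ⟨r, hr⟩ := Nat.exists_eq_succ_of_ne_zero hpos
  refine ⟨r, ?_, ?_⟩
  · by_contra hnot
    have := Nat.find_min' hex hnot
    omega
  · rw [← Nat.succ_eq_add_one, ← hr]
    exact hfind

include hp hq hK hL h𝔔 in
/-- **Local congruence, integral form.** -/
theorem eps_sub_pow_mem (hqp : q % p = 1) (ζ : 𝓞 K) {z : 𝓞 L} (hz : IsPrimitiveRoot z q)
    (τ : 𝓞 L ≃ₐ[𝓞 K] 𝓞 L) {g : ℕ} (hτ : τ z = z ^ g) {β : 𝓞 L}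
    (hτβ : τ β = (algebraMap (𝓞 K) (𝓞 L) ζ * z - 1) * β) (h : (q : 𝓞 L) ∈ 𝔔) {r : ℕ}
    (hr : β ∈ 𝔔 ^ r) (hr' : β ∉ 𝔔 ^ (r + 1)) :
    (algebraMap (𝓞 K) (𝓞 L) ζ * z - 1) - (g : 𝓞 L) ^ r ∈ 𝔔 := by
  have : NeZero q := ⟨hq.out.ne_zero⟩
  have h𝔔0 : 𝔔 ≠ ⊥ := ne_bot_of_mem q L 𝔔 h
  have hQ0prime : (𝔔.under (𝓞 K)).IsPrime := Ideal.IsPrime.under (𝓞 K) 𝔔
  have hQ0over := under_liesOver q K L 𝔔 h
  have hQ0ne : 𝔔.under (𝓞 K) ≠ ⊥ := base_ne_bot q K (𝔔.under (𝓞 K))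
  have : (𝔔.under (𝓞 K)).IsMaximal := hQ0prime.isMaximal hQ0ne
  have : 𝔔.IsMaximal := h𝔔.isMaximal h𝔔0
  have hf := (ramificationIdx_inertiaDeg_of_mem p q K L 𝔔 hqp h).2
  have huniq := unique_over_under p q K L 𝔔 hqp h
  have h1 : ∀ x, (τ : 𝓞 L →+* 𝓞 L) x - x ∈ 𝔔 := fun x =>
    ThaineInertia_helper24.algEquiv_sub_mem (𝔔.under (𝓞 K)) 𝔔 hf huniq τ x
  have hπ : 1 - z ∈ 𝔔 := one_sub_zeta_mem q K L (𝔔.under (𝓞 K)) 𝔔 hz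
  have hπ2 : 1 - z ∉ 𝔔 ^ 2 := one_sub_zeta_not_mem_sq p q K L (𝔔.under (𝓞 K)) 𝔔 hqp hz
  exact ThaineLocal_helper24.eps_congr_of_pow h𝔔 h𝔔0 (τ : 𝓞 L →+* 𝓞 L) h1 hτ hπ hπ2 hτβ hr hr'

include hp hq hK hL h𝔔 in
/-- **Local congruence, contracted to `𝓞 K`**: `ζ - 1 ≡ g ^ r` modulo `𝔔 ∩ 𝓞 K`. -/
theorem sub_one_sub_pow_mem_under (hqp : q % p = 1) (ζ : 𝓞 K) {z : 𝓞 L}
    (hz : IsPrimitiveRoot z q) (τ : 𝓞 L ≃ₐ[𝓞 K] 𝓞 L) {g : ℕ} (hτ : τ z = z ^ g) {β : 𝓞 L}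
    (hτβ : τ β = (algebraMap (𝓞 K) (𝓞 L) ζ * z - 1) * β) (h : (q : 𝓞 L) ∈ 𝔔) {r : ℕ}
    (hr : β ∈ 𝔔 ^ r) (hr' : β ∉ 𝔔 ^ (r + 1)) :
    (ζ - 1) - (g : 𝓞 K) ^ r ∈ 𝔔.under (𝓞 K) := by
  have hQ0prime : (𝔔.under (𝓞 K)).IsPrime := Ideal.IsPrime.under (𝓞 K) 𝔔
  have hQ0over := under_liesOver q K L 𝔔 h
  have h1 := eps_sub_pow_mem p q K L 𝔔 hqp ζ hz τ hτ hτβ h hr hr'
  have hπ : 1 - z ∈ 𝔔 := one_sub_zeta_mem q K L (𝔔.under (𝓞 K)) 𝔔 hz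
  rw [Ideal.under_def, Ideal.mem_comap]
  have e : algebraMap (𝓞 K) (𝓞 L) ((ζ - 1) - (g : 𝓞 K) ^ r) =
      ((algebraMap (𝓞 K) (𝓞 L) ζ * z - 1) - (g : 𝓞 L) ^ r) +
        algebraMap (𝓞 K) (𝓞 L) ζ * (1 - z) := by
    simp only [map_sub, map_one, map_pow, map_natCast]
    ring
  rw [e]
  exact 𝔔.add_mem h1 (𝔔.mul_mem_left _ hπ)

include hp hq hK hL h𝔔 in
/-- the same with the other sign convention: `g' ^ r * (ζ - 1) ≡ 1` for an inverse `g'` of `g`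
modulo `q`. -/
theorem pow_mul_sub_one_mem_under (hqp : q % p = 1) (ζ : 𝓞 K) {z : 𝓞 L}
    (hz : IsPrimitiveRoot z q) (τ : 𝓞 L ≃ₐ[𝓞 K] 𝓞 L) {g g' : ℕ} (hτ : τ z = z ^ g)
    (hgg' : (q : ℤ) ∣ (g : ℤ) * g' - 1) {β : 𝓞 L}
    (hτβ : τ β = (algebraMap (𝓞 K) (𝓞 L) ζ * z - 1) * β) (h : (q : 𝓞 L) ∈ 𝔔) {r : ℕ}
    (hr : β ∈ 𝔔 ^ r) (hr' : β ∉ 𝔔 ^ (r + 1)) :
    (g' : 𝓞 K) ^ r * (ζ - 1) - 1 ∈ 𝔔.under (𝓞 K) := by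
  have h1 := sub_one_sub_pow_mem_under p q K L 𝔔 hqp ζ hz τ hτ hτβ h hr hr'
  have hqmem : (q : 𝓞 K) ∈ 𝔔.under (𝓞 K) := natCast_mem_under q K L 𝔔 h
  -- `(g g') ^ r - 1 ∈ Q`
  have h2 : ((g : 𝓞 K) * (g' : 𝓞 K)) ^ r - 1 ∈ 𝔔.under (𝓞 K) := by
    obtain ⟨c, hc⟩ := hgg'
    have h3 : (g : 𝓞 K) * (g' : 𝓞 K) - 1 = (q : 𝓞 K) * (c : 𝓞 K) := by
      have := congrArg (Int.cast : ℤ → 𝓞 K) hc
      push_cast at this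
      exact this
    have h4 : (g : 𝓞 K) * (g' : 𝓞 K) - 1 ∈ 𝔔.under (𝓞 K) := by
      rw [h3]
      exact Ideal.mul_mem_right _ _ hqmem
    obtain ⟨d, hd⟩ := sub_dvd_pow_sub_pow ((g : 𝓞 K) * (g' : 𝓞 K)) 1 r
    rw [one_pow] at hd
    rw [hd]
    exact Ideal.mul_mem_right _ _ h4
  have e : (g' : 𝓞 K) ^ r * (ζ - 1) - 1 =
      (g' : 𝓞 K) ^ r * ((ζ - 1) - (g : 𝓞 K) ^ r) + (((g : 𝓞 K) * (g' : 𝓞 K)) ^ r - 1) := by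
    ring
  rw [e]
  exact (𝔔.under (𝓞 K)).add_mem ((𝔔.under (𝓞 K)).mul_mem_left _ h1) h2

section FieldLevel

include hp hq hK hL h𝔔 in
/-- **Field-level form**: `τ : L ≃ₐ[K] L` with `τ ζ_q = ζ_q ^ g` and `τ β = ε β` in `L`. -/
theorem sub_one_sub_pow_mem_under' (hqp : q % p = 1) (ζ : 𝓞 K) {z : 𝓞 L}
    (hz : IsPrimitiveRoot z q) (τ : L ≃ₐ[K] L) {g : ℕ} (hτ : τ (z : L) = (z : L) ^ g)
    {β : 𝓞 L}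
    (hτβ : τ (β : L) = ((algebraMap (𝓞 K) (𝓞 L) ζ * z - 1 : 𝓞 L) : L) * (β : L))
    (h : (q : 𝓞 L) ∈ 𝔔) {r : ℕ} (hr : β ∈ 𝔔 ^ r) (hr' : β ∉ 𝔔 ^ (r + 1)) :
    (ζ - 1) - (g : 𝓞 K) ^ r ∈ 𝔔.under (𝓞 K) := by
  set τ' : 𝓞 L ≃ₐ[𝓞 K] 𝓞 L := galRestrict (𝓞 K) K L (𝓞 L) τ with hτ'
  have hτz : τ' z = z ^ g := by
    apply RingOfIntegers.ext
    have := algebraMap_galRestrict_apply (𝓞 K) τ z
    rw [← hτ'] at this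
    rw [show ((τ' z : 𝓞 L) : L) = algebraMap (𝓞 L) L (τ' z) from rfl, this]
    simpa using hτ
  have hτb : τ' β = (algebraMap (𝓞 K) (𝓞 L) ζ * z - 1) * β := by
    apply RingOfIntegers.ext
    have := algebraMap_galRestrict_apply (𝓞 K) τ β
    rw [← hτ'] at this
    rw [show ((τ' β : 𝓞 L) : L) = algebraMap (𝓞 L) L (τ' β) from rfl, this]
    simpa using hτβ
  exact sub_one_sub_pow_mem_under p q K L 𝔔 hqp ζ hz τ' hτz hτb h hr hr'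

end FieldLevel

end Fermat.Agent.S14.ThaineCong
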