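import Fermat.Agent.S14.ThaineCong
import Fermat.Agent.S14.ThaineH90

set_option autoImplicit false
set_option linter.unusedSectionVars false

/-!
# S14 / Thaine (T-h'): the local congruence in the shape of `ThaineH90.exists_thaine_data`

With `ε = ζ ζ_q - 1` a unit, `ε * τ • β = β`, `τ • ζ_q = ζ_q ^ g`, and `r` the exact order of `β` at
a prime `𝔔 ∣ q` of `𝓞 L`:  `g ^ r * (ζ - 1) ≡ 1` modulo `𝔔 ∩ 𝓞 K`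
(the sign of `ThaineRel` / `ThaineProj`, no inverse of `g` needed).
-/

namespace Fermat.Agent.S14.ThaineCongH90

open NumberField Ideal Fermat.Agent.S14.ThaineRam Fermat.Agent.S14.ThaineRamAdapt
  Fermat.Agent.S14.ThaineCong Fermat.Agent.S14.ThaineH90

variable (p q : ℕ) [hp : Fact p.Prime] [hq : Fact q.Prime]
variable (K L : Type*) [Field K] [NumberField K] [hK : IsCyclotomicExtension {p} ℚ K]
  [Field L] [NumberField L] [Algebra K L] [hL : IsCyclotomicExtension {q} K L]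

variable (𝔔 : Ideal (𝓞 L)) [h𝔔 : 𝔔.IsPrime]

include hp hq hK hL h𝔔 in
/-- generic local congruence: `τ β = ε β` (any `ε`), exact order `r` at `𝔔 ∣ q` ⇒ `ε ≡ g ^ r`. -/
theorem eps_congr (hqp : q % p = 1) {z : 𝓞 L} (hz : IsPrimitiveRoot z q)
    (τ : 𝓞 L ≃ₐ[𝓞 K] 𝓞 L) {g : ℕ} (hτ : τ z = z ^ g) {β ε : 𝓞 L} (hτβ : τ β = ε * β)
    (h : (q : 𝓞 L) ∈ 𝔔) {r : ℕ} (hr : β ∈ 𝔔 ^ r) (hr' : β ∉ 𝔔 ^ (r + 1)) :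
    ε - (g : 𝓞 L) ^ r ∈ 𝔔 := by
  have : NeZero q := ⟨hq.out.ne_zero⟩
  have h𝔔0 : 𝔔 ≠ ⊥ := ne_bot_of_mem q L 𝔔 h
  have hQ0prime : (𝔔.under (𝓞 K)).IsPrime := Ideal.IsPrime.under (𝓞 K) 𝔔
  have hQ0over := under_liesOver q K L 𝔔 h
  have hQ0ne : 𝔔.under (𝓞 K) ≠ ⊥ := base_ne_bot q K (𝔔.under (𝓞 K))
  have : (𝔔.under (𝓞 K)).IsMaximal := hQ0prime.isMaximal hQ0ne
  have : 𝔔.IsMaximal := h𝔔.isMaximal h𝔔0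
  have hf := (ramificationIdx_inertiaDeg_of_mem p q K L 𝔔 hqp h).2
  have huniq := unique_over_under p q K L 𝔔 hqp h
  have h1 : ∀ x, (τ : 𝓞 L →+* 𝓞 L) x - x ∈ 𝔔 := fun x =>
    ThaineInertia_helper24.algEquiv_sub_mem (𝔔.under (𝓞 K)) 𝔔 hf huniq τ x
  have hπ : 1 - z ∈ 𝔔 := one_sub_zeta_mem q K L (𝔔.under (𝓞 K)) 𝔔 hz
  have hπ2 : 1 - z ∉ 𝔔 ^ 2 := one_sub_zeta_not_mem_sq p q K L (𝔔.under (𝓞 K)) 𝔔 hqp hz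
  exact ThaineLocal_helper24.eps_congr_of_pow h𝔔 h𝔔0 (τ : 𝓞 L →+* 𝓞 L) h1 hτ hπ hπ2 hτβ hr hr'

include hp hq hK hL h𝔔 in
/-- **The congruence of `ThaineRel`** in the shape of `ThaineH90.exists_thaine_data`:
`g ^ r * (ζ - 1) - 1 ∈ 𝔔 ∩ 𝓞 K`. -/
theorem pow_mul_sub_one_mem_under_smul (hqp : q % p = 1) (ζ : 𝓞 K) {z : 𝓞 L}
    (hz : IsPrimitiveRoot z q) (τ : L ≃ₐ[K] L) {g : ℕ} (hτ : τ • z = z ^ g) {β : 𝓞 L}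
    (hu : IsUnit (eps K L ζ z)) (hτβ : eps K L ζ z * τ • β = β) (h : (q : 𝓞 L) ∈ 𝔔) {r : ℕ}
    (hr : β ∈ 𝔔 ^ r) (hr' : β ∉ 𝔔 ^ (r + 1)) :
    (g : 𝓞 K) ^ r * (ζ - 1) - 1 ∈ 𝔔.under (𝓞 K) := by
  have hQ0prime : (𝔔.under (𝓞 K)).IsPrime := Ideal.IsPrime.under (𝓞 K) 𝔔
  have hQ0over := under_liesOver q K L 𝔔 h
  set τ' : 𝓞 L ≃ₐ[𝓞 K] 𝓞 L := galRestrict (𝓞 K) K L (𝓞 L) τ with hτ'
  have hτz : τ' z = z ^ g := by rw [hτ', galRestrict_eq_smul, hτ]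
  obtain ⟨u, hu'⟩ := hu
  have hτb : τ' β = ((u⁻¹ : (𝓞 L)ˣ) : 𝓞 L) * β := by
    rw [hτ', galRestrict_eq_smul]
    rw [← hu'] at hτβ
    exact ((Units.inv_mul_eq_iff_eq_mul u).mpr hτβ.symm).symm
  have h1 := eps_congr p q K L 𝔔 hqp hz τ' hτz hτb h hr hr'
  -- `1 - ε g^r ∈ 𝔔`
  have h2 : 1 - eps K L ζ z * (g : 𝓞 L) ^ r ∈ 𝔔 := by
    have e : 1 - eps K L ζ z * (g : 𝓞 L) ^ r =
        (u : 𝓞 L) * (((u⁻¹ : (𝓞 L)ˣ) : 𝓞 L) - (g : 𝓞 L) ^ r) := by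
      rw [mul_sub, Units.mul_inv, hu']
    rw [e]
    exact 𝔔.mul_mem_left _ h1
  have hπ : 1 - z ∈ 𝔔 := one_sub_zeta_mem q K L (𝔔.under (𝓞 K)) 𝔔 hz
  rw [Ideal.under_def, Ideal.mem_comap]
  have e : algebraMap (𝓞 K) (𝓞 L) ((g : 𝓞 K) ^ r * (ζ - 1) - 1) =
      -(1 - eps K L ζ z * (g : 𝓞 L) ^ r) +
        (g : 𝓞 L) ^ r * (algebraMap (𝓞 K) (𝓞 L) ζ * (1 - z)) := by
    simp only [map_sub, map_mul, map_one, map_pow, map_natCast, eps]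
    ring
  rw [e]
  exact 𝔔.add_mem (𝔔.neg_mem h2) (𝔔.mul_mem_left _ (𝔔.mul_mem_left _ hπ))

end Fermat.Agent.S14.ThaineCongH90
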