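import Fermat.Agent.S14.ThaineRam

set_option autoImplicit false
set_option linter.unusedSectionVars false

/-!
# S14 / Thaine (T-d): adapters for `ThaineRam`

The statements of `ThaineRam` with the hypothesis `(q : 𝓞 L) ∈ 𝔔` instead of the `LiesOver`
instances.
-/

namespace Fermat.Agent.S14.ThaineRamAdapt

open NumberField Ideal Fermat.Agent.S14.ThaineRam
open scoped Pointwise

variable (p q : ℕ) [hp : Fact p.Prime] [hq : Fact q.Prime]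
variable (K L : Type*) [Field K] [NumberField K] [hK : IsCyclotomicExtension {p} ℚ K]
  [Field L] [NumberField L] [Algebra K L] [hL : IsCyclotomicExtension {q} K L]

variable (𝔔 : Ideal (𝓞 L)) [h𝔔 : 𝔔.IsPrime]

/-- the prime of `𝓞 K` below a prime of `𝓞 L` containing `q` contains `q`. -/
theorem natCast_mem_under (h : (q : 𝓞 L) ∈ 𝔔) : (q : 𝓞 K) ∈ 𝔔.under (𝓞 K) := by
  rw [Ideal.under_def, Ideal.mem_comap, map_natCast]
  exact h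

include h𝔔 in
theorem under_liesOver (h : (q : 𝓞 L) ∈ 𝔔) : (𝔔.under (𝓞 K)).LiesOver (span {(q : ℤ)}) :=
  haveI : (𝔔.under (𝓞 K)).IsPrime := Ideal.IsPrime.under (𝓞 K) 𝔔
  liesOver_of_natCast_mem q K _ (natCast_mem_under q K L 𝔔 h)

include hp hq hK hL h𝔔 in
/-- (R1) total ramification, residue degree one. -/
theorem ramificationIdx_inertiaDeg_of_mem (hqp : q % p = 1) (h : (q : 𝓞 L) ∈ 𝔔) :
    𝔔.ramificationIdx (𝓞 K) = q - 1 ∧ 𝔔.inertiaDeg (𝓞 K) = 1 := by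
  have : (𝔔.under (𝓞 K)).IsPrime := Ideal.IsPrime.under (𝓞 K) 𝔔
  have := under_liesOver q K L 𝔔 h
  exact ⟨ramificationIdx_eq p q K L (𝔔.under (𝓞 K)) 𝔔 hqp,
    inertiaDeg_eq p q K L (𝔔.under (𝓞 K)) 𝔔 hqp⟩

include hp hq hK hL h𝔔 in
/-- (R2) `𝔔` is the only prime above `𝔔 ∩ 𝓞 K`. -/
theorem eq_of_under_eq (hqp : q % p = 1) (h : (q : 𝓞 L) ∈ 𝔔) (𝔔' : Ideal (𝓞 L))
    [h𝔔' : 𝔔'.IsPrime] (hu : 𝔔'.under (𝓞 K) = 𝔔.under (𝓞 K)) : 𝔔' = 𝔔 := by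
  have : (𝔔.under (𝓞 K)).IsPrime := Ideal.IsPrime.under (𝓞 K) 𝔔
  have := under_liesOver q K L 𝔔 h
  have : 𝔔'.LiesOver (𝔔.under (𝓞 K)) := ⟨hu.symm⟩
  exact eq_of_liesOver p q K L (𝔔.under (𝓞 K)) 𝔔 hqp 𝔔'

include hp hq hK hL h𝔔 in
/-- (R2') the form consumed by `ThaineInertia_helper24.algEquiv_sub_mem`. -/
theorem unique_over_under (hqp : q % p = 1) (h : (q : 𝓞 L) ∈ 𝔔) :
    ∀ 𝔔' : Ideal (𝓞 L), 𝔔'.IsPrime → 𝔔'.LiesOver (𝔔.under (𝓞 K)) → 𝔔' = 𝔔 := by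
  intro 𝔔' h1 h2
  exact eq_of_under_eq p q K L 𝔔 hqp h 𝔔' h2.over.symm

include hp hq hK hL h𝔔 in
/-- (R2'') every `K`-automorphism of `L` fixes `𝔔` (pointwise action on ideals of `𝓞 L`). -/
theorem smul_eq (hqp : q % p = 1) (h : (q : 𝓞 L) ∈ 𝔔) (σ : Gal(L/K)) : σ • 𝔔 = 𝔔 := by
  have : IsGalois K L := IsCyclotomicExtension.isGalois {q} K L
  have hover : (σ • 𝔔).LiesOver (𝔔.under (𝓞 K)) := inferInstance
  have hprime : (σ • 𝔔).IsPrime := inferInstance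
  exact unique_over_under p q K L 𝔔 hqp h _ hprime hover

include hp hq hK hL h𝔔 in
/-- (R4) `1 - ζ_q` is a uniformiser at `𝔔`. -/
theorem uniformiser (hqp : q % p = 1) (h : (q : 𝓞 L) ∈ 𝔔) {ζq : L} (hζq : IsPrimitiveRoot ζq q) :
    haveI : NeZero q := ⟨hq.out.ne_zero⟩
    (1 - hζq.toInteger) ∈ 𝔔 ∧ (1 - hζq.toInteger) ∉ 𝔔 ^ 2 := by
  have : NeZero q := ⟨hq.out.ne_zero⟩
  have : (𝔔.under (𝓞 K)).IsPrime := Ideal.IsPrime.under (𝓞 K) 𝔔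
  have := under_liesOver q K L 𝔔 h
  have hz : IsPrimitiveRoot hζq.toInteger q := hζq.toInteger_isPrimitiveRoot
  exact ⟨one_sub_zeta_mem q K L (𝔔.under (𝓞 K)) 𝔔 hz,
    one_sub_zeta_not_mem_sq p q K L (𝔔.under (𝓞 K)) 𝔔 hqp hz⟩

end Fermat.Agent.S14.ThaineRamAdapt
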