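import Fermat.Agent.S14.ThaineNorm_helper29
import Fermat.Agent.S14.ThaineRamAdapt

set_option autoImplicit false

/-!
# Thaine's relation: the factorisation `hfac` in the cyclotomic setting (T-g2)

`K = ℚ(ζ_p)`, `L = K(ζ_q)`, `q ≡ 1 mod p`, `Q0` a prime of `𝓞 K`.  Given a family
`PP : Gal(K/ℚ) → Ideal (𝓞 L)` of primes over `q` with `(PP σ) ∩ 𝓞 K = σ • Q0`, injective, and such
that every other nonzero prime of `𝓞 L` is unramified over `𝓞 K`, and `β ≠ 0` in `𝓞 L` generating a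
Galois-stable ideal, we get exact orders `r σ` of `β` at `PP σ` and
`(N β) = 𝔠 ^ (q - 1) * ∏ σ, (σ • Q0) ^ r σ`.
-/

open scoped Pointwise NumberField

namespace Fermat.Agent.S14.ThaineFac_helper29

open Fermat.Agent.S14.ThaineNorm_helper29

variable (p q : ℕ) [hp : Fact p.Prime] [hq : Fact q.Prime]
variable (K L : Type*) [Field K] [NumberField K] [hK : IsCyclotomicExtension {p} ℚ K]
  [Field L] [NumberField L] [Algebra K L] [hL : IsCyclotomicExtension {q} K L]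

include hp hq hK hL in
/-- `|Gal(L/K)| = q - 1`. -/
theorem card_gal (hqp : q % p = 1) : Nat.card Gal(L/K) = q - 1 := by
  have : IsGalois K L := IsCyclotomicExtension.isGalois {q} K L
  rw [IsGalois.card_aut_eq_finrank, ThaineRam.finrank_eq p q K L (ThaineRam.ne_of_mod p q hqp)]

include hp hq hK hL in
/-- **hfac**, with the Galois stability of `(β)` given elementwise. -/
theorem hfac (hqp : q % p = 1) (Q0 : Ideal (𝓞 K)) (PP : Gal(K/ℚ) → Ideal (𝓞 L))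
    (hprime : ∀ σ, (PP σ).IsPrime) (hmem : ∀ σ, (q : 𝓞 L) ∈ PP σ)
    (hunder : ∀ σ, (PP σ).under (𝓞 K) = σ • Q0) (hinj : Function.Injective PP)
    (hunr : ∀ 𝔔 : Ideal (𝓞 L), 𝔔.IsPrime → 𝔔 ≠ ⊥ → (∀ σ, 𝔔 ≠ PP σ) →
      𝔔.ramificationIdx (𝓞 K) = 1)
    (β : 𝓞 L) (hβ : β ≠ 0) (hinv : ∀ σ : Gal(L/K), ∃ v : (𝓞 L)ˣ, σ • β = v * β) :
    ∃ (𝔠 : Ideal (𝓞 K)) (r : Gal(K/ℚ) → ℕ),
      (∀ σ, β ∈ PP σ ^ r σ ∧ β ∉ PP σ ^ (r σ + 1)) ∧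
      Algebra.intNorm (𝓞 K) (𝓞 L) β ≠ 0 ∧
      Ideal.span {Algebra.intNorm (𝓞 K) (𝓞 L) β} =
        𝔠 ^ (q - 1) * ∏ σ : Gal(K/ℚ), (σ • Q0) ^ r σ := by
  have hgal : IsGalois K L := IsCyclotomicExtension.isGalois {q} K L
  have hGG : IsGaloisGroup Gal(L/K) (𝓞 K) (𝓞 L) :=
    IsGaloisGroup.of_isFractionRing Gal(L/K) (𝓞 K) (𝓞 L) K L
  have hq0 : (q : 𝓞 L) ≠ 0 := by
    rw [Nat.cast_ne_zero]
    exact hq.out.ne_zero
  have hne : ∀ σ, PP σ ≠ ⊥ := by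
    intro σ h
    have := hmem σ
    rw [h, Ideal.mem_bot] at this
    exact hq0 this
  have hfix : ∀ σ (ρ : Gal(L/K)), ρ • PP σ = PP σ := by
    intro σ ρ
    have := hprime σ
    exact ThaineRamAdapt.smul_eq p q K L (PP σ) hqp (hmem σ) ρ
  have hf : ∀ σ, (PP σ).inertiaDeg (𝓞 K) = 1 := by
    intro σ
    have := hprime σ
    exact (ThaineRamAdapt.ramificationIdx_inertiaDeg_of_mem p q K L (PP σ) hqp (hmem σ)).2
  choose r hr hr' using fun σ => exists_exact_order (PP σ) (hprime σ) hβ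
  obtain ⟨𝔠, h𝔠⟩ := span_intNorm_eq (A := 𝓞 K) (G := Gal(L/K)) PP hprime hne hinj hfix hf hunr
    β hβ hinv r hr hr'
  refine ⟨𝔠, r, fun σ => ⟨hr σ, hr' σ⟩, ?_, ?_⟩
  · rwa [Ne, Algebra.intNorm_eq_zero]
  · rw [h𝔠, card_gal p q K L hqp]
    congr 1
    exact Finset.prod_congr rfl fun σ _ => by rw [hunder σ]

include hp hq hK hL in
/-- **hfac**, with `τ β = ε β` for a generator `τ` of `Gal(L/K)` and a unit `ε`. -/
theorem hfac_of_generator (hqp : q % p = 1) (Q0 : Ideal (𝓞 K)) (PP : Gal(K/ℚ) → Ideal (𝓞 L))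
    (hprime : ∀ σ, (PP σ).IsPrime) (hmem : ∀ σ, (q : 𝓞 L) ∈ PP σ)
    (hunder : ∀ σ, (PP σ).under (𝓞 K) = σ • Q0) (hinj : Function.Injective PP)
    (hunr : ∀ 𝔔 : Ideal (𝓞 L), 𝔔.IsPrime → 𝔔 ≠ ⊥ → (∀ σ, 𝔔 ≠ PP σ) →
      𝔔.ramificationIdx (𝓞 K) = 1)
    {τ : Gal(L/K)} (hgen : ∀ σ : Gal(L/K), σ ∈ Subgroup.zpowers τ)
    (β : 𝓞 L) (hβ : β ≠ 0) {ε : 𝓞 L} (hε : IsUnit ε) (hτ : τ • β = ε * β) :
    ∃ (𝔠 : Ideal (𝓞 K)) (r : Gal(K/ℚ) → ℕ),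
      (∀ σ, β ∈ PP σ ^ r σ ∧ β ∉ PP σ ^ (r σ + 1)) ∧
      Algebra.intNorm (𝓞 K) (𝓞 L) β ≠ 0 ∧
      Ideal.span {Algebra.intNorm (𝓞 K) (𝓞 L) β} =
        𝔠 ^ (q - 1) * ∏ σ : Gal(K/ℚ), (σ • Q0) ^ r σ := by
  obtain ⟨u, rfl⟩ := hε
  exact hfac p q K L hqp Q0 PP hprime hmem hunder hinj hunr β hβ
    (exists_unit_smul_of_generator hgen hτ)

end Fermat.Agent.S14.ThaineFac_helper29
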