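import Mathlib

/-!
S14 (Thaine route), sub-leaf T-g: factorisation of the norm of an element with `G`-stable ideal
(helper24).  `A ⊆ B` Dedekind domains, `G` a finite group with `IsGaloisGroup G A B`.

* `exists_eq_map_of_stable` (G1): a nonzero `G`-stable ideal of `B` all of whose prime divisors
  are unramified over `A` is extended from `A`.
* `relNorm_of_stable` (G2): `S` a finite set of primes of `A`, each with a unique prime `𝔔 Q`
  above it of residue degree one, all other primes of `B` unramified; `I` `G`-stable of exact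
  order `r Q` at `𝔔 Q`: `relNorm A I = 𝔠 ^ [B : A] * ∏_{Q ∈ S} Q ^ r Q`.
* `span_intNorm_eq` (G3): the same for `I = (β)`; `stable_of_generator`: `(β)` is `G`-stable if
  `G = ⟨τ⟩` and `τ β = unit * β`.
-/

set_option autoImplicit false

namespace Fermat.Agent.S14.ThaineFactor_helper24

open scoped Pointwise

section Basic

variable {A B : Type*} [CommRing A] [CommRing B] [Algebra A B]
  (G : Type*) [Group G] [MulSemiringAction G B] [SMulCommClass G A B]

/-- The extension of an ideal of `A` is stable under `G`. -/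
theorem smul_map_algebraMap (σ : G) (𝔠 : Ideal A) :
    σ • (𝔠.map (algebraMap A B)) = 𝔠.map (algebraMap A B) := by
  rw [Ideal.pointwise_smul_def, Ideal.map_map]
  congr 1
  ext a
  simp only [RingHom.coe_comp, Function.comp_apply, MulSemiringAction.toRingHom_apply]
  exact smul_algebraMap σ a

omit [Algebra A B] [SMulCommClass G A B] in
theorem smul_mul' (σ : G) (I J : Ideal B) : σ • (I * J) = (σ • I) * (σ • J) := by
  simp only [Ideal.pointwise_smul_def, Ideal.map_mul]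

omit [Algebra A B] [SMulCommClass G A B] in
/-- If `I` is `G`-stable and contained in `P`, it is contained in every conjugate of `P`. -/
theorem le_smul_of_le {I : Ideal B} (hstab : ∀ σ : G, σ • I = I) {P : Ideal B} (hP : I ≤ P)
    (σ : G) : I ≤ σ • P := by
  rw [← hstab σ, Ideal.pointwise_smul_def, Ideal.pointwise_smul_def]
  exact Ideal.map_mono hP

end Basic

variable {A B : Type*} [CommRing A] [CommRing B] [IsDedekindDomain A] [IsDedekindDomain B]
  [Algebra A B] [Module.Finite A B] [Module.IsTorsionFree A B]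
  (G : Type*) [Group G] [Finite G] [MulSemiringAction G B] [IsGaloisGroup G A B]

/-- A `G`-stable ideal contained in a prime `P` unramified over `Q = P ∩ A` is contained in
`Q B`. -/
theorem le_map_under_of_stable {I : Ideal B} (hstab : ∀ σ : G, σ • I = I) {P : Ideal B}
    [hPp : P.IsPrime] (hP0 : P ≠ ⊥) (hIP : I ≤ P) (he : P.ramificationIdx A = 1) :
    I ≤ (P.under A).map (algebraMap A B) := by
  classical
  have hQ0 : P.under A ≠ ⊥ := Ideal.under_ne_bot A hP0
  have hPmax : P.IsMaximal := hPp.isMaximal hP0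
  have hQmax : (P.under A).IsMaximal := Ideal.IsMaximal.under A P
  have : P.LiesOver (P.under A) := ⟨rfl⟩
  rw [Ideal.map_algebraMap_eq_finsetProd_pow hQ0]
  have hprime : ∀ P' ∈ ((P.under A).primesOver B).toFinset, Prime P' := by
    intro P' hP'
    rw [Set.mem_toFinset] at hP'
    have : P'.IsPrime := hP'.1
    have : P'.LiesOver (P.under A) := hP'.2
    have hP'0 : P' ≠ ⊥ := Ideal.ne_bot_of_liesOver_of_ne_bot hQ0 P'
    exact Ideal.prime_of_isPrime hP'0 inferInstance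
  rw [← IsDedekindDomain.inf_pow_eq_prod_of_prime _ _ _ hprime (fun i _ j _ h => h)]
  apply Finset.le_inf
  intro P' hP'
  rw [Set.mem_toFinset] at hP'
  have : P'.IsPrime := hP'.1
  have : P'.LiesOver (P.under A) := hP'.2
  have he' : P'.ramificationIdx A = 1 := by
    rw [← he]
    exact Ideal.ramificationIdx_eq_of_isGaloisGroup (P.under A) P' P G
  rw [he', pow_one]
  obtain ⟨σ, rfl⟩ := Ideal.exists_smul_eq_of_isGaloisGroup (P.under A) P P' G
  exact le_smul_of_le G hstab hIP σ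

/-- **(G1)** A nonzero `G`-stable ideal of `B` all of whose prime divisors are unramified over `A`
is the extension of an ideal of `A`. -/
theorem exists_eq_map_of_stable (I : Ideal B) (hI : I ≠ ⊥) (hstab : ∀ σ : G, σ • I = I)
    (hunr : ∀ P : Ideal B, P.IsPrime → I ≤ P → P.ramificationIdx A = 1) :
    ∃ 𝔠 : Ideal A, I = 𝔠.map (algebraMap A B) := by
  revert hI hstab hunr
  refine wellFounded_dvdNotUnit.induction
    (C := fun I : Ideal B => I ≠ ⊥ → (∀ σ : G, σ • I = I) →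
      (∀ P : Ideal B, P.IsPrime → I ≤ P → P.ramificationIdx A = 1) →
      ∃ 𝔠 : Ideal A, I = 𝔠.map (algebraMap A B)) I ?_
  · intro I ih hI hstab hunr
    by_cases htop : I = ⊤
    · exact ⟨⊤, by rw [htop, Ideal.map_top]⟩
    obtain ⟨P, hPmax, hIP⟩ := Ideal.exists_le_maximal I htop
    have hPp : P.IsPrime := hPmax.isPrime
    have hP0 : P ≠ ⊥ := by
      rintro rfl
      exact hI (le_bot_iff.mp hIP)
    have he := hunr P hPp hIP
    have hle := le_map_under_of_stable G hstab hP0 hIP he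
    obtain ⟨I', hI'⟩ := Ideal.dvd_iff_le.mpr hle
    have hQB0 : (P.under A).map (algebraMap A B) ≠ ⊥ :=
      Ideal.map_ne_bot_of_ne_bot (Ideal.under_ne_bot A hP0)
    have hI'0 : I' ≠ ⊥ := by
      rintro rfl
      exact hI (by rw [hI', Ideal.mul_bot])
    have hQBtop : ¬ IsUnit ((P.under A).map (algebraMap A B)) := by
      rw [Ideal.isUnit_iff]
      intro h
      have : (P.under A).map (algebraMap A B) ≤ P := Ideal.map_le_iff_le_comap.mpr le_rfl
      rw [h, top_le_iff] at this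
      exact hPp.ne_top this
    have hdvd : DvdNotUnit I' I :=
      ⟨hI'0, (P.under A).map (algebraMap A B), hQBtop, by rw [hI', mul_comm]⟩
    have hstab' : ∀ σ : G, σ • I' = I' := by
      intro σ
      have h1 := hstab σ
      rw [hI', smul_mul', smul_map_algebraMap] at h1
      exact mul_left_cancel₀ hQB0 h1
    have hunr' : ∀ P' : Ideal B, P'.IsPrime → I' ≤ P' → P'.ramificationIdx A = 1 := by
      intro P' hP' hle'
      apply hunr P' hP'
      rw [hI']
      exact le_trans Ideal.mul_le_right hle'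
    obtain ⟨𝔠', h𝔠'⟩ := ih I' hdvd hI'0 hstab' hunr'
    exact ⟨P.under A * 𝔠', by rw [hI', h𝔠', Ideal.map_mul]⟩

omit [IsDedekindDomain A] [IsDedekindDomain B] [Module.Finite A B] [Module.IsTorsionFree A B]
  [Finite G] in
/-- `G` fixes a prime which is the only one over its contraction. -/
theorem smul_eq_of_unique (Q : Ideal A) (P : Ideal B) [P.IsPrime] [P.LiesOver Q]
    (huniq : ∀ P' : Ideal B, P'.IsPrime → P'.LiesOver Q → P' = P) (σ : G) : σ • P = P :=
  huniq (σ • P) inferInstance inferInstance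

omit [IsDedekindDomain A] [IsDedekindDomain B] [Algebra A B] [Module.Finite A B]
  [Module.IsTorsionFree A B] [Finite G] [IsGaloisGroup G A B] in
theorem smul_prod_pow {ι : Type*} (S : Finset ι) (f : ι → Ideal B) (r : ι → ℕ) (σ : G)
    (hf : ∀ i ∈ S, σ • f i = f i) : σ • (∏ i ∈ S, f i ^ r i) = ∏ i ∈ S, f i ^ r i := by
  classical
  induction S using Finset.induction_on with
  | empty =>
    simp only [Finset.prod_empty, Ideal.one_eq_top, Ideal.pointwise_smul_def, Ideal.map_top]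
  | insert a S ha ih =>
    rw [Finset.prod_insert ha, smul_mul', ih (fun i hi => hf i (Finset.mem_insert_of_mem hi))]
    congr 1
    rw [Ideal.pointwise_smul_def, Ideal.map_pow, ← Ideal.pointwise_smul_def,
      hf a (Finset.mem_insert_self a S)]

/-- **(G2)** Relative norm of a `G`-stable ideal: `S` a finite set of primes of `A`, each with a
unique prime `𝔔 Q` of `B` above it, of residue degree one; all other primes of `B` unramified.
If `I` has exact order `r Q` at `𝔔 Q` then `N(I) = 𝔠 ^ [B : A] * ∏_{Q ∈ S} Q ^ r Q`. -/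
theorem relNorm_of_stable [PerfectField (FractionRing A)] (I : Ideal B) (hI : I ≠ ⊥)
    (hstab : ∀ σ : G, σ • I = I) (S : Finset (Ideal A)) (𝔔 : Ideal A → Ideal B) (r : Ideal A → ℕ)
    (hS : ∀ Q ∈ S, Q.IsMaximal ∧ Q ≠ ⊥)
    (h𝔔 : ∀ Q ∈ S, (𝔔 Q).IsPrime ∧ (𝔔 Q).LiesOver Q ∧ (𝔔 Q).inertiaDeg A = 1 ∧
      ∀ P : Ideal B, P.IsPrime → P.LiesOver Q → P = 𝔔 Q)
    (hr : ∀ Q ∈ S, I ≤ 𝔔 Q ^ r Q ∧ ¬ I ≤ 𝔔 Q ^ (r Q + 1))
    (hunr : ∀ P : Ideal B, P.IsPrime → P ≠ ⊥ → P.under A ∉ S → P.ramificationIdx A = 1) :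
    ∃ 𝔠 : Ideal A, Ideal.relNorm A I = 𝔠 ^ Module.finrank A B * ∏ Q ∈ S, Q ^ r Q := by
  classical
  -- the primes `𝔔 Q` are nonzero and distinct
  have h𝔔0 : ∀ Q ∈ S, 𝔔 Q ≠ ⊥ := by
    intro Q hQ
    obtain ⟨h1, h2, -, -⟩ := h𝔔 Q hQ
    exact Ideal.ne_bot_of_liesOver_of_ne_bot (hS Q hQ).2 (𝔔 Q)
  have hprime : ∀ Q ∈ S, Prime (𝔔 Q) := fun Q hQ =>
    Ideal.prime_of_isPrime (h𝔔0 Q hQ) (h𝔔 Q hQ).1
  have hinj : ∀ Q ∈ S, ∀ Q' ∈ S, Q ≠ Q' → 𝔔 Q ≠ 𝔔 Q' := by
    intro Q hQ Q' hQ' hne h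
    apply hne
    have h1 : Q = (𝔔 Q).under A := (h𝔔 Q hQ).2.1.over
    have h2 : Q' = (𝔔 Q').under A := (h𝔔 Q' hQ').2.1.over
    rw [h1, h2, h]
  -- `J = ∏ 𝔔 Q ^ r Q` divides `I`
  set J : Ideal B := ∏ Q ∈ S, 𝔔 Q ^ r Q with hJ
  have hJle : I ≤ J := by
    rw [hJ, ← IsDedekindDomain.inf_pow_eq_prod_of_prime S 𝔔 r hprime hinj]
    exact Finset.le_inf fun Q hQ => (hr Q hQ).1
  obtain ⟨I', hI'⟩ := Ideal.dvd_iff_le.mpr hJle
  have hJ0 : J ≠ ⊥ := by
    rw [hJ, ← Ideal.zero_eq_bot, Finset.prod_ne_zero_iff]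
    intro Q hQ
    exact pow_ne_zero _ (h𝔔0 Q hQ)
  have hI'0 : I' ≠ ⊥ := by
    rintro rfl
    exact hI (by rw [hI', Ideal.mul_bot])
  -- `J` and `I'` are `G`-stable
  have hJstab : ∀ σ : G, σ • J = J := by
    intro σ
    apply smul_prod_pow G S 𝔔 r σ
    intro Q hQ
    obtain ⟨h1, h2, -, h4⟩ := h𝔔 Q hQ
    exact smul_eq_of_unique G Q (𝔔 Q) h4 σ
  have hI'stab : ∀ σ : G, σ • I' = I' := by
    intro σ
    have h1 := hstab σ
    rw [hI', smul_mul', hJstab σ] at h1
    exact mul_left_cancel₀ hJ0 h1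
  -- `I'` is prime to all `𝔔 Q`
  have hcop : ∀ Q ∈ S, ¬ I' ≤ 𝔔 Q := by
    intro Q hQ hle
    apply (hr Q hQ).2
    obtain ⟨I'', hI''⟩ := Ideal.dvd_iff_le.mpr hle
    rw [hI', hJ, ← Finset.mul_prod_erase S _ hQ, hI'', pow_succ]
    have : (𝔔 Q ^ r Q * ∏ x ∈ S.erase Q, 𝔔 x ^ r x) * (𝔔 Q * I'') =
        (𝔔 Q ^ r Q * 𝔔 Q) * ((∏ x ∈ S.erase Q, 𝔔 x ^ r x) * I'') := by ring
    rw [this]
    exact Ideal.mul_le_left
  -- hence all prime divisors of `I'` are unramified
  have hunr' : ∀ P : Ideal B, P.IsPrime → I' ≤ P → P.ramificationIdx A = 1 := by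
    intro P hP hle
    have hP0 : P ≠ ⊥ := by
      rintro rfl
      exact hI'0 (le_bot_iff.mp hle)
    apply hunr P hP hP0
    intro hmem
    have : P.LiesOver (P.under A) := ⟨rfl⟩
    have := (h𝔔 _ hmem).2.2.2 P hP this
    rw [this] at hle
    exact hcop _ hmem hle
  obtain ⟨𝔠, h𝔠⟩ := exists_eq_map_of_stable G I' hI'0 hI'stab hunr'
  refine ⟨𝔠, ?_⟩
  rw [hI', map_mul, h𝔠, Ideal.relNorm_algebraMap, mul_comm, hJ, map_prod]
  congr 1
  apply Finset.prod_congr rfl
  intro Q hQ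
  obtain ⟨h1, h2, h3, -⟩ := h𝔔 Q hQ
  have hQmax : Q.IsMaximal := (hS Q hQ).1
  have h𝔔max : (𝔔 Q).IsMaximal := h1.isMaximal (h𝔔0 Q hQ)
  rw [map_pow, Ideal.relNorm_eq_pow_of_isMaximal (𝔔 Q) Q, h3, pow_one]

omit [IsDedekindDomain A] [IsDedekindDomain B] [Algebra A B] [Module.Finite A B]
  [Module.IsTorsionFree A B] [Finite G] [IsGaloisGroup G A B] in
theorem smul_span_singleton (σ : G) (β : B) :
    σ • (Ideal.span {β} : Ideal B) = Ideal.span {σ • β} := by
  rw [Ideal.pointwise_smul_def, Ideal.map_span, Set.image_singleton]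
  rfl

omit [IsDedekindDomain A] [IsDedekindDomain B] [Algebra A B] [Module.Finite A B]
  [Module.IsTorsionFree A B] [Finite G] [IsGaloisGroup G A B] in
/-- If `σ β = unit * β` then `σ` fixes the ideal `(β)`. -/
theorem smul_span_eq_of_unit {σ : G} {β : B} {u : Bˣ} (h : σ • β = u * β) :
    σ • (Ideal.span {β} : Ideal B) = Ideal.span {β} := by
  rw [smul_span_singleton, h, Ideal.span_singleton_mul_left_unit u.isUnit]

omit [IsDedekindDomain A] [IsDedekindDomain B] [Algebra A B] [Module.Finite A B]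
  [Module.IsTorsionFree A B] [Finite G] [IsGaloisGroup G A B] in
/-- If `G` is generated by `τ` and `τ β = unit * β`, the ideal `(β)` is `G`-stable. -/
theorem stable_of_generator {τ : G} (hτ : ∀ σ : G, σ ∈ Subgroup.zpowers τ) {β : B} {u : Bˣ}
    (h : τ • β = u * β) (σ : G) : σ • (Ideal.span {β} : Ideal B) = Ideal.span {β} := by
  have h1 : τ ∈ MulAction.stabilizer G (Ideal.span {β} : Ideal B) :=
    MulAction.mem_stabilizer_iff.mpr (smul_span_eq_of_unit G h)
  have h2 : Subgroup.zpowers τ ≤ MulAction.stabilizer G (Ideal.span {β} : Ideal B) :=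
    (Subgroup.zpowers_le).mpr h1
  exact MulAction.mem_stabilizer_iff.mp (h2 (hτ σ))

/-- **(G3)** The norm of an element `β` whose ideal is `G`-stable: with the data of `(G2)` and
`β` of exact order `r Q` at `𝔔 Q`, `(N β) = 𝔠 ^ [B : A] * ∏_{Q ∈ S} Q ^ r Q`. -/
theorem span_intNorm_eq [PerfectField (FractionRing A)] {β : B} (hβ : β ≠ 0)
    (hstab : ∀ σ : G, σ • (Ideal.span {β} : Ideal B) = Ideal.span {β})
    (S : Finset (Ideal A)) (𝔔 : Ideal A → Ideal B) (r : Ideal A → ℕ)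
    (hS : ∀ Q ∈ S, Q.IsMaximal ∧ Q ≠ ⊥)
    (h𝔔 : ∀ Q ∈ S, (𝔔 Q).IsPrime ∧ (𝔔 Q).LiesOver Q ∧ (𝔔 Q).inertiaDeg A = 1 ∧
      ∀ P : Ideal B, P.IsPrime → P.LiesOver Q → P = 𝔔 Q)
    (hr : ∀ Q ∈ S, β ∈ 𝔔 Q ^ r Q ∧ β ∉ 𝔔 Q ^ (r Q + 1))
    (hunr : ∀ P : Ideal B, P.IsPrime → P ≠ ⊥ → P.under A ∉ S → P.ramificationIdx A = 1) :
    ∃ 𝔠 : Ideal A, Ideal.span {Algebra.intNorm A B β} =
      𝔠 ^ Module.finrank A B * ∏ Q ∈ S, Q ^ r Q := by
  have hI : (Ideal.span {β} : Ideal B) ≠ ⊥ := by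
    rwa [Ne, Ideal.span_singleton_eq_bot]
  obtain ⟨𝔠, h𝔠⟩ := relNorm_of_stable G (Ideal.span {β}) hI hstab S 𝔔 r hS h𝔔
    (fun Q hQ => by
      rw [Ideal.span_singleton_le_iff_mem, Ideal.span_singleton_le_iff_mem]
      exact hr Q hQ) hunr
  exact ⟨𝔠, by rw [← h𝔠, Ideal.relNorm_singleton]⟩

end Fermat.Agent.S14.ThaineFactor_helper24
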