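/-
S14 (Thaine route), package (T): **Thaine's relation, complete and self-contained** (helper7).

For `K = ℚ(ζ_p)`, a prime `q ≡ 1 mod p` and a prime `Q0` of `𝓞 K` over `q`, let `L = K(ζ_q)`.
* `[L : K] = q - 1`, `Φ_q` is irreducible over `K`, `N_{L/K}(ζ ζ_q - 1) = 1`;
* primes of `L` over `q` have `e = q - 1` over `K` and trivial residue action, `ζ_q - 1` is a
  uniformiser; all other primes have `e = 1`;
* Hilbert 90 gives `β ∈ 𝓞 L`, `β ≠ 0`, with `(ζ ζ_q - 1) τβ = β` (`τ` a generator of `Gal(L/K)`);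
* `b = N_{L/K} β` satisfies `(b) = 𝔠^(q-1) ∏_σ (σ Q0)^(r σ)` and `(ζ - 1) g^(r σ) ≡ 1 mod σ Q0`,
  where `τ ζ_q = ζ_q ^ g`.

Mathlib only.
-/
import Mathlib

set_option autoImplicit false

namespace Fermat.Agent.S14.ThaineRel_helper7

/-! ### part Loc -/
section Local

variable {B : Type*} [CommRing B] (τ : B →+* B) (Q : Ideal B) (π g : B)

/-- `τ` preserves the powers of `Q` as soon as it is trivial modulo `Q`. -/
theorem map_mem_pow (h1 : ∀ x, τ x - x ∈ Q) (k : ℕ) {x : B} (hx : x ∈ Q ^ k) : τ x ∈ Q ^ k := by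
  have hQ : Q.map τ ≤ Q := by
    rw [Ideal.map_le_iff_le_comap]
    intro y hy
    rw [Ideal.mem_comap]
    have := Q.add_mem (h1 y) hy
    rwa [sub_add_cancel] at this
  have h2 : (Q ^ k).map τ ≤ Q ^ k := by
    rw [Ideal.map_pow]
    exact Ideal.pow_right_mono hQ k
  exact h2 (Ideal.mem_map_of_mem τ hx)

/-- first step: on `Q / Q^2` the map `τ` is multiplication by `g` -/
theorem sub_mul_mem_sq (h1 : ∀ x, τ x - x ∈ Q) (h2 : Q = Ideal.span {π} ⊔ Q ^ 2)
    (h3 : τ π - g * π ∈ Q ^ 2) {x : B} (hx : x ∈ Q) : τ x - g * x ∈ Q ^ 2 := by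
  have hπ : π ∈ Q := by
    rw [h2]
    exact Ideal.mem_sup_left (Ideal.subset_span rfl)
  rw [h2] at hx
  obtain ⟨y, hy, z, hz, rfl⟩ := Submodule.mem_sup.mp hx
  obtain ⟨a, rfl⟩ := Ideal.mem_span_singleton'.mp hy
  have e : τ (a * π + z) - g * (a * π + z) =
      τ a * (τ π - g * π) + g * ((τ a - a) * π) + (τ z - g * z) := by
    rw [map_add, map_mul]
    ring
  rw [e]
  refine Ideal.add_mem _ (Ideal.add_mem _ (Ideal.mul_mem_left _ _ h3) (Ideal.mul_mem_left _ _ ?_))
    (Ideal.sub_mem _ (map_mem_pow τ Q h1 2 hz) (Ideal.mul_mem_left _ _ hz))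
  rw [pow_two]
  exact Ideal.mul_mem_mul (h1 a) hπ

/-- on `Q^r / Q^(r+1)` the map `τ` is multiplication by `g^r` -/
theorem sub_pow_mul_mem (h1 : ∀ x, τ x - x ∈ Q) (h2 : Q = Ideal.span {π} ⊔ Q ^ 2)
    (h3 : τ π - g * π ∈ Q ^ 2) (r : ℕ) {x : B} (hx : x ∈ Q ^ r) :
    τ x - g ^ r * x ∈ Q ^ (r + 1) := by
  induction r generalizing x with
  | zero => simpa using h1 x
  | succ r ih =>
    rw [pow_succ] at hx
    refine Submodule.mul_induction_on hx ?_ ?_
    · intro a ha c hc
      have e : τ (a * c) - g ^ (r + 1) * (a * c) =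
          (τ a - g ^ r * a) * τ c + g ^ r * a * (τ c - g * c) := by
        rw [map_mul]
        ring
      rw [e]
      refine Ideal.add_mem _ ?_ ?_
      · have : τ c ∈ Q := by simpa using map_mem_pow τ Q h1 1 (by simpa using hc)
        rw [pow_succ (Q) (r + 1)]
        exact Ideal.mul_mem_mul (ih ha) this
      · have h4 := sub_mul_mem_sq τ Q π g h1 h2 h3 hc
        have : Q ^ (r + 1 + 1) = Q ^ r * Q ^ 2 := by rw [← pow_add]
        rw [this]
        exact Ideal.mul_mem_mul (Ideal.mul_mem_left _ _ ha) h4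
    · intro a c ha hc
      have e : τ (a + c) - g ^ (r + 1) * (a + c) =
          (τ a - g ^ (r + 1) * a) + (τ c - g ^ (r + 1) * c) := by
        rw [map_add]
        ring
      rw [e]
      exact Ideal.add_mem _ ha hc

theorem mem_of_mul_mem_pow [Q.IsMaximal] {u β : B} {k : ℕ} (h : u * β ∈ Q ^ k)
    (hβ : β ∉ Q ^ k) : u ∈ Q := by
  by_contra hu
  obtain ⟨c, a, ha, hca⟩ := Ideal.IsMaximal.exists_inv (I := Q) inferInstance hu
  have hcop : IsCoprime u a := ⟨c, 1, by rw [one_mul]; exact hca⟩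
  obtain ⟨c', d', h'⟩ := hcop.pow_right (n := k)
  apply hβ
  have e : β = c' * (u * β) + d' * β * a ^ k := by
    calc β = (c' * u + d' * a ^ k) * β := by rw [h', one_mul]
      _ = _ := by ring
  rw [e]
  exact Ideal.add_mem _ (Ideal.mul_mem_left _ _ h) (Ideal.mul_mem_left _ _ (Ideal.pow_mem_pow ha k))

/-- the local computation: if `ε * τ β = β` and `β` has exact order `r` at `Q`, then
`ε * g ^ r ≡ 1` modulo `Q`. -/
theorem eps_mul_pow_sub_one_mem [Q.IsMaximal] (h1 : ∀ x, τ x - x ∈ Q)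
    (h2 : Q = Ideal.span {π} ⊔ Q ^ 2) (h3 : τ π - g * π ∈ Q ^ 2) {ε β : B} (hεβ : ε * τ β = β)
    {r : ℕ} (hr : β ∈ Q ^ r) (hr' : β ∉ Q ^ (r + 1)) : ε * g ^ r - 1 ∈ Q := by
  have h4 := sub_pow_mul_mem τ Q π g h1 h2 h3 r hr
  have h5 : (1 - ε * g ^ r) * β ∈ Q ^ (r + 1) := by
    have e : (1 - ε * g ^ r) * β = ε * (τ β - g ^ r * β) := by
      rw [mul_sub, hεβ]
      ring
    rw [e]
    exact Ideal.mul_mem_left _ _ h4
  have h6 := mem_of_mul_mem_pow Q h5 hr'
  have := Q.neg_mem h6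
  rwa [neg_sub] at this

end Local

/-! ### part T1 -/
open scoped NumberField Pointwise
open Polynomial

section Field

variable (p q : ℕ) [Fact p.Prime] [Fact q.Prime]
variable (K L : Type) [Field K] [Field L] [NumberField K] [NumberField L] [Algebra K L]
  [IsCyclotomicExtension {p} ℚ K] [IsCyclotomicExtension {q} K L]

include K in
theorem isCyclotomicExtension_mul (hpq : p ≠ q) : IsCyclotomicExtension {p * q} ℚ L := by
  have hp := (Fact.out : p.Prime)
  have hq := (Fact.out : q.Prime)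
  have : NeZero p := ⟨hp.ne_zero⟩
  have : NeZero q := ⟨hq.ne_zero⟩
  have h1 : IsCyclotomicExtension ({p} ∪ {q}) ℚ L :=
    IsCyclotomicExtension.trans (S := {p}) (T := {q}) ℚ K L (algebraMap K L).injective
  have hζp := IsCyclotomicExtension.zeta_spec p ℚ K
  have hζq := IsCyclotomicExtension.zeta_spec q K L
  have hζp' : IsPrimitiveRoot (algebraMap K L (IsCyclotomicExtension.zeta p ℚ K)) p :=
    hζp.map_of_injective (algebraMap K L).injective
  have hcop : Nat.Coprime p q := (Nat.coprime_primes hp hq).mpr hpq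
  have hpq' : IsPrimitiveRoot (algebraMap K L (IsCyclotomicExtension.zeta p ℚ K) *
      IsCyclotomicExtension.zeta q K L) (p * q) := by
    have := IsPrimitiveRoot.orderOf (algebraMap K L (IsCyclotomicExtension.zeta p ℚ K) *
      IsCyclotomicExtension.zeta q K L)
    rwa [(Commute.all _ _).orderOf_mul_eq_mul_orderOf_of_coprime, ← hζp'.eq_orderOf,
      ← hζq.eq_orderOf] at this
    rw [← hζp'.eq_orderOf, ← hζq.eq_orderOf]
    exact hcop
  have h2 : IsCyclotomicExtension (({p} ∪ {q}) ∪ {p * q}) ℚ L :=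
    IsCyclotomicExtension.union_of_isPrimitiveRoot _ ℚ L hpq'
  have h3 : IsCyclotomicExtension (({p * q} ∪ {p}) ∪ {q}) ℚ L := by
    convert h2 using 1
    ext x
    simp only [Set.mem_union, Set.mem_singleton_iff]
    tauto
  have h4 : IsCyclotomicExtension ({p * q} ∪ {p}) ℚ L := by
    rw [IsCyclotomicExtension.iff_union_of_dvd (n := q) ℚ L]
    · exact h3
    · exact ⟨p * q, by simp, Nat.mul_ne_zero hp.ne_zero hq.ne_zero, dvd_mul_left q p⟩
  rw [IsCyclotomicExtension.iff_union_of_dvd (n := p) ℚ L]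
  · exact h4
  · exact ⟨p * q, by simp, Nat.mul_ne_zero hp.ne_zero hq.ne_zero, dvd_mul_right p q⟩

end Field

/-! ### part T2 -/
open scoped NumberField Pointwise
open Polynomial

section Field

variable (p q : ℕ) [Fact p.Prime] [Fact q.Prime]
variable (K L : Type) [Field K] [Field L] [NumberField K] [NumberField L] [Algebra K L]
  [IsCyclotomicExtension {p} ℚ K] [IsCyclotomicExtension {q} K L]

theorem finrank_eq (hpq : p ≠ q) : Module.finrank K L = q - 1 := by
  have hp := (Fact.out : p.Prime)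
  have hq := (Fact.out : q.Prime)
  have : NeZero p := ⟨hp.ne_zero⟩
  have : NeZero (p * q) := ⟨Nat.mul_ne_zero hp.ne_zero hq.ne_zero⟩
  have := isCyclotomicExtension_mul p q K L hpq
  have h1 := IsCyclotomicExtension.Rat.finrank (p * q) L
  have h2 := IsCyclotomicExtension.Rat.finrank p K
  have h3 := Module.finrank_mul_finrank ℚ K L
  have hcop : Nat.Coprime p q := (Nat.coprime_primes hp hq).mpr hpq
  rw [h1, h2, Nat.totient_mul hcop, Nat.totient_prime hp, Nat.totient_prime hq] at h3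
  have hp1 : 0 < p - 1 := by have := hp.two_le; omega
  exact Nat.eq_of_mul_eq_mul_left hp1 h3

include L in
theorem irreducible_cyclotomic (hpq : p ≠ q) : Irreducible (cyclotomic q K) := by
  have hq := (Fact.out : q.Prime)
  have : NeZero q := ⟨hq.ne_zero⟩
  have hζ := IsCyclotomicExtension.zeta_spec q K L
  have hdvd : minpoly K (IsCyclotomicExtension.zeta q K L) ∣ cyclotomic q K :=
by
    apply minpoly.dvd
    rw [aeval_def, eval₂_eq_eval_map, map_cyclotomic]
    exact hζ.isRoot_cyclotomic hq.pos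
  have hdeg : (minpoly K (IsCyclotomicExtension.zeta q K L)).natDegree = q - 1 := by
    rw [← finrank_eq p q K L hpq, ← IsPrimitiveRoot.powerBasis_dim K hζ, PowerBasis.finrank]
  have hint : IsIntegral K (IsCyclotomicExtension.zeta q K L) :=
    (IsCyclotomicExtension.integral {q} K L).isIntegral _
  have heq : cyclotomic q K = minpoly K (IsCyclotomicExtension.zeta q K L) := by
    refine Polynomial.eq_of_monic_of_dvd_of_natDegree_le (minpoly.monic hint)
      (cyclotomic.monic q K) hdvd ?_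
    rw [hdeg, natDegree_cyclotomic, Nat.totient_prime hq]
  rw [heq]
  exact minpoly.irreducible hint

end Field

/-! ### part T3 -/
open scoped NumberField Pointwise
open Polynomial

section Field

variable (p q : ℕ) [Fact p.Prime] [Fact q.Prime]
variable (K L : Type) [Field K] [Field L] [NumberField K] [NumberField L] [Algebra K L]
  [IsCyclotomicExtension {p} ℚ K] [IsCyclotomicExtension {q} K L]

include p in
theorem norm_sub_zeta (hpq : p ≠ q) (a : K) :
    Algebra.norm K (algebraMap K L a - IsCyclotomicExtension.zeta q K L) =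
      eval a (cyclotomic q K) := by
  have hq := (Fact.out : q.Prime)
  have : NeZero q := ⟨hq.ne_zero⟩
  have hirr := irreducible_cyclotomic p q K L hpq
  have hζ := IsCyclotomicExtension.zeta_spec q K L
  let E := AlgebraicClosure L
  obtain ⟨z, hz⟩ := IsAlgClosed.exists_root _ (degree_cyclotomic_pos q E (NeZero.pos _)).ne.symm
  apply (algebraMap K E).injective
  have := IsCyclotomicExtension.finiteDimensional {q} K L
  have := IsCyclotomicExtension.isGalois {q} K L
  rw [Algebra.norm_eq_prod_embeddings]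
  have Hprod : (Finset.univ.prod fun σ : L →ₐ[K] E =>
      algebraMap K E a - σ (IsCyclotomicExtension.zeta q K L)) =
        eval (algebraMap K E a) (cyclotomic' q E) := by
    rw [cyclotomic', eval_prod, ← @Finset.prod_attach E E, ← Finset.univ_eq_attach]
    refine Fintype.prod_equiv (hζ.embeddingsEquivPrimitiveRoots E hirr) _ _ fun σ => ?_
    simp
  have : NeZero (q : E) := NeZero.of_faithfulSMul K _ q
  have h1 : ∀ σ : L →ₐ[K] E, σ (algebraMap K L a - IsCyclotomicExtension.zeta q K L) =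
      algebraMap K E a - σ (IsCyclotomicExtension.zeta q K L) := by
    intro σ
    rw [map_sub, AlgHom.commutes]
  simp_rw [h1]
  rw [Hprod, cyclotomic', ← cyclotomic_eq_prod_X_sub_primitiveRoots (isRoot_cyclotomic_iff.1 hz),
    ← map_cyclotomic q (algebraMap K E), eval_map_algebraMap, aeval_algebraMap_apply]
  simp

end Field

/-! ### part T4 -/
open scoped NumberField Pointwise
open Polynomial

section Field

variable (p q : ℕ) [Fact p.Prime] [Fact q.Prime]
variable (K L : Type) [Field K] [Field L] [NumberField K] [NumberField L] [Algebra K L]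
  [IsCyclotomicExtension {p} ℚ K] [IsCyclotomicExtension {q} K L]

theorem norm_eps (hq1 : q % p = 1) {ζ : K} (hζ : IsPrimitiveRoot ζ p) :
    Algebra.norm K (algebraMap K L ζ * IsCyclotomicExtension.zeta q K L - 1) = 1 := by
  have hp := (Fact.out : p.Prime)
  have hq := (Fact.out : q.Prime)
  have hpq : p ≠ q := by
    rintro rfl
    rw [Nat.mod_self] at hq1
    exact zero_ne_one hq1
  have hdvd : p ∣ q - 1 := (Nat.modEq_iff_dvd' hq.one_le).mp (by
    rw [Nat.ModEq, hq1, Nat.mod_eq_of_lt hp.one_lt])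
  have hζ0 : ζ ≠ 0 := hζ.ne_zero hp.ne_zero
  have hq2 : Even (q - 1) := by
    rcases hq.eq_two_or_odd' with h2 | hodd
    · exfalso
      rw [h2] at hdvd
      have := Nat.le_of_dvd (by norm_num) hdvd
      have := hp.two_le
      omega
    · obtain ⟨k, hk⟩ := hodd
      exact ⟨k, by omega⟩
  have hpow : ζ ^ (q - 1) = 1 := by
    obtain ⟨k, hk⟩ := hdvd
    rw [hk, pow_mul, hζ.pow_eq_one, one_pow]
  have heq : algebraMap K L ζ * IsCyclotomicExtension.zeta q K L - 1 =
      algebraMap K L (-ζ) * (algebraMap K L ζ⁻¹ - IsCyclotomicExtension.zeta q K L) := by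
    rw [map_neg, map_inv₀]
    have : algebraMap K L ζ ≠ 0 := by simpa using hζ0
    field_simp
    ring
  rw [heq, map_mul, Algebra.norm_algebraMap, finrank_eq p q K L hpq, norm_sub_zeta p q K L hpq,
    neg_pow, hq2.neg_one_pow, hpow, one_mul, one_mul]
  -- Φ_q(ζ⁻¹) = 1
  have h1 : ζ⁻¹ - 1 ≠ 0 := by
    intro h
    have h' : ζ⁻¹ = 1 := sub_eq_zero.mp h
    have : ζ = 1 := by rw [← inv_inv ζ, h', inv_one]
    exact hζ.ne_one hp.one_lt this
  have h2 := congrArg (eval ζ⁻¹) (cyclotomic_prime_mul_X_sub_one K q)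
  simp only [eval_mul, eval_sub, eval_X, eval_one, eval_pow] at h2
  have h3 : ζ⁻¹ ^ q = ζ⁻¹ := by
    have : q = (q - 1) + 1 := by have := hq.one_le; omega
    rw [this, pow_succ, inv_pow, hpow, inv_one, one_mul]
  rw [h3] at h2
  exact mul_right_cancel₀ h1 (by rw [h2, one_mul])

end Field

/-! ### part T5 -/
open scoped NumberField Pointwise
open Polynomial

section Ram

variable (p q : ℕ) [Fact p.Prime] [Fact q.Prime]
variable (K L : Type) [Field K] [Field L] [NumberField K] [NumberField L] [Algebra K L]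
  [IsCyclotomicExtension {p} ℚ K] [IsCyclotomicExtension {q} K L]

theorem liesOver_of_mem {F : Type*} [Field F] [NumberField F] (ℓ : ℕ) [Fact ℓ.Prime]
    (P : Ideal (𝓞 F)) [P.IsPrime] (h : (ℓ : 𝓞 F) ∈ P) : P.LiesOver (Ideal.span {(ℓ : ℤ)}) := by
  constructor
  have hmax : (Ideal.span {(ℓ : ℤ)}).IsMaximal := Int.ideal_span_isMaximal_of_prime ℓ
  refine hmax.eq_of_le ?_ ?_
  · exact Ideal.comap_ne_top _ (Ideal.IsPrime.ne_top inferInstance)
  · rw [Ideal.span_le, Set.singleton_subset_iff]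
    show algebraMap ℤ (𝓞 F) (ℓ : ℤ) ∈ P
    simpa using h

theorem ramificationIdx_of_mem (hq1 : q % p = 1) (Q : Ideal (𝓞 L)) [Q.IsPrime]
    (h : (q : 𝓞 L) ∈ Q) : Q.ramificationIdx (𝓞 K) = q - 1 := by
  have hp := (Fact.out : p.Prime)
  have hq := (Fact.out : q.Prime)
  have hpq : p ≠ q := by
    rintro rfl
    rw [Nat.mod_self] at hq1
    exact zero_ne_one hq1
  have hqp : ¬ q ∣ p := fun hd => hpq ((Nat.prime_dvd_prime_iff_eq hq hp).mp hd).symm
  have := isCyclotomicExtension_mul p q K L hpq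
  have := liesOver_of_mem q Q h
  have h1 := IsCyclotomicExtension.Rat.ramificationIdx_eq (p * q) L Q (p := q) (k := 0) (m := p)
    (by ring) hqp
  have : (Q.under (𝓞 K)).LiesOver (Ideal.span {(q : ℤ)}) :=
    Ideal.LiesOver.tower_bot Q (Q.under (𝓞 K)) (Ideal.span {(q : ℤ)})
  have : NeZero p := ⟨hp.ne_zero⟩
  have h2 := IsCyclotomicExtension.Rat.ramificationIdx_eq_of_not_dvd q K (Q.under (𝓞 K)) hqp
  have h3 := Ideal.ramificationIdx_tower (R := ℤ) (Q.under (𝓞 K)) Q
  rw [h1, h2, one_mul, pow_zero, one_mul] at h3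
  exact h3.symm

end Ram

/-! ### part T6 -/
open scoped NumberField Pointwise
open Polynomial

section Ram

variable (p q : ℕ) [Fact p.Prime] [Fact q.Prime]
variable (K L : Type) [Field K] [Field L] [NumberField K] [NumberField L] [Algebra K L]
  [IsCyclotomicExtension {p} ℚ K] [IsCyclotomicExtension {q} K L]

theorem ramificationIdx_of_not_mem (hpq : p ≠ q) (R : Ideal (𝓞 L)) [R.IsPrime] (h0 : R ≠ ⊥)
    (h : (q : 𝓞 L) ∉ R) : R.ramificationIdx (𝓞 K) = 1 := by
  have hp := (Fact.out : p.Prime)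
  have hq := (Fact.out : q.Prime)
  have hpq' : ¬ p ∣ q := fun hd => hpq ((Nat.prime_dvd_prime_iff_eq hp hq).mp hd)
  have := isCyclotomicExtension_mul p q K L hpq
  have : NeZero R := ⟨h0⟩
  have hℓ : (Ideal.absNorm (Ideal.under ℤ R)).Prime := Nat.absNorm_under_prime R
  set ℓ := Ideal.absNorm (Ideal.under ℤ R) with hℓdef
  have : Fact ℓ.Prime := ⟨hℓ⟩
  have hlo : R.LiesOver (Ideal.span {(ℓ : ℤ)}) := Int.liesOver_span_absNorm R
  have hmem : (ℓ : 𝓞 L) ∈ R := Int.absNorm_under_mem R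
  have hℓq : ℓ ≠ q := by
    intro h'
    rw [h'] at hmem
    exact h hmem
  have : (R.under (𝓞 K)).LiesOver (Ideal.span {(ℓ : ℤ)}) :=
    Ideal.LiesOver.tower_bot R (R.under (𝓞 K)) (Ideal.span {(ℓ : ℤ)})
  have h3 := Ideal.ramificationIdx_tower (R := ℤ) (R.under (𝓞 K)) R
  have : NeZero p := ⟨hp.ne_zero⟩
  have : NeZero (p * q) := ⟨Nat.mul_ne_zero hp.ne_zero hq.ne_zero⟩
  by_cases hℓp : ℓ = p
  · have h1 := IsCyclotomicExtension.Rat.ramificationIdx_eq (p * q) L R (p := ℓ) (k := 0) (m := q)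
      (by rw [hℓp]; ring) (by rw [hℓp]; exact hpq')
    have hK' : IsCyclotomicExtension {ℓ} ℚ K := by rw [hℓp]; infer_instance
    have h2 := IsCyclotomicExtension.Rat.ramificationIdx_eq_of_prime ℓ K (R.under (𝓞 K))
    rw [h1, h2, pow_zero, one_mul] at h3
    have hpos : 0 < ℓ - 1 := by have := hℓ.two_le; omega
    exact Nat.eq_of_mul_eq_mul_left hpos (by rw [mul_one]; exact h3.symm)
  · have hnd : ¬ ℓ ∣ p * q := by
      intro hd
      rcases (Nat.Prime.dvd_mul hℓ).mp hd with h' | h'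
      · exact hℓp ((Nat.prime_dvd_prime_iff_eq hℓ hp).mp h')
      · exact hℓq ((Nat.prime_dvd_prime_iff_eq hℓ hq).mp h')
    have h1 := IsCyclotomicExtension.Rat.ramificationIdx_eq_of_not_dvd ℓ L R hnd
    rw [h1] at h3
    exact Nat.eq_one_of_mul_eq_one_left h3.symm

end Ram

/-! ### part T7 -/
open scoped NumberField Pointwise
open Polynomial

section Ram

variable (p q : ℕ) [Fact p.Prime] [Fact q.Prime]
variable (K L : Type) [Field K] [Field L] [NumberField K] [NumberField L] [Algebra K L]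
  [IsCyclotomicExtension {p} ℚ K] [IsCyclotomicExtension {q} K L]

include p in
theorem smul_sub_mem_of_mem (hq1 : q % p = 1) (Q : Ideal (𝓞 L)) [Q.IsPrime]
    (h : (q : 𝓞 L) ∈ Q) (τ : Gal(L/K)) (x : 𝓞 L) : τ • x - x ∈ Q := by
  have hpq : p ≠ q := by
    rintro rfl
    rw [Nat.mod_self] at hq1
    exact zero_ne_one hq1
  have := IsCyclotomicExtension.isGalois {q} K L
  have := IsGaloisGroup.of_isFractionRing Gal(L/K) (𝓞 K) (𝓞 L) K L
  have h1 := Ideal.card_inertia_eq_ramificationIdxIn (G := Gal(L/K)) (Q.under (𝓞 K)) Q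
  rw [Ideal.ramificationIdxIn_eq_ramificationIdx (Q.under (𝓞 K)) Q Gal(L/K),
    ramificationIdx_of_mem p q K L hq1 Q h, ← finrank_eq p q K L hpq,
    ← IsGalois.card_aut_eq_finrank, Subgroup.card_eq_iff_eq_top] at h1
  have h2 : τ ∈ Ideal.inertia Gal(L/K) Q := by rw [h1]; exact Subgroup.mem_top τ
  exact h2 x

end Ram

/-! ### part T8 -/
open scoped NumberField Pointwise
open Polynomial UniqueFactorizationMonoid

section Ded

variable {B : Type*} [CommRing B] [IsDedekindDomain B]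

theorem pow_dvd_iff_le_count {P I : Ideal B} (hP : P.IsPrime) (hP0 : P ≠ ⊥) (hI : I ≠ ⊥)
    (k : ℕ) : P ^ k ∣ I ↔ k ≤ (normalizedFactors I).count P := by
  have hirr : Irreducible P := (Ideal.prime_of_isPrime hP0 hP).irreducible
  rw [pow_dvd_iff_le_emultiplicity, emultiplicity_eq_count_normalizedFactors hirr hI,
    normalize_eq, Nat.cast_le]

theorem mem_pow_iff_le_count {P : Ideal B} (hP : P.IsPrime) (hP0 : P ≠ ⊥) {x : B} (hx : x ≠ 0)
    (k : ℕ) : x ∈ P ^ k ↔ k ≤ (normalizedFactors (Ideal.span {x})).count P := by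
  rw [← pow_dvd_iff_le_count hP hP0 (by simpa using hx), Ideal.dvd_span_singleton]

/-- a prime element of order one generates `P` modulo `P^2` -/
theorem eq_span_sup_sq {P : Ideal B} (hP : P.IsPrime) (hP0 : P ≠ ⊥) {π : B} (hπ0 : π ≠ 0)
    (h : (normalizedFactors (Ideal.span {π})).count P = 1) : P = Ideal.span {π} ⊔ P ^ 2 := by
  have hprime : Prime P := Ideal.prime_of_isPrime hP0 hP
  have h1 : π ∈ P := by
    have := (mem_pow_iff_le_count hP hP0 hπ0 1).mpr (by rw [h])
    simpa using this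
  have h2 : π ∉ P ^ 2 := by
    rw [mem_pow_iff_le_count hP hP0 hπ0 2, h]
    norm_num
  have hle : Ideal.span {π} ⊔ P ^ 2 ≤ P := by
    refine sup_le ?_ ?_
    · rwa [Ideal.span_le, Set.singleton_subset_iff]
    · exact Ideal.pow_le_self (by norm_num)
  have hdvd : Ideal.span {π} ⊔ P ^ 2 ∣ P ^ 2 := Ideal.dvd_iff_le.mpr le_sup_right
  obtain ⟨i, hi, hassoc⟩ := (dvd_prime_pow hprime 2).mp hdvd
  rw [associated_iff_eq] at hassoc
  interval_cases i
  · exfalso
    rw [pow_zero, Ideal.one_eq_top] at hassoc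
    rw [hassoc] at hle
    exact hP.ne_top (top_le_iff.mp hle)
  · rw [hassoc, pow_one]
  · exfalso
    apply h2
    rw [← hassoc]
    exact Ideal.mem_sup_left (Ideal.subset_span rfl)

end Ded

/-! ### part T9 -/
open scoped NumberField Pointwise
open Polynomial UniqueFactorizationMonoid

section Ram

variable (p q : ℕ) [Fact p.Prime] [Fact q.Prime]
variable (K L : Type) [Field K] [Field L] [NumberField K] [NumberField L] [Algebra K L]
  [IsCyclotomicExtension {p} ℚ K] [IsCyclotomicExtension {q} K L]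

include p K in
theorem count_zeta_sub_one (hq1 : q % p = 1) (Q : Ideal (𝓞 L)) [Q.IsPrime]
    (h : (q : 𝓞 L) ∈ Q) {ζq : L} (hζq : IsPrimitiveRoot ζq q) :
    (normalizedFactors (Ideal.span {hζq.toInteger - 1})).count Q = 1 := by
  have hp := (Fact.out : p.Prime)
  have hq := (Fact.out : q.Prime)
  have hpq : p ≠ q := by
    rintro rfl
    rw [Nat.mod_self] at hq1
    exact zero_ne_one hq1
  have hqp : ¬ q ∣ p := fun hd => hpq ((Nat.prime_dvd_prime_iff_eq hq hp).mp hd).symm
  have := isCyclotomicExtension_mul p q K L hpq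
  have := liesOver_of_mem q Q h
  have h1 := IsCyclotomicExtension.Rat.ramificationIdx_eq (p * q) L Q (p := q) (k := 0) (m := p)
    (by ring) hqp
  have hq0 : ((q : ℕ) : 𝓞 L) ≠ 0 := by exact_mod_cast hq.ne_zero
  have hmap : (Ideal.span {(q : ℤ)}).map (algebraMap ℤ (𝓞 L)) = Ideal.span {(q : 𝓞 L)} := by
    rw [Ideal.map_span, Set.image_singleton]
    simp
  have hne : (Ideal.span {(q : ℤ)}).map (algebraMap ℤ (𝓞 L)) ≠ ⊥ := by
    rw [hmap]
    simpa using hq0
  have h2 := Ideal.IsDedekindDomain.ramificationIdx_eq_normalizedFactors_count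
    (Ideal.span {(q : ℤ)}) Q hne
  rw [h1, pow_zero, one_mul, hmap] at h2
  have h3 := IsCyclotomicExtension.Rat.associated_zeta_sub_one_pow_prime q hζq
  have h4 : Ideal.span {hζq.toInteger - 1} ^ (q - 1) = Ideal.span {(q : 𝓞 L)} := by
    rw [Ideal.span_singleton_pow]
    exact Ideal.span_singleton_eq_span_singleton.mpr h3
  rw [← h4, normalizedFactors_pow, Multiset.count_nsmul] at h2
  have hpos : 0 < q - 1 := by have := hq.two_le; omega
  exact (Nat.eq_of_mul_eq_mul_left hpos (by rw [mul_one]; exact h2.symm))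

end Ram

/-! ### part T10 -/
open scoped NumberField Pointwise
open Polynomial UniqueFactorizationMonoid

section Ded

variable {A B : Type*} [CommRing A] [IsDedekindDomain A] [CommRing B] [IsDedekindDomain B]
  [Algebra A B] [Module.IsTorsionFree A B] [Algebra.IsIntegral A B]

/-- multiplicities in an extension of Dedekind domains -/
theorem count_map_eq (P : Ideal B) [P.IsPrime] (hP0 : P ≠ ⊥) (I : Ideal A) (hI : I ≠ ⊥) :
    (normalizedFactors (I.map (algebraMap A B))).count P =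
      P.ramificationIdx A * (normalizedFactors I).count (P.under A) := by
  have hinj : Function.Injective (algebraMap A B) := FaithfulSMul.algebraMap_injective A B
  have hp0 : P.under A ≠ ⊥ := Ideal.under_ne_bot A hP0
  have hpprime : (P.under A).IsPrime := inferInstance
  have hv : Irreducible (P.under A) := (Ideal.prime_of_isPrime hp0 hpprime).irreducible
  have hw : Irreducible P := (Ideal.prime_of_isPrime hP0 inferInstance).irreducible
  have hmap : I.map (algebraMap A B) ≠ ⊥ := Ideal.map_ne_bot_of_ne_bot hI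
  have h1 := Ideal.IsDedekindDomain.emultiplicity_map_eq_ramificationIdx'_mul hI hv hw hP0
  rw [emultiplicity_eq_count_normalizedFactors hw hmap,
    emultiplicity_eq_count_normalizedFactors hv hI, normalize_eq, normalize_eq,
    Ideal.ramificationIdx'_eq_ramificationIdx (P.under A) P hp0] at h1
  exact_mod_cast h1

end Ded

/-! ### part T11 -/
open scoped NumberField Pointwise
open Polynomial UniqueFactorizationMonoid

section Elt

variable (p q : ℕ) [Fact p.Prime] [Fact q.Prime]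
variable (K L : Type) [Field K] [Field L] [NumberField K] [NumberField L] [Algebra K L]
  [IsCyclotomicExtension {p} ℚ K] [IsCyclotomicExtension {q} K L]

omit [NumberField K] [NumberField L] in
theorem coe_smul_int (τ : Gal(L/K)) (x : 𝓞 L) :
    algebraMap (𝓞 L) L (τ • x) = τ (algebraMap (𝓞 L) L x) := rfl

/-- the Thaine element: Hilbert 90 applied to the unit `ζ ζ_q - 1` of relative norm one. -/
theorem exists_beta (hq1 : q % p = 1) {ζ : 𝓞 K} (hζ : IsPrimitiveRoot ζ p) :
    ∃ (τ : Gal(L/K)) (g : ℕ) (β : 𝓞 L), (∀ x, x ∈ Subgroup.zpowers τ) ∧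
      τ • (IsCyclotomicExtension.zeta_spec q K L).toInteger =
        (IsCyclotomicExtension.zeta_spec q K L).toInteger ^ g ∧ β ≠ 0 ∧
      IsUnit (algebraMap (𝓞 K) (𝓞 L) ζ * (IsCyclotomicExtension.zeta_spec q K L).toInteger - 1) ∧
      (algebraMap (𝓞 K) (𝓞 L) ζ * (IsCyclotomicExtension.zeta_spec q K L).toInteger - 1) *
        τ • β = β := by
  have hp := (Fact.out : p.Prime)
  have hq := (Fact.out : q.Prime)
  have : NeZero q := ⟨hq.ne_zero⟩
  have hpq : p ≠ q := by
    rintro rfl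
    rw [Nat.mod_self] at hq1
    exact zero_ne_one hq1
  have hirr := irreducible_cyclotomic p q K L hpq
  have hgal := IsCyclotomicExtension.isGalois {q} K L
  have hfd := IsCyclotomicExtension.finiteDimensional {q} K L
  have hcyc : IsCyclic Gal(L/K) :=
    (IsCyclotomicExtension.autEquivPow L hirr).isCyclic.mpr inferInstance
  obtain ⟨τ, hτ⟩ := hcyc.exists_generator
  set ζq := (IsCyclotomicExtension.zeta_spec q K L).toInteger with hζqdef
  set η : 𝓞 L := algebraMap (𝓞 K) (𝓞 L) ζ * ζq - 1 with hη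
  have hζK : IsPrimitiveRoot (ζ : K) p := hζ.map_of_injective NumberField.RingOfIntegers.coe_injective
  have hnorm : Algebra.norm K (algebraMap (𝓞 L) L η) = 1 := by
    have := norm_eps p q K L hq1 hζK
    convert this using 2
    rw [hη, map_sub, map_mul, map_one, ← IsScalarTower.algebraMap_apply (𝓞 K) (𝓞 L) L,
      IsScalarTower.algebraMap_apply (𝓞 K) K L]
    rfl
  obtain ⟨β, hβ0, hβ⟩ := groupCohomology.exists_mul_galRestrict_of_norm_eq_one (A := 𝓞 K) (B := 𝓞 L) hτ hnorm
  -- the exponent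
  have hζq : IsPrimitiveRoot (IsCyclotomicExtension.zeta q K L) q :=
    IsCyclotomicExtension.zeta_spec q K L
  have hτζ : IsPrimitiveRoot (τ (IsCyclotomicExtension.zeta q K L)) q :=
    hζq.map_of_injective τ.injective
  obtain ⟨g, -, hg⟩ := hζq.eq_pow_of_pow_eq_one hτζ.pow_eq_one
  refine ⟨τ, g, β, hτ, ?_, hβ0, ?_, ?_⟩
  · apply NumberField.RingOfIntegers.coe_injective
    rw [coe_smul_int, map_pow]
    show τ (IsCyclotomicExtension.zeta q K L) = (IsCyclotomicExtension.zeta q K L) ^ g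
    rw [← hg]
  · -- unit, since it divides its norm `1`
    have h1 := Algebra.dvd_algebraMap_intNorm_self (A := 𝓞 K) (B := 𝓞 L) η
    have h2 : Algebra.intNorm (𝓞 K) (𝓞 L) η = 1 := by
      apply NumberField.RingOfIntegers.coe_injective
      have := Algebra.algebraMap_intNorm (A := 𝓞 K) (K := K) (L := L) (B := 𝓞 L) η
      rw [hnorm] at this
      simpa using this
    rw [h2, map_one] at h1
    exact isUnit_of_dvd_one h1
  · apply NumberField.RingOfIntegers.coe_injective
    have := congrArg (algebraMap (𝓞 L) L) hβ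
    rw [map_mul, algebraMap_galRestrict_apply] at this
    rw [map_mul, coe_smul_int]
    exact this

end Elt

/-! ### part T12 -/
open scoped NumberField Pointwise
open Polynomial UniqueFactorizationMonoid

section Elt

variable (p q : ℕ) [Fact p.Prime] [Fact q.Prime]
variable (K L : Type) [Field K] [Field L] [NumberField K] [NumberField L] [Algebra K L]
  [IsCyclotomicExtension {p} ℚ K] [IsCyclotomicExtension {q} K L]

include p in
/-- if `ε τβ = β` with `ε` a unit and `τ` a generator, the norm of `β` generates `(β)^(q-1)`. -/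
theorem map_span_intNorm (hpq : p ≠ q) {τ : Gal(L/K)} (hτ : ∀ x, x ∈ Subgroup.zpowers τ)
    {ε β : 𝓞 L} (hε : IsUnit ε) (h : ε * τ • β = β) :
    (Ideal.span {Algebra.intNorm (𝓞 K) (𝓞 L) β}).map (algebraMap (𝓞 K) (𝓞 L)) =
      Ideal.span {β} ^ (q - 1) := by
  have hgal := IsCyclotomicExtension.isGalois {q} K L
  have hfd := IsCyclotomicExtension.finiteDimensional {q} K L
  -- invariance of the ideal
  have h1 : τ • Ideal.span {β} = Ideal.span {β} := by
    rw [Ideal.pointwise_smul_def, Ideal.map_span, Set.image_singleton]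
    apply Ideal.span_singleton_eq_span_singleton.mpr
    obtain ⟨u, hu⟩ := hε
    refine ⟨u, ?_⟩
    rw [mul_comm, hu]
    exact h
  have h2 : ∀ σ : Gal(L/K), σ • Ideal.span {β} = Ideal.span {β} := by
    intro σ
    have hle : Subgroup.zpowers τ ≤ MulAction.stabilizer Gal(L/K) (Ideal.span {β}) := by
      rw [Subgroup.zpowers_le]
      exact MulAction.mem_stabilizer_iff.mpr h1
    exact MulAction.mem_stabilizer_iff.mp (hle (hτ σ))
  have h3 : algebraMap (𝓞 K) (𝓞 L) (Algebra.intNorm (𝓞 K) (𝓞 L) β) = ∏ σ : Gal(L/K), σ • β := by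
    apply NumberField.RingOfIntegers.coe_injective
    rw [← IsScalarTower.algebraMap_apply, IsScalarTower.algebraMap_apply (𝓞 K) K L,
      Algebra.algebraMap_intNorm (A := 𝓞 K) (K := K) (L := L) (B := 𝓞 L) β,
      Algebra.norm_eq_prod_automorphisms, map_prod]
    rfl
  rw [Ideal.map_span, Set.image_singleton, h3, ← Ideal.prod_span_singleton]
  have h4 : ∀ σ : Gal(L/K), Ideal.span {σ • β} = Ideal.span {β} := by
    intro σ
    rw [← h2 σ, Ideal.pointwise_smul_def, Ideal.map_span, Set.image_singleton]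
    rfl
  simp_rw [h4]
  rw [Finset.prod_const, Finset.card_univ, ← Nat.card_eq_fintype_card,
    IsGalois.card_aut_eq_finrank, finrank_eq p q K L hpq]

end Elt

/-! ### part T13 -/
open scoped NumberField Pointwise
open Polynomial UniqueFactorizationMonoid

section Ded

variable {A : Type*} [CommRing A] [IsDedekindDomain A]

/-- root extraction outside a finite set of primes -/
theorem exists_eq_pow_mul_prod {ι : Type*} [Fintype ι] (P : ι → Ideal A)
    (hinj : Function.Injective P) (I : Ideal A) (hI : I ≠ ⊥) (n : ℕ)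
    (hdiv : ∀ R : Ideal A, R.IsPrime → R ≠ ⊥ → (∀ i, R ≠ P i) →
      n ∣ (normalizedFactors I).count R) :
    ∃ 𝔠 : Ideal A, I = 𝔠 ^ n * ∏ i, P i ^ (normalizedFactors I).count (P i) := by
  classical
  set F := (normalizedFactors I).toFinset with hF
  have h1 : I = ∏ R ∈ F, R ^ (normalizedFactors I).count R := by
    rw [← Finset.prod_multiset_count]
    exact (Ideal.prod_normalizedFactors_eq_self hI).symm
  have h2 := Finset.prod_filter_mul_prod_filter_not F (fun R => ∃ i, R = P i)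
    (fun R => R ^ (normalizedFactors I).count R)
  refine ⟨∏ R ∈ F.filter (fun R => ¬ ∃ i, R = P i), R ^ ((normalizedFactors I).count R / n), ?_⟩
  rw [← Finset.prod_pow]
  have h3 : ∏ R ∈ F.filter (fun R => ¬ ∃ i, R = P i), (R ^ ((normalizedFactors I).count R / n)) ^ n
      = ∏ R ∈ F.filter (fun R => ¬ ∃ i, R = P i), R ^ (normalizedFactors I).count R := by
    refine Finset.prod_congr rfl fun R hR => ?_
    rw [Finset.mem_filter, hF, Multiset.mem_toFinset] at hR
    have hprime := prime_of_normalized_factor R hR.1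
    have hd := hdiv R (Ideal.isPrime_of_prime hprime) hprime.ne_zero
      (fun i hi => hR.2 ⟨i, hi⟩)
    rw [← pow_mul, Nat.div_mul_cancel hd]
  have h4 : ∏ i, P i ^ (normalizedFactors I).count (P i) =
      ∏ R ∈ F.filter (fun R => ∃ i, R = P i), R ^ (normalizedFactors I).count R := by
    have h5 : F.filter (fun R => ∃ i, R = P i) =
        (Finset.univ.filter (fun i => P i ∈ F)).image P := by
      ext R
      simp only [Finset.mem_filter, Finset.mem_image, Finset.mem_univ, true_and]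
      constructor
      · rintro ⟨hRF, i, rfl⟩
        exact ⟨i, hRF, rfl⟩
      · rintro ⟨i, hi, rfl⟩
        exact ⟨hi, i, rfl⟩
    rw [h5, Finset.prod_image (fun i _ j _ hij => hinj hij)]
    symm
    refine Finset.prod_subset (Finset.filter_subset _ _) fun i _ hi => ?_
    rw [Finset.mem_filter] at hi
    have : P i ∉ F := fun h => hi ⟨Finset.mem_univ i, h⟩
    rw [hF, Multiset.mem_toFinset] at this
    rw [Multiset.count_eq_zero_of_notMem this, pow_zero]
  rw [h3, h4, mul_comm, h2]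
  exact h1

end Ded

/-! ### part T14 -/
open scoped NumberField Pointwise
open Polynomial UniqueFactorizationMonoid

section Base

open IsCyclotomicExtension.Rat

variable (p q : ℕ) [Fact p.Prime] [Fact q.Prime]
variable (K : Type) [Field K] [NumberField K] [IsCyclotomicExtension {p} ℚ K]

theorem natCast_mem_smul (Q0 : Ideal (𝓞 K)) (hQ0 : (q : 𝓞 K) ∈ Q0) (σ : Gal(K/ℚ)) :
    (q : 𝓞 K) ∈ σ • Q0 := by
  have := Ideal.smul_mem_pointwise_smul σ (q : 𝓞 K) Q0 hQ0
  have e : σ • (q : 𝓞 K) = (q : 𝓞 K) :=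
    map_natCast (MulSemiringAction.toRingHom Gal(K/ℚ) (𝓞 K) σ) q
  rwa [e] at this

theorem stabilizer_eq_bot' (hq1 : q % p = 1) (Q0 : Ideal (𝓞 K)) [Q0.IsPrime]
    (hQ0 : (q : 𝓞 K) ∈ Q0) : MulAction.stabilizer Gal(K/ℚ) Q0 = ⊥ := by
  have hp := (Fact.out : p.Prime)
  have hq := (Fact.out : q.Prime)
  have hpq : p ≠ q := by
    rintro rfl
    rw [Nat.mod_self] at hq1
    exact zero_ne_one hq1
  have hqp : ¬ q ∣ p := fun hd => hpq ((Nat.prime_dvd_prime_iff_eq hq hp).mp hd).symm
  have : NeZero p := ⟨hp.ne_zero⟩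
  have : IsGalois ℚ K := IsCyclotomicExtension.isGalois {p} ℚ K
  have := liesOver_of_mem q Q0 hQ0
  have hord : orderOf (q : ZMod p) = 1 := by
    rw [orderOf_eq_one_iff]
    have : ((q : ℕ) : ZMod p) = 1 := by
      rw [← ZMod.natCast_mod, hq1, Nat.cast_one]
    exact_mod_cast this
  have h := Ideal.card_stabilizer_eq (G := Gal(K/ℚ)) (Ideal.span {(q : ℤ)}) Q0
  rw [ramificationIdxIn_eq_of_not_dvd q K hqp, inertiaDegIn_eq_of_not_dvd q K hqp, hord,
    one_mul] at h
  exact Subgroup.card_eq_one.mp h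

theorem smul_injective (hq1 : q % p = 1) (Q0 : Ideal (𝓞 K)) [Q0.IsPrime]
    (hQ0 : (q : 𝓞 K) ∈ Q0) : Function.Injective (fun σ : Gal(K/ℚ) => σ • Q0) := by
  intro σ τ hστ
  replace hστ : σ • Q0 = τ • Q0 := hστ
  have : τ⁻¹ * σ ∈ MulAction.stabilizer Gal(K/ℚ) Q0 := by
    rw [MulAction.mem_stabilizer_iff, mul_smul, hστ, inv_smul_smul]
  rw [stabilizer_eq_bot' p q K hq1 Q0 hQ0, Subgroup.mem_bot, inv_mul_eq_one] at this
  exact this.symm

include p in
theorem exists_smul_eq (Q0 : Ideal (𝓞 K)) [Q0.IsPrime] (hQ0 : (q : 𝓞 K) ∈ Q0)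
    (R : Ideal (𝓞 K)) [R.IsPrime] (hR : (q : 𝓞 K) ∈ R) : ∃ σ : Gal(K/ℚ), σ • Q0 = R := by
  have : IsGalois ℚ K := IsCyclotomicExtension.isGalois {p} ℚ K
  have := liesOver_of_mem q Q0 hQ0
  have := liesOver_of_mem q R hR
  exact Ideal.exists_smul_eq_of_isGaloisGroup (Ideal.span {(q : ℤ)}) Q0 R Gal(K/ℚ)

end Base

/-! ### part T15 -/
open scoped NumberField Pointwise
open Polynomial UniqueFactorizationMonoid

section Main

variable (p q : ℕ) [Fact p.Prime] [Fact q.Prime]
variable (K L : Type) [Field K] [Field L] [NumberField K] [NumberField L] [Algebra K L]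
  [IsCyclotomicExtension {p} ℚ K] [IsCyclotomicExtension {q} K L]

omit [Fact p.Prime] [Fact q.Prime] [IsCyclotomicExtension {p} ℚ K]
  [IsCyclotomicExtension {q} K L] [NumberField K] [NumberField L] in
theorem natCast_mem_of_under (Q : Ideal (𝓞 L)) (R : Ideal (𝓞 K)) (hQR : Q.under (𝓞 K) = R) :
    (q : 𝓞 L) ∈ Q ↔ (q : 𝓞 K) ∈ R := by
  rw [← hQR, Ideal.under_def, Ideal.mem_comap, map_natCast]

/-- the local congruence at a prime of `L` over `q` -/
theorem local_congruence (hq1 : q % p = 1) (ζ : 𝓞 K) {τ : Gal(L/K)} {g : ℕ} {β : 𝓞 L}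
    (hτζ : τ • (IsCyclotomicExtension.zeta_spec q K L).toInteger =
        (IsCyclotomicExtension.zeta_spec q K L).toInteger ^ g) (hβ0 : β ≠ 0)
    (hεβ : (algebraMap (𝓞 K) (𝓞 L) ζ * (IsCyclotomicExtension.zeta_spec q K L).toInteger - 1) *
        τ • β = β) (Q : Ideal (𝓞 L)) [Q.IsPrime] (hQ : (q : 𝓞 L) ∈ Q) :
    (ζ - 1) * (g : 𝓞 K) ^ (normalizedFactors (Ideal.span {β})).count Q - 1 ∈ Q.under (𝓞 K) := by
  have hq := (Fact.out : q.Prime)
  have hq0 : ((q : ℕ) : 𝓞 L) ≠ 0 := by exact_mod_cast hq.ne_zero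
  have hQ0 : Q ≠ ⊥ := by
    rintro rfl
    exact hq0 (by simpa using hQ)
  have hQmax : Q.IsMaximal := Ideal.IsPrime.isMaximal inferInstance hQ0
  set ζq := (IsCyclotomicExtension.zeta_spec q K L).toInteger with hζqdef
  have hζq : IsPrimitiveRoot ζq q := (IsCyclotomicExtension.zeta_spec q K L).toInteger_isPrimitiveRoot
  have hπ0 : ζq - 1 ≠ 0 := sub_ne_zero.mpr (hζq.ne_one hq.one_lt)
  have hcount := count_zeta_sub_one p q K L hq1 Q hQ (IsCyclotomicExtension.zeta_spec q K L)
  have h2 := eq_span_sup_sq inferInstance hQ0 hπ0 hcount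
  have hπQ : ζq - 1 ∈ Q := by
    rw [h2]
    exact Ideal.mem_sup_left (Ideal.subset_span rfl)
  set r := (normalizedFactors (Ideal.span {β})).count Q with hr
  have h1 : ∀ x : 𝓞 L, (MulSemiringAction.toRingHom Gal(L/K) (𝓞 L) τ) x - x ∈ Q := fun x =>
    smul_sub_mem_of_mem p q K L hq1 Q hQ τ x
  have h3 : (MulSemiringAction.toRingHom Gal(L/K) (𝓞 L) τ) (ζq - 1) - (g : 𝓞 L) * (ζq - 1) ∈
      Q ^ 2 := by
    rw [MulSemiringAction.toRingHom_apply, smul_sub, smul_one, hτζ]
    have e : ζq ^ g - 1 - (g : 𝓞 L) * (ζq - 1) =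
        (ζq - 1) * ∑ i ∈ Finset.range g, (ζq ^ i - 1) := by
      have e1 := mul_geom_sum ζq g
      have e2 : ∑ i ∈ Finset.range g, (ζq ^ i - 1) = (∑ i ∈ Finset.range g, ζq ^ i) - g := by
        rw [Finset.sum_sub_distrib, Finset.sum_const, Finset.card_range, nsmul_eq_mul, mul_one]
      rw [e2]
      linear_combination (-1 : 𝓞 L) * e1
    rw [e, pow_two]
    refine Ideal.mul_mem_mul hπQ (Ideal.sum_mem _ fun i _ => ?_)
    obtain ⟨c, hc⟩ := sub_dvd_pow_sub_pow ζq 1 i
    rw [one_pow] at hc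
    rw [hc]
    exact Ideal.mul_mem_right _ _ hπQ
  have hmem : β ∈ Q ^ r := (mem_pow_iff_le_count inferInstance hQ0 hβ0 r).mpr le_rfl
  have hnmem : β ∉ Q ^ (r + 1) := by
    rw [mem_pow_iff_le_count inferInstance hQ0 hβ0 (r + 1)]
    omega
  have key := eps_mul_pow_sub_one_mem (MulSemiringAction.toRingHom Gal(L/K) (𝓞 L) τ) Q (ζq - 1)
    (g : 𝓞 L) h1 h2 h3 (ε := algebraMap (𝓞 K) (𝓞 L) ζ * ζq - 1) (β := β) hεβ hmem hnmem
  rw [Ideal.under_def, Ideal.mem_comap]
  have e : algebraMap (𝓞 K) (𝓞 L) ((ζ - 1) * (g : 𝓞 K) ^ r - 1) =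
      ((algebraMap (𝓞 K) (𝓞 L) ζ * ζq - 1) * (g : 𝓞 L) ^ r - 1) -
        algebraMap (𝓞 K) (𝓞 L) ζ * (g : 𝓞 L) ^ r * (ζq - 1) := by
    simp only [map_sub, map_mul, map_pow, map_one, map_natCast]
    ring
  rw [e]
  exact Ideal.sub_mem _ key (Ideal.mul_mem_left _ _ hπQ)

end Main

/-! ### part T16 -/
open scoped NumberField Pointwise
open Polynomial UniqueFactorizationMonoid

section Main

variable (p q : ℕ) [Fact p.Prime] [Fact q.Prime]
variable (K L : Type) [Field K] [Field L] [NumberField K] [NumberField L] [Algebra K L]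
  [IsCyclotomicExtension {p} ℚ K] [IsCyclotomicExtension {q} K L]

include L in
theorem thaine_relation_aux (hq1 : q % p = 1) {ζ : 𝓞 K} (hζ : IsPrimitiveRoot ζ p)
    (Q0 : Ideal (𝓞 K)) [Q0.IsPrime] (hQ0 : (q : 𝓞 K) ∈ Q0) :
    ∃ (g : ℕ) (r : Gal(K/ℚ) → ℕ) (b : 𝓞 K) (𝔠 : Ideal (𝓞 K)), b ≠ 0 ∧
      Ideal.span {b} = 𝔠 ^ (q - 1) * ∏ σ : Gal(K/ℚ), (σ • Q0) ^ r σ ∧
      ∀ σ : Gal(K/ℚ), (ζ - 1) * (g : 𝓞 K) ^ r σ - 1 ∈ σ • Q0 := by
  classical
  have hp := (Fact.out : p.Prime)
  have hq := (Fact.out : q.Prime)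
  have hpq : p ≠ q := by
    rintro rfl
    rw [Nat.mod_self] at hq1
    exact zero_ne_one hq1
  have hpos : 0 < q - 1 := by have := hq.two_le; omega
  have hqK0 : ((q : ℕ) : 𝓞 K) ≠ 0 := by exact_mod_cast hq.ne_zero
  have hQ00 : Q0 ≠ ⊥ := by
    rintro rfl
    exact hqK0 (by simpa using hQ0)
  obtain ⟨τ, g, β, hτ, hτζ, hβ0, hεu, hεβ⟩ := exists_beta p q K L hq1 hζ
  have hmap := map_span_intNorm p q K L hpq hτ hεu hεβ
  have hspanβ : Ideal.span {β} ≠ ⊥ := by simpa using hβ0
  have hb0 : Algebra.intNorm (𝓞 K) (𝓞 L) β ≠ 0 := by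
    intro h0
    rw [h0] at hmap
    have : Ideal.span {β} ^ (q - 1) = ⊥ := by
      rw [← hmap]
      simp
    exact hspanβ (pow_eq_zero_iff hpos.ne' |>.mp this)
  set b := Algebra.intNorm (𝓞 K) (𝓞 L) β with hb
  have hspanb : Ideal.span {b} ≠ ⊥ := by simpa using hb0
  -- primes of `L` above the conjugates of `Q0`
  have hex : ∀ σ : Gal(K/ℚ), ∃ Q : Ideal (𝓞 L), Q.IsPrime ∧ Q.under (𝓞 K) = σ • Q0 := by
    intro σ
    have h0 : σ • Q0 ≠ ⊥ := by
      intro h
      apply hQ00
      have := congrArg (fun I : Ideal (𝓞 K) => σ⁻¹ • I) h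
      simpa using this
    have hmax : (σ • Q0).IsMaximal := Ideal.IsPrime.isMaximal inferInstance h0
    obtain ⟨Q, hQmax, hQlo⟩ :=
      Ideal.exists_maximal_ideal_liesOver_of_isIntegral (S := 𝓞 L) (σ • Q0)
    exact ⟨Q, hQmax.isPrime, hQlo.over.symm⟩
  choose QQ hQQprime hQQunder using hex
  have hqQQ : ∀ σ, (q : 𝓞 L) ∈ QQ σ := fun σ =>
    (natCast_mem_of_under q K L (QQ σ) _ (hQQunder σ)).mpr (natCast_mem_smul q K Q0 hQ0 σ)
  have hQQ0 : ∀ σ, QQ σ ≠ ⊥ := by
    intro σ h
    have hqL0 : ((q : ℕ) : 𝓞 L) ≠ 0 := by exact_mod_cast hq.ne_zero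
    have := hqQQ σ
    rw [h] at this
    exact hqL0 (by simpa using this)
  have hC1 : ∀ σ, (normalizedFactors (Ideal.span {b})).count (σ • Q0) =
      (normalizedFactors (Ideal.span {β})).count (QQ σ) := by
    intro σ
    have := hQQprime σ
    have h1 := count_map_eq (QQ σ) (hQQ0 σ) (Ideal.span {b}) hspanb
    rw [hmap, normalizedFactors_pow, Multiset.count_nsmul,
      ramificationIdx_of_mem p q K L hq1 (QQ σ) (hqQQ σ), hQQunder σ] at h1
    exact (Nat.eq_of_mul_eq_mul_left hpos h1).symm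
  have hC2 : ∀ R : Ideal (𝓞 K), R.IsPrime → R ≠ ⊥ → (∀ σ : Gal(K/ℚ), R ≠ σ • Q0) →
      (q - 1) ∣ (normalizedFactors (Ideal.span {b})).count R := by
    intro R hRprime hR0 hne
    have hqR : (q : 𝓞 K) ∉ R := by
      intro hmem
      obtain ⟨σ, hσ⟩ := exists_smul_eq p q K Q0 hQ0 R hmem
      exact hne σ hσ.symm
    have hRmax : R.IsMaximal := hRprime.isMaximal hR0
    obtain ⟨RR, hRRmax, hRRlo⟩ :=
      Ideal.exists_maximal_ideal_liesOver_of_isIntegral (S := 𝓞 L) R
    have := hRRmax.isPrime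
    have hRR0 : RR ≠ ⊥ := Ideal.ne_bot_of_liesOver_of_ne_bot hR0 RR
    have hqRR : (q : 𝓞 L) ∉ RR := by
      rw [natCast_mem_of_under q K L RR R hRRlo.over.symm]
      exact hqR
    have h1 := count_map_eq RR hRR0 (Ideal.span {b}) hspanb
    rw [hmap, normalizedFactors_pow, Multiset.count_nsmul,
      ramificationIdx_of_not_mem p q K L hpq RR hRR0 hqRR, one_mul, ← hRRlo.over] at h1
    exact ⟨_, h1.symm⟩
  obtain ⟨𝔠, h𝔠⟩ := exists_eq_pow_mul_prod (fun σ : Gal(K/ℚ) => σ • Q0)
    (smul_injective p q K hq1 Q0 hQ0) (Ideal.span {b}) hspanb (q - 1) hC2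
  refine ⟨g, fun σ => (normalizedFactors (Ideal.span {β})).count (QQ σ), b, 𝔠, hb0, ?_, ?_⟩
  · rw [h𝔠]
    congr 1
    exact Finset.prod_congr rfl (fun σ _ => by rw [hC1 σ])
  · intro σ
    have := hQQprime σ
    have := local_congruence p q K L hq1 ζ hτζ hβ0 hεβ (QQ σ) (hqQQ σ)
    rwa [hQQunder σ] at this

end Main

end Fermat.Agent.S14.ThaineRel_helper7
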