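/-
S14 (Thaine route), package (T): `thaine_relation : ThainePkg.ThaineRel p`, unconditionally
(helper7).  Instantiates `ThaineRel_helper7.thaine_relation_aux` at `L = CyclotomicField q K`.
-/
import Mathlib
import Fermat.Agent.S14.ThaineRel_helper7
import Fermat.Agent.S14.ThainePkg

set_option autoImplicit false

namespace Fermat.Agent.S14.ThaineMain_helper7

open NumberField
open scoped Pointwise

/-- **Thaine's relation** for every prime `p` (no further hypothesis). -/
theorem thaine_relation (p : ℕ) [Fact p.Prime] : ThainePkg.ThaineRel p := by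
  intro K _ _ _ ζ hζ q hq hqp Q0 hQ0 hqQ0
  haveI : Fact q.Prime := ⟨hq⟩
  haveI := hQ0
  obtain ⟨g, r, b, 𝔠, hb, hfac, hcong⟩ :=
    ThaineRel_helper7.thaine_relation_aux p q K (CyclotomicField q K) hqp hζ Q0 hqQ0
  refine ⟨g, r, b, 𝔠, hb, hfac, fun σ => ?_⟩
  rw [mul_comm]
  exact hcong σ

/-- Package (T) in the `Skeleton` shape. -/
theorem thainePkg (p : ℕ) [Fact p.Prime] (h5 : 5 ≤ p) : Skeleton.ThainePkg p :=
  ThainePkg.thainePkg_of_rel p h5 (thaine_relation p)

end Fermat.Agent.S14.ThaineMain_helper7
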