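import Mathlib
import Fermat.Agent.S14.ThaineRam

/-!
S14 (Thaine route), adapter T-h (helper24): for `K = ℚ(ζ_p)`, `q ≡ 1 mod p` prime and `Q0` a prime
of `𝓞 K` over `q`, the map `σ ↦ σ • Q0` is a bijection from `Gal(K/ℚ)` onto the primes of `𝓞 K`
containing `q` (`q` splits completely).  This reindexes the product `∏ Q ∈ S, Q ^ r Q` of
`ThaineFactor_helper24.span_intNorm_eq` as `∏ σ : Gal(K/ℚ), (σ • Q0) ^ r σ`.
-/

set_option autoImplicit false

namespace Fermat.Agent.S14.ThaineOrbit_helper24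

open NumberField Ideal
open scoped Pointwise

variable (p q : ℕ) [hp : Fact p.Prime] [hq : Fact q.Prime]
variable (K : Type*) [Field K] [NumberField K] [hK : IsCyclotomicExtension {p} ℚ K]
variable (Q0 : Ideal (𝓞 K)) [hQ0 : Q0.IsPrime] [hQ0' : Q0.LiesOver (span {(q : ℤ)})]

include hp hK hQ0 hQ0' in
/-- `q` splits completely in `K`: there are `[K : ℚ]` primes above it. -/
theorem ncard_primesOver_base (hqp : q % p = 1) :
    ((span {(q : ℤ)}).primesOver (𝓞 K)).ncard = Nat.card Gal(K/ℚ) := by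
  have : IsGalois ℚ K := IsCyclotomicExtension.isGalois {p} ℚ K
  have : (span {(q : ℤ)} : Ideal ℤ).IsPrime :=
    (Int.ideal_span_isMaximal_of_prime q).isPrime
  have h := Ideal.ncard_primesOver_mul_ramificationIdxIn_mul_inertiaDegIn
    (span {(q : ℤ)}) (𝓞 K) Gal(K/ℚ)
  rw [Ideal.ramificationIdxIn_eq_ramificationIdx (span {(q : ℤ)}) Q0 Gal(K/ℚ),
    Ideal.inertiaDegIn_eq_inertiaDeg (span {(q : ℤ)}) Q0 Gal(K/ℚ),
    ThaineRam.ramificationIdx_base p q K Q0 hqp, ThaineRam.inertiaDeg_base p q K Q0 hqp,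
    mul_one, mul_one] at h
  exact h

include hp hK hQ0 hQ0' in
/-- The stabiliser of `Q0` in `Gal(K/ℚ)` is trivial. -/
theorem smul_injective (hqp : q % p = 1) :
    Function.Injective (fun σ : Gal(K/ℚ) => σ • Q0) := by
  have : IsGalois ℚ K := IsCyclotomicExtension.isGalois {p} ℚ K
  have : (span {(q : ℤ)} : Ideal ℤ).IsPrime :=
    (Int.ideal_span_isMaximal_of_prime q).isPrime
  let φ : Gal(K/ℚ) → (span {(q : ℤ)}).primesOver (𝓞 K) := fun σ =>
    ⟨σ • Q0, inferInstance, inferInstance⟩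
  have hsurj : Function.Surjective φ := by
    rintro ⟨P, hP, hP'⟩
    obtain ⟨σ, hσ⟩ := Ideal.exists_smul_eq_of_isGaloisGroup (span {(q : ℤ)}) Q0 P Gal(K/ℚ)
    exact ⟨σ, Subtype.ext hσ⟩
  have hcard : Nat.card Gal(K/ℚ) ≤ Nat.card ((span {(q : ℤ)}).primesOver (𝓞 K)) := by
    rw [← ncard_primesOver_base p q K Q0 hqp, Nat.card_coe_set_eq]
  have hbij := hsurj.bijective_of_nat_card_le hcard
  intro σ τ h
  apply hbij.1
  apply Subtype.ext
  exact h

include hK hQ0 hQ0' in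
omit hp in
/-- `Gal(K/ℚ)` acts transitively on the primes containing `q`. -/
theorem exists_smul_eq (Q : Ideal (𝓞 K)) [hQ : Q.IsPrime] (hqQ : (q : 𝓞 K) ∈ Q) :
    ∃ σ : Gal(K/ℚ), σ • Q0 = Q := by
  have : IsGalois ℚ K := IsCyclotomicExtension.isGalois {p} ℚ K
  have : Q.LiesOver (span {(q : ℤ)}) := ThaineRam.liesOver_of_natCast_mem q K Q hqQ
  exact Ideal.exists_smul_eq_of_isGaloisGroup (span {(q : ℤ)}) Q0 Q Gal(K/ℚ)

include hp hK hQ0 hQ0' in
/-- Reindexing a product over the primes above `q` by `Gal(K/ℚ)`. -/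
theorem prod_image_smul [Fintype Gal(K/ℚ)] [DecidableEq (Ideal (𝓞 K))] (hqp : q % p = 1)
    (f : Ideal (𝓞 K) → Ideal (𝓞 K)) :
    ∏ Q ∈ Finset.univ.image (fun σ : Gal(K/ℚ) => σ • Q0), f Q = ∏ σ : Gal(K/ℚ), f (σ • Q0) :=
  Finset.prod_image fun _ _ _ _ h => smul_injective p q K Q0 hqp h

end Fermat.Agent.S14.ThaineOrbit_helper24
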