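import Mathlib
import Fermat.Agent.S14.ThaineRam
import Fermat.Agent.S14.ThaineRamAdapt

set_option autoImplicit false
set_option linter.unusedSectionVars false

/-!
# S14 / Thaine (T-s): `q ≡ 1 mod p` splits completely in `K = ℚ(ζ_p)`; bookkeeping of the primes
of `𝓞 K` and of `𝓞 L`, `L = K(ζ_q)`, above `q`, indexed by `Gal(K/ℚ)`.
-/

namespace Fermat.Agent.S14.ThaineSplit

open NumberField Ideal Fermat.Agent.S14.ThaineRam
open scoped Pointwise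

variable (p q : ℕ) [hp : Fact p.Prime] [hq : Fact q.Prime]
variable (K : Type*) [Field K] [NumberField K] [hK : IsCyclotomicExtension {p} ℚ K]
variable (Q0 : Ideal (𝓞 K)) [hQ0 : Q0.IsPrime]

include hp hK hQ0 in
/-- (S1) `Gal(K/ℚ)` acts transitively on the primes of `𝓞 K` containing `q`. -/
theorem exists_smul_eq (hqQ0 : (q : 𝓞 K) ∈ Q0) (Q : Ideal (𝓞 K)) [hQ : Q.IsPrime]
    (hqQ : (q : 𝓞 K) ∈ Q) : ∃ σ : Gal(K/ℚ), σ • Q0 = Q := by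
  have : NeZero p := ⟨hp.out.ne_zero⟩
  have : IsGalois ℚ K := IsCyclotomicExtension.isGalois {p} ℚ K
  have := liesOver_of_natCast_mem q K Q0 hqQ0
  have := liesOver_of_natCast_mem q K Q hqQ
  exact Ideal.exists_smul_eq_of_isGaloisGroup (span {(q : ℤ)}) Q0 Q Gal(K/ℚ)

include hp hq hK hQ0 in
/-- the decomposition group of `Q0` is trivial (`q` splits completely in `K`). -/
theorem stabilizer_eq_bot (hqp : q % p = 1) (hqQ0 : (q : 𝓞 K) ∈ Q0) :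
    MulAction.stabilizer Gal(K/ℚ) Q0 = ⊥ := by
  have : NeZero p := ⟨hp.out.ne_zero⟩
  have : IsGalois ℚ K := IsCyclotomicExtension.isGalois {p} ℚ K
  have := liesOver_of_natCast_mem q K Q0 hqQ0
  have hpr : (span {(q : ℤ)} : Ideal ℤ).IsPrime :=
    (Int.ideal_span_isMaximal_of_prime q).isPrime
  have h := Ideal.card_stabilizer_eq (G := Gal(K/ℚ)) (span {(q : ℤ)}) Q0
  rw [Ideal.ramificationIdxIn_eq_ramificationIdx (span {(q : ℤ)}) Q0 Gal(K/ℚ),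
    Ideal.inertiaDegIn_eq_inertiaDeg (span {(q : ℤ)}) Q0 Gal(K/ℚ),
    ramificationIdx_base p q K Q0 hqp, inertiaDeg_base p q K Q0 hqp, mul_one] at h
  exact Subgroup.eq_bot_of_card_eq _ h

include hp hq hK hQ0 in
/-- (S2) `σ ↦ σ • Q0` is injective on `Gal(K/ℚ)`. -/
theorem smul_injective (hqp : q % p = 1) (hqQ0 : (q : 𝓞 K) ∈ Q0) :
    Function.Injective (fun σ : Gal(K/ℚ) => σ • Q0) := by
  intro σ σ' h
  have h' : σ • Q0 = σ' • Q0 := h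
  have h1 : σ'⁻¹ * σ ∈ MulAction.stabilizer Gal(K/ℚ) Q0 := by
    rw [MulAction.mem_stabilizer_iff, mul_smul, h', inv_smul_smul]
  rw [stabilizer_eq_bot p q K Q0 hqp hqQ0, Subgroup.mem_bot, inv_mul_eq_one] at h1
  exact h1.symm

omit hp hq hK in
/-- the conjugates of `Q0` contain `q`. -/
theorem natCast_mem_smul (hqQ0 : (q : 𝓞 K) ∈ Q0) (σ : Gal(K/ℚ)) : (q : 𝓞 K) ∈ σ • Q0 := by
  have h := Ideal.smul_mem_pointwise_smul σ (q : 𝓞 K) Q0 hqQ0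
  have e : σ • (q : 𝓞 K) = (q : 𝓞 K) :=
    map_natCast (MulSemiringAction.toRingHom Gal(K/ℚ) (𝓞 K) σ) q
  rwa [e] at h

section Finset

open Classical in
/-- the finite set of primes of `𝓞 K` above `q` (the conjugates of `Q0`) -/
noncomputable def primesAbove : Finset (Ideal (𝓞 K)) :=
  Finset.univ.image (fun σ : Gal(K/ℚ) => σ • Q0)

omit hQ0 in
theorem smul_mem_primesAbove (σ : Gal(K/ℚ)) : σ • Q0 ∈ primesAbove K Q0 := by
  classical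
  exact Finset.mem_image_of_mem _ (Finset.mem_univ σ)

omit hQ0 in
theorem exists_of_mem_primesAbove {Q : Ideal (𝓞 K)} (h : Q ∈ primesAbove K Q0) :
    ∃ σ : Gal(K/ℚ), σ • Q0 = Q := by
  classical
  obtain ⟨σ, -, hσ⟩ := Finset.mem_image.mp h
  exact ⟨σ, hσ⟩

include hp hK hQ0 in
theorem mem_primesAbove_iff (hqQ0 : (q : 𝓞 K) ∈ Q0) (Q : Ideal (𝓞 K)) [hQ : Q.IsPrime] :
    Q ∈ primesAbove K Q0 ↔ (q : 𝓞 K) ∈ Q := by
  constructor
  · intro h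
    obtain ⟨σ, rfl⟩ := exists_of_mem_primesAbove K Q0 h
    exact natCast_mem_smul q K Q0 hqQ0 σ
  · intro h
    obtain ⟨σ, rfl⟩ := exists_smul_eq p q K Q0 hqQ0 Q h
    exact smul_mem_primesAbove K Q0 σ

include hp hq hK hQ0 in
/-- reindexing a product over the primes above `q` by `Gal(K/ℚ)` -/
theorem prod_primesAbove (hqp : q % p = 1) (hqQ0 : (q : 𝓞 K) ∈ Q0) {M : Type*} [CommMonoid M]
    (f : Ideal (𝓞 K) → M) :
    ∏ Q ∈ primesAbove K Q0, f Q = ∏ σ : Gal(K/ℚ), f (σ • Q0) := by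
  classical
  rw [primesAbove, Finset.prod_image]
  intro σ _ σ' _ h
  exact smul_injective p q K Q0 hqp hqQ0 h

include hq hQ0 in
theorem isMaximal_of_mem_primesAbove (hqQ0 : (q : 𝓞 K) ∈ Q0) {Q : Ideal (𝓞 K)}
    (h : Q ∈ primesAbove K Q0) : Q.IsMaximal ∧ Q ≠ ⊥ := by
  obtain ⟨σ, rfl⟩ := exists_of_mem_primesAbove K Q0 h
  have h0 : σ • Q0 ≠ ⊥ := by
    intro hbot
    have h1 := natCast_mem_smul q K Q0 hqQ0 σ
    rw [hbot, Ideal.mem_bot, Nat.cast_eq_zero] at h1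
    exact hq.out.ne_zero h1
  have hpr : (σ • Q0).IsPrime := inferInstance
  exact ⟨hpr.isMaximal h0, h0⟩

end Finset

section Upstairs

variable (L : Type*) [Field L] [NumberField L] [Algebra K L] [hL : IsCyclotomicExtension {q} K L]

include hp hq hK hL hQ0 in
/-- (S3) the primes of `𝓞 L` above `q`, indexed by `Gal(K/ℚ)`. -/
theorem exists_family (hqp : q % p = 1) (hqQ0 : (q : 𝓞 K) ∈ Q0) :
    ∃ PP : Gal(K/ℚ) → Ideal (𝓞 L), (∀ σ, (PP σ).IsPrime) ∧ (∀ σ, PP σ ≠ ⊥) ∧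
      (∀ σ, (q : 𝓞 L) ∈ PP σ) ∧ (∀ σ, (PP σ).under (𝓞 K) = σ • Q0) ∧ Function.Injective PP ∧
      (∀ 𝔔 : Ideal (𝓞 L), 𝔔.IsPrime → (q : 𝓞 L) ∈ 𝔔 → ∃ σ, 𝔔 = PP σ) ∧
      (∀ 𝔔 : Ideal (𝓞 L), 𝔔.IsPrime → 𝔔 ≠ ⊥ → (∀ σ, 𝔔 ≠ PP σ) →
        𝔔.ramificationIdx (𝓞 K) = 1) := by
  have hex : ∀ σ : Gal(K/ℚ), ∃ P : Ideal (𝓞 L), P.IsPrime ∧ P.LiesOver (σ • Q0) := by
    intro σ
    obtain ⟨⟨P, hP1, hP2⟩⟩ := (inferInstance : Nonempty ((σ • Q0).primesOver (𝓞 L)))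
    exact ⟨P, hP1, hP2⟩
  choose PP hPP1 hPP2 using hex
  have hunder : ∀ σ, (PP σ).under (𝓞 K) = σ • Q0 := fun σ => ((hPP2 σ).over).symm
  have hmem : ∀ σ, (q : 𝓞 L) ∈ PP σ := by
    intro σ
    have h1 : (q : 𝓞 K) ∈ (PP σ).under (𝓞 K) := by
      rw [hunder σ]
      exact natCast_mem_smul q K Q0 hqQ0 σ
    rw [Ideal.under_def, Ideal.mem_comap, map_natCast] at h1
    exact h1
  have hne : ∀ σ, PP σ ≠ ⊥ := by
    intro σ h
    have h1 := hmem σ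
    rw [h, Ideal.mem_bot, Nat.cast_eq_zero] at h1
    exact hq.out.ne_zero h1
  have hcover : ∀ 𝔔 : Ideal (𝓞 L), 𝔔.IsPrime → (q : 𝓞 L) ∈ 𝔔 → ∃ σ, 𝔔 = PP σ := by
    intro 𝔔 h𝔔 hq𝔔
    have : (𝔔.under (𝓞 K)).IsPrime := Ideal.IsPrime.under (𝓞 K) 𝔔
    obtain ⟨σ, hσ⟩ := exists_smul_eq p q K Q0 hqQ0 (𝔔.under (𝓞 K))
      (ThaineRamAdapt.natCast_mem_under q K L 𝔔 hq𝔔)
    refine ⟨σ, ?_⟩
    have := hPP1 σ
    exact ThaineRamAdapt.eq_of_under_eq p q K L (PP σ) hqp (hmem σ) 𝔔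
      (by rw [hunder σ, hσ])
  refine ⟨PP, hPP1, hne, hmem, hunder, ?_, hcover, ?_⟩
  · intro σ σ' h
    apply smul_injective p q K Q0 hqp hqQ0
    change σ • Q0 = σ' • Q0
    rw [← hunder σ, ← hunder σ', h]
  · intro 𝔔 h𝔔 h0 hall
    refine ramificationIdx_eq_one_of_not_mem p q K L (ne_of_mod p q hqp) 𝔔 h0 ?_
    intro hq𝔔
    obtain ⟨σ, hσ⟩ := hcover 𝔔 h𝔔 hq𝔔
    exact hall σ hσ

include hp hK hL hQ0 in
/-- a prime of `𝓞 L` whose contraction is not a conjugate of `Q0` does not contain `q`, hence is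
unramified over `K` (the `hunr` hypothesis of `ThaineFactor_helper24.span_intNorm_eq`). -/
theorem ramificationIdx_eq_one_of_under_not_mem (hqp : q % p = 1) (hqQ0 : (q : 𝓞 K) ∈ Q0)
    (P : Ideal (𝓞 L)) (hP : P.IsPrime) (hP0 : P ≠ ⊥)
    (h : P.under (𝓞 K) ∉ primesAbove K Q0) : P.ramificationIdx (𝓞 K) = 1 := by
  refine ramificationIdx_eq_one_of_not_mem p q K L (ne_of_mod p q hqp) P hP0 ?_
  intro hqP
  have : (P.under (𝓞 K)).IsPrime := Ideal.IsPrime.under (𝓞 K) P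
  exact h ((mem_primesAbove_iff p q K Q0 hqQ0 _).mpr
    (ThaineRamAdapt.natCast_mem_under q K L P hqP))

end Upstairs

end Fermat.Agent.S14.ThaineSplit
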