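import Fermat.Agent.S14.EulerIdeal

/-!
# The Dedekind zeta function as a sum over ideals and as an Euler product (real `s > 1`)

`Fermat.Agent.S14.ZetaIdeal`.
-/

set_option autoImplicit false
set_option linter.unusedSectionVars false

open NumberField IsDedekindDomain nonZeroDivisors Filter Topology

namespace Fermat.Agent.S14.ZetaIdeal

open Fermat.Agent.S14.EulerIdeal

variable (K : Type*) [Field K] [NumberField K]

/-- absolute norm of a nonzero ideal -/
noncomputable def nrm (I : (Ideal (𝓞 K))⁰) : ℕ := Ideal.absNorm (I : Ideal (𝓞 K))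

variable {K}

theorem nrm_ne_zero (I : (Ideal (𝓞 K))⁰) : nrm K I ≠ 0 := by
  unfold nrm
  rw [Ne, Ideal.absNorm_eq_zero_iff]
  exact nonZeroDivisors.coe_ne_zero I

theorem nrm_pos (I : (Ideal (𝓞 K))⁰) : 0 < nrm K I := Nat.pos_of_ne_zero (nrm_ne_zero I)

theorem nrm_mul (I J : (Ideal (𝓞 K))⁰) : nrm K (I * J) = nrm K I * nrm K J := by
  unfold nrm
  rw [Submonoid.coe_mul, map_mul]

theorem nrm_one : nrm K (1 : (Ideal (𝓞 K))⁰) = 1 := by
  unfold nrm
  rw [OneMemClass.coe_one, Ideal.one_eq_top, Ideal.absNorm_top]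

variable (K)

/-- `I ↦ N(I)^(-s)` as a monoid homomorphism. -/
noncomputable def normPow (s : ℝ) : (Ideal (𝓞 K))⁰ →* ℝ where
  toFun I := (nrm K I : ℝ) ^ (-s)
  map_one' := by rw [nrm_one, Nat.cast_one, Real.one_rpow]
  map_mul' I J := by
    rw [nrm_mul, Nat.cast_mul, Real.mul_rpow (Nat.cast_nonneg _) (Nat.cast_nonneg _)]

theorem normPow_apply (s : ℝ) (I : (Ideal (𝓞 K))⁰) : normPow K s I = (nrm K I : ℝ) ^ (-s) := rfl

theorem normPow_pos (s : ℝ) (I : (Ideal (𝓞 K))⁰) : 0 < normPow K s I := by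
  rw [normPow_apply]
  exact Real.rpow_pos_of_pos (Nat.cast_pos.mpr (nrm_pos I)) _

/-- Mathlib's coefficient of the Dedekind zeta function. -/
noncomputable def coeff (n : ℕ) : ℕ := Nat.card {I : Ideal (𝓞 K) // Ideal.absNorm I = n}

theorem dedekindZeta_eq (s : ℂ) : dedekindZeta K s = LSeries (fun n => (coeff K n : ℂ)) s := rfl

/-- The fibre of the norm over `n ≠ 0` inside the nonzero ideals. -/
theorem card_fiber {n : ℕ} (hn : n ≠ 0) :
    Nat.card {I : (Ideal (𝓞 K))⁰ // nrm K I = n} = coeff K n := by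
  unfold coeff
  refine Nat.card_congr ?_
  refine
    { toFun := fun I => ⟨(I.1 : Ideal (𝓞 K)), I.2⟩
      invFun := fun I => ⟨⟨I.1, mem_nonZeroDivisors_of_ne_zero ?_⟩, I.2⟩
      left_inv := fun I => rfl
      right_inv := fun I => rfl }
  intro h0
  have := I.2
  rw [h0] at this
  simp at this
  exact hn this.symm

instance finite_fiber (n : ℕ) : Finite {I : (Ideal (𝓞 K))⁰ // nrm K I = n} := by
  have hfin := Ideal.finite_setOfPred_absNorm_eq (S := 𝓞 K) n
  have : Finite {I : Ideal (𝓞 K) // Ideal.absNorm I = n} := hfin.to_subtype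
  exact Finite.of_injective
    (fun I : {I : (Ideal (𝓞 K))⁰ // nrm K I = n} =>
      (⟨(I.1 : Ideal (𝓞 K)), I.2⟩ : {I : Ideal (𝓞 K) // Ideal.absNorm I = n}))
    (fun I J h => Subtype.ext (Subtype.ext (congrArg (fun x => (x.1 : Ideal (𝓞 K))) h)))

theorem fiber_zero_isEmpty : IsEmpty {I : (Ideal (𝓞 K))⁰ // nrm K I = 0} :=
  ⟨fun I => nrm_ne_zero I.1 I.2⟩

/-- partial sums of the coefficients are `O(n)`. -/
theorem coeff_sum_isBigO :
    (fun n : ℕ => ∑ k ∈ Finset.Icc 1 n, (coeff K k : ℝ)) =O[atTop] fun n : ℕ => (n : ℝ) ^ (1 : ℝ) := by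
  have hlim : Tendsto (fun n : ℕ => (∑ k ∈ Finset.Icc 1 n, (coeff K k : ℝ)) / n) atTop
      (𝓝 (dedekindZeta_residue K)) := by
    refine ((Ideal.tendsto_norm_le_div_atTop₀ K).comp tendsto_natCast_atTop_atTop).congr fun n ↦ ?_
    simp only [Function.comp_apply, Nat.cast_le, ← Nat.cast_sum]
    congr
    unfold coeff
    rw [← add_left_inj 1, ← Ideal.card_norm_le_eq_card_norm_le_add_one,
      show Finset.Icc 1 n = Finset.Ioc 0 n from Finset.Icc_succ_left_eq_Ioc _ _,
      show 1 = Nat.card {I : Ideal (𝓞 K) // Ideal.absNorm I = 0} by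
        simp [Ideal.absNorm_eq_zero_iff],
      Finset.sum_Ioc_add_eq_sum_Icc (n.zero_le),
      ← Finset.card_preimage_eq_sum_card_image_eq
        (fun k _ ↦ Ideal.finite_setOfPred_absNorm_eq k)]
    simp [Set.coe_eq_subtype]
  have h1 := hlim.isBigO_one ℝ
  have h2 : (fun n : ℕ => (n : ℝ)) =O[atTop] fun n : ℕ => (n : ℝ) := Asymptotics.isBigO_refl _ _
  have h3 := h1.mul h2
  simp only [one_mul, Real.rpow_one] at h3 ⊢
  refine Asymptotics.IsBigO.congr' h3 ?_ (Eventually.of_forall fun _ => rfl)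
  filter_upwards [eventually_gt_atTop 0] with n hn
  have : (n : ℝ) ≠ 0 := Nat.cast_ne_zero.mpr hn.ne'
  field_simp

theorem lseriesSummable_coeff {s : ℝ} (hs : 1 < s) :
    LSeriesSummable (fun n => (coeff K n : ℂ)) (s : ℂ) := by
  have := LSeriesSummable_of_sum_norm_bigO_and_nonneg (f := fun n => (coeff K n : ℝ))
    (r := 1) (s := (s : ℂ)) (coeff_sum_isBigO K) (fun n => Nat.cast_nonneg _) zero_le_one
    (by simpa using hs)
  simpa using this

/-- real form of the terms of the L-series -/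
theorem summable_coeff_mul_rpow {s : ℝ} (hs : 1 < s) :
    Summable fun n : ℕ => (coeff K n : ℝ) * (n : ℝ) ^ (-s) := by
  have h := (lseriesSummable_coeff K hs).norm
  refine h.congr fun n => ?_
  rcases eq_or_ne n 0 with rfl | hn
  · rw [LSeries.term_zero, norm_zero, Nat.cast_zero,
      Real.zero_rpow (neg_ne_zero.mpr (by linarith : s ≠ 0)), mul_zero]
  · rw [LSeries.term_of_ne_zero hn, norm_div, Complex.norm_natCast,
      Complex.norm_natCast_cpow_of_pos (Nat.pos_of_ne_zero hn), Complex.ofReal_re,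
      Real.rpow_neg (Nat.cast_nonneg _), div_eq_mul_inv]

theorem tsum_fiber {s : ℝ} (hs : s ≠ 0) (n : ℕ) :
    ∑' I : {I : (Ideal (𝓞 K))⁰ // nrm K I = n}, normPow K s I.1 = (coeff K n : ℝ) * (n : ℝ) ^ (-s) := by
  rcases eq_or_ne n 0 with rfl | hn
  · have := fiber_zero_isEmpty K
    rw [tsum_empty, Nat.cast_zero, Real.zero_rpow (neg_ne_zero.mpr hs), mul_zero]
  · have : ∀ I : {I : (Ideal (𝓞 K))⁰ // nrm K I = n}, normPow K s I.1 = (n : ℝ) ^ (-s) := by
      intro I
      rw [normPow_apply, I.2]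
    simp_rw [this]
    rw [tsum_const, card_fiber K hn, nsmul_eq_mul]

theorem summable_normPow {s : ℝ} (hs : 1 < s) : Summable fun I => normPow K s I := by
  rw [← (Equiv.sigmaFiberEquiv (fun I : (Ideal (𝓞 K))⁰ => nrm K I)).summable_iff]
  have hnn : ∀ x : (Σ n : ℕ, {I : (Ideal (𝓞 K))⁰ // nrm K I = n}),
      0 ≤ ((fun I => normPow K s I) ∘ (Equiv.sigmaFiberEquiv (fun I : (Ideal (𝓞 K))⁰ => nrm K I))) x :=
    fun x => (normPow_pos K s _).le
  rw [summable_sigma_of_nonneg hnn]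
  constructor
  · intro n
    exact Summable.of_finite
  · refine (summable_coeff_mul_rpow K hs).congr fun n => ?_
    exact (tsum_fiber K (by linarith : s ≠ 0) n).symm

/-- the real zeta function as a sum over nonzero ideals -/
noncomputable def zetaR (s : ℝ) : ℝ := ∑' I, normPow K s I

theorem zetaR_eq_tsum_coeff {s : ℝ} (hs : 1 < s) :
    zetaR K s = ∑' n : ℕ, (coeff K n : ℝ) * (n : ℝ) ^ (-s) := by
  unfold zetaR
  rw [← (Equiv.sigmaFiberEquiv (fun I : (Ideal (𝓞 K))⁰ => nrm K I)).tsum_eq]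
  have hsum : Summable (fun c : (Σ n : ℕ, {I : (Ideal (𝓞 K))⁰ // nrm K I = n}) =>
      normPow K s ((Equiv.sigmaFiberEquiv (fun I : (Ideal (𝓞 K))⁰ => nrm K I)) c)) :=
    (Equiv.sigmaFiberEquiv (fun I : (Ideal (𝓞 K))⁰ => nrm K I)).summable_iff.mpr
      (summable_normPow K hs)
  rw [Summable.tsum_sigma' (fun n => Summable.of_finite) hsum]
  exact tsum_congr fun n => tsum_fiber K (by linarith : s ≠ 0) n

theorem ofReal_zetaR {s : ℝ} (hs : 1 < s) : ((zetaR K s : ℝ) : ℂ) = dedekindZeta K (s : ℂ) := by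
  rw [zetaR_eq_tsum_coeff K hs, dedekindZeta_eq, LSeries, Complex.ofReal_tsum]
  refine tsum_congr fun n => ?_
  rcases eq_or_ne n 0 with rfl | hn
  · rw [LSeries.term_zero, Nat.cast_zero, Real.zero_rpow (neg_ne_zero.mpr (by linarith : s ≠ 0)),
      mul_zero, Complex.ofReal_zero]
  · rw [LSeries.term_of_ne_zero hn, Complex.ofReal_mul, Complex.ofReal_natCast,
      Complex.ofReal_cpow (Nat.cast_nonneg _), Complex.ofReal_neg, Complex.cpow_neg,
      Complex.ofReal_natCast, div_eq_mul_inv]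

/-- **Residue of the real zeta function** (from Mathlib's class number formula). -/
theorem tendsto_sub_one_mul_zetaR :
    Tendsto (fun s : ℝ => (s - 1) * zetaR K s) (𝓝[>] 1) (𝓝 (dedekindZeta_residue K)) := by
  have h := tendsto_sub_one_mul_dedekindZeta_nhdsGT K
  have h2 : Tendsto (fun s : ℝ => (((s - 1) * zetaR K s : ℝ) : ℂ)) (𝓝[>] 1)
      (𝓝 ((dedekindZeta_residue K : ℝ) : ℂ)) := by
    refine h.congr' ?_
    filter_upwards [self_mem_nhdsWithin] with s hs
    rw [Complex.ofReal_mul, ofReal_zetaR K hs, Complex.ofReal_sub, Complex.ofReal_one]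
  exact (Complex.continuous_re.tendsto _).comp h2 |>.congr fun s => by simp

theorem zetaR_pos {s : ℝ} (hs : 1 < s) : 0 < zetaR K s :=
  (summable_normPow K hs).tsum_pos (fun I => (normPow_pos K s I).le) 1 (normPow_pos K s 1)

end Fermat.Agent.S14.ZetaIdeal
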